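import Mathlib

/-!
# Hyperbolic three space and hermitian forms

`H3` is `ℂ × (0, ∞)`; `GL(2, ℂ)` acts through positive hermitian matrices of determinant one.
A vector `V : Fin 4 → ℝ` stands for the hermitian matrix `!![V 0, b; conj b, V 1]` with
`b = V 2 + V 3 * ω`.
-/

set_option autoImplicit false

noncomputable section

open Matrix ComplexConjugate

namespace FermatAgent.LT.Lift

/-- Hyperbolic three space. -/
structure H3 where
  /-- horizontal coordinate -/
  z : ℂ
  /-- height -/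
  t : ℝ
  t_pos : 0 < t

/-- The base point. -/
def H3.origin : H3 := ⟨0, 1, one_pos⟩

@[ext] theorem H3.ext {p q : H3} (hz : p.z = q.z) (ht : p.t = q.t) : p = q := by
  cases p; cases q; simp_all

/-- The point as a positive hermitian matrix of determinant one. -/
def H3.herm (p : H3) : Matrix (Fin 2) (Fin 2) ℂ :=
  !![((p.t ^ 2 + Complex.normSq p.z) / p.t : ℝ), p.z / p.t; conj p.z / p.t, (1 / p.t : ℝ)]

theorem H3.det_herm (p : H3) : p.herm.det = 1 := by
  have ht : (p.t : ℂ) ≠ 0 := by exact_mod_cast p.t_pos.ne'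
  simp only [H3.herm, det_fin_two_of, Complex.ofReal_div, Complex.ofReal_add, Complex.ofReal_pow,
    Complex.ofReal_one, Complex.normSq_eq_conj_mul_self]
  field_simp
  ring

theorem H3.isHermitian_herm (p : H3) : p.herm.IsHermitian := by
  ext i j
  fin_cases i <;> fin_cases j <;> simp [H3.herm]

/-- Recover a point from a hermitian matrix. -/
def ofHerm (M : Matrix (Fin 2) (Fin 2) ℂ) (h : 0 < (M 1 1).re) : H3 :=
  ⟨M 0 1 / (M 1 1).re, 1 / (M 1 1).re, one_div_pos.2 h⟩

theorem herm_ofHerm {M : Matrix (Fin 2) (Fin 2) ℂ} (hM : M.IsHermitian) (hd : M.det = 1)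
    (h : 0 < (M 1 1).re) : (ofHerm M h).herm = M := by
  have h11 : ((M 1 1).re : ℂ) = M 1 1 := hM.coe_re_apply_self 1
  have h00 : ((M 0 0).re : ℂ) = M 0 0 := hM.coe_re_apply_self 0
  have h10 : conj (M 0 1) = M 1 0 := hM.apply 1 0
  have hne : ((M 1 1).re : ℂ) ≠ 0 := by exact_mod_cast h.ne'
  rw [det_fin_two] at hd
  ext i j
  fin_cases i <;> fin_cases j <;>
    simp [H3.herm, ofHerm, Complex.normSq_eq_conj_mul_self, map_div₀]
  · field_simp
    rw [h11, h10]
    linear_combination -hd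
  · field_simp
  · rw [h10]; field_simp
  · exact h11

theorem herm_injective {p q : H3} (h : p.herm = q.herm) : p = q := by
  have h11 := congrFun (congrFun h 1) 1
  have h01 := congrFun (congrFun h 0) 1
  simp [H3.herm] at h11 h01
  have ht : p.t = q.t := by exact_mod_cast h11
  refine H3.ext ?_ ht
  rw [ht] at h01
  have := (Complex.ofReal_ne_zero.2 q.t_pos.ne' : (q.t : ℂ) ≠ 0)
  field_simp at h01
  exact h01

/-- The normalised action on hermitian matrices. -/
def conjAct (g : GL (Fin 2) ℂ) (M : Matrix (Fin 2) (Fin 2) ℂ) : Matrix (Fin 2) (Fin 2) ℂ :=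
  ((‖g.val.det‖⁻¹ : ℝ) : ℂ) • (g.val * M * g.valᴴ)

theorem conjAct_one (M : Matrix (Fin 2) (Fin 2) ℂ) : conjAct 1 M = M := by simp [conjAct]

theorem conjAct_mul (g h : GL (Fin 2) ℂ) (M : Matrix (Fin 2) (Fin 2) ℂ) :
    conjAct (g * h) M = conjAct g (conjAct h M) := by
  simp only [conjAct, Units.val_mul, det_mul, norm_mul, mul_inv, conjTranspose_mul,
    Complex.ofReal_mul, Matrix.mul_smul, Matrix.smul_mul, smul_smul, Matrix.mul_assoc]

theorem det_ne_zero' (g : GL (Fin 2) ℂ) : g.val.det ≠ 0 :=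
  (Matrix.isUnit_iff_isUnit_det _).1 g.isUnit |>.ne_zero

theorem isHermitian_conjAct (g : GL (Fin 2) ℂ) {M : Matrix (Fin 2) (Fin 2) ℂ}
    (hM : M.IsHermitian) : (conjAct g M).IsHermitian := by
  unfold Matrix.IsHermitian conjAct
  rw [conjTranspose_smul, conjTranspose_mul, conjTranspose_mul, conjTranspose_conjTranspose, hM.eq,
    Matrix.mul_assoc]
  simp

theorem det_conjAct (g : GL (Fin 2) ℂ) (M : Matrix (Fin 2) (Fin 2) ℂ) :
    (conjAct g M).det = M.det := by
  have h := det_ne_zero' g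
  have h2 : g.val.det * conj g.val.det = ((‖g.val.det‖ ^ 2 : ℝ) : ℂ) := by
    rw [Complex.mul_conj, ← Complex.sq_norm]
  rw [conjAct, det_smul, det_mul, det_mul, det_conjTranspose, Fintype.card_fin,
    Complex.star_def, show g.val.det * M.det * conj g.val.det =
      (g.val.det * conj g.val.det) * M.det by ring, h2, ← mul_assoc]
  have hn : ‖g.val.det‖ ≠ 0 := norm_ne_zero_iff.2 h
  rw [show ((‖g.val.det‖⁻¹ : ℝ) : ℂ) ^ 2 * ((‖g.val.det‖ ^ 2 : ℝ) : ℂ) = 1 by
    have hn' : (‖g.val.det‖ : ℂ) ≠ 0 := by exact_mod_cast hn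
    push_cast
    rw [inv_pow, inv_mul_cancel₀ (pow_ne_zero 2 hn')], one_mul]

/-- The height denominator of `g` at `p`. -/
def den (g : GL (Fin 2) ℂ) (p : H3) : ℝ :=
  Complex.normSq (g.val 1 0 * p.z + g.val 1 1) + Complex.normSq (g.val 1 0) * p.t ^ 2

theorem den_pos (g : GL (Fin 2) ℂ) (p : H3) : 0 < den g p := by
  unfold den
  by_cases hc : g.val 1 0 = 0
  · have hd : g.val 1 1 ≠ 0 := by
      intro hd
      apply det_ne_zero' g
      simp [det_fin_two, hc, hd]
    have : 0 < Complex.normSq (g.val 1 1) := Complex.normSq_pos.2 hd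
    simp only [hc, zero_mul, zero_add, map_zero, add_zero]
    exact this
  · exact add_pos_of_nonneg_of_pos (Complex.normSq_nonneg _)
      (mul_pos (Complex.normSq_pos.2 hc) (pow_pos p.t_pos 2))

theorem conjAct_one_one (g : GL (Fin 2) ℂ) (p : H3) :
    conjAct g p.herm 1 1 = ((den g p / (‖g.val.det‖ * p.t) : ℝ) : ℂ) := by
  have ht : (p.t : ℂ) ≠ 0 := by exact_mod_cast p.t_pos.ne'
  have hn : (‖g.val.det‖ : ℂ) ≠ 0 := by exact_mod_cast norm_ne_zero_iff.2 (det_ne_zero' g)
  simp only [conjAct, Matrix.smul_apply, Matrix.mul_apply, Fin.sum_univ_two, conjTranspose_apply,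
    H3.herm, den, Matrix.of_apply, cons_val', cons_val_zero, cons_val_one, empty_val',
    cons_val_fin_one, smul_eq_mul, Complex.star_def]
  push_cast
  simp only [Complex.normSq_eq_conj_mul_self, map_add, map_mul]
  field_simp
  ring

theorem conjAct_one_one_pos (g : GL (Fin 2) ℂ) (p : H3) : 0 < (conjAct g p.herm 1 1).re := by
  rw [conjAct_one_one, Complex.ofReal_re]
  exact div_pos (den_pos g p) (mul_pos (norm_pos_iff.2 (det_ne_zero' g)) p.t_pos)

instance : SMul (GL (Fin 2) ℂ) H3 where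
  smul g p := ofHerm (conjAct g p.herm) (conjAct_one_one_pos g p)

theorem herm_smul (g : GL (Fin 2) ℂ) (p : H3) : (g • p).herm = conjAct g p.herm :=
  herm_ofHerm (isHermitian_conjAct g p.isHermitian_herm) (by rw [det_conjAct, p.det_herm]) _

instance : MulAction (GL (Fin 2) ℂ) H3 where
  one_smul p := herm_injective (by rw [herm_smul, conjAct_one])
  mul_smul g h p := herm_injective (by simp only [herm_smul, conjAct_mul])

theorem t_smul (g : GL (Fin 2) ℂ) (p : H3) : (g • p).t = ‖g.val.det‖ * p.t / den g p := by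
  show 1 / (conjAct g p.herm 1 1).re = _
  rw [conjAct_one_one, Complex.ofReal_re, one_div_div]

theorem z_smul (g : GL (Fin 2) ℂ) (p : H3) :
    (g • p).z = ((g.val 0 0 * p.z + g.val 0 1) * conj (g.val 1 0 * p.z + g.val 1 1) +
      g.val 0 0 * conj (g.val 1 0) * (p.t : ℂ) ^ 2) / (den g p : ℂ) := by
  have ht : (p.t : ℂ) ≠ 0 := by exact_mod_cast p.t_pos.ne'
  have hn : (‖g.val.det‖ : ℂ) ≠ 0 := by exact_mod_cast norm_ne_zero_iff.2 (det_ne_zero' g)
  show conjAct g p.herm 0 1 / ((conjAct g p.herm 1 1).re : ℂ) = _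
  rw [conjAct_one_one, Complex.ofReal_re]
  simp only [conjAct, Matrix.smul_apply, Matrix.mul_apply, Fin.sum_univ_two, conjTranspose_apply,
    H3.herm, Matrix.of_apply, cons_val', cons_val_zero, cons_val_one, empty_val',
    cons_val_fin_one, smul_eq_mul, Complex.star_def]
  have hd : (den g p : ℂ) ≠ 0 := by exact_mod_cast (den_pos g p).ne'
  push_cast
  simp only [Complex.normSq_eq_conj_mul_self, map_add, map_mul]
  field_simp
  ring

/-- The cosine of the hyperbolic distance. -/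
def coshDist (p q : H3) : ℝ := (p.herm * q.herm.adjugate).trace.re / 2

theorem coshDist_eq (p q : H3) :
    coshDist p q = 1 + (Complex.normSq (p.z - q.z) + (p.t - q.t) ^ 2) / (2 * p.t * q.t) := by
  have hp := p.t_pos.ne'
  have hq := q.t_pos.ne'
  simp [coshDist, H3.herm, Matrix.trace_fin_two,
    adjugate_fin_two, Complex.normSq_apply, Complex.div_re, Complex.div_im, -Complex.ofReal_pow]
  field_simp
  ring

/-- The hermitian matrix of a vector. -/
def hermV (V : Fin 4 → ℝ) : Matrix (Fin 2) (Fin 2) ℂ :=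
  !![(V 0 : ℂ), (V 2 : ℂ) + (V 3 : ℂ) * (⟨-(1 / 2), √3 / 2⟩ : ℂ);
    (V 2 : ℂ) + (V 3 : ℂ) * conj (⟨-(1 / 2), √3 / 2⟩ : ℂ), (V 1 : ℂ)]

/-- The vector of a hermitian matrix. -/
def unherm (M : Matrix (Fin 2) (Fin 2) ℂ) : Fin 4 → ℝ :=
  ![(M 0 0).re, (M 1 1).re, (M 0 1).re + (M 0 1).im / √3, 2 * (M 0 1).im / √3]

theorem isHermitian_hermV (V : Fin 4 → ℝ) : (hermV V).IsHermitian := by
  ext i j
  fin_cases i <;> fin_cases j <;> simp [hermV]

theorem unherm_hermV (V : Fin 4 → ℝ) : unherm (hermV V) = V := by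
  have h3 : (√3 : ℝ) ≠ 0 := by positivity
  ext i
  fin_cases i <;> simp [unherm, hermV]
  · field_simp; ring
  · field_simp

theorem hermV_unherm {M : Matrix (Fin 2) (Fin 2) ℂ} (hM : M.IsHermitian) :
    hermV (unherm M) = M := by
  have h3 : (√3 : ℝ) ≠ 0 := by positivity
  have key : (hermV (unherm M)) 0 1 = M 0 1 := by
    apply Complex.ext <;> simp [hermV, unherm] <;> field_simp
    ring
  ext i j
  fin_cases i <;> fin_cases j
  · simpa [hermV, unherm] using hM.coe_re_apply_self 0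
  · exact key
  · have h1 : hermV (unherm M) 1 0 = conj (hermV (unherm M) 0 1) :=
      ((isHermitian_hermV _).apply 1 0).symm
    show hermV (unherm M) 1 0 = M 1 0
    rw [h1, key]
    exact hM.apply 1 0
  · simpa [hermV, unherm] using hM.coe_re_apply_self 1

theorem hermV_add (V W : Fin 4 → ℝ) : hermV (V + W) = hermV V + hermV W := by
  ext i j
  fin_cases i <;> fin_cases j <;> simp [hermV] <;> ring

theorem hermV_smul (r : ℝ) (V : Fin 4 → ℝ) : hermV (r • V) = (r : ℂ) • hermV V := by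
  ext i j
  fin_cases i <;> fin_cases j <;> simp [hermV] <;> ring

/-- The action on vectors. -/
def actV (g : GL (Fin 2) ℂ) (V : Fin 4 → ℝ) : Fin 4 → ℝ := unherm (conjAct g (hermV V))

theorem hermV_actV (g : GL (Fin 2) ℂ) (V : Fin 4 → ℝ) :
    hermV (actV g V) = conjAct g (hermV V) :=
  hermV_unherm (isHermitian_conjAct g (isHermitian_hermV V))

theorem actV_one (V : Fin 4 → ℝ) : actV 1 V = V := by rw [actV, conjAct_one, unherm_hermV]

theorem actV_mul (g h : GL (Fin 2) ℂ) (V : Fin 4 → ℝ) :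
    actV (g * h) V = actV g (actV h V) := by
  rw [actV, conjAct_mul, ← hermV_actV]; rfl

theorem actV_smul (g : GL (Fin 2) ℂ) (r : ℝ) (V : Fin 4 → ℝ) :
    actV g (r • V) = r • actV g V := by
  rw [← unherm_hermV (r • actV g V), hermV_smul, hermV_actV, actV, hermV_smul]
  simp only [conjAct, Matrix.mul_smul, Matrix.smul_mul]
  rw [smul_comm]

theorem actV_add (g : GL (Fin 2) ℂ) (V W : Fin 4 → ℝ) :
    actV g (V + W) = actV g V + actV g W := by
  rw [← unherm_hermV (actV g V + actV g W), hermV_add, hermV_actV, hermV_actV, actV, hermV_add]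
  simp [conjAct, Matrix.mul_add, Matrix.add_mul, smul_add]

/-- The quadratic form `|b|² - V₀ V₁`. -/
def quad (V : Fin 4 → ℝ) : ℝ := V 2 ^ 2 - V 2 * V 3 + V 3 ^ 2 - V 0 * V 1

theorem det_hermV (V : Fin 4 → ℝ) : (hermV V).det = (-quad V : ℝ) := by
  have h : (√3 : ℝ) * √3 = 3 := Real.mul_self_sqrt (by norm_num)
  apply Complex.ext <;> simp [hermV, det_fin_two, quad, sq]
  · linear_combination ((V 3) ^ 2 / 4) * h
  · ring

theorem quad_actV (g : GL (Fin 2) ℂ) (V : Fin 4 → ℝ) : quad (actV g V) = quad V := by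
  have h := det_hermV (actV g V)
  rw [hermV_actV, det_conjAct, det_hermV, Complex.ofReal_inj, neg_inj] at h
  exact h.symm

/-- The majorant of `quad` at a point. -/
def maj (V : Fin 4 → ℝ) (p : H3) : ℝ :=
  ((hermV V * p.herm.adjugate) * (hermV V * p.herm.adjugate)).trace.re / 2

theorem maj_smul (g : GL (Fin 2) ℂ) (V : Fin 4 → ℝ) (p : H3) :
    maj (actV g V) (g • p) = maj V p := by
  have h := det_ne_zero' g
  set c : ℂ := ((‖g.val.det‖⁻¹ : ℝ) : ℂ)
  have e1 : hermV (actV g V) * (g • p).herm.adjugate =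
      (c ^ 2 * conj g.val.det) • (g.val * (hermV V * p.herm.adjugate) * g.val.adjugate) := by
    rw [hermV_actV, herm_smul]
    simp only [conjAct, adjugate_smul, adjugate_mul_distrib, Fintype.card_fin]
    rw [Matrix.smul_mul, Matrix.mul_smul, smul_smul]
    simp only [Matrix.mul_assoc]
    rw [← Matrix.mul_assoc (g.valᴴ) (g.valᴴ.adjugate), mul_adjugate, det_conjTranspose]
    simp only [Matrix.smul_mul, Matrix.one_mul, Matrix.mul_smul, smul_smul, Complex.star_def]
    congr 1
    ring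
  set M := hermV V * p.herm.adjugate with hM
  have e2 : (g.val * M * g.val.adjugate) * (g.val * M * g.val.adjugate) =
      g.val.det • (g.val * (M * M) * g.val.adjugate) := by
    simp only [Matrix.mul_assoc]
    rw [← Matrix.mul_assoc g.val.adjugate g.val, adjugate_mul, Matrix.smul_mul, Matrix.one_mul,
      Matrix.mul_smul, Matrix.mul_smul]
  have e3 : (g.val * (M * M) * g.val.adjugate).trace = g.val.det * (M * M).trace := by
    rw [trace_mul_comm, ← Matrix.mul_assoc, adjugate_mul, Matrix.smul_mul, Matrix.one_mul,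
      trace_smul, smul_eq_mul]
  simp only [maj, e1, ← hM, Matrix.smul_mul, Matrix.mul_smul, smul_smul, e2, trace_smul, e3,
    smul_eq_mul]
  have h2 : g.val.det * conj g.val.det = ((‖g.val.det‖ ^ 2 : ℝ) : ℂ) := by
    rw [Complex.mul_conj, ← Complex.sq_norm]
  have hn : ‖g.val.det‖ ≠ 0 := norm_ne_zero_iff.2 h
  congr 2
  rw [← mul_assoc, show (c ^ 2 * conj g.val.det) * (c ^ 2 * conj g.val.det * g.val.det) *
    g.val.det = c ^ 4 * (g.val.det * conj g.val.det) ^ 2 by ring, h2]
  rw [show c ^ 4 * ((‖g.val.det‖ ^ 2 : ℝ) : ℂ) ^ 2 = 1 by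
    have hn' : (‖g.val.det‖ : ℂ) ≠ 0 := by exact_mod_cast hn
    simp only [c]; push_cast; field_simp, one_mul]

theorem coshDist_smul (g : GL (Fin 2) ℂ) (p q : H3) :
    coshDist (g • p) (g • q) = coshDist p q := by
  have h := det_ne_zero' g
  have hn : ‖g.val.det‖ ≠ 0 := norm_ne_zero_iff.2 h
  have h2 : g.val.det * conj g.val.det = ((‖g.val.det‖ ^ 2 : ℝ) : ℂ) := by
    rw [Complex.mul_conj, ← Complex.sq_norm]
  set c : ℂ := ((‖g.val.det‖⁻¹ : ℝ) : ℂ)
  have e : (g • p).herm * (g • q).herm.adjugate =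
      (c ^ 2 * conj g.val.det) • (g.val * (p.herm * q.herm.adjugate) * g.val.adjugate) := by
    rw [herm_smul, herm_smul]
    simp only [conjAct, adjugate_smul, adjugate_mul_distrib, Fintype.card_fin]
    rw [Matrix.smul_mul, Matrix.mul_smul, smul_smul]
    simp only [Matrix.mul_assoc]
    rw [← Matrix.mul_assoc (g.valᴴ) (g.valᴴ.adjugate), mul_adjugate, det_conjTranspose]
    simp only [Matrix.smul_mul, Matrix.one_mul, Matrix.mul_smul, smul_smul, Complex.star_def]
    congr 1
    ring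
  simp only [coshDist, e, trace_smul, smul_eq_mul]
  rw [trace_mul_comm, ← Matrix.mul_assoc, adjugate_mul, Matrix.smul_mul, Matrix.one_mul,
    trace_smul, smul_eq_mul, ← mul_assoc, show c ^ 2 * conj g.val.det * g.val.det =
      c ^ 2 * (g.val.det * conj g.val.det) by ring, h2,
    show c ^ 2 * ((‖g.val.det‖ ^ 2 : ℝ) : ℂ) = 1 by
      have hn' : (‖g.val.det‖ : ℂ) ≠ 0 := by exact_mod_cast hn
      simp only [c]; push_cast
      rw [inv_pow, inv_mul_cancel₀ (pow_ne_zero 2 hn')], one_mul]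

/-- The majorant at the base point. -/
theorem maj_origin (V : Fin 4 → ℝ) :
    maj V H3.origin = (V 0 ^ 2 + V 1 ^ 2) / 2 + (V 2 ^ 2 - V 2 * V 3 + V 3 ^ 2) := by
  have h : (√3 : ℝ) * √3 = 3 := Real.mul_self_sqrt (by norm_num)
  simp [maj, hermV, H3.herm, H3.origin, Matrix.trace_fin_two, adjugate_fin_two]
  linear_combination ((V 3) ^ 2 / 4) * h

/-- The horospherical section: `trans p • H3.origin = p`. -/
def trans (p : H3) : GL (Fin 2) ℂ :=
  Matrix.GeneralLinearGroup.mkOfDetNeZero !![(p.t : ℂ), p.z; 0, 1]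
    (by rw [det_fin_two_of]; simp [p.t_pos.ne'])

theorem trans_smul (p : H3) : trans p • H3.origin = p := by
  have hv : (trans p).val = !![(p.t : ℂ), p.z; 0, 1] := rfl
  have hd : den (trans p) H3.origin = 1 := by simp [den, hv, H3.origin]
  refine H3.ext ?_ ?_
  · rw [z_smul, hd]; simp [hv, H3.origin]
  · rw [t_smul, hd, hv, det_fin_two_of]
    simp [H3.origin, abs_of_pos p.t_pos]

/-- The majorant in coordinates. -/
theorem maj_eq (V : Fin 4 → ℝ) (p : H3) :
    maj V p = (((V 0 - 2 * (p.z.re * (V 2 - V 3 / 2) + p.z.im * (V 3 * (√3 / 2))) +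
        Complex.normSq p.z * V 1) / p.t) ^ 2 + (p.t * V 1) ^ 2) / 2 +
      ((V 2 - V 3 / 2 - p.z.re * V 1) ^ 2 + (V 3 * (√3 / 2) - p.z.im * V 1) ^ 2) := by
  have ht := p.t_pos.ne'
  simp [maj, hermV, H3.herm, Matrix.trace_fin_two,
    adjugate_fin_two, Complex.normSq_apply, Complex.div_re, Complex.div_im, -Complex.ofReal_pow]
  field_simp
  ring

theorem maj_nonneg (V : Fin 4 → ℝ) (p : H3) : 0 ≤ maj V p := by
  rw [maj_eq]; positivity

theorem abs_quad_le_maj (V : Fin 4 → ℝ) (p : H3) : |quad V| ≤ maj V p := by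
  rw [← trans_smul p, ← maj_smul (trans p)⁻¹, inv_smul_smul, ← quad_actV (trans p)⁻¹, maj_origin]
  set W := actV (trans p)⁻¹ V
  rw [quad, abs_le]
  constructor <;>
    nlinarith [sq_nonneg (W 0 - W 1), sq_nonneg (W 0 + W 1), sq_nonneg (W 2 - W 3 / 2),
      sq_nonneg (W 3)]

end FermatAgent.LT.Lift
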