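import Mathlib
import Fermat.Agent.LT.Lift.H3

/-!
# The invariant measure on hyperbolic three space
-/

set_option autoImplicit false

noncomputable section

open MeasureTheory ComplexConjugate
open scoped ENNReal NNReal

namespace FermatAgent.LT.Lift

/-- Coordinates. -/
def H3.coord (p : H3) : ℂ × ℝ := (p.z, p.t)

instance : TopologicalSpace H3 := .induced H3.coord inferInstance

instance : MeasurableSpace H3 := .comap H3.coord inferInstance

theorem coord_injective : Function.Injective H3.coord := fun _ _ h ↦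
  H3.ext (congrArg Prod.fst h) (congrArg Prod.snd h)

theorem range_coord : Set.range H3.coord = {x | 0 < x.2} := by
  ext x
  exact ⟨fun ⟨p, hp⟩ ↦ hp ▸ p.t_pos, fun h ↦ ⟨⟨x.1, x.2, h⟩, rfl⟩⟩

theorem isOpenEmbedding_coord : Topology.IsOpenEmbedding H3.coord :=
  ⟨⟨⟨rfl⟩, coord_injective⟩, by
    rw [range_coord]; exact isOpen_lt continuous_const continuous_snd⟩

instance : BorelSpace H3 := ⟨by
  show MeasurableSpace.comap H3.coord _ = _
  rw [BorelSpace.measurable_eq (α := ℂ × ℝ)]
  exact borel_comap.symm⟩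

instance : SecondCountableTopology H3 :=
  TopologicalSpace.secondCountableTopology_induced H3 (ℂ × ℝ) H3.coord

instance : LocallyCompactSpace H3 := isOpenEmbedding_coord.locallyCompactSpace

instance : ((volume : Measure (ℂ × ℝ))).IsAddHaarMeasure :=
  inferInstanceAs ((volume : Measure ℂ).prod (volume : Measure ℝ)).IsAddHaarMeasure

theorem measurableEmbedding_coord : MeasurableEmbedding H3.coord :=
  isOpenEmbedding_coord.measurableEmbedding

theorem continuous_z : Continuous H3.z := continuous_fst.comp isOpenEmbedding_coord.continuous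

theorem continuous_t : Continuous H3.t := continuous_snd.comp isOpenEmbedding_coord.continuous

theorem continuous_mk' {α : Type*} [TopologicalSpace α] {f : α → H3}
    (h1 : Continuous fun a ↦ (f a).z) (h2 : Continuous fun a ↦ (f a).t) : Continuous f :=
  (Topology.IsInducing.continuous_iff ⟨rfl⟩).2 (h1.prodMk h2)

theorem continuous_smul_h3 (g : GL (Fin 2) ℂ) : Continuous fun p : H3 ↦ g • p := by
  have hd : Continuous (den g) := by
    unfold den
    have := continuous_z
    have := continuous_t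
    fun_prop
  refine continuous_mk' ?_ ?_
  · simp only [z_smul]
    have := continuous_z
    have := continuous_t
    exact Continuous.div (by fun_prop) (Complex.continuous_ofReal.comp hd)
      fun p ↦ Complex.ofReal_ne_zero.2 (den_pos g p).ne'
  · simp only [t_smul]
    exact (continuous_const.mul continuous_t).div hd fun p ↦ (den_pos g p).ne'

/-- The density `t⁻³`. -/
def dens (x : ℂ × ℝ) : ℝ≥0 := Real.toNNReal (1 / x.2 ^ 3)

theorem measurable_dens : Measurable dens :=
  (measurable_const.div (measurable_snd.pow_const 3)).real_toNNReal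

/-- The invariant measure `dA dt / t³`. -/
instance : MeasureSpace H3 :=
  ⟨((volume : Measure (ℂ × ℝ)).comap H3.coord).withDensity fun p ↦ (dens p.coord : ℝ≥0∞)⟩

theorem lintegral_eq (F : ℂ × ℝ → ℝ≥0∞) :
    ∫⁻ p : H3, F p.coord = ∫⁻ x in {x : ℂ × ℝ | 0 < x.2}, (dens x : ℝ≥0∞) * F x := by
  rw [← range_coord, ← measurableEmbedding_coord.map_comap,
    measurableEmbedding_coord.lintegral_map,
    show (volume : Measure H3) = ((volume : Measure (ℂ × ℝ)).comap H3.coord).withDensity
      (fun p ↦ (dens p.coord : ℝ≥0∞)) from rfl]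
  exact lintegral_withDensity_eq_lintegral_mul_non_measurable _
    (measurable_dens.comp measurableEmbedding_coord.measurable).coe_nnreal_ennreal
    (Filter.Eventually.of_forall fun p ↦ ENNReal.coe_lt_top) _

instance : SigmaFinite (volume : Measure H3) := by
  have : IsFiniteMeasureOnCompacts ((volume : Measure (ℂ × ℝ)).comap H3.coord) :=
    .comap' _ isOpenEmbedding_coord.continuous measurableEmbedding_coord
  exact SigmaFinite.withDensity _

theorem measure_eq {s : Set H3} (hs : MeasurableSet s) :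
    volume s = ∫⁻ x in H3.coord '' s, (dens x : ℝ≥0∞) := by
  rw [← lintegral_indicator_one hs]
  have e : ∀ p : H3, s.indicator (1 : H3 → ℝ≥0∞) p =
      (H3.coord '' s).indicator (1 : ℂ × ℝ → ℝ≥0∞) p.coord := by
    intro p
    by_cases hp : p ∈ s
    · rw [Set.indicator_of_mem hp, Set.indicator_of_mem (Set.mem_image_of_mem _ hp)]
      rfl
    · rw [Set.indicator_of_notMem hp, Set.indicator_of_notMem]
      exact fun h ↦ hp (coord_injective.mem_set_image.1 h)
  simp only [e]
  rw [lintegral_eq, ← lintegral_indicator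
    (measurableEmbedding_coord.measurableSet_image.2 hs)]
  rw [← lintegral_indicator (measurableSet_lt measurable_const measurable_snd)]
  refine lintegral_congr fun x ↦ ?_
  by_cases hx : x ∈ H3.coord '' s
  · have h0 : x ∈ {x : ℂ × ℝ | 0 < x.2} := range_coord ▸ Set.image_subset_range _ _ hx
    simp [Set.indicator_of_mem hx, Set.indicator_of_mem h0]
  · simp [Set.indicator_of_notMem hx, Set.indicator_apply]

/-- The elements preserving the measure. -/
def preserving : Subgroup (GL (Fin 2) ℂ) where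
  carrier := {g | MeasurePreserving (fun p : H3 ↦ g • p) volume volume}
  one_mem' := by simp only [Set.mem_ofPred_eq, one_smul]; exact MeasurePreserving.id _
  mul_mem' {a b} ha hb := by simpa [mul_smul, Function.comp_def] using ha.comp hb
  inv_mem' {a} ha := MeasurePreserving.symm ⟨MulAction.toPerm a, (continuous_smul_h3 a).measurable,
    (continuous_smul_h3 a⁻¹).measurable⟩ (μa := volume) (μb := volume) ha

/-- Criterion for preservation of the measure by a change of variables. -/
theorem mem_preserving_of (g : GL (Fin 2) ℂ) (f : ℂ × ℝ → ℂ × ℝ)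
    (D : ℂ × ℝ → ((ℂ × ℝ) →L[ℝ] (ℂ × ℝ))) (hf : ∀ p : H3, f p.coord = (g • p).coord)
    (hD : ∀ p : H3, HasFDerivAt f (D p.coord) p.coord)
    (hdet : ∀ p : H3, |(D p.coord).det| / (g • p).t ^ 3 = 1 / p.t ^ 3) :
    g ∈ preserving := by
  refine ⟨(continuous_smul_h3 g).measurable, Measure.ext fun s hs ↦ ?_⟩
  rw [Measure.map_apply (continuous_smul_h3 g).measurable hs]
  have hpre : MeasurableSet ((fun p : H3 ↦ g • p) ⁻¹' s) := (continuous_smul_h3 g).measurable hs
  rw [measure_eq hs, measure_eq hpre]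
  set u := H3.coord '' ((fun p : H3 ↦ g • p) ⁻¹' s) with hu
  have himg : H3.coord '' s = f '' u := by
    rw [hu, Set.image_image]
    simp only [hf]
    rw [← Set.image_image (g := H3.coord) (f := fun p : H3 ↦ g • p),
      Set.image_preimage_eq s (MulAction.surjective g)]
  have hinj : Set.InjOn f u := by
    rintro _ ⟨p, -, rfl⟩ _ ⟨q, -, rfl⟩ h
    rw [hf, hf] at h
    rw [MulAction.injective g (coord_injective h)]
  have main := lintegral_image_eq_lintegral_abs_det_fderiv_mul volume
    (measurableEmbedding_coord.measurableSet_image.2 hpre)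
    (fun x hx ↦ by obtain ⟨p, -, rfl⟩ := hx; exact (hD p).hasFDerivWithinAt) hinj
    (fun x ↦ (dens x : ℝ≥0∞))
  rw [himg, main]
  refine (setLIntegral_congr_fun (measurableEmbedding_coord.measurableSet_image.2 hpre) ?_).symm
  rintro _ ⟨p, -, rfl⟩
  simp only
  rw [hf, dens, dens, ← ENNReal.ofReal, ← ENNReal.ofReal, ← ENNReal.ofReal_mul (abs_nonneg _)]
  congr 1
  rw [mul_one_div]
  exact hdet p

/-- Upper triangular matrices. -/
def upperGL (a b d : ℂ) (ha : a ≠ 0) (hd : d ≠ 0) : GL (Fin 2) ℂ :=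
  Matrix.GeneralLinearGroup.mkOfDetNeZero !![a, b; 0, d]
    (by rw [Matrix.det_fin_two_of]; simp [ha, hd])

theorem upper_mem (a b d : ℂ) (ha : a ≠ 0) (hd : d ≠ 0) : upperGL a b d ha hd ∈ preserving := by
  set g := upperGL a b d ha hd
  have hv : g.val = !![a, b; 0, d] := rfl
  have hz : ∀ p : H3, (g • p).z = a / d * p.z + b / d := by
    intro p
    rw [z_smul]
    simp only [hv, den, Matrix.of_apply, Matrix.cons_val', Matrix.cons_val_zero,
      Matrix.cons_val_one, Matrix.cons_val_fin_one, zero_mul, zero_add, map_zero, add_zero,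
      mul_zero]
    rw [← Complex.mul_conj]
    have : conj d ≠ 0 := by simpa using hd
    field_simp
  have ht : ∀ p : H3, (g • p).t = ‖a / d‖ * p.t := by
    intro p
    rw [t_smul, hv, Matrix.det_fin_two_of]
    simp only [hv, den, Matrix.of_apply, Matrix.cons_val', Matrix.cons_val_zero,
      Matrix.cons_val_one, Matrix.cons_val_fin_one, zero_mul, zero_add, map_zero, add_zero,
      mul_zero, sub_zero, norm_mul, norm_div, ← Complex.sq_norm]
    have : ‖d‖ ≠ 0 := norm_ne_zero_iff.2 hd
    field_simp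
  set L : (ℂ × ℝ) →L[ℝ] (ℂ × ℝ) :=
    (ContinuousLinearMap.mul ℝ ℂ (a / d)).prodMap (‖a / d‖ • ContinuousLinearMap.id ℝ ℝ)
  refine mem_preserving_of g (fun x ↦ L x + (b / d, 0)) (fun _ ↦ L) (fun p ↦ ?_)
    (fun p ↦ L.hasFDerivAt.add_const _) (fun p ↦ ?_)
  · refine Prod.ext ?_ ?_
    · simpa [L, H3.coord] using (hz p).symm
    · simpa [L, H3.coord] using (ht p).symm
  · have hL : L.det = ‖a / d‖ ^ 2 * ‖a / d‖ := by
      have e : (L : (ℂ × ℝ) →ₗ[ℝ] (ℂ × ℝ)) =
          ((LinearMap.mulLeft ℂ (a / d)).restrictScalars ℝ).prodMap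
            (‖a / d‖ • LinearMap.id) := by
        apply LinearMap.ext; intro x; rfl
      rw [ContinuousLinearMap.det, e, LinearMap.det_prodMap, LinearMap.det_restrictScalars,
        LinearMap.det_mulLeft, LinearMap.det_smul, Module.finrank_self, pow_one, LinearMap.det_id,
        mul_one, Algebra.norm_complex_apply, Complex.normSq_eq_norm_sq]
    have hpos : 0 < ‖a / d‖ := norm_pos_iff.2 (div_ne_zero ha hd)
    rw [ht, hL, abs_of_pos (by positivity)]
    have := p.t_pos
    field_simp

/-- The inversion. -/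
def invGL : GL (Fin 2) ℂ :=
  Matrix.GeneralLinearGroup.mkOfDetNeZero !![0, -1; 1, 0] (by rw [Matrix.det_fin_two_of]; norm_num)

/-- `v ↦ (-conj v.1, v.2)`. -/
def flipL : (ℂ × ℝ) →L[ℝ] (ℂ × ℝ) :=
  (-(Complex.conjCLE : ℂ →L[ℝ] ℂ)).prodMap (ContinuousLinearMap.id ℝ ℝ)

theorem flipL_apply (v : ℂ × ℝ) : flipL v = (-conj v.1, v.2) := rfl

theorem abs_det_flipL : |flipL.det| = 1 := by
  have h : (flipL : (ℂ × ℝ) →ₗ[ℝ] (ℂ × ℝ)) * (flipL : (ℂ × ℝ) →ₗ[ℝ] (ℂ × ℝ)) = 1 := by
    apply LinearMap.ext; intro v; simp [flipL_apply]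
  have h2 := congrArg LinearMap.det h
  rw [map_mul, map_one] at h2
  exact abs_eq_abs.2 (mul_self_eq_one_iff.1 h2) |>.trans abs_one

/-- `|z|² + t²`. -/
def sumSq (x : ℂ × ℝ) : ℝ := x.1.re ^ 2 + x.1.im ^ 2 + x.2 ^ 2

/-- The derivative of `sumSq`, halved. -/
def dotL (p : ℂ × ℝ) : (ℂ × ℝ) →L[ℝ] ℝ :=
  p.1.re • (Complex.reCLM ∘L ContinuousLinearMap.fst ℝ ℂ ℝ) +
    p.1.im • (Complex.imCLM ∘L ContinuousLinearMap.fst ℝ ℂ ℝ) +
    p.2 • ContinuousLinearMap.snd ℝ ℂ ℝ

theorem dotL_self (p : ℂ × ℝ) : dotL p p = sumSq p := by simp [dotL, sumSq]; ring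

theorem hasFDerivAt_sumSq (p : ℂ × ℝ) : HasFDerivAt sumSq ((2 : ℝ) • dotL p) p := by
  have hr : HasFDerivAt (fun x : ℂ × ℝ ↦ x.1.re)
      (Complex.reCLM ∘L ContinuousLinearMap.fst ℝ ℂ ℝ) p :=
    (Complex.reCLM ∘L ContinuousLinearMap.fst ℝ ℂ ℝ).hasFDerivAt
  have hi : HasFDerivAt (fun x : ℂ × ℝ ↦ x.1.im)
      (Complex.imCLM ∘L ContinuousLinearMap.fst ℝ ℂ ℝ) p :=
    (Complex.imCLM ∘L ContinuousLinearMap.fst ℝ ℂ ℝ).hasFDerivAt
  have ht : HasFDerivAt (fun x : ℂ × ℝ ↦ x.2) (ContinuousLinearMap.snd ℝ ℂ ℝ) p :=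
    (ContinuousLinearMap.snd ℝ ℂ ℝ).hasFDerivAt
  refine (((hr.pow 2).add (hi.pow 2)).add (ht.pow 2)).congr_fderiv ?_
  apply ContinuousLinearMap.ext; intro v
  simp [dotL]; ring

theorem inv_mem_preserving : invGL ∈ preserving := by
  have hv : invGL.val = !![0, -1; 1, 0] := rfl
  have hden : ∀ p : H3, den invGL p = sumSq p.coord := by
    intro p
    simp [den, hv, sumSq, H3.coord, Complex.normSq_apply]
    ring
  have hpos : ∀ p : H3, 0 < sumSq p.coord := fun p ↦ hden p ▸ den_pos _ p
  have hnorm : ‖invGL.val.det‖ = 1 := by rw [hv, Matrix.det_fin_two_of]; simp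
  refine mem_preserving_of invGL (fun x ↦ (sumSq x)⁻¹ • flipL x)
    (fun x ↦ ((sumSq x)⁻¹ • flipL) ∘L
      (ContinuousLinearMap.id ℝ _ + (dotL x).smulRight ((-2 / sumSq x) • x)))
    (fun p ↦ ?_) (fun p ↦ ?_) (fun p ↦ ?_)
  · refine Prod.ext ?_ ?_
    · simp only [flipL_apply, Prod.smul_fst, H3.coord, z_smul, hden]
      simp [hv, Complex.real_smul, div_eq_inv_mul]
    · simp only [flipL_apply, Prod.smul_snd, H3.coord, t_smul, hden, hnorm]
      simp [div_eq_inv_mul]
  · have hne := (hpos p).ne'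
    refine (((hasDerivAt_inv hne).comp_hasFDerivAt p.coord (hasFDerivAt_sumSq p.coord)).smul
      flipL.hasFDerivAt).congr_fderiv ?_
    apply ContinuousLinearMap.ext; intro v
    simp only [add_apply, smul_apply,
      ContinuousLinearMap.comp_apply, ContinuousLinearMap.smulRight_apply,
      ContinuousLinearMap.id_apply, map_add, map_smul, smul_smul]
    simp only [smul_eq_mul, neg_mul, neg_smul, ← sub_eq_add_neg]
    rw [sub_eq_add_neg, ← neg_smul]
    congr 2
    field_simp
  · set φ : ℂ × ℝ →ₗ[ℝ] ℝ := (dotL p.coord).toLinearMap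
    have e : ((ContinuousLinearMap.id ℝ _ + (dotL p.coord).smulRight
        ((-2 / sumSq p.coord) • p.coord) : (ℂ × ℝ) →L[ℝ] (ℂ × ℝ)) : (ℂ × ℝ) →ₗ[ℝ] (ℂ × ℝ)) =
        LinearMap.transvection φ ((-2 / sumSq p.coord) • p.coord) := by
      apply LinearMap.ext; intro v; simp [LinearMap.transvection.apply, φ]
    have hq := hpos p
    have hdet : LinearMap.det ((ContinuousLinearMap.id ℝ _ + (dotL p.coord).smulRight
        ((-2 / sumSq p.coord) • p.coord) : (ℂ × ℝ) →L[ℝ] (ℂ × ℝ)) : (ℂ × ℝ) →ₗ[ℝ] (ℂ × ℝ))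
        = -1 := by
      rw [e, LinearMap.transvection.det, map_smul]
      show 1 + -2 / sumSq p.coord * dotL p.coord p.coord = -1
      rw [dotL_self]; field_simp; norm_num
    rw [t_smul, hden, hnorm, ContinuousLinearMap.det, ContinuousLinearMap.toLinearMap_comp,
      LinearMap.det_comp, hdet, ContinuousLinearMap.toLinearMap_smul, LinearMap.det_smul, abs_mul,
      abs_mul, abs_neg, abs_one, mul_one]
    have h1 := abs_det_flipL
    rw [ContinuousLinearMap.det] at h1
    rw [h1, mul_one, Module.finrank_prod, Complex.finrank_real_complex, Module.finrank_self,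
      abs_of_pos (by positivity)]
    have := p.t_pos
    field_simp
    rw [show (2 + 1 : ℕ) = 3 by norm_num, ← mul_pow, mul_one_div_cancel hq.ne', one_pow]

theorem mem_preserving (g : GL (Fin 2) ℂ) : g ∈ preserving := by
  by_cases hc : g.val 1 0 = 0
  · have h := det_ne_zero' g
    rw [Matrix.det_fin_two, hc, mul_zero, sub_zero, mul_ne_zero_iff] at h
    have e : g = upperGL (g.val 0 0) (g.val 0 1) (g.val 1 1) h.1 h.2 := by
      apply Units.ext
      ext i j
      fin_cases i <;> fin_cases j <;> simp [upperGL, hc]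
    rw [e]
    exact upper_mem _ _ _ h.1 h.2
  · have h := det_ne_zero' g
    have e : g = upperGL 1 (g.val 0 0 / g.val 1 0) 1 one_ne_zero one_ne_zero * invGL *
        upperGL (g.val 1 0) (g.val 1 1) (g.val.det / g.val 1 0) hc (div_ne_zero h hc) := by
      apply Units.ext
      show g.val = !![1, g.val 0 0 / g.val 1 0; 0, 1] * !![0, -1; 1, 0] *
        !![g.val 1 0, g.val 1 1; 0, g.val.det / g.val 1 0]
      ext i j
      fin_cases i <;> fin_cases j <;> simp [Matrix.det_fin_two] <;> field_simp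
      ring
    rw [e]
    exact mul_mem (mul_mem (upper_mem _ _ _ _ _) inv_mem_preserving) (upper_mem _ _ _ _ _)

theorem integral_smul_h3 {E : Type*} [NormedAddCommGroup E] [NormedSpace ℝ E]
    (g : GL (Fin 2) ℂ) (F : H3 → E) : ∫ p, F (g • p) = ∫ p, F p :=
  MeasurePreserving.integral_comp (mem_preserving g)
    (MeasurableEquiv.measurableEmbedding ⟨MulAction.toPerm g, (continuous_smul_h3 g).measurable,
      (continuous_smul_h3 g⁻¹).measurable⟩) F

end FermatAgent.LT.Lift
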