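import Mathlib
import Fermat.Agent.LT.Lift.Space

/-!
# The unit ball of `ℂ × ℝ`: volume and second moments
-/

set_option autoImplicit false

noncomputable section

open MeasureTheory

namespace FermatAgent.LT.Lift

/-- The Euclidean unit ball. -/
def unitBall : Set (ℂ × ℝ) := {x | sumSq x ≤ 1}

theorem continuous_sumSq : Continuous sumSq := by unfold sumSq; fun_prop

theorem isCompact_unitBall : IsCompact unitBall := by
  refine ((isCompact_closedBall (0 : ℂ) 1).prod isCompact_Icc (t := Set.Icc (-1 : ℝ) 1)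
    ).of_isClosed_subset (isClosed_le continuous_sumSq continuous_const) fun x hx ↦ ?_
  have hx' : x.1.re ^ 2 + x.1.im ^ 2 + x.2 ^ 2 ≤ 1 := hx
  refine ⟨?_, abs_le.1 (abs_le_one_iff_mul_self_le_one.2 (by
    nlinarith [sq_nonneg x.1.re, sq_nonneg x.1.im]))⟩
  rw [mem_closedBall_zero_iff, Complex.norm_eq_sqrt_sq_add_sq]
  exact Real.sqrt_le_one.2 (by nlinarith [sq_nonneg x.2])

theorem measurableSet_unitBall : MeasurableSet unitBall :=
  (isClosed_le continuous_sumSq continuous_const).measurableSet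

theorem integrableOn_unitBall {f : ℂ × ℝ → ℝ} (hf : Continuous f) : IntegrableOn f unitBall :=
  hf.continuousOn.integrableOn_compact isCompact_unitBall

/-- Involutive linear symmetries of the ball preserve integrals over it. -/
theorem integral_ball_symm (L : (ℂ × ℝ) →ₗ[ℝ] (ℂ × ℝ)) (hL : ∀ x, L (L x) = x)
    (hs : ∀ x, sumSq (L x) = sumSq x) (f : ℂ × ℝ → ℝ) :
    ∫ x in unitBall, f (L x) = ∫ x in unitBall, f x := by
  have h2 : LinearMap.det L * LinearMap.det L = 1 := by
    rw [← map_mul, show L * L = 1 from LinearMap.ext hL, map_one]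
  have hdet : |LinearMap.det L| = 1 :=
    (abs_eq_abs.2 (mul_self_eq_one_iff.1 h2)).trans abs_one
  have hne : LinearMap.det L ≠ 0 := fun h ↦ by rw [h, abs_zero] at hdet; exact zero_ne_one hdet
  have hmap : Measure.map L volume = (volume : Measure (ℂ × ℝ)) := by
    rw [Measure.map_linearMap_addHaar_eq_smul_addHaar volume hne, abs_inv, hdet, inv_one,
      ENNReal.ofReal_one, one_smul]
  have hemb : MeasurableEmbedding L :=
    ((LinearEquiv.ofInvolutive L hL).toContinuousLinearEquiv.toHomeomorph).measurableEmbedding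
  have hpre : L ⁻¹' unitBall = unitBall := by ext x; simp [unitBall, hs]
  conv_rhs => rw [← hmap, hemb.setIntegral_map, hpre]

/-- `(x, y, w) ↦ (w, y, x)`. -/
def swapXW : (ℂ × ℝ) →ₗ[ℝ] (ℂ × ℝ) where
  toFun v := (⟨v.2, v.1.im⟩, v.1.re)
  map_add' a b := by refine Prod.ext (Complex.ext ?_ ?_) ?_ <;> simp
  map_smul' c a := by refine Prod.ext (Complex.ext ?_ ?_) ?_ <;> simp

/-- `(x, y, w) ↦ (y, x, w)`. -/
def swapXY : (ℂ × ℝ) →ₗ[ℝ] (ℂ × ℝ) where
  toFun v := (⟨v.1.im, v.1.re⟩, v.2)
  map_add' a b := by refine Prod.ext (Complex.ext ?_ ?_) ?_ <;> simp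
  map_smul' c a := by refine Prod.ext (Complex.ext ?_ ?_) ?_ <;> simp

/-- `(x, y, w) ↦ (-x, y, w)`. -/
def negX : (ℂ × ℝ) →ₗ[ℝ] (ℂ × ℝ) where
  toFun v := (⟨-v.1.re, v.1.im⟩, v.2)
  map_add' a b := by refine Prod.ext (Complex.ext ?_ ?_) ?_ <;> simp; ring
  map_smul' c a := by refine Prod.ext (Complex.ext ?_ ?_) ?_ <;> simp

/-- `(x, y, w) ↦ (x, -y, w)`. -/
def negY : (ℂ × ℝ) →ₗ[ℝ] (ℂ × ℝ) where
  toFun v := (⟨v.1.re, -v.1.im⟩, v.2)
  map_add' a b := by refine Prod.ext (Complex.ext ?_ ?_) ?_ <;> simp; ring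
  map_smul' c a := by refine Prod.ext (Complex.ext ?_ ?_) ?_ <;> simp

theorem ball_cross_xy : ∫ x in unitBall, x.1.re * x.1.im = 0 := by
  have := integral_ball_symm negX (fun x ↦ by simp [negX])
    (fun x ↦ by simp [negX, sumSq]) (fun x ↦ x.1.re * x.1.im)
  simp [negX, integral_neg] at this
  linarith

theorem ball_cross_xw : ∫ x in unitBall, x.1.re * x.2 = 0 := by
  have := integral_ball_symm negX (fun x ↦ by simp [negX])
    (fun x ↦ by simp [negX, sumSq]) (fun x ↦ x.1.re * x.2)
  simp [negX, integral_neg] at this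
  linarith

theorem ball_cross_yw : ∫ x in unitBall, x.1.im * x.2 = 0 := by
  have := integral_ball_symm negY (fun x ↦ by simp [negY])
    (fun x ↦ by simp [negY, sumSq]) (fun x ↦ x.1.im * x.2)
  simp [negY, integral_neg] at this
  linarith

theorem ball_sq_re : ∫ x in unitBall, x.1.re ^ 2 = ∫ x in unitBall, x.2 ^ 2 :=
  integral_ball_symm swapXW (fun x ↦ by simp [swapXW])
    (fun x ↦ by simp [swapXW, sumSq]; ring) (fun x ↦ x.2 ^ 2)

theorem ball_sq_im : ∫ x in unitBall, x.1.im ^ 2 = ∫ x in unitBall, x.1.re ^ 2 :=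
  integral_ball_symm swapXY (fun x ↦ by simp [swapXY])
    (fun x ↦ by simp [swapXY, sumSq]; ring) (fun x ↦ x.1.re ^ 2)

theorem slice_integral (f : ℝ → ℝ) (hf : Continuous f) :
    ∫ x in unitBall, f x.2 = ∫ w in (-1 : ℝ)..1, f w * (Real.pi * (1 - w ^ 2)) := by
  have hint : Integrable (unitBall.indicator fun x ↦ f x.2) :=
    (integrable_indicator_iff measurableSet_unitBall).2
      (integrableOn_unitBall (f := fun x ↦ f x.2) (by fun_prop))
  rw [← integral_indicator measurableSet_unitBall]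
  rw [show (volume : Measure (ℂ × ℝ)) = (volume : Measure ℂ).prod volume from rfl,
    integral_prod_symm _ hint, intervalIntegral.integral_of_le (by norm_num),
    ← integral_Icc_eq_integral_Ioc, ← integral_indicator measurableSet_Icc]
  refine integral_congr_ae (.of_forall fun w ↦ ?_)
  simp only
  by_cases hw : w ∈ Set.Icc (-1 : ℝ) 1
  · rw [Set.indicator_of_mem hw]
    have h1 : 0 ≤ 1 - w ^ 2 := by nlinarith [hw.1, hw.2]
    have hset : ∀ z : ℂ, ((z, w) ∈ unitBall) ↔ z ∈ Metric.closedBall (0 : ℂ) √(1 - w ^ 2) := by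
      intro z
      rw [mem_closedBall_zero_iff, Complex.norm_eq_sqrt_sq_add_sq,
        Real.sqrt_le_sqrt_iff h1]
      show z.re ^ 2 + z.im ^ 2 + w ^ 2 ≤ 1 ↔ _
      constructor <;> intro h <;> linarith
    have : (fun z : ℂ ↦ unitBall.indicator (fun x : ℂ × ℝ ↦ f x.2) (z, w)) =
        (Metric.closedBall (0 : ℂ) √(1 - w ^ 2)).indicator fun _ ↦ f w := by
      ext z
      by_cases hz : (z, w) ∈ unitBall
      · rw [Set.indicator_of_mem hz, Set.indicator_of_mem ((hset z).1 hz)]
      · rw [Set.indicator_of_notMem hz, Set.indicator_of_notMem (mt (hset z).2 hz)]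
    rw [this, integral_indicator measurableSet_closedBall, setIntegral_const, smul_eq_mul,
      Measure.real, Complex.volume_closedBall, ← ENNReal.ofReal_pow (Real.sqrt_nonneg _),
      Real.sq_sqrt h1]
    rw [← ENNReal.ofReal_coe_nnreal, ← ENNReal.ofReal_mul h1,
      ENNReal.toReal_ofReal (mul_nonneg h1 (by positivity))]
    simp only [NNReal.coe_real_pi]
    ring
  · rw [Set.indicator_of_notMem hw]
    refine integral_eq_zero_of_ae (.of_forall fun z ↦ Set.indicator_of_notMem (fun h ↦ hw ?_) _)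
    have h' : z.re ^ 2 + z.im ^ 2 + w ^ 2 ≤ 1 := h
    exact abs_le.1 (abs_le_one_iff_mul_self_le_one.2 (by
      nlinarith [sq_nonneg z.re, sq_nonneg z.im]))

theorem ball_volume : ∫ _x in unitBall, (1 : ℝ) = 4 * Real.pi / 3 := by
  rw [slice_integral (fun _ ↦ 1) continuous_const]
  simp only [one_mul, intervalIntegral.integral_const_mul]
  norm_num [intervalIntegral.integral_sub, intervalIntegral.intervalIntegrable_pow]
  ring

theorem ball_sq_w : ∫ x in unitBall, x.2 ^ 2 = 4 * Real.pi / 15 := by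
  rw [slice_integral (fun w ↦ w ^ 2) (by fun_prop)]
  rw [show (fun w : ℝ ↦ w ^ 2 * (Real.pi * (1 - w ^ 2))) =
    fun w ↦ Real.pi * (w ^ 2 - w ^ 4) from funext fun w ↦ by ring,
    intervalIntegral.integral_const_mul,
    intervalIntegral.integral_sub (by apply Continuous.intervalIntegrable; fun_prop)
      (by apply Continuous.intervalIntegrable; fun_prop)]
  norm_num
  ring

/-- The integral of a quadratic polynomial over the ball. -/
theorem ball_quadratic (c0 c11 c22 c33 c12 c13 c23 : ℝ) :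
    ∫ x in unitBall, (c0 + c11 * x.1.re ^ 2 + c22 * x.1.im ^ 2 + c33 * x.2 ^ 2 +
      c12 * (x.1.re * x.1.im) + c13 * (x.1.re * x.2) + c23 * (x.1.im * x.2)) =
      4 * Real.pi / 3 * c0 + 4 * Real.pi / 15 * (c11 + c22 + c33) := by
  have i : ∀ f : ℂ × ℝ → ℝ, Continuous f → Integrable f (volume.restrict unitBall) :=
    fun f hf ↦ integrableOn_unitBall hf
  rw [integral_add (i _ (by fun_prop)) (i _ (by fun_prop)),
    integral_add (i _ (by fun_prop)) (i _ (by fun_prop)),
    integral_add (i _ (by fun_prop)) (i _ (by fun_prop)),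
    integral_add (i _ (by fun_prop)) (i _ (by fun_prop)),
    integral_add (i _ (by fun_prop)) (i _ (by fun_prop)),
    integral_add (i _ (by fun_prop)) (i _ (by fun_prop))]
  simp only [integral_const_mul, ball_cross_xy, ball_cross_xw, ball_cross_yw, ball_sq_im,
    ball_sq_re, ball_sq_w]
  rw [show c0 = c0 * 1 by ring, integral_const_mul, ball_volume]
  ring

end FermatAgent.LT.Lift
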