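import Mathlib

/-!
# The Eisenstein integers and completion of vectors to `SL₂`

`EO` is the ring of integers of `ℚ(√-3)`, with `ω² = -1 - ω`; `EMod N` is its reduction.
-/

set_option autoImplicit false

noncomputable section

open QuadraticAlgebra

namespace FermatAgent.LT.Lift

/-- The Eisenstein integers. -/
abbrev EO : Type := QuadraticAlgebra ℤ (-1) (-1)

/-- The Eisenstein integers modulo `N`. -/
abbrev EMod (N : ℕ) : Type := QuadraticAlgebra (ZMod N) (-1) (-1)

/-- Reduction modulo `N`. -/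
def redO (N : ℕ) : EO →+* EMod N where
  toFun x := ⟨(x.re : ZMod N), (x.im : ZMod N)⟩
  map_one' := by ext <;> simp
  map_mul' x y := by ext <;> simp
  map_zero' := by ext <;> simp
  map_add' x y := by ext <;> simp

instance (N : ℕ) [NeZero N] : Fintype (EMod N) :=
  Fintype.ofEquiv _ (equivProd (R := ZMod N) (-1) (-1)).symm

/-- The cube root of unity in `ℂ`. -/
def omegaC : ℂ := ⟨-(1 / 2), √3 / 2⟩

theorem omegaC_sq : omegaC * omegaC = -1 - omegaC := by
  have h : √(3 : ℝ) * √3 = 3 := Real.mul_self_sqrt (by norm_num)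
  apply Complex.ext <;> simp [omegaC] <;> nlinarith

/-- The embedding in `ℂ`. -/
def embC : EO →+* ℂ where
  toFun x := (x.re : ℂ) + (x.im : ℂ) * omegaC
  map_one' := by simp
  map_mul' x y := by
    simp only [re_mul, im_mul]
    push_cast
    linear_combination (-(x.im : ℂ) * y.im) * omegaC_sq
  map_zero' := by simp
  map_add' x y := by simp; ring

theorem embC_apply (x : EO) : embC x = (x.re : ℂ) + (x.im : ℂ) * omegaC := rfl

theorem embC_re (x : EO) : (embC x).re = x.re - x.im / 2 := by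
  simp [embC_apply, omegaC]; ring

theorem embC_im (x : EO) : (embC x).im = x.im * (√3 / 2) := by
  simp [embC_apply, omegaC]

theorem embC_star (x : EO) : embC (star x) = (starRingEnd ℂ) (embC x) := by
  apply Complex.ext
  · simp [embC_re]; ring
  · simp [embC_im]

theorem normSq_embC (x : EO) : Complex.normSq (embC x) = (x.norm : ℤ) := by
  have h : √(3 : ℝ) * √3 = 3 := Real.mul_self_sqrt (by norm_num)
  simp only [Complex.normSq_apply, embC_re, embC_im, norm_def]
  push_cast
  linear_combination ((x.im : ℝ) ^ 2 / 4) * h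

theorem embC_injective : Function.Injective embC := by
  intro x y h
  have h1 := congrArg Complex.re h
  have h2 := congrArg Complex.im h
  simp only [embC_re, embC_im] at h1 h2
  have h3 : (x.im : ℝ) = y.im := mul_right_cancel₀ (by positivity : (√3 / 2 : ℝ) ≠ 0) h2
  rw [h3] at h1
  exact QuadraticAlgebra.ext (Int.cast_injective (by linarith : (x.re : ℝ) = y.re))
    (Int.cast_injective h3)

theorem norm_nonneg' (x : EO) : 0 ≤ x.norm := by
  have := Complex.normSq_nonneg (embC x)
  rw [normSq_embC] at this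
  exact_mod_cast this

theorem norm_eq_zero' {x : EO} : x.norm = 0 ↔ x = 0 := by
  refine ⟨fun h ↦ embC_injective ?_, fun h ↦ by simp [h, QuadraticAlgebra.norm_zero]⟩
  rw [map_zero, ← Complex.normSq_eq_zero, normSq_embC, h, Int.cast_zero]

instance : IsDomain EO := embC_injective.isDomain embC

/-- Rounding: every complex number is within `√(3/4)` of `EO`. -/
theorem exists_near (z : ℂ) : ∃ q : EO, Complex.normSq (z - embC q) ≤ 3 / 4 := by
  have h3 : (0 : ℝ) < √3 := by positivity
  set b : ℝ := z.im / (√3 / 2)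
  set a : ℝ := z.re + b / 2
  refine ⟨⟨round a, round b⟩, ?_⟩
  have ha := abs_sub_round a
  have hb := abs_sub_round b
  set s := a - round a
  set t := b - round b
  have e1 : (z - embC ⟨round a, round b⟩).re = s - t / 2 := by
    simp only [Complex.sub_re, embC_re, s, t, a]; ring
  have e2 : (z - embC ⟨round a, round b⟩).im = t * (√3 / 2) := by
    simp only [Complex.sub_im, embC_im, t, b]; field_simp
  have h : √(3 : ℝ) * √3 = 3 := Real.mul_self_sqrt (by norm_num)
  rw [Complex.normSq_apply, e1, e2]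
  rw [abs_le] at ha hb
  have h' : t * (√3 / 2) * (t * (√3 / 2)) = 3 / 4 * (t * t) := by
    linear_combination (t * t / 4) * h
  rw [h']
  nlinarith [mul_nonneg (sub_nonneg.2 ha.2) (sub_nonneg.2 hb.1),
    mul_nonneg (sub_nonneg.2 ha.1) (sub_nonneg.2 hb.2),
    mul_nonneg (sub_nonneg.2 ha.1) (sub_nonneg.2 ha.2),
    mul_nonneg (sub_nonneg.2 hb.1) (sub_nonneg.2 hb.2)]

theorem exists_div (x : EO) {y : EO} (hy : y ≠ 0) : ∃ q : EO, (x - q * y).norm < y.norm := by
  obtain ⟨q, hq⟩ := exists_near (embC x / embC y)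
  refine ⟨q, ?_⟩
  have hy' : embC y ≠ 0 := fun h ↦ hy (embC_injective (by rw [h, map_zero]))
  have hpos : 0 < Complex.normSq (embC y) := Complex.normSq_pos.2 hy'
  have : Complex.normSq (embC (x - q * y)) < Complex.normSq (embC y) := by
    rw [map_sub, map_mul, show embC x - embC q * embC y =
      (embC x / embC y - embC q) * embC y from by field_simp, Complex.normSq_mul]
    nlinarith
  rw [normSq_embC, normSq_embC] at this
  exact_mod_cast this

theorem isPrincipalIdealRing_eo (I : Ideal EO) : ∃ g : EO, I = Ideal.span {g} := by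
  by_cases hI : I = ⊥
  · exact ⟨0, by simp [hI]⟩
  obtain ⟨x₀, hx₀, hne⟩ := Submodule.exists_mem_ne_zero_of_ne_bot hI
  classical
  have hex : ∃ n : ℕ, ∃ x ∈ I, x ≠ 0 ∧ x.norm.toNat = n := ⟨_, x₀, hx₀, hne, rfl⟩
  obtain ⟨g, hg, hg0, hgn⟩ := Nat.find_spec hex
  refine ⟨g, le_antisymm (fun x hx ↦ ?_) ((Ideal.span_singleton_le_iff_mem I).2 hg)⟩
  obtain ⟨q, hq⟩ := exists_div x hg0
  by_cases hr : x - q * g = 0
  · exact Ideal.mem_span_singleton'.2 ⟨q, (sub_eq_zero.1 hr).symm⟩
  · exfalso
    have := Nat.find_min' hex ⟨x - q * g, sub_mem hx (I.mul_mem_left q hg), hr, rfl⟩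
    rw [← hgn] at this
    have h1 := norm_nonneg' (x - q * g)
    omega

/-- Every pair has a greatest common divisor which is a linear combination of it. -/
theorem exists_gcd (a c : EO) :
    ∃ g u v : EO, g = u * a + v * c ∧ g ∣ a ∧ g ∣ c := by
  obtain ⟨g, hg⟩ := isPrincipalIdealRing_eo (Ideal.span {a, c})
  obtain ⟨u, v, huv⟩ := Ideal.mem_span_pair.1 (hg ▸ Ideal.mem_span_singleton_self g :
    g ∈ Ideal.span {a, c})
  exact ⟨g, u, v, huv.symm,
    Ideal.mem_span_singleton.1 (hg ▸ Ideal.subset_span (Set.mem_insert _ _)),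
    Ideal.mem_span_singleton.1 (hg ▸ Ideal.subset_span (Set.mem_insert_of_mem _ rfl))⟩

/-- Any vector is a multiple of the first column of an element of `SL₂(EO)`. -/
theorem exists_sl_column (a c : EO) :
    ∃ (γ : Matrix.SpecialLinearGroup (Fin 2) EO) (g : EO), a = g * γ 0 0 ∧ c = g * γ 1 0 := by
  obtain ⟨g, u, v, hg, ⟨a', ha⟩, ⟨c', hc⟩⟩ := exists_gcd a c
  by_cases hg0 : g = 0
  · exact ⟨1, 0, by simp [ha, hg0], by simp [hc, hg0]⟩
  have h1 : u * a' + v * c' = 1 := mul_left_cancel₀ hg0 (by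
    linear_combination (-u) * ha + (-v) * hc - hg)
  exact ⟨⟨!![a', -v; c', u], by rw [Matrix.det_fin_two_of]; linear_combination h1⟩, g,
    by simpa using ha, by simpa using hc⟩

theorem finite_norm_le (B : ℝ) : {x : EO | Complex.normSq (embC x) ≤ B}.Finite := by
  set M : ℤ := ⌈4 * B⌉ + 1
  refine ((Set.finite_Icc (-M) M).prod (Set.finite_Icc (-M) M)).preimage
    ((equivProd (R := ℤ) (-1) (-1)).injective.injOn) |>.subset fun x hx ↦ ?_
  have hx' : (x.norm : ℝ) ≤ B := by rw [← normSq_embC]; exact hx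
  have hB : (4 * B : ℝ) ≤ ⌈4 * B⌉ := Int.le_ceil _
  have h4 : (4 : ℤ) * x.norm ≤ M - 1 := by
    simp only [M, add_sub_cancel_right]
    exact_mod_cast (by push_cast; linarith : ((4 * x.norm : ℤ) : ℝ) ≤ (⌈4 * B⌉ : ℝ))
  rw [norm_def] at h4
  simp only [Set.mem_preimage, equivProd, Equiv.coe_fn_mk, Set.mem_prod, Set.mem_Icc]
  have a1 : x.re ^ 2 ≤ M - 1 := by nlinarith [sq_nonneg (2 * x.im - x.re), sq_nonneg x.re]
  have a2 : x.im ^ 2 ≤ M - 1 := by nlinarith [sq_nonneg (2 * x.re - x.im), sq_nonneg x.im]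
  refine ⟨⟨?_, ?_⟩, ?_, ?_⟩ <;>
    nlinarith [sq_nonneg x.re, sq_nonneg x.im, sq_nonneg (x.re + 1), sq_nonneg (x.re - 1),
      sq_nonneg (x.im + 1), sq_nonneg (x.im - 1)]

end FermatAgent.LT.Lift
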