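import Mathlib
import Fermat.Agent.LT.Lift.Eis
import Fermat.Agent.LT.Lift.Space

/-!
# Reduction theory for `GL(2, EO)` and the integration weight
-/

set_option autoImplicit false

noncomputable section

open MeasureTheory Matrix
open scoped ENNReal NNReal

namespace FermatAgent.LT.Lift

/-- The arithmetic group. -/
abbrev GO : Type := GL (Fin 2) EO

/-- The finite level group. -/
abbrev GN (N : ℕ) : Type := GL (Fin 2) (EMod N)

/-- Into `GL(2, ℂ)`. -/
def toC : GO →* GL (Fin 2) ℂ := GeneralLinearGroup.map embC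

/-- Into the level group. -/
def toN (N : ℕ) : GO →* GN N := GeneralLinearGroup.map (redO N)

theorem toC_val (γ : GO) : (toC γ).val = γ.val.map embC := rfl

instance : Countable EO := (QuadraticAlgebra.equivProd (R := ℤ) (-1) (-1)).injective.countable

instance : Countable GO :=
  have : Countable (Matrix (Fin 2) (Fin 2) EO) := inferInstanceAs (Countable (Fin 2 → Fin 2 → EO))
  Function.Injective.countable (f := Units.val) Units.val_injective

instance (N : ℕ) [NeZero N] : Fintype (GN N) := Fintype.ofFinite _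

theorem norm_det_toC (γ : GO) : ‖(toC γ).val.det‖ = 1 := by
  have hu : IsUnit γ.val.det := (Matrix.isUnit_iff_isUnit_det _).1 γ.isUnit
  have h1 : IsUnit (γ.val.det).norm := QuadraticAlgebra.isUnit_iff_norm_isUnit.1 hu
  have h2 : (γ.val.det).norm = 1 := by
    rcases Int.isUnit_iff.1 h1 with h | h
    · exact h
    · have := norm_nonneg' γ.val.det
      omega
  rw [toC_val, show (γ.val.map embC).det = embC γ.val.det from (RingHom.map_det embC _).symm,
    ← Real.sqrt_sq (norm_nonneg _), ← Complex.normSq_eq_norm_sq, normSq_embC, h2, Int.cast_one,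
    Real.sqrt_one]

/-- The action of `GO` on `H3`. -/
instance : MulAction GO H3 := MulAction.compHom H3 toC

theorem smul_def' (γ : GO) (p : H3) : γ • p = toC γ • p := rfl

theorem measurable_smul_go (γ : GO) : Measurable fun p : H3 ↦ γ • p :=
  (continuous_smul_h3 (toC γ)).measurable

theorem integral_smul_go {E : Type*} [NormedAddCommGroup E] [NormedSpace ℝ E] (γ : GO)
    (F : H3 → E) : ∫ p, F (γ • p) = ∫ p, F p :=
  integral_smul_h3 (toC γ) F

theorem t_smul_go (γ : GO) (p : H3) : (γ • p).t = p.t / den (toC γ) p := by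
  rw [smul_def', t_smul, norm_det_toC, one_mul]

/-- The reduced set. -/
def siegel : Set H3 := {p | Complex.normSq p.z ≤ 3 / 4 ∧ 1 / 2 ≤ p.t}

theorem measurableSet_siegel : MeasurableSet siegel :=
  ((isClosed_le (Complex.continuous_normSq.comp continuous_z) continuous_const).inter
    (isClosed_le continuous_const continuous_t)).measurableSet

/-- Only finitely many rows `(a, b)` have `|a z + b|² + |a|² t²` below a given bound. -/
theorem row_finite (p : H3) (B : ℝ) :
    {x : EO × EO | Complex.normSq (embC x.1 * p.z + embC x.2) +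
      Complex.normSq (embC x.1) * p.t ^ 2 ≤ B}.Finite := by
  refine ((finite_norm_le (B / p.t ^ 2)).prod
    (finite_norm_le (2 * B + 2 * (B / p.t ^ 2) * Complex.normSq p.z))).subset fun x hx ↦ ?_
  have hx' : Complex.normSq (embC x.1 * p.z + embC x.2) +
      Complex.normSq (embC x.1) * p.t ^ 2 ≤ B := hx
  have h0 := Complex.normSq_nonneg (embC x.1 * p.z + embC x.2)
  have ht := pow_pos p.t_pos 2
  have h1 : Complex.normSq (embC x.1) ≤ B / p.t ^ 2 := by rw [le_div_iff₀ ht]; linarith
  refine ⟨h1, ?_⟩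
  have h2 : Complex.normSq (embC x.2) ≤ 2 * Complex.normSq (embC x.1 * p.z + embC x.2) +
      2 * (Complex.normSq (embC x.1) * Complex.normSq p.z) := by
    rw [← Complex.normSq_mul]
    simp only [Complex.normSq_apply, Complex.add_re, Complex.add_im]
    nlinarith [sq_nonneg ((embC x.2).re + 2 * (embC x.1 * p.z).re),
      sq_nonneg ((embC x.2).im + 2 * (embC x.1 * p.z).im)]
  have h3 : Complex.normSq (embC x.1) * Complex.normSq p.z ≤
      B / p.t ^ 2 * Complex.normSq p.z := mul_le_mul_of_nonneg_right h1 (Complex.normSq_nonneg _)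
  have h4 : 0 ≤ Complex.normSq (embC x.1) * p.t ^ 2 :=
    mul_nonneg (Complex.normSq_nonneg _) ht.le
  show Complex.normSq (embC x.2) ≤ _
  linarith

theorem den_toC (γ : GO) (p : H3) : den (toC γ) p =
    Complex.normSq (embC (γ.val 1 0) * p.z + embC (γ.val 1 1)) +
      Complex.normSq (embC (γ.val 1 0)) * p.t ^ 2 := rfl

/-- `!![0, -1; 1, 0]` in `GO`. -/
def flipO : GO := ⟨!![0, -1; 1, 0], !![0, 1; -1, 0],
  by ext i j <;> fin_cases i <;> fin_cases j <;> simp [Matrix.mul_apply],
  by ext i j <;> fin_cases i <;> fin_cases j <;> simp [Matrix.mul_apply]⟩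

/-- Translation by an element of `EO`. -/
def transO (q : EO) : GO := ⟨!![1, q; 0, 1], !![1, -q; 0, 1],
  by ext i j <;> fin_cases i <;> fin_cases j <;> simp [Matrix.mul_apply],
  by ext i j <;> fin_cases i <;> fin_cases j <;> simp [Matrix.mul_apply]⟩

theorem transO_smul (q : EO) (p : H3) :
    (transO q • p).z = p.z + embC q ∧ (transO q • p).t = p.t := by
  have hv : (toC (transO q)).val = !![1, embC q; 0, 1] := by
    rw [toC_val]; ext i j; fin_cases i <;> fin_cases j <;> simp [transO]
  have hd : den (toC (transO q)) p = 1 := by simp [den, hv]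
  refine ⟨?_, ?_⟩
  · rw [smul_def', z_smul, hd]; simp [hv]
  · rw [t_smul_go, hd, div_one]

theorem den_flipO (p : H3) : den (toC flipO) p = Complex.normSq p.z + p.t ^ 2 := by
  simp [den_toC, flipO]

theorem exists_smul_mem_siegel (p : H3) : ∃ γ : GO, γ • p ∈ siegel := by
  set R : Set (EO × EO) :=
    {x | (∃ γ : GO, γ.val 1 0 = x.1 ∧ γ.val 1 1 = x.2) ∧
      Complex.normSq (embC x.1 * p.z + embC x.2) + Complex.normSq (embC x.1) * p.t ^ 2 ≤ 1}
  have hR : R.Finite := (row_finite p 1).subset fun x hx ↦ hx.2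
  have hne : R.Nonempty := ⟨(0, 1), ⟨1, by simp, by simp⟩, by simp⟩
  obtain ⟨x, ⟨⟨γ, hc, hd⟩, hx1⟩, hmin⟩ := Set.exists_min_image R (fun x : EO × EO ↦
    Complex.normSq (embC x.1 * p.z + embC x.2) + Complex.normSq (embC x.1) * p.t ^ 2) hR hne
  have hmax : ∀ γ' : GO, (γ' • p).t ≤ (γ • p).t := by
    intro γ'
    rw [t_smul_go, t_smul_go]
    refine div_le_div_of_nonneg_left p.t_pos.le (den_pos _ _) ?_
    rw [den_toC, den_toC, hc, hd]
    by_cases h : Complex.normSq (embC (γ'.val 1 0) * p.z + embC (γ'.val 1 1)) +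
        Complex.normSq (embC (γ'.val 1 0)) * p.t ^ 2 ≤ 1
    · exact hmin (γ'.val 1 0, γ'.val 1 1) ⟨⟨γ', rfl, rfl⟩, h⟩
    · exact hx1.trans (not_le.1 h).le
  obtain ⟨q, hq⟩ := exists_near (γ • p).z
  refine ⟨transO (-q) * γ, ?_⟩
  obtain ⟨hz, ht⟩ := transO_smul (-q) (γ • p)
  rw [map_neg, ← sub_eq_add_neg] at hz
  rw [mul_smul]
  set p' := transO (-q) • γ • p with hp'
  refine ⟨hz ▸ hq, ?_⟩
  have h1 := hmax (flipO * (transO (-q) * γ))
  rw [mul_smul, mul_smul, ← hp', t_smul_go, den_flipO, ← ht,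
    div_le_iff₀ (add_pos_of_nonneg_of_pos (Complex.normSq_nonneg _) (pow_pos p'.t_pos 2))] at h1
  have h2 : 1 ≤ Complex.normSq p'.z + p'.t ^ 2 := by nlinarith [p'.t_pos]
  have h3 : Complex.normSq p'.z ≤ 3 / 4 := hz ▸ hq
  nlinarith [p'.t_pos]

theorem one_le_norm {x : EO} (hx : x ≠ 0) : 1 ≤ Complex.normSq (embC x) := by
  rw [normSq_embC]
  have h1 := norm_nonneg' x
  have h2 : x.norm ≠ 0 := fun h ↦ hx (norm_eq_zero'.1 h)
  exact_mod_cast (by omega : 1 ≤ x.norm)

theorem finite_smul_mem_siegel (p : H3) : {γ : GO | γ • p ∈ siegel}.Finite := by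
  set C := max p.t (1 / p.t)
  have h1 := (row_finite p (p.t * (C + 3 / 2))).prod (row_finite p (2 * p.t))
  let f : GO → (EO × EO) × (EO × EO) :=
    fun γ ↦ ((γ.val 0 0, γ.val 0 1), (γ.val 1 0, γ.val 1 1))
  have hf : Function.Injective f := by
    intro a b h
    simp only [f, Prod.mk.injEq] at h
    apply Units.ext
    ext i j : 1
    fin_cases i <;> fin_cases j
    exacts [h.1.1, h.1.2, h.2.1, h.2.2]
  refine (h1.preimage hf.injOn).subset fun γ hγ ↦ ?_
  obtain ⟨hz, ht⟩ := (hγ : γ • p ∈ siegel)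
  have hd := den_pos (toC γ) p
  have htt := t_smul_go γ p
  refine ⟨?_, ?_⟩
  · have hC : (γ • p).t ≤ C := by
      rw [htt]
      by_cases hc : γ.val 1 0 = 0
      · refine le_trans (div_le_self p.t_pos.le ?_) (le_max_left _ _)
        rw [den_toC, hc]
        simp only [map_zero, zero_mul, zero_add, add_zero]
        refine one_le_norm fun h ↦ ?_
        have hu : IsUnit γ.val.det := (Matrix.isUnit_iff_isUnit_det _).1 γ.isUnit
        rw [Matrix.det_fin_two, hc, h] at hu
        simp at hu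
      · refine le_trans ?_ (le_max_right _ _)
        rw [div_le_div_iff₀ hd p.t_pos, one_mul, ← sq, den_toC]
        have := one_le_norm hc
        have := Complex.normSq_nonneg (embC (γ.val 1 0) * p.z + embC (γ.val 1 1))
        nlinarith [pow_pos p.t_pos 2]
    have e := congrFun (congrFun (herm_smul (toC γ) p) 0) 0
    have e' : ((γ • p).t ^ 2 + Complex.normSq (γ • p).z) / (γ • p).t =
        (Complex.normSq (embC (γ.val 0 0) * p.z + embC (γ.val 0 1)) +
          Complex.normSq (embC (γ.val 0 0)) * p.t ^ 2) / p.t := by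
      have ht0 : (p.t : ℂ) ≠ 0 := by exact_mod_cast p.t_pos.ne'
      rw [← Complex.ofReal_inj]
      rw [conjAct, norm_det_toC] at e
      simp only [H3.herm, inv_one, Complex.ofReal_one, one_smul, toC_val, Matrix.mul_apply,
        Fin.sum_univ_two, Matrix.of_apply, Matrix.cons_val', Matrix.cons_val_zero,
        Matrix.cons_val_one, Matrix.cons_val_fin_one, Matrix.conjTranspose_apply,
        Matrix.map_apply, Complex.star_def] at e
      rw [smul_def']
      refine e.trans ?_
      push_cast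
      simp only [Complex.normSq_eq_conj_mul_self, map_add, map_mul]
      field_simp
      ring
    have hb : ((γ • p).t ^ 2 + Complex.normSq (γ • p).z) / (γ • p).t ≤ C + 3 / 2 := by
      rw [div_le_iff₀ (γ • p).t_pos]
      nlinarith [(γ • p).t_pos]
    rw [e', div_le_iff₀ p.t_pos] at hb
    show _ ≤ p.t * (C + 3 / 2)
    linarith
  · show _ ≤ 2 * p.t
    rw [← den_toC]
    rw [htt, le_div_iff₀ hd] at ht
    linarith

/-- Number of `γ` with `γ • p` reduced. -/
def cnt (p : H3) : ℝ≥0∞ := ∑' γ : GO, siegel.indicator (fun _ ↦ (1 : ℝ≥0∞)) (γ • p)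

theorem cnt_ne_top (p : H3) : cnt p ≠ ⊤ := by
  rw [cnt, tsum_eq_sum (s := (finite_smul_mem_siegel p).toFinset) fun γ hγ ↦ ?_]
  · exact ENNReal.sum_ne_top.2 fun γ _ ↦
      ne_top_of_le_ne_top ENNReal.one_ne_top (Set.indicator_le_self _ _ _)
  · exact Set.indicator_of_notMem (by simpa using hγ) _

theorem cnt_ne_zero (p : H3) : cnt p ≠ 0 := by
  obtain ⟨γ, hγ⟩ := exists_smul_mem_siegel p
  intro h
  simp [cnt, ENNReal.tsum_eq_zero] at h
  exact h γ hγ

theorem cnt_smul (γ : GO) (p : H3) : cnt (γ • p) = cnt p := by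
  simp only [cnt, ← mul_smul]
  exact (Equiv.mulRight γ).tsum_eq
    (fun δ ↦ siegel.indicator (fun _ ↦ (1 : ℝ≥0∞)) (δ • p))

/-- The weight: its translates under `GO` add up to one. -/
def wgt (p : H3) : ℝ≥0∞ := siegel.indicator (fun _ ↦ 1) p / cnt p

theorem measurable_wgt : Measurable wgt :=
  (measurable_const.indicator measurableSet_siegel).div
    (Measurable.tsum fun γ ↦
      (measurable_const.indicator measurableSet_siegel).comp (measurable_smul_go γ))

theorem tsum_wgt (p : H3) : ∑' γ : GO, wgt (γ • p) = 1 := by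
  simp only [wgt, cnt_smul, div_eq_mul_inv, ENNReal.tsum_mul_right]
  exact ENNReal.mul_inv_cancel (cnt_ne_zero p) (cnt_ne_top p)

theorem wgt_le_indicator (p : H3) : wgt p ≤ siegel.indicator (fun _ ↦ 1) p := by
  by_cases hp : p ∈ siegel
  · have h1 : (1 : ℝ≥0∞) ≤ cnt p := by
      calc (1 : ℝ≥0∞) = siegel.indicator (fun _ ↦ (1 : ℝ≥0∞)) ((1 : GO) • p) := by simp [hp]
        _ ≤ cnt p := ENNReal.le_tsum _
    simp only [wgt, Set.indicator_of_mem hp, one_div]
    exact ENNReal.inv_le_one.2 h1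
  · simp [wgt, Set.indicator_of_notMem hp]

/-- `∫_siegel t < ∞`. -/
theorem lintegral_siegel_t_ne_top :
    ∫⁻ p, siegel.indicator (fun p : H3 ↦ ENNReal.ofReal p.t) p ≠ ⊤ := by
  set T : Set (ℂ × ℝ) := Metric.closedBall 0 1 ×ˢ Set.Ici (1 / 2)
  have hT : MeasurableSet T := Metric.isClosed_closedBall.measurableSet.prod measurableSet_Ici
  have e : ∀ p : H3, siegel.indicator (fun p : H3 ↦ ENNReal.ofReal p.t) p ≤
      T.indicator (fun x ↦ ENNReal.ofReal x.2) p.coord := by
    intro p
    by_cases hp : p ∈ siegel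
    · rw [Set.indicator_of_mem hp, Set.indicator_of_mem]
      · rfl
      · refine ⟨?_, hp.2⟩
        rw [mem_closedBall_zero_iff, ← Real.sqrt_sq (norm_nonneg _), ← Complex.normSq_eq_norm_sq]
        exact Real.sqrt_le_one.2 (le_trans hp.1 (by norm_num))
    · rw [Set.indicator_of_notMem hp]; exact zero_le
  refine ne_top_of_le_ne_top ?_ (lintegral_mono e)
  rw [lintegral_eq]
  have e2 : ∀ x : ℂ × ℝ, (dens x : ℝ≥0∞) * T.indicator (fun x ↦ ENNReal.ofReal x.2) x =
      T.indicator (fun x ↦ ENNReal.ofReal (x.2 ^ (-2 : ℝ))) x := by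
    intro x
    by_cases hx : x ∈ T
    · have h : (0 : ℝ) < x.2 := lt_of_lt_of_le (by norm_num) hx.2
      rw [Set.indicator_of_mem hx, Set.indicator_of_mem hx, dens, ← ENNReal.ofReal,
        ← ENNReal.ofReal_mul (by positivity)]
      congr 1
      rw [show (-2 : ℝ) = -((2 : ℕ) : ℝ) by norm_num, Real.rpow_neg h.le, Real.rpow_natCast]
      field_simp
    · simp [Set.indicator_of_notMem hx]
  simp only [e2]
  refine ne_top_of_le_ne_top ?_ (setLIntegral_le_lintegral _ _)
  rw [lintegral_indicator hT, show (volume : Measure (ℂ × ℝ)) = (volume : Measure ℂ).prod volume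
    from rfl, ← Measure.prod_restrict, lintegral_prod _ (by fun_prop)]
  simp only [lintegral_const, Measure.restrict_apply MeasurableSet.univ, Set.univ_inter]
  refine ENNReal.mul_ne_top ?_ measure_closedBall_lt_top.ne
  have h := integrableOn_Ioi_rpow_of_lt (show (-2 : ℝ) < -1 by norm_num)
    (show (0 : ℝ) < 1 / 4 by norm_num)
  refine ne_top_of_le_ne_top h.2.ne
    ((setLIntegral_mono' measurableSet_Ici fun y hy ↦ le_of_eq ?_).trans
      (lintegral_mono_set (Set.Ici_subset_Ioi.2 (by norm_num))))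
  have hy0 : (0 : ℝ) < y := lt_of_lt_of_le (by norm_num) (Set.mem_Ici.1 hy)
  rw [Real.enorm_eq_ofReal (by positivity)]

theorem lintegral_wgt_mul_t_ne_top : ∫⁻ p, wgt p * ENNReal.ofReal p.t ≠ ⊤ := by
  refine ne_top_of_le_ne_top lintegral_siegel_t_ne_top (lintegral_mono fun p ↦ ?_)
  refine (mul_le_mul' (wgt_le_indicator p) le_rfl).trans (le_of_eq ?_)
  by_cases hp : p ∈ siegel <;> simp [hp]

end FermatAgent.LT.Lift
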