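import Mathlib
import Fermat.Agent.LT.Lift.Weight

/-!
# Integral hermitian forms and theta coefficient data

A vector `m : Fin 4 → R` stands for `!![m 0, b; star b, m 1]`, `b = m 2 + m 3 ω`, over
`R[ω] = QuadraticAlgebra R (-1) (-1)`.
-/

set_option autoImplicit false

noncomputable section

open Matrix

namespace FermatAgent.LT.Lift

section Ring

variable {R : Type*} [CommRing R]

/-- The hermitian matrix of a vector. -/
def hermR (m : Fin 4 → R) : Matrix (Fin 2) (Fin 2) (QuadraticAlgebra R (-1) (-1)) :=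
  !![⟨m 0, 0⟩, ⟨m 2, m 3⟩; star ⟨m 2, m 3⟩, ⟨m 1, 0⟩]

/-- The vector of a hermitian matrix. -/
def unhermR (M : Matrix (Fin 2) (Fin 2) (QuadraticAlgebra R (-1) (-1))) : Fin 4 → R :=
  ![(M 0 0).re, (M 1 1).re, (M 0 1).re, (M 0 1).im]

theorem unhermR_hermR (m : Fin 4 → R) : unhermR (hermR m) = m := by
  ext i; fin_cases i <;> simp [unhermR, hermR]

/-- `g · m = g m gᴴ`. -/
def actR (g : GL (Fin 2) (QuadraticAlgebra R (-1) (-1))) (m : Fin 4 → R) : Fin 4 → R :=
  unhermR (g.val * hermR m * g.valᴴ)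

theorem hermR_actR (g : GL (Fin 2) (QuadraticAlgebra R (-1) (-1))) (m : Fin 4 → R) :
    hermR (actR g m) = g.val * hermR m * g.valᴴ := by
  ext i j <;> fin_cases i <;> fin_cases j <;>
    simp [hermR, unhermR, actR, Matrix.mul_apply, Fin.sum_univ_two, Matrix.conjTranspose_apply]
      <;> ring

theorem actR_one (m : Fin 4 → R) : actR 1 m = m := by simp [actR, unhermR_hermR]

theorem actR_mul (g h : GL (Fin 2) (QuadraticAlgebra R (-1) (-1))) (m : Fin 4 → R) :
    actR (g * h) m = actR g (actR h m) := by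
  rw [actR, actR, hermR_actR, Units.val_mul, Matrix.conjTranspose_mul]
  simp only [Matrix.mul_assoc]

theorem hermR_add (m n : Fin 4 → R) : hermR (m + n) = hermR m + hermR n := by
  ext i j <;> fin_cases i <;> fin_cases j <;> simp [hermR] <;> ring

theorem hermR_smul (c : R) (m : Fin 4 → R) : hermR (c • m) = c • hermR m := by
  ext i j <;> fin_cases i <;> fin_cases j <;> simp [hermR]
  ring

theorem actR_add (g : GL (Fin 2) (QuadraticAlgebra R (-1) (-1))) (m n : Fin 4 → R) :
    actR g (m + n) = actR g m + actR g n := by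
  rw [actR, hermR_add, Matrix.mul_add, Matrix.add_mul]
  ext i; fin_cases i <;> simp [actR, unhermR]

theorem actR_smul (g : GL (Fin 2) (QuadraticAlgebra R (-1) (-1))) (c : R) (m : Fin 4 → R) :
    actR g (c • m) = c • actR g m := by
  rw [actR, hermR_smul, Matrix.mul_smul, Matrix.smul_mul]
  ext i; fin_cases i <;> simp [actR, unhermR]

theorem actR_inv_cancel (g : GL (Fin 2) (QuadraticAlgebra R (-1) (-1))) (m : Fin 4 → R) :
    actR g⁻¹ (actR g m) = m := by rw [← actR_mul, inv_mul_cancel, actR_one]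

/-- The permutation of vectors given by `g`. -/
def actEquiv (g : GL (Fin 2) (QuadraticAlgebra R (-1) (-1))) : (Fin 4 → R) ≃ (Fin 4 → R) where
  toFun := actR g
  invFun := actR g⁻¹
  left_inv := actR_inv_cancel g
  right_inv m := by simpa using actR_inv_cancel g⁻¹ m

/-- The quadratic form `N b - m₀ m₁`. -/
def quadR (m : Fin 4 → R) : R := m 2 ^ 2 - m 2 * m 3 + m 3 ^ 2 - m 0 * m 1

/-- Its polar form. -/
def bilR (m n : Fin 4 → R) : R :=
  -(m 0 * n 1 + m 1 * n 0) + (2 * (m 2 * n 2) - (m 2 * n 3 + m 3 * n 2) + 2 * (m 3 * n 3))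

theorem quadR_add (m n : Fin 4 → R) : quadR (m + n) = quadR m + bilR m n + quadR n := by
  simp [quadR, bilR]; ring

theorem bilR_comm (m n : Fin 4 → R) : bilR m n = bilR n m := by simp [bilR]; ring

theorem bilR_add_left (m m' n : Fin 4 → R) : bilR (m + m') n = bilR m n + bilR m' n := by
  simp [bilR]; ring

theorem bilR_smul_left (c : R) (m n : Fin 4 → R) : bilR (c • m) n = c * bilR m n := by
  simp [bilR]; ring

theorem quadR_smul (c : R) (m : Fin 4 → R) : quadR (c • m) = c ^ 2 * quadR m := by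
  simp [quadR]; ring

theorem det_hermR (m : Fin 4 → R) : (hermR m).det = ⟨-quadR m, 0⟩ := by
  ext <;> simp [hermR, quadR, det_fin_two] <;> ring

/-- A change of coefficients. -/
def mapQ {S : Type*} [CommRing S] (f : R →+* S) :
    QuadraticAlgebra R (-1) (-1) →+* QuadraticAlgebra S (-1) (-1) where
  toFun x := ⟨f x.re, f x.im⟩
  map_one' := by ext <;> simp [QuadraticAlgebra.re_one, QuadraticAlgebra.im_one]
  map_mul' x y := by ext <;> simp
  map_zero' := by ext <;> simp
  map_add' x y := by ext <;> simp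

theorem actR_map {S : Type*} [CommRing S] (f : R →+* S)
    (g : GL (Fin 2) (QuadraticAlgebra R (-1) (-1))) (m : Fin 4 → R) :
    f ∘ actR g m = actR (GeneralLinearGroup.map (mapQ f) g) (f ∘ m) := by
  ext i
  fin_cases i <;>
    simp [actR, unhermR, hermR, mapQ, GeneralLinearGroup.map, Matrix.mul_apply, Fin.sum_univ_two,
      Matrix.conjTranspose_apply]

end Ring

theorem norm_det_go (γ : GO) : (γ.val.det).norm = 1 := by
  have hu : IsUnit γ.val.det := (Matrix.isUnit_iff_isUnit_det _).1 γ.isUnit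
  rcases Int.isUnit_iff.1 (QuadraticAlgebra.isUnit_iff_norm_isUnit.1 hu) with h | h
  · exact h
  · have := norm_nonneg' γ.val.det
    omega

theorem quadR_actR (γ : GO) (m : Fin 4 → ℤ) : quadR (actR γ m) = quadR m := by
  have h := det_hermR (actR γ m)
  rw [hermR_actR, det_mul, det_mul, det_conjTranspose, det_hermR] at h
  rw [mul_right_comm, ← QuadraticAlgebra.algebraMap_norm_eq_mul_star, norm_det_go, map_one,
    one_mul] at h
  simpa using (congrArg QuadraticAlgebra.re h).symm

theorem bilR_actR (γ : GO) (m n : Fin 4 → ℤ) : bilR (actR γ m) (actR γ n) = bilR m n := by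
  have h := quadR_add (actR γ m) (actR γ n)
  rw [← actR_add, quadR_actR, quadR_actR, quadR_actR, quadR_add] at h
  linarith

/-- An integral vector as a real one. -/
def realV (m : Fin 4 → ℤ) : Fin 4 → ℝ := fun i ↦ (m i : ℝ)

theorem quad_realV (m : Fin 4 → ℤ) : quad (realV m) = (quadR m : ℤ) := by
  simp [quad, quadR, realV]

theorem hermV_realV (m : Fin 4 → ℤ) : hermV (realV m) = (hermR m).map embC := by
  ext i j
  fin_cases i <;> fin_cases j <;> simp [hermV, hermR, realV, embC_apply, omegaC]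
  apply Complex.ext <;> simp
  ring

theorem actV_toC (γ : GO) (m : Fin 4 → ℤ) : actV (toC γ) (realV m) = realV (actR γ m) := by
  rw [← unherm_hermV (realV (actR γ m)), actV, conjAct, norm_det_toC, hermV_realV, hermV_realV,
    hermR_actR, Matrix.map_mul, Matrix.map_mul, toC_val]
  congr 1
  rw [inv_one, Complex.ofReal_one, one_smul]
  congr 1
  ext i j
  simp [Matrix.conjTranspose_apply, embC_star]

/-- The Gaussian attached to a vector. -/
def gterm (τ : ℂ) (V : Fin 4 → ℝ) (p : H3) : ℂ :=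
  Complex.exp (2 * Real.pi * Complex.I * τ.re * quad V - 2 * Real.pi * τ.im * maj V p)

theorem norm_gterm (τ : ℂ) (V : Fin 4 → ℝ) (p : H3) :
    ‖gterm τ V p‖ = Real.exp (-(2 * Real.pi * τ.im * maj V p)) := by
  simp [gterm, Complex.norm_exp]

/-- Coefficients of a theta kernel: weights `W h m` on vectors `m / r`, periodic modulo `D`,
equivariant under `GO`. -/
structure Datum (N : ℕ) where
  /-- denominator of the vectors -/
  r : ℕ
  /-- period -/
  D : ℕ
  /-- the weights -/
  W : GN N → (Fin 4 → ℤ) → ℂ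
  r_pos : 0 < r
  D_pos : 0 < D
  r_dvd : r ∣ D
  periodic : ∀ h m k, W h (m + (D : ℤ) • k) = W h m
  equivariant : ∀ (γ : GO) h m, W (toN N γ * h) (actR γ m) = W h m

/-- The scaled vector `m / r`. -/
def Datum.vec {N : ℕ} (d : Datum N) (m : Fin 4 → ℤ) : Fin 4 → ℝ := (1 / (d.r : ℝ)) • realV m

theorem Datum.actV_vec {N : ℕ} (d : Datum N) (γ : GO) (m : Fin 4 → ℤ) :
    actV (toC γ) (d.vec m) = d.vec (actR γ m) := by
  rw [Datum.vec, actV_smul, actV_toC]; rfl

theorem Datum.exists_bound {N : ℕ} [NeZero N] (d : Datum N) :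
    ∃ C, 0 ≤ C ∧ ∀ h m, ‖d.W h m‖ ≤ C := by
  have : NeZero d.D := ⟨d.D_pos.ne'⟩
  let f : GN N × (Fin 4 → ZMod d.D) → ℂ := fun x ↦ d.W x.1 (fun i ↦ ((x.2 i).val : ℤ))
  obtain ⟨C, hC⟩ := (Set.finite_range fun x ↦ ‖f x‖).bddAbove
  refine ⟨max C 0, le_max_right _ _, fun h m ↦ le_trans ?_ (le_max_left _ _)⟩
  have e : m = (fun i ↦ (((m i : ℤ) : ZMod d.D).val : ℤ)) + (d.D : ℤ) • fun i ↦ m i / d.D := by
    ext i
    simp only [Pi.add_apply, Pi.smul_apply, smul_eq_mul]
    rw [ZMod.val_intCast, Int.emod_add_mul_ediv]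
  rw [e, d.periodic]
  exact hC ⟨(h, fun i ↦ (m i : ZMod d.D)), rfl⟩

end FermatAgent.LT.Lift
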