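import Mathlib

/-!
# Poisson summation on `ι → ℝ`
-/

set_option autoImplicit false

noncomputable section

open MeasureTheory UnitAddTorus Topology

namespace FermatAgent.LT.Lift

variable {ι : Type*} [Fintype ι]

/-- An integral vector as a real one. -/
def castV (k : ι → ℤ) : ι → ℝ := fun i ↦ (k i : ℝ)

/-- `exp (2 π i ⟨k, x⟩)`. -/
def addChar (k : ι → ℤ) (x : ι → ℝ) : ℂ :=
  Complex.exp (2 * Real.pi * Complex.I * ((∑ i, (k i : ℝ) * x i : ℝ) : ℂ))

/-- The Fourier transform at an integral vector. -/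
def fourierHat (f : (ι → ℝ) → ℂ) (k : ι → ℤ) : ℂ := ∫ x, addChar (-k) x * f x

theorem mFourier_coe (k : ι → ℤ) (x : ι → ℝ) :
    mFourier k (fun i ↦ (x i : UnitAddCircle)) = addChar k x := by
  show ∏ i, fourier (k i) (x i : UnitAddCircle) = _
  rw [addChar]
  push_cast
  rw [Finset.mul_sum, Complex.exp_sum]
  refine Finset.prod_congr rfl fun i _ ↦ ?_
  rw [fourier_coe_apply]
  congr 1
  push_cast
  ring

theorem addChar_add_castV (k n : ι → ℤ) (x : ι → ℝ) :
    addChar k (x + castV n) = addChar k x := by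
  rw [← mFourier_coe, ← mFourier_coe]
  congr 1
  ext i
  simp [castV]

theorem norm_addChar (k : ι → ℤ) (x : ι → ℝ) : ‖addChar k x‖ = 1 := by
  rw [addChar, Complex.norm_exp]
  simp

theorem continuous_addChar (k : ι → ℤ) : Continuous (addChar (ι := ι) k) := by
  unfold addChar; fun_prop

/-- The unit cube. -/
def cube : Set (ι → ℝ) := {x | ∀ i, x i ∈ Set.Ioc (0 : ℝ) (0 + 1)}

theorem measurableSet_cube : MeasurableSet (cube (ι := ι)) :=
  MeasurableSet.univ_pi' fun _ ↦ measurableSet_Ioc

omit [Fintype ι] in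
theorem cube_subset_Icc : cube (ι := ι) ⊆ Set.Icc (fun _ ↦ 0) (fun _ ↦ 1) :=
  fun _ hx ↦ ⟨fun i ↦ (hx i).1.le, fun i ↦ by simpa using (hx i).2⟩

theorem volume_cube_ne_top : volume (cube (ι := ι)) ≠ ⊤ :=
  ((measure_mono cube_subset_Icc).trans_lt isCompact_Icc.measure_lt_top).ne

omit [Fintype ι] in
theorem existsUnique_cube (x : ι → ℝ) : ∃! n : ι → ℤ, x + castV n ∈ cube := by
  refine ⟨fun i ↦ 1 - ⌈x i⌉, fun i ↦ ?_, fun n hn ↦ funext fun i ↦ ?_⟩
  · simp only [castV, Pi.add_apply, Int.cast_sub, Int.cast_one, zero_add, Set.mem_Ioc]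
    constructor <;> linarith [Int.le_ceil (x i), Int.ceil_lt_add_one (x i)]
  · have h := hn i
    simp only [castV, Pi.add_apply, zero_add, Set.mem_Ioc] at h
    have e : ⌈x i⌉ = 1 - n i := by
      rw [Int.ceil_eq_iff]; push_cast; constructor <;> linarith
    omega

omit [Fintype ι] in
theorem tsum_indicator_cube (x : ι → ℝ) (c : ℂ) :
    ∑' n : ι → ℤ, cube.indicator (fun _ ↦ c) (x + castV n) = c := by
  obtain ⟨n, hn, huniq⟩ := existsUnique_cube x
  rw [tsum_eq_single n fun m hm ↦ Set.indicator_of_notMem (fun h ↦ hm (huniq m h)) _,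
    Set.indicator_of_mem hn]

/-- Local uniform summability of the translates. -/
def LocSummable (f : C(ι → ℝ, ℂ)) : Prop :=
  ∀ K : Set (ι → ℝ), IsCompact K →
    ∃ u : (ι → ℤ) → ℝ, Summable u ∧ ∀ n : ι → ℤ, ∀ x ∈ K, ‖f (x + castV n)‖ ≤ u n

/-- The periodisation. -/
def periodize (f : C(ι → ℝ, ℂ)) (x : ι → ℝ) : ℂ := ∑' n : ι → ℤ, f (x + castV n)

theorem continuous_periodize {f : C(ι → ℝ, ℂ)} (hf : LocSummable f) :
    Continuous (periodize f) := by
  refine continuous_iff_continuousAt.2 fun x ↦ ?_
  obtain ⟨K, hK, hx⟩ := exists_compact_mem_nhds x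
  obtain ⟨u, hu, hb⟩ := hf K hK
  refine (continuousOn_tsum (fun n ↦ (f.continuous.comp (continuous_id.add continuous_const)
    ).continuousOn) hu hb).continuousAt hx

omit [Fintype ι] in
theorem periodize_add (f : C(ι → ℝ, ℂ)) (x : ι → ℝ) (m : ι → ℤ) :
    periodize f (x + castV m) = periodize f x := by
  unfold periodize
  refine Eq.trans ?_ ((Equiv.addLeft m).tsum_eq (fun n ↦ f (x + castV n)))
  refine tsum_congr fun n ↦ ?_
  congr 1
  ext i
  simp [castV, Equiv.addLeft]
  ring

/-- The projection to the torus. -/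
def toTorus (x : ι → ℝ) : UnitAddTorus ι := fun i ↦ (x i : UnitAddCircle)

omit [Fintype ι] in
theorem isQuotientMap_toTorus : IsQuotientMap (toTorus (ι := ι)) :=
  (IsOpenQuotientMap.piMap fun _ : ι ↦
    (QuotientAddGroup.isOpenQuotientMap_mk (N := AddSubgroup.zmultiples (1 : ℝ)))).isQuotientMap

/-- The periodisation on the torus. -/
def periodizeT (f : C(ι → ℝ, ℂ)) (t : UnitAddTorus ι) : ℂ :=
  periodize f (fun i ↦ (AddCircle.equivIoc 1 0 (t i) : ℝ))

omit [Fintype ι] in
theorem periodizeT_toTorus (f : C(ι → ℝ, ℂ)) (x : ι → ℝ) :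
    periodizeT f (toTorus x) = periodize f x := by
  have h : ∀ i, ∃ m : ℤ, (AddCircle.equivIoc 1 0 (x i : UnitAddCircle) : ℝ) = x i + m := by
    intro i
    have : ((AddCircle.equivIoc 1 0 (x i : UnitAddCircle) : ℝ) : UnitAddCircle) = x i :=
      (AddCircle.equivIoc 1 0).symm_apply_apply _
    obtain ⟨m, hm⟩ := AddSubgroup.mem_zmultiples_iff.1 ((QuotientAddGroup.eq).1 this.symm)
    exact ⟨m, by simp at hm; linarith⟩
  choose m hm using h
  unfold periodizeT toTorus
  rw [show (fun i ↦ (AddCircle.equivIoc 1 0 (x i : UnitAddCircle) : ℝ)) = x + castV m from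
    funext hm, periodize_add]

theorem continuous_periodizeT {f : C(ι → ℝ, ℂ)} (hf : LocSummable f) :
    Continuous (periodizeT f) := by
  rw [isQuotientMap_toTorus.continuous_iff]
  simpa [Function.comp_def, periodizeT_toTorus] using continuous_periodize hf

theorem integrable_of_locSummable {f : C(ι → ℝ, ℂ)} (hf : LocSummable f) :
    Integrable f := by
  obtain ⟨u, hu, hb⟩ := hf _ (isCompact_Icc (a := fun _ : ι ↦ (0 : ℝ)) (b := fun _ ↦ 1))
  refine ⟨f.continuous.aestronglyMeasurable, ?_⟩
  have key : ∀ x : ι → ℝ, ‖f x‖ₑ =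
      ∑' n : ι → ℤ, cube.indicator (fun y ↦ ‖f (y - castV n)‖ₑ) (x + castV n) := by
    intro x
    obtain ⟨n, hn, huniq⟩ := existsUnique_cube x
    rw [tsum_eq_single n fun m hm ↦ Set.indicator_of_notMem (fun h ↦ hm (huniq m h)) _,
      Set.indicator_of_mem hn, add_sub_cancel_right]
  have hm : ∀ n : ι → ℤ, Measurable fun y ↦ cube.indicator (fun y ↦ ‖f (y - castV n)‖ₑ) y :=
    fun n ↦ Measurable.indicator (by fun_prop) measurableSet_cube
  rw [hasFiniteIntegral_iff_enorm, lintegral_congr key,
    lintegral_tsum (f := fun (n : ι → ℤ) x ↦ cube.indicator (fun y ↦ ‖f (y - castV n)‖ₑ) (x + castV n))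
      fun n ↦ ((hm n).comp (measurable_add_const (castV n))).aemeasurable]
  rw [tsum_congr fun n : ι → ℤ ↦ (lintegral_add_right_eq_self
    (fun y ↦ cube.indicator (fun y ↦ ‖f (y - castV n)‖ₑ) y) (castV n)).trans
    (lintegral_indicator measurableSet_cube _)]
  refine lt_of_le_of_lt (ENNReal.tsum_le_tsum fun n : ι → ℤ ↦
    (setLIntegral_mono' (f := fun y ↦ ‖f (y - castV n)‖ₑ) measurableSet_cube fun y hy ↦
      show ‖f (y - castV n)‖ₑ ≤ ENNReal.ofReal (u (-n)) from ?_)) ?_
  · rw [← ofReal_norm]
    refine ENNReal.ofReal_le_ofReal ?_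
    have := hb (-n) y (cube_subset_Icc hy)
    rwa [show y + castV (-n) = y - castV n by
      ext i; simp [castV, sub_eq_add_neg]] at this
  · have hunn : ∀ n, 0 ≤ u n := fun n ↦
      (norm_nonneg _).trans (hb n (fun _ ↦ 0) ⟨le_rfl, fun _ ↦ zero_le_one⟩)
    have hu' : Summable fun n : ι → ℤ ↦ u (-n) := (Equiv.neg (ι → ℤ)).summable_iff.2 hu
    simp only [setLIntegral_const, ENNReal.tsum_mul_right]
    refine ENNReal.mul_lt_top ?_ volume_cube_ne_top.lt_top
    rw [← ENNReal.ofReal_tsum_of_nonneg (fun n ↦ hunn _) hu']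
    exact ENNReal.ofReal_lt_top

theorem mFourierCoeff_periodizeT {f : C(ι → ℝ, ℂ)} (hf : LocSummable f) (k : ι → ℤ) :
    mFourierCoeff (periodizeT f) k = fourierHat f k := by
  obtain ⟨u, hu, hb⟩ := hf _ (isCompact_Icc (a := fun _ : ι ↦ (0 : ℝ)) (b := fun _ ↦ 1))
  have hint := integrable_of_locSummable hf
  have hgi : Integrable fun x ↦ addChar (-k) x * f x :=
    hint.bdd_mul (c := 1) (continuous_addChar _).aestronglyMeasurable
      (.of_forall fun x ↦ (norm_addChar _ x).le)
  rw [mFourierCoeff_eq_integral _ _ (fun _ ↦ 0)]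
  show ∫ x in cube, _ = _
  simp only [smul_eq_mul, mFourier_coe]
  simp only [show ∀ x : ι → ℝ, (fun i ↦ (x i : UnitAddCircle)) = toTorus x from fun x ↦ rfl,
    periodizeT_toTorus, periodize, ← tsum_mul_left]
  rw [← integral_tsum_of_summable_integral_norm (F := fun n x ↦ addChar (-k) x * f (x + castV n))]
  · rw [fourierHat]
    have e : ∀ n : ι → ℤ, ∫ x in cube, addChar (-k) x * f (x + castV n) =
        ∫ x, cube.indicator (fun _ ↦ (1 : ℂ)) (x + castV (-n)) * (addChar (-k) x * f x) := by
      intro n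
      rw [← integral_add_right_eq_self (fun x ↦ cube.indicator (fun _ ↦ (1 : ℂ)) (x + castV (-n)) *
        (addChar (-k) x * f x)) (castV n), ← integral_indicator measurableSet_cube]
      refine integral_congr_ae (.of_forall fun x ↦ ?_)
      have : x + castV n + castV (-n) = x := by ext i; simp [castV]
      simp only [this, addChar_add_castV]
      by_cases hx : x ∈ cube <;> simp [hx]
    simp only [e]
    rw [integral_tsum_of_summable_integral_norm]
    · refine integral_congr_ae (.of_forall fun x ↦ ?_)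
      simp only
      rw [tsum_mul_right, show ∑' n : ι → ℤ, cube.indicator (fun _ ↦ (1 : ℂ)) (x + castV (-n)) =
        1 from ((Equiv.neg (ι → ℤ)).tsum_eq
          (fun n ↦ cube.indicator (fun _ ↦ (1 : ℂ)) (x + castV n))).trans (tsum_indicator_cube x 1),
        one_mul]
    · intro n
      refine Integrable.bdd_mul (c := 1) hgi ?_ (.of_forall fun x ↦ ?_)
      · exact ((measurable_const.indicator measurableSet_cube).comp
          (measurable_add_const _)).aestronglyMeasurable
      · by_cases hx : x + castV (-n) ∈ cube <;> simp [hx]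
    · refine Summable.of_nonneg_of_le (fun n ↦ integral_nonneg fun x ↦ norm_nonneg _)
        (fun n ↦ ?_) ((hu.mul_right (volume (cube (ι := ι))).toReal))
      calc ∫ x, ‖cube.indicator (fun _ ↦ (1 : ℂ)) (x + castV (-n)) * (addChar (-k) x * f x)‖
          = ∫ x, cube.indicator (fun y ↦ ‖f (y + castV n)‖) (x + castV (-n)) := by
            refine integral_congr_ae (.of_forall fun x ↦ ?_)
            simp only [norm_mul, norm_addChar, one_mul]
            by_cases hx : x + castV (-n) ∈ cube
            · simp only [Set.indicator_of_mem hx, norm_one, one_mul]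
              congr 2; ext i; simp [castV]
            · simp [hx]
        _ = ∫ x in cube, ‖f (x + castV n)‖ := by
            rw [integral_add_right_eq_self (fun x ↦ cube.indicator _ x),
              integral_indicator measurableSet_cube]
        _ ≤ ∫ x in cube, u n :=
            setIntegral_mono_on ((hint.norm.comp_add_right _).integrableOn)
              (integrableOn_const volume_cube_ne_top) measurableSet_cube
              fun x hx ↦ hb n x (cube_subset_Icc hx)
        _ = u n * (volume (cube (ι := ι))).toReal := by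
            rw [setIntegral_const, smul_eq_mul, mul_comm, Measure.real]
  · exact fun n ↦ ((hint.comp_add_right _).bdd_mul (c := 1)
      (continuous_addChar _).aestronglyMeasurable
      (.of_forall fun x ↦ (norm_addChar _ x).le)).integrableOn
  · refine Summable.of_nonneg_of_le (fun n ↦ integral_nonneg fun x ↦ norm_nonneg _)
      (fun n ↦ ?_) (hu.mul_right (volume (cube (ι := ι))).toReal)
    simp only [norm_mul, norm_addChar, one_mul]
    calc ∫ x in cube, ‖f (x + castV n)‖ ≤ ∫ x in cube, u n :=
          setIntegral_mono_on ((hint.norm.comp_add_right _).integrableOn)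
            (integrableOn_const volume_cube_ne_top) measurableSet_cube
            fun x hx ↦ hb n x (cube_subset_Icc hx)
      _ = u n * (volume (cube (ι := ι))).toReal := by
          rw [setIntegral_const, smul_eq_mul, mul_comm, Measure.real]

/-- Poisson summation. -/
theorem tsum_eq_tsum_fourierHat {f : C(ι → ℝ, ℂ)} (hf : LocSummable f)
    (hs : Summable (fourierHat f)) (x : ι → ℝ) :
    ∑' n : ι → ℤ, f (x + castV n) = ∑' k : ι → ℤ, fourierHat f k * addChar k x := by
  have h : Summable (mFourierCoeff (periodizeT f)) := by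
    simpa only [funext (mFourierCoeff_periodizeT hf)] using hs
  have := (hasSum_mFourier_series_apply_of_summable
    (f := ⟨periodizeT f, continuous_periodizeT hf⟩) h (toTorus x)).tsum_eq
  simp only [ContinuousMap.coe_mk, periodizeT_toTorus, smul_eq_mul] at this
  simp only [mFourierCoeff_periodizeT hf] at this
  rw [show toTorus x = fun i ↦ (x i : UnitAddCircle) from rfl] at this
  simp only [mFourier_coe] at this
  exact this.symm

end FermatAgent.LT.Lift
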