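import Mathlib
import Fermat.Agent.LT.Lift.Lattice
import Fermat.Agent.LT.Lift.Poisson

/-!
# Fourier transform of the Gaussians `gterm`
-/

set_option autoImplicit false

noncomputable section

open MeasureTheory ComplexConjugate

namespace FermatAgent.LT.Lift

/-- The action as a linear map. -/
def actL (g : GL (Fin 2) ℂ) : (Fin 4 → ℝ) →ₗ[ℝ] (Fin 4 → ℝ) where
  toFun := actV g
  map_add' := actV_add g
  map_smul' := actV_smul g

/-- The polar form of `quad`. -/
def bil (V W : Fin 4 → ℝ) : ℝ :=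
  -(V 0 * W 1 + V 1 * W 0) + (2 * (V 2 * W 2) - (V 2 * W 3 + V 3 * W 2) + 2 * (V 3 * W 3))

theorem bil_eq (V W : Fin 4 → ℝ) : bil V W = quad (V + W) - quad V - quad W := by
  simp [bil, quad]; ring

theorem bil_actV (g : GL (Fin 2) ℂ) (V W : Fin 4 → ℝ) :
    bil (actV g V) (actV g W) = bil V W := by
  rw [bil_eq, bil_eq, ← actV_add, quad_actV, quad_actV, quad_actV]

/-- The gram matrix of `bil`. -/
def gram : Matrix (Fin 4) (Fin 4) ℝ :=
  !![0, -1, 0, 0; -1, 0, 0, 0; 0, 0, 2, -1; 0, 0, -1, 2]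

theorem bil_eq_gram (V W : Fin 4 → ℝ) : bil V W = dotProduct V (gram.mulVec W) := by
  simp [bil, gram, dotProduct, Matrix.mulVec, Fin.sum_univ_four]
  ring

theorem det_gram_ne_zero : gram.det ≠ 0 := by
  simp [gram, Matrix.det_succ_row_zero, Fin.sum_univ_succ, Fin.succAbove]
  norm_num

theorem abs_det_actL (g : GL (Fin 2) ℂ) : |LinearMap.det (actL g)| = 1 := by
  set A := LinearMap.toMatrix' (actL g) with hA
  have hmv : ∀ V, A.mulVec V = actV g V := fun V ↦ by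
    rw [hA, LinearMap.toMatrix'_mulVec]; rfl
  have h : A.transpose * gram * A = gram := by
    have key : ∀ V W : Fin 4 → ℝ,
        dotProduct V ((A.transpose * gram * A).mulVec W) = dotProduct V (gram.mulVec W) := by
      intro V W
      rw [← Matrix.mulVec_mulVec, ← Matrix.mulVec_mulVec, Matrix.dotProduct_mulVec,
        Matrix.vecMul_transpose, hmv, hmv, ← bil_eq_gram, ← bil_eq_gram, bil_actV]
    ext i j
    have := key (Pi.single i 1) (Pi.single j 1)
    simpa using this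
  have hd := congrArg Matrix.det h
  rw [Matrix.det_mul, Matrix.det_mul, Matrix.det_transpose] at hd
  have hA' : A.det * A.det = 1 := by
    refine mul_right_cancel₀ det_gram_ne_zero ?_
    rw [one_mul]
    linear_combination hd
  rw [← LinearMap.det_toMatrix', ← hA]
  exact (abs_eq_abs.2 (mul_self_eq_one_iff.1 hA')).trans abs_one

/-- Separating coordinates at the base point. -/
def sepL : (Fin 4 → ℝ) →ₗ[ℝ] (Fin 4 → ℝ) :=
  Matrix.toLin' !![1, 1, 0, 0; 1, -1, 0, 0; 0, 0, 1, -(1 / 2); 0, 0, 0, √3 / 2]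

theorem sepL_apply (V : Fin 4 → ℝ) :
    sepL V = ![V 0 + V 1, V 0 - V 1, V 2 - V 3 / 2, V 3 * (√3 / 2)] := by
  ext i
  fin_cases i <;>
    simp [sepL, Matrix.toLin'_apply, Matrix.mulVec, dotProduct, Fin.sum_univ_four] <;> ring

theorem abs_det_sepL : |LinearMap.det sepL| = √3 := by
  rw [sepL, LinearMap.det_toLin']
  simp [Matrix.det_succ_row_zero, Fin.sum_univ_succ, Fin.succAbove]
  rw [abs_of_nonpos (by nlinarith [Real.sqrt_nonneg 3])]
  ring

/-- Separating coordinates at `p`. -/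
def coordL (p : H3) : (Fin 4 → ℝ) →ₗ[ℝ] (Fin 4 → ℝ) := sepL ∘ₗ actL (trans p)⁻¹

theorem abs_det_coordL (p : H3) : |LinearMap.det (coordL p)| = √3 := by
  rw [coordL, LinearMap.det_comp, abs_mul, abs_det_sepL, abs_det_actL, mul_one]

theorem det_coordL_ne_zero (p : H3) : LinearMap.det (coordL p) ≠ 0 := fun h ↦ by
  have := abs_det_coordL p
  rw [h, abs_zero] at this
  have : (0 : ℝ) < √3 := by positivity
  linarith

/-- Weights of the separating coordinates. -/
def wA : Fin 4 → ℝ := ![1 / 4, 1 / 4, 1, 1]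

/-- Signs of the separating coordinates. -/
def wS : Fin 4 → ℝ := ![-1, 1, 1, 1]

theorem wA_pos (i : Fin 4) : 0 < wA i := by fin_cases i <;> simp [wA]

theorem maj_eq_sum (V : Fin 4 → ℝ) (p : H3) :
    maj V p = ∑ i, wA i * coordL p V i ^ 2 := by
  conv_lhs => rw [← trans_smul p, ← maj_smul (trans p)⁻¹, inv_smul_smul, maj_origin]
  have h : (√3 : ℝ) * √3 = 3 := Real.mul_self_sqrt (by norm_num)
  simp only [coordL, LinearMap.comp_apply, sepL_apply, Fin.sum_univ_four, wA]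
  simp only [actL, LinearMap.coe_mk, AddHom.coe_mk, Matrix.cons_val_zero, Matrix.cons_val_one,
    Matrix.cons_val]
  set W := actV (trans p)⁻¹ V
  linear_combination (-(W 3) ^ 2 / 4) * h

theorem quad_eq_sum (V : Fin 4 → ℝ) (p : H3) :
    quad V = ∑ i, wS i * wA i * coordL p V i ^ 2 := by
  conv_lhs => rw [← quad_actV (trans p)⁻¹ V]
  have h : (√3 : ℝ) * √3 = 3 := Real.mul_self_sqrt (by norm_num)
  simp only [coordL, LinearMap.comp_apply, sepL_apply, Fin.sum_univ_four, wA, wS]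
  simp only [actL, LinearMap.coe_mk, AddHom.coe_mk, Matrix.cons_val_zero, Matrix.cons_val_one,
    Matrix.cons_val, quad]
  set W := actV (trans p)⁻¹ V
  linear_combination (-(W 3) ^ 2 / 4) * h

theorem bil_eq_sum (V W : Fin 4 → ℝ) (p : H3) :
    bil V W = 2 * ∑ i, wS i * wA i * coordL p V i * coordL p W i := by
  rw [bil_eq, quad_eq_sum _ p, quad_eq_sum _ p, quad_eq_sum _ p, ← Finset.sum_sub_distrib,
    ← Finset.sum_sub_distrib, Finset.mul_sum]
  refine Finset.sum_congr rfl fun i _ ↦ ?_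
  simp only [map_add, Pi.add_apply]
  ring

/-- The complex width in the `i`-th coordinate. -/
def width (τ : ℂ) (i : Fin 4) : ℂ := 2 * Real.pi * wA i * (τ.im - Complex.I * wS i * τ.re)

theorem width_re (τ : ℂ) (i : Fin 4) : (width τ i).re = 2 * Real.pi * wA i * τ.im := by
  simp [width]

theorem gterm_eq_width (τ : ℂ) (V : Fin 4 → ℝ) (p : H3) :
    gterm τ V p = Complex.exp (-∑ i, width τ i * (coordL p V i : ℂ) ^ 2) := by
  rw [gterm, maj_eq_sum, quad_eq_sum V p]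
  congr 1
  push_cast
  rw [Finset.mul_sum, Finset.mul_sum, ← Finset.sum_sub_distrib, ← Finset.sum_neg_distrib]
  refine Finset.sum_congr rfl fun i _ ↦ ?_
  simp only [width]
  ring

/-- The dual vector of a functional: `bil (dualV k) x = ∑ k i x i`. -/
def dualV (k : Fin 4 → ℤ) : Fin 4 → ℝ :=
  ![-(k 1 : ℝ), -(k 0 : ℝ), (2 * k 2 + k 3) / 3, (k 2 + 2 * k 3) / 3]

theorem bil_dualV (k : Fin 4 → ℤ) (x : Fin 4 → ℝ) :
    bil (dualV k) x = ∑ i, (k i : ℝ) * x i := by
  simp [bil, dualV, Fin.sum_univ_four]; ring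

theorem cpow_half_prod {b : ℂ} (hb : 0 < b.re) :
    (conj b) ^ (1 / 2 : ℂ) * b ^ (1 / 2 : ℂ) = (‖b‖ : ℂ) := by
  have harg : b.arg ≠ Real.pi := fun h ↦ by
    rw [Complex.arg_eq_pi_iff] at h; linarith
  have h2 : conj (1 / 2 : ℂ) = 1 / 2 := by simp [Complex.conj_ofNat]
  rw [Complex.conj_cpow _ _ harg, h2, mul_comm, Complex.mul_conj, Complex.normSq_eq_norm_sq,
    ← norm_pow, ← Complex.cpow_nat_mul]
  norm_num

theorem fourierHat_gterm {τ : ℂ} (hτ : 0 < τ.im) (p : H3) {c : ℝ} (hc : 0 < c) (k : Fin 4 → ℤ) :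
    fourierHat (fun x ↦ gterm τ (c • x) p) k =
      Complex.I / ((√3 * ‖τ‖ * c ^ 4 : ℝ) * τ) * gterm (-1 / τ) (c⁻¹ • dualV k) p := by
  set T : (Fin 4 → ℝ) →ₗ[ℝ] (Fin 4 → ℝ) := coordL p ∘ₗ (c • LinearMap.id)
  have hT : |LinearMap.det T| = √3 * c ^ 4 := by
    rw [LinearMap.det_comp, abs_mul, abs_det_coordL, LinearMap.det_smul, LinearMap.det_id,
      mul_one, Module.finrank_fin_fun, abs_of_pos (pow_pos hc 4)]
  have hT0 : LinearMap.det T ≠ 0 := fun h ↦ by
    rw [h, abs_zero] at hT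
    have : (0 : ℝ) < √3 * c ^ 4 := by positivity
    linarith
  set U := coordL p (c⁻¹ • dualV k)
  set cc : Fin 4 → ℂ := fun i ↦ -(4 * Real.pi * Complex.I * wS i * wA i * U i)
  set G : (Fin 4 → ℝ) → ℂ := fun u ↦
    Complex.exp (-∑ i, width τ i * (u i : ℂ) ^ 2 + ∑ i, cc i * u i)
  have e : ∀ x, addChar (-k) x * gterm τ (c • x) p = G (T x) := by
    intro x
    have h1 : (∑ i, (k i : ℝ) * x i) = 2 * ∑ i, wS i * wA i * U i * T x i := by
      rw [← bil_dualV, show T x = coordL p (c • x) from rfl, ← bil_eq_sum]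
      have : ∀ V W : Fin 4 → ℝ, bil (c⁻¹ • V) (c • W) = bil V W := fun V W ↦ by
        simp [bil]; field_simp
      exact (this _ _).symm
    rw [gterm_eq_width, addChar, ← Complex.exp_add, show G (T x) = Complex.exp
      (-∑ i, width τ i * (T x i : ℂ) ^ 2 + ∑ i, cc i * T x i) from rfl, add_comm]
    congr 1
    congr 1
    have h2 : (∑ i, ((-k) i : ℝ) * x i) = -(2 * ∑ i, wS i * wA i * U i * T x i) := by
      rw [← h1, ← Finset.sum_neg_distrib]
      refine Finset.sum_congr rfl fun i _ ↦ by simp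
    rw [h2]
    simp only [cc]
    push_cast
    rw [Finset.mul_sum, ← Finset.sum_neg_distrib, Finset.mul_sum]
    exact Finset.sum_congr rfl fun i _ ↦ by ring
  have hb : ∀ i, 0 < (width τ i).re := fun i ↦ by
    rw [width_re]; have := wA_pos i; positivity
  have hGc : Continuous G := by fun_prop
  rw [fourierHat]
  simp only [e]
  have hmap := Real.map_linearMap_volume_pi_eq_smul_volume_pi hT0
  rw [← integral_map (T.continuous_of_finiteDimensional.measurable.aemeasurable)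
    hGc.aestronglyMeasurable, hmap, integral_smul_measure]
  rw [GaussianFourier.integral_cexp_neg_sum_mul_add hb, Finset.prod_mul_distrib,
    ← Complex.exp_sum, abs_inv, hT, ENNReal.toReal_ofReal (by positivity), gterm_eq_width,
    Complex.real_smul]
  have hτ0 : τ ≠ 0 := fun h ↦ by simp [h] at hτ
  have hn : Complex.normSq τ ≠ 0 := (Complex.normSq_pos.2 hτ0).ne'
  have hexp : ∑ i, cc i ^ 2 / (4 * width τ i) =
      -∑ i, width (-1 / τ) i * (U i : ℂ) ^ 2 := by
    rw [← Finset.sum_neg_distrib]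
    refine Finset.sum_congr rfl fun i _ ↦ ?_
    have hs : wS i ^ 2 = 1 := by fin_cases i <;> simp [wS]
    set β : ℂ := (τ.im : ℂ) - Complex.I * wS i * τ.re with hβdef
    have hβ : β ≠ 0 := fun h ↦ by
      have := congrArg Complex.re h
      simp [β] at this
      linarith
    have hβ' : ((((-1 / τ).im : ℝ) : ℂ) - Complex.I * wS i * ((-1 / τ).re : ℝ)) = 1 / β := by
      rw [eq_div_iff hβ]
      apply Complex.ext <;> simp [β, Complex.div_re, Complex.div_im] <;> field_simp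
      · simp only [Complex.normSq_apply]
        linear_combination (τ.re ^ 2) * hs
      · ring
    have hw : wA i ≠ 0 := (wA_pos i).ne'
    simp only [cc, width, hβ', ← hβdef]
    have hpi : (Real.pi : ℂ) ≠ 0 := by exact_mod_cast Real.pi_ne_zero
    have hwc : (wA i : ℂ) ≠ 0 := by exact_mod_cast hw
    have hsc : (wS i : ℂ) ^ 2 = 1 := by exact_mod_cast congrArg (fun r : ℝ ↦ (r : ℂ)) hs
    clear_value β
    field_simp
    linear_combination (Complex.I ^ 2 * 4 * (U i : ℂ) ^ 2) * hsc +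
      (4 * (U i : ℂ) ^ 2) * Complex.I_sq
  rw [hexp]
  have hprod : ∏ i, ((Real.pi : ℂ) / width τ i) ^ (1 / 2 : ℂ) = Complex.I / ((‖τ‖ : ℂ) * τ) := by
    have h01 : (Real.pi : ℂ) / width τ 0 = conj ((Real.pi : ℂ) / width τ 1) := by
      simp [width, wA, wS, map_div₀, map_ofNat]
    have h23 : width τ 3 = width τ 2 := by simp [width, wA, wS]
    have hb1 : 0 < ((Real.pi : ℂ) / width τ 1).re := by
      rw [Complex.div_re]
      simp only [Complex.ofReal_re, Complex.ofReal_im, zero_mul, zero_div, add_zero]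
      have := hb 1
      have : 0 < Complex.normSq (width τ 1) := Complex.normSq_pos.2 fun h ↦ by simp [h] at this
      positivity
    rw [Fin.prod_univ_four, h01, cpow_half_prod hb1, h23, mul_assoc, ← Complex.cpow_add _ _
      (div_ne_zero (by exact_mod_cast Real.pi_ne_zero) (fun h ↦ by simpa [h] using hb 2))]
    rw [show (1 / 2 : ℂ) + 1 / 2 = 1 by norm_num, Complex.cpow_one]
    have w1 : width τ 1 = -Complex.I * Real.pi * τ / 2 := by
      apply Complex.ext <;> simp [width, wA, wS] <;> ring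
    have w2 : width τ 2 = -(2 * Complex.I * Real.pi * τ) := by
      apply Complex.ext <;> simp [width, wA, wS]
    rw [norm_div, w1, w2]
    simp only [norm_div, norm_mul, norm_neg, Complex.norm_I, one_mul, Complex.norm_real,
      Real.norm_eq_abs, abs_of_pos Real.pi_pos, Complex.norm_ofNat]
    have hnc : (‖τ‖ : ℂ) ≠ 0 := by exact_mod_cast norm_ne_zero_iff.2 hτ0
    push_cast
    have := Real.pi_ne_zero
    field_simp
    linear_combination (-1 : ℂ) * Complex.I_sq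
  rw [hprod]
  push_cast
  field_simp
  simp only [U, one_div]

theorem locSummable_aux {a : ℝ} (ha : 0 < a) :
    Summable fun n : ℤ ↦ Real.exp (-a * (n : ℝ) ^ 2) := by
  refine Summable.of_nonneg_of_le (fun n ↦ (Real.exp_pos _).le)
    (fun n ↦ Real.exp_le_exp.2 (?_ : _ ≤ -a * |(n : ℝ)|)) ?_
  · rcases eq_or_ne n 0 with rfl | hn
    · simp
    · have h1 : (1 : ℝ) ≤ |(n : ℝ)| := by exact_mod_cast Int.one_le_abs hn
      have h2 : |(n : ℝ)| ≤ (n : ℝ) ^ 2 := by nlinarith [sq_abs (n : ℝ)]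
      nlinarith
  · have h : Summable fun n : ℕ ↦ Real.exp (-a * (n : ℝ)) := by
      simpa [mul_comm] using Real.summable_exp_nat_mul_iff.2 (neg_neg_of_pos ha)
    exact Summable.of_nat_of_neg (by simpa using h) (by simpa using h)

theorem summable_pi_prod {g : ℤ → ℝ} (hg : Summable g) (h0 : ∀ n, 0 ≤ g n) :
    ∀ n : ℕ, Summable fun v : Fin n → ℤ ↦ ∏ i, g (v i)
  | 0 => Summable.of_finite
  | n + 1 => by
    rw [← (Fin.consEquiv fun _ ↦ ℤ).summable_iff]
    simpa [Function.comp_def, Fin.prod_univ_succ] using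
      hg.mul_of_nonneg (summable_pi_prod hg h0 n) h0 fun v ↦ Finset.prod_nonneg fun i _ ↦ h0 _

theorem exists_maj_lower (p : H3) : ∃ δ > 0, ∀ V, δ * (∑ i, V i ^ 2) ≤ maj V p := by
  set e := (coordL p).equivOfDetNeZero (det_coordL_ne_zero p)
  set A := (e.symm : (Fin 4 → ℝ) →ₗ[ℝ] (Fin 4 → ℝ)).toContinuousLinearMap
  refine ⟨1 / (16 * (‖A‖ ^ 2 + 1)), by positivity, fun V ↦ ?_⟩
  set U := coordL p V
  have h1 : ‖V‖ ≤ ‖A‖ * ‖U‖ := by
    have hA : A U = V := e.symm_apply_apply V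
    calc ‖V‖ = ‖A U‖ := by rw [hA]
      _ ≤ _ := A.le_opNorm _
  have h2 : ∑ i, V i ^ 2 ≤ 4 * ‖V‖ ^ 2 := by
    calc ∑ i, V i ^ 2 ≤ ∑ _i : Fin 4, ‖V‖ ^ 2 := Finset.sum_le_sum fun i _ ↦ by
          rw [← sq_abs]; exact pow_le_pow_left₀ (abs_nonneg _) (norm_le_pi_norm V i) 2
      _ = 4 * ‖V‖ ^ 2 := by simp
  have h3 : ‖U‖ ≤ √(∑ i, U i ^ 2) :=
    (pi_norm_le_iff_of_nonneg (Real.sqrt_nonneg _)).2 fun i ↦ Real.le_sqrt_of_sq_le (by
      rw [Real.norm_eq_abs, sq_abs]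
      exact Finset.single_le_sum (fun j _ ↦ sq_nonneg (U j)) (Finset.mem_univ i))
  have h0 : 0 ≤ ∑ i, U i ^ 2 := Finset.sum_nonneg fun i _ ↦ sq_nonneg _
  have h4 : ‖U‖ ^ 2 ≤ ∑ i, U i ^ 2 := by
    calc ‖U‖ ^ 2 ≤ √(∑ i, U i ^ 2) ^ 2 := pow_le_pow_left₀ (norm_nonneg _) h3 2
      _ = _ := Real.sq_sqrt h0
  have h5 : (1 / 4 : ℝ) * ∑ i, U i ^ 2 ≤ maj V p := by
    rw [maj_eq_sum, Finset.mul_sum]
    refine Finset.sum_le_sum fun i _ ↦ mul_le_mul_of_nonneg_right ?_ (sq_nonneg _)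
    fin_cases i <;> norm_num [wA]
  have hA2 : 0 ≤ ‖A‖ ^ 2 := sq_nonneg _
  have h6 : ‖V‖ ^ 2 ≤ ‖A‖ ^ 2 * ∑ i, U i ^ 2 := by
    calc ‖V‖ ^ 2 ≤ (‖A‖ * ‖U‖) ^ 2 := pow_le_pow_left₀ (norm_nonneg _) h1 2
      _ = ‖A‖ ^ 2 * ‖U‖ ^ 2 := mul_pow _ _ _
      _ ≤ _ := mul_le_mul_of_nonneg_left h4 hA2
  rw [one_div_mul_eq_div, div_le_iff₀ (by positivity)]
  nlinarith

theorem locSummable_gterm {τ : ℂ} (hτ : 0 < τ.im) (p : H3) {c : ℝ} (hc : 0 < c)
    (hcont : Continuous fun x : Fin 4 → ℝ ↦ gterm τ (c • x) p) :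
    LocSummable ⟨fun x : Fin 4 → ℝ ↦ gterm τ (c • x) p, hcont⟩ := by
  obtain ⟨δ, hδ, hlow⟩ := exists_maj_lower p
  set a := 2 * Real.pi * τ.im * δ * c ^ 2
  have ha : 0 < a := by positivity
  intro K hK
  obtain ⟨B, hB⟩ := hK.isBounded.exists_norm_le
  refine ⟨fun n ↦ Real.exp (4 * a * B ^ 2) * ∏ i, Real.exp (-(a / 2) * (n i : ℝ) ^ 2),
    (summable_pi_prod (locSummable_aux (half_pos ha)) (fun _ ↦ (Real.exp_pos _).le) 4).mul_left _,
    fun n x hx ↦ ?_⟩
  simp only [ContinuousMap.coe_mk, norm_gterm, ← Real.exp_sum, ← Real.exp_add, Real.exp_le_exp]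
  set S := ∑ i, (x i + (n i : ℝ)) ^ 2
  have h1 : δ * (c ^ 2 * S) ≤ maj (c • (x + castV n)) p := by
    refine le_trans (le_of_eq ?_) (hlow _)
    simp [S, castV, Finset.mul_sum, mul_pow]
  have h2 : ∀ i, (n i : ℝ) ^ 2 / 2 - B ^ 2 ≤ (x i + (n i : ℝ)) ^ 2 := fun i ↦ by
    have := (norm_le_pi_norm x i).trans (hB x hx)
    rw [Real.norm_eq_abs, abs_le] at this
    nlinarith [sq_nonneg (x i * 2 + n i), this.1, this.2]
  have h3 : (∑ i, (n i : ℝ) ^ 2) / 2 - 4 * B ^ 2 ≤ S := by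
    refine le_trans (le_of_eq ?_) (Finset.sum_le_sum fun i _ ↦ h2 i)
    simp [Finset.sum_sub_distrib, Finset.sum_div]
  rw [← Finset.mul_sum]
  have h4 := mul_le_mul_of_nonneg_left h1
    (show 0 ≤ 2 * Real.pi * τ.im by positivity)
  have h5 := mul_le_mul_of_nonneg_left h3 ha.le
  simp only [a] at h5 ⊢
  nlinarith

/-- Poisson summation for `gterm`. -/
theorem tsum_gterm {τ : ℂ} (hτ : 0 < τ.im) (p : H3) {c : ℝ} (hc : 0 < c) (x : Fin 4 → ℝ) :
    ∑' n : Fin 4 → ℤ, gterm τ (c • (x + castV n)) p =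
      Complex.I / ((√3 * ‖τ‖ * c ^ 4 : ℝ) * τ) *
        ∑' k : Fin 4 → ℤ, addChar k x * gterm (-1 / τ) (c⁻¹ • dualV k) p := by
  have hcont : Continuous fun x : Fin 4 → ℝ ↦ gterm τ (c • x) p := by
    simp only [gterm_eq_width]
    have := (coordL p).continuous_of_finiteDimensional
    fun_prop
  have hτ' : 0 < (-1 / τ).im := by
    have hτ0 : τ ≠ 0 := fun h ↦ by simp [h] at hτ
    rw [neg_div, Complex.neg_im, one_div, Complex.inv_im, neg_div, neg_neg]
    exact div_pos hτ (Complex.normSq_pos.2 hτ0)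
  have hs : Summable (fourierHat (ι := Fin 4) fun x ↦ gterm τ (c • x) p) := by
    simp only [funext (fourierHat_gterm hτ p hc)]
    refine Summable.mul_left _ (Summable.of_norm ?_)
    obtain ⟨δ, hδ, hlow⟩ := exists_maj_lower p
    set a := 2 * Real.pi * (-1 / τ).im * δ * c⁻¹ ^ 2 / 9
    have ha : 0 < a := by positivity
    refine Summable.of_nonneg_of_le (fun _ ↦ norm_nonneg _) (fun k ↦ ?_)
      (summable_pi_prod (locSummable_aux ha) (fun _ ↦ (Real.exp_pos _).le) 4)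
    rw [norm_gterm, ← Real.exp_sum, Real.exp_le_exp]
    have h1 := hlow (c⁻¹ • dualV k)
    have h2 : (∑ i, (k i : ℝ) ^ 2) / 9 ≤ ∑ i, dualV k i ^ 2 := by
      simp [dualV, Fin.sum_univ_four]
      nlinarith [sq_nonneg ((k 2 : ℝ) + k 3), sq_nonneg (k 2 : ℝ), sq_nonneg (k 3 : ℝ),
        sq_nonneg (k 0 : ℝ), sq_nonneg (k 1 : ℝ)]
    rw [← Finset.mul_sum]
    have h3 : δ * (c⁻¹ ^ 2 * ((∑ i, (k i : ℝ) ^ 2) / 9)) ≤ maj (c⁻¹ • dualV k) p := by
      refine le_trans ?_ h1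
      refine le_trans (mul_le_mul_of_nonneg_left (mul_le_mul_of_nonneg_left h2 (by positivity))
        hδ.le) (le_of_eq ?_)
      simp [Finset.mul_sum, mul_pow]
    have h4 := mul_le_mul_of_nonneg_left h3 (show 0 ≤ 2 * Real.pi * (-1 / τ).im by positivity)
    simp only [a]
    nlinarith
  have := tsum_eq_tsum_fourierHat (locSummable_gterm hτ p hc hcont) hs x
  simp only [ContinuousMap.coe_mk] at this
  rw [this, ← tsum_mul_left]
  refine tsum_congr fun k ↦ ?_
  rw [fourierHat_gterm hτ p hc]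
  ring

end FermatAgent.LT.Lift
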