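import Mathlib
import Fermat.Agent.LT.Lift.Gauss

/-!
# Theta series of a datum and their transformation under `τ ↦ -1/τ`, `τ ↦ τ + j`
-/

set_option autoImplicit false

noncomputable section

open MeasureTheory

namespace FermatAgent.LT.Lift

variable {N : ℕ}

/-- The theta series of a datum. -/
def Datum.theta (d : Datum N) (τ : ℂ) (h : GN N) (p : H3) : ℂ :=
  ∑' m : Fin 4 → ℤ, d.W h m * gterm τ (d.vec m) p

theorem tsum_exp_neg_sq_le {a : ℝ} (ha : 0 < a) :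
    ∑' n : ℤ, Real.exp (-a * (n : ℝ) ^ 2) ≤ 6 * (1 + 1 / √a) := by
  set u := √a
  have hu : 0 < u := Real.sqrt_pos.2 ha
  set q := Real.exp (-u)
  have hq : q < 1 := Real.exp_lt_one_iff.2 (by linarith)
  have hq0 : 0 < q := Real.exp_pos _
  have hb : ∀ n : ℤ, Real.exp (-a * (n : ℝ) ^ 2) ≤ Real.exp (1 / 4) * q ^ n.natAbs := fun n ↦ by
    rw [← Real.exp_nat_mul, ← Real.exp_add, Real.exp_le_exp, Nat.cast_natAbs, Int.cast_abs]
    have : u ^ 2 = a := Real.sq_sqrt ha.le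
    nlinarith [sq_nonneg (u * |(n : ℝ)| - 1 / 2), sq_abs (n : ℝ)]
  have h1 : HasSum (fun n : ℕ ↦ Real.exp (1 / 4) * q ^ n) (Real.exp (1 / 4) * (1 - q)⁻¹) :=
    (hasSum_geometric_of_lt_one hq0.le hq).mul_left _
  have h2 := HasSum.of_nat_of_neg (f := fun n : ℤ ↦ Real.exp (1 / 4) * q ^ n.natAbs)
    (by simpa using h1) (by simpa using h1)
  simp only [Int.natAbs_zero, pow_zero, mul_one] at h2
  refine ((locSummable_aux ha).tsum_le_tsum hb h2.summable).trans ?_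
  rw [h2.tsum_eq]
  have he : Real.exp (1 / 4) ≤ 3 :=
    (Real.exp_le_exp.2 (by norm_num)).trans Real.exp_one_lt_three.le
  have h3 : (1 - q)⁻¹ ≤ 1 + 1 / u := by
    have h4 : q ≤ 1 / (1 + u) := by
      rw [show q = (Real.exp u)⁻¹ from Real.exp_neg u, one_div]
      exact inv_anti₀ (by positivity) (by linarith [Real.add_one_le_exp u])
    rw [inv_le_iff_one_le_mul₀ (by linarith)]
    have h5 : 1 - 1 / (1 + u) ≤ 1 - q := by linarith
    calc (1 : ℝ) = (1 + 1 / u) * (1 - 1 / (1 + u)) := by field_simp; ring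
      _ ≤ _ := mul_le_mul_of_nonneg_left h5 (by positivity)
  have := Real.exp_pos (1 / 4 : ℝ)
  nlinarith [mul_le_mul he h3 (inv_nonneg.2 (by linarith)) (by norm_num : (0 : ℝ) ≤ 3),
    one_div_pos.2 hu]

theorem summable_gterm {τ : ℂ} (hτ : 0 < τ.im) (p : H3) {r : ℕ} (hr : 0 < r) :
    Summable fun m : Fin 4 → ℤ ↦ ‖gterm τ ((1 / (r : ℝ)) • realV m) p‖ := by
  obtain ⟨δ, hδ, hlow⟩ := exists_maj_lower p
  set a := 2 * Real.pi * τ.im * δ * (1 / (r : ℝ)) ^ 2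
  have hr' : (0 : ℝ) < r := by exact_mod_cast hr
  have ha : 0 < a := by positivity
  refine Summable.of_nonneg_of_le (fun _ ↦ norm_nonneg _) (fun m ↦ ?_)
    (summable_pi_prod (locSummable_aux ha) (fun _ ↦ (Real.exp_pos _).le) 4)
  rw [norm_gterm, ← Real.exp_sum, Real.exp_le_exp, ← Finset.mul_sum]
  have h1 : δ * ((1 / (r : ℝ)) ^ 2 * ∑ i, (m i : ℝ) ^ 2) ≤ maj ((1 / (r : ℝ)) • realV m) p := by
    refine le_trans (le_of_eq ?_) (hlow _)
    simp [realV, Finset.mul_sum, mul_pow]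
  have h2 := mul_le_mul_of_nonneg_left h1 (show 0 ≤ 2 * Real.pi * τ.im by positivity)
  simp only [a]
  nlinarith

theorem Datum.summable_theta [NeZero N] (d : Datum N) {τ : ℂ} (hτ : 0 < τ.im) (h : GN N)
    (p : H3) : Summable fun m : Fin 4 → ℤ ↦ d.W h m * gterm τ (d.vec m) p := by
  obtain ⟨C, -, hC⟩ := d.exists_bound
  refine Summable.of_norm_bounded ((summable_gterm hτ p d.r_pos).mul_left C) fun m ↦ ?_
  rw [norm_mul]
  exact mul_le_mul_of_nonneg_right (hC h m) (norm_nonneg _)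

/-- Residue classes and multiples. -/
def splitEquiv (D : ℕ) [NeZero D] : (Fin 4 → ZMod D) × (Fin 4 → ℤ) ≃ (Fin 4 → ℤ) where
  toFun x i := ((x.1 i).val : ℤ) + D * x.2 i
  invFun m := (fun i ↦ (m i : ZMod D), fun i ↦ m i / D)
  left_inv x := by
    have hD : (D : ℤ) ≠ 0 := by exact_mod_cast NeZero.ne D
    refine Prod.ext (funext fun i ↦ ?_) (funext fun i ↦ ?_)
    · simp
    · show (((x.1 i).val : ℤ) + D * x.2 i) / D = x.2 i
      rw [Int.add_mul_ediv_left _ _ hD,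
        Int.ediv_eq_zero_of_lt (by positivity) (by exact_mod_cast ZMod.val_lt (x.1 i)), zero_add]
  right_inv m := by
    funext i
    show (((m i : ℤ) : ZMod D).val : ℤ) + D * (m i / D) = m i
    rw [ZMod.val_intCast, Int.emod_add_mul_ediv]

/-- The weight on residue classes. -/
def Datum.Wz (d : Datum N) (h : GN N) (a : Fin 4 → ZMod d.D) : ℂ :=
  d.W h fun i ↦ ((a i).val : ℤ)

theorem Datum.W_eq (d : Datum N) (h : GN N) (m : Fin 4 → ℤ) :
    d.W h m = d.Wz h fun i ↦ (m i : ZMod d.D) := by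
  have : NeZero d.D := ⟨d.D_pos.ne'⟩
  have e : m = (fun i ↦ (((m i : ℤ) : ZMod d.D).val : ℤ)) + (d.D : ℤ) • fun i ↦ m i / d.D := by
    ext i
    simp only [Pi.add_apply, Pi.smul_apply, smul_eq_mul]
    rw [ZMod.val_intCast, Int.emod_add_mul_ediv]
  conv_lhs => rw [e, d.periodic]
  rfl

/-- The sublattice `m ∈ 3 · L^#`. -/
def InThree (m : Fin 4 → ℤ) : Prop := ∀ a, (3 : ℤ) ∣ bilR m a

/-- `exp (2 π i x / D)`. -/
def ecD (D : ℕ) (x : ℤ) : ℂ := Complex.exp (2 * Real.pi * Complex.I * ((x : ℝ) / D : ℝ))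

theorem ecD_add (D : ℕ) (x y : ℤ) : ecD D (x + y) = ecD D x * ecD D y := by
  rw [ecD, ecD, ecD, ← Complex.exp_add]
  congr 1
  push_cast
  ring

theorem ecD_mul_self {D : ℕ} (hD : 0 < D) (x : ℤ) : ecD D (D * x) = 1 := by
  rw [ecD, Complex.exp_eq_one_iff]
  refine ⟨x, ?_⟩
  have : (D : ℝ) ≠ 0 := by exact_mod_cast hD.ne'
  rw [Int.cast_mul, Int.cast_natCast, mul_div_cancel_left₀ _ this]
  push_cast
  ring

theorem InThree.ecD_congr {D : ℕ} (hD : 0 < D) {m : Fin 4 → ℤ} (hm : InThree m)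
    (a k : Fin 4 → ℤ) :
    ecD (3 * D) (bilR m (a + (D : ℤ) • k)) = ecD (3 * D) (bilR m a) := by
  obtain ⟨l, hl⟩ := hm k
  rw [bilR_comm, bilR_add_left, bilR_smul_left, bilR_comm a, bilR_comm k, hl, ecD_add,
    show (D : ℤ) * (3 * l) = ((3 * D : ℕ) : ℤ) * l by push_cast; ring,
    ecD_mul_self (by positivity), mul_one]

open Classical in
/-- The finite Fourier transform of the weights. -/
def Datum.hat (d : Datum N) (h : GN N) (m : Fin 4 → ℤ) : ℂ :=
  haveI : NeZero d.D := ⟨d.D_pos.ne'⟩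
  if InThree m then ∑ a : Fin 4 → ZMod d.D,
    d.Wz h a * ecD (3 * d.D) (bilR m fun i ↦ ((a i).val : ℤ)) else 0

theorem inThree_actR (γ : GO) (m : Fin 4 → ℤ) : InThree (actR γ m) ↔ InThree m := by
  refine ⟨fun h a ↦ ?_, fun h a ↦ ?_⟩
  · simpa [bilR_actR] using h (actR γ a)
  · rw [show a = actR γ (actR γ⁻¹ a) by rw [← actR_mul, mul_inv_cancel, actR_one], bilR_actR]
    exact h _

theorem inThree_add {m : Fin 4 → ℤ} (c : ℤ) (hc : 3 ∣ c) (k : Fin 4 → ℤ) :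
    InThree (m + c • k) ↔ InThree m := by
  have h : ∀ a, bilR (m + c • k) a = bilR m a + c * bilR k a := fun a ↦ by
    rw [bilR_add_left, bilR_smul_left]
  refine ⟨fun hm a ↦ ?_, fun hm a ↦ ?_⟩
  · exact (dvd_add_left (dvd_mul_of_dvd_left hc _)).1 (h a ▸ hm a)
  · rw [h a]; exact dvd_add (hm a) (dvd_mul_of_dvd_left hc _)

theorem Datum.hat_periodic (d : Datum N) (h : GN N) (m k : Fin 4 → ℤ) :
    d.hat h (m + ((3 * d.D : ℕ) : ℤ) • k) = d.hat h m := by
  have : NeZero d.D := ⟨d.D_pos.ne'⟩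
  unfold Datum.hat
  rw [inThree_add _ (by push_cast; exact dvd_mul_right _ _)]
  split_ifs with hm
  · refine Finset.sum_congr rfl fun a _ ↦ ?_
    rw [bilR_add_left, bilR_smul_left, ecD_add, ecD_mul_self (by have := d.D_pos; positivity),
      mul_one]
  · rfl

theorem Datum.hat_equivariant (d : Datum N) (γ : GO) (h : GN N) (m : Fin 4 → ℤ) :
    d.hat (toN N γ * h) (actR γ m) = d.hat h m := by
  have : NeZero d.D := ⟨d.D_pos.ne'⟩
  unfold Datum.hat
  rw [inThree_actR]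
  split_ifs with hm
  · set g := Matrix.GeneralLinearGroup.map (mapQ (Int.castRingHom (ZMod d.D))) γ
    rw [← (actEquiv g).sum_comp]
    refine Finset.sum_congr rfl fun a _ ↦ ?_
    show d.Wz _ (actR g a) * _ = _
    set z : Fin 4 → ℤ := fun i ↦ ((a i).val : ℤ)
    have hz : (fun i ↦ (z i : ZMod d.D)) = a := funext fun i ↦ by simp [z]
    have e1 : actR g a = fun i ↦ ((actR γ z i : ℤ) : ZMod d.D) := by
      have := actR_map (Int.castRingHom (ZMod d.D)) γ z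
      simp only [Function.comp_def, eq_intCast] at this
      rw [this, hz]
    have hcast : ∀ i, ((actR g a i).val : ℤ) =
        actR γ z i + (d.D : ℤ) * -(actR γ z i / d.D) := fun i ↦ by
      rw [e1, ZMod.val_intCast]
      linarith [Int.emod_add_mul_ediv (actR γ z i) d.D]
    have e2 : (fun i ↦ ((actR g a i).val : ℤ)) =
        actR γ z + (d.D : ℤ) • fun i ↦ -(actR γ z i / d.D) := funext hcast
    show d.Wz _ (actR g a) * ecD _ (bilR _ fun i ↦ ((actR g a i).val : ℤ)) = _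
    rw [e2, ((inThree_actR γ m).2 hm).ecD_congr d.D_pos, bilR_actR, e1, ← d.W_eq, d.equivariant,
      d.W_eq, hz]
  · rfl

/-- The datum of the `S`-transform. -/
def Datum.fourier (d : Datum N) : Datum N where
  r := 3 * (d.D / d.r)
  D := 3 * d.D
  W h m := (-(Complex.I / ((√3 * ((d.D : ℝ) / d.r) ^ 4 : ℝ) : ℂ))) * d.hat h m
  r_pos := Nat.mul_pos (by norm_num)
    (Nat.div_pos (Nat.le_of_dvd d.D_pos d.r_dvd) d.r_pos)
  D_pos := Nat.mul_pos (by norm_num) d.D_pos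
  r_dvd := Nat.mul_dvd_mul_left 3 (Nat.div_dvd_of_dvd d.r_dvd)
  periodic h m k := by rw [d.hat_periodic]
  equivariant γ h m := by rw [d.hat_equivariant]

/-- `k ↦ 3 · dualV k`. -/
def threeDual (k : Fin 4 → ℤ) : Fin 4 → ℤ :=
  ![-(3 * k 1), -(3 * k 0), 2 * k 2 + k 3, k 2 + 2 * k 3]

theorem realV_threeDual (k : Fin 4 → ℤ) : realV (threeDual k) = (3 : ℝ) • dualV k := by
  ext i; fin_cases i <;> simp [realV, threeDual, dualV] <;> ring

theorem bilR_threeDual (k a : Fin 4 → ℤ) : bilR (threeDual k) a = 3 * ∑ i, k i * a i := by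
  simp [bilR, threeDual, Fin.sum_univ_four]; ring

theorem inThree_threeDual (k : Fin 4 → ℤ) : InThree (threeDual k) := fun a ↦
  ⟨_, bilR_threeDual k a⟩

theorem threeDual_injective : Function.Injective threeDual := fun k k' h ↦ by
  have h0 := congrFun h 0
  have h1 := congrFun h 1
  have h2 := congrFun h 2
  have h3 := congrFun h 3
  simp [threeDual] at h0 h1 h2 h3
  funext i
  fin_cases i <;> simp <;> omega

theorem range_threeDual : Set.range threeDual = {m | InThree m} := by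
  ext m
  refine ⟨fun ⟨k, hk⟩ ↦ hk ▸ inThree_threeDual k, fun h ↦ ?_⟩
  obtain ⟨a0, h0⟩ := h (Pi.single 0 1)
  obtain ⟨a1, h1⟩ := h (Pi.single 1 1)
  obtain ⟨a2, h2⟩ := h (Pi.single 2 1)
  obtain ⟨a3, h3⟩ := h (Pi.single 3 1)
  simp [bilR] at h0 h1 h2 h3
  refine ⟨![a0, a1, a2, a3], ?_⟩
  funext i
  fin_cases i <;> simp [threeDual] <;> omega

theorem Datum.hat_threeDual (d : Datum N) (h : GN N) (k : Fin 4 → ℤ) :
    d.hat h (threeDual k) =
      haveI : NeZero d.D := ⟨d.D_pos.ne'⟩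
      ∑ a : Fin 4 → ZMod d.D, d.Wz h a * addChar k ((d.D : ℝ)⁻¹ • realV fun i ↦ ((a i).val : ℤ)) := by
  have : NeZero d.D := ⟨d.D_pos.ne'⟩
  rw [Datum.hat, if_pos (inThree_threeDual k)]
  refine Finset.sum_congr rfl fun a _ ↦ ?_
  rw [bilR_threeDual, addChar, ecD]
  congr 3
  have : (d.D : ℝ) ≠ 0 := by exact_mod_cast d.D_pos.ne'
  push_cast
  simp only [realV, Pi.smul_apply, smul_eq_mul, Int.cast_natCast, mul_div_assoc]
  rw [Finset.sum_div, Finset.mul_sum]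
  refine Finset.sum_congr rfl fun i _ ↦ ?_
  field_simp
  push_cast
  ring

/-- The transformation formula. -/
theorem Datum.theta_eq_fourier [NeZero N] (d : Datum N) {τ : ℂ} (hτ : 0 < τ.im) (h : GN N)
    (p : H3) :
    d.theta τ h p = -1 / ((‖τ‖ : ℂ) * τ) * d.fourier.theta (-1 / τ) h p := by
  have : NeZero d.D := ⟨d.D_pos.ne'⟩
  have hrD : (0 : ℝ) < (d.D : ℝ) / d.r :=
    div_pos (by exact_mod_cast d.D_pos) (by exact_mod_cast d.r_pos)
  set K : ℂ := Complex.I / ((√3 * ((d.D : ℝ) / d.r) ^ 4 : ℝ) : ℂ)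
  have hτ' : 0 < (-1 / τ).im := by
    have hτ0 : τ ≠ 0 := fun h ↦ by simp [h] at hτ
    rw [neg_div, Complex.neg_im, one_div, Complex.inv_im, neg_div, neg_neg]
    exact div_pos hτ (Complex.normSq_pos.2 hτ0)
  set c : ℝ := (d.D : ℝ) / d.r with hc
  have hvec : ∀ (a : Fin 4 → ZMod d.D) (n : Fin 4 → ℤ),
      d.vec (splitEquiv d.D (a, n)) =
        c • ((d.D : ℝ)⁻¹ • realV (fun i ↦ ((a i).val : ℤ)) + castV n) := by
    intro a n
    have : (d.D : ℝ) ≠ 0 := by exact_mod_cast d.D_pos.ne'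
    ext i
    simp [Datum.vec, splitEquiv, realV, castV, hc]
    field_simp
  have hvec' : ∀ k : Fin 4 → ℤ, d.fourier.vec (threeDual k) = c⁻¹ • dualV k := by
    intro k
    have hdiv : ((d.D / d.r : ℕ) : ℝ) = c := by
      rw [hc, Nat.cast_div d.r_dvd (by exact_mod_cast d.r_pos.ne')]
    rw [Datum.vec, show d.fourier.r = 3 * (d.D / d.r) from rfl, realV_threeDual, smul_smul]
    congr 1
    push_cast
    rw [hdiv]
    field_simp
  have hper : ∀ a n, d.W h (splitEquiv d.D (a, n)) = d.Wz h a := fun a n ↦ by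
    rw [d.W_eq]
    congr 1
    funext i
    simp [splitEquiv]
  have hsum := (splitEquiv d.D).summable_iff.2 (d.summable_theta hτ h p)
  have hS : ∀ a : Fin 4 → ZMod d.D, Summable fun k : Fin 4 → ℤ ↦
      d.Wz h a * addChar k ((d.D : ℝ)⁻¹ • realV fun i ↦ ((a i).val : ℤ)) *
        gterm (-1 / τ) (d.fourier.vec (threeDual k)) p := by
    intro a
    have := (summable_gterm hτ' p d.fourier.r_pos).comp_injective threeDual_injective
    refine Summable.of_norm_bounded (this.mul_left ‖d.Wz h a‖) fun k ↦ le_of_eq ?_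
    rw [norm_mul, norm_mul, norm_addChar, mul_one]; rfl
  calc d.theta τ h p
      = ∑ a : Fin 4 → ZMod d.D, ∑' n : Fin 4 → ℤ,
          d.W h (splitEquiv d.D (a, n)) * gterm τ (d.vec (splitEquiv d.D (a, n))) p := by
        rw [Datum.theta, ← (splitEquiv d.D).tsum_eq]
        rw [← tsum_fintype (L := SummationFilter.unconditional _)]
        exact hsum.tsum_prod
    _ = ∑ a : Fin 4 → ZMod d.D, (Complex.I / ((√3 * ‖τ‖ * c ^ 4 : ℝ) * τ)) *
          ∑' k : Fin 4 → ℤ, d.Wz h a * addChar k ((d.D : ℝ)⁻¹ • realV fun i ↦ ((a i).val : ℤ)) *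
            gterm (-1 / τ) (d.fourier.vec (threeDual k)) p := by
        refine Finset.sum_congr rfl fun a _ ↦ ?_
        simp only [hper, hvec, hvec']
        rw [tsum_mul_left, tsum_gterm hτ p hrD, ← tsum_mul_left, ← tsum_mul_left,
          ← tsum_mul_left]
        exact tsum_congr fun k ↦ by ring
    _ = (Complex.I / ((√3 * ‖τ‖ * c ^ 4 : ℝ) * τ)) *
          ∑' k : Fin 4 → ℤ, d.hat h (threeDual k) *
            gterm (-1 / τ) (d.fourier.vec (threeDual k)) p := by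
        rw [← Finset.mul_sum, ← Summable.tsum_finsetSum fun a _ ↦ hS a]
        refine congrArg _ (tsum_congr fun k ↦ ?_)
        rw [d.hat_threeDual, Finset.sum_mul]
    _ = -1 / ((‖τ‖ : ℂ) * τ) * d.fourier.theta (-1 / τ) h p := by
        rw [threeDual_injective.tsum_eq (f := fun m ↦ d.hat h m *
          gterm (-1 / τ) (d.fourier.vec m) p)]
        · rw [Datum.theta, ← tsum_mul_left, ← tsum_mul_left]
          refine tsum_congr fun m ↦ ?_
          show _ = -1 / _ * (-K * d.hat h m * gterm _ _ p)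
          have : ‖τ‖ ≠ 0 := norm_ne_zero_iff.2 fun h ↦ by simp [h] at hτ
          have hτ0 : τ ≠ 0 := fun h ↦ by simp [h] at hτ
          simp only [K, hc]
          push_cast
          field_simp
        · intro m hm
          rw [range_threeDual]
          by_contra h'
          apply hm
          show d.hat h m * _ = 0
          rw [Datum.hat, if_neg (fun hh : InThree m ↦ h' hh), zero_mul]

/-- The datum of the translate by `j`. -/
def Datum.shift (d : Datum N) (j : ℤ) : Datum N where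
  r := d.r
  D := d.D * d.r ^ 2
  W h m := d.W h m * ecD (d.r ^ 2) (j * quadR m)
  r_pos := d.r_pos
  D_pos := Nat.mul_pos d.D_pos (pow_pos d.r_pos 2)
  r_dvd := Dvd.dvd.mul_right d.r_dvd _
  periodic h m k := by
    have e : ((d.D * d.r ^ 2 : ℕ) : ℤ) • k = (d.D : ℤ) • ((d.r ^ 2 : ℕ) : ℤ) • k := by
      rw [smul_smul]; push_cast; rfl
    rw [e, d.periodic, ← e]
    congr 1
    rw [quadR_add, bilR_comm, bilR_smul_left, quadR_smul,
      show j * (quadR m + ((d.D * d.r ^ 2 : ℕ) : ℤ) * bilR k m +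
        ((d.D * d.r ^ 2 : ℕ) : ℤ) ^ 2 * quadR k) =
        j * quadR m + ((d.r ^ 2 : ℕ) : ℤ) *
          (j * (d.D * bilR k m + d.D ^ 2 * d.r ^ 2 * quadR k)) by push_cast; ring,
      ecD_add, ecD_mul_self (pow_pos d.r_pos 2), mul_one]
  equivariant γ h m := by rw [d.equivariant, quadR_actR]

theorem Datum.theta_add_intCast (d : Datum N) (τ : ℂ) (j : ℤ) (h : GN N) (p : H3) :
    d.theta (τ + j) h p = (d.shift j).theta τ h p := by
  refine tsum_congr fun m ↦ ?_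
  show _ = d.W h m * ecD _ _ * gterm τ (d.vec m) p
  rw [mul_assoc]
  congr 1
  have hq : quad (d.vec m) = (quadR m : ℤ) / (d.r : ℝ) ^ 2 := by
    rw [Datum.vec, show quad ((1 / (d.r : ℝ)) • realV m) = (1 / (d.r : ℝ)) ^ 2 * quad (realV m)
      by simp [quad]; ring, quad_realV, div_pow, one_pow, one_div_mul_eq_div]
  rw [gterm, gterm, ecD, ← Complex.exp_add, hq]
  congr 1
  simp only [Complex.add_re, Complex.intCast_re, Complex.add_im, Complex.intCast_im, add_zero]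
  push_cast
  ring

/-- `exp (-a n²)`. -/
def gau (a : ℝ) (n : ℤ) : ℝ := Real.exp (-a * (n : ℝ) ^ 2)

theorem gau_nonneg (a : ℝ) (n : ℤ) : 0 ≤ gau a n := (Real.exp_pos _).le

theorem summable_gau {a : ℝ} (ha : 0 < a) : Summable (gau a) := locSummable_aux ha

theorem tsum_gau_le {a : ℝ} (ha : 0 < a) : ∑' n, gau a n ≤ 6 * (1 + 1 / √a) :=
  tsum_exp_neg_sq_le ha

theorem summable_gau_mul {a b : ℝ} (ha : 0 < a) (hb : 0 < b) (n : ℕ) :
    Summable fun x : ℤ × (Fin n → ℤ) ↦ gau a x.1 * ∏ i, gau b (x.2 i) :=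
  Summable.mul_of_nonneg (f := gau a) (g := fun v : Fin n → ℤ ↦ ∏ i, gau b (v i)) (summable_gau ha)
    (summable_pi_prod (summable_gau hb) (gau_nonneg b) n)
    (fun m ↦ gau_nonneg a m) (fun v ↦ Finset.prod_nonneg fun i _ ↦ gau_nonneg b (v i))

theorem tsum_gau_mul {a b : ℝ} (ha : 0 < a) (hb : 0 < b) (n : ℕ) :
    ∑' x : ℤ × (Fin n → ℤ), gau a x.1 * ∏ i, gau b (x.2 i) =
      (∑' m, gau a m) * ∑' v : Fin n → ℤ, ∏ i, gau b (v i) :=
  ((summable_gau ha).tsum_mul_tsum (summable_pi_prod (summable_gau hb) (gau_nonneg b) n)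
    (summable_gau_mul ha hb n)).symm

theorem tsum_prod_gau_le {a : ℝ} (ha : 0 < a) :
    ∀ n : ℕ, ∑' v : Fin n → ℤ, ∏ i, gau a (v i) ≤ (6 * (1 + 1 / √a)) ^ n
  | 0 => by simp
  | n + 1 => by
    rw [← (Fin.consEquiv fun _ ↦ ℤ).tsum_eq, pow_succ']
    simp only [Fin.consEquiv_apply, Fin.prod_univ_succ, Fin.cons_zero, Fin.cons_succ]
    rw [tsum_gau_mul ha ha n]
    exact mul_le_mul (tsum_gau_le ha) (tsum_prod_gau_le ha n)
      (tsum_nonneg fun _ ↦ Finset.prod_nonneg fun _ _ ↦ gau_nonneg a _) (by positivity)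

theorem quad_lower_aux {v0 v1 a b x y t : ℝ} (ht : 1 / 2 ≤ t) (hz : x * x + y * y ≤ 3 / 4) :
    v1 ^ 2 / 4 ≤ (t * v1) ^ 2 ∧
    a ^ 2 + b ^ 2 ≤ 2 * ((a - x * v1) ^ 2 + (b - y * v1) ^ 2) + 2 * v1 ^ 2 ∧
    (v0 / t) ^ 2 ≤ 3 * ((v0 - 2 * (x * a + y * b) + (x * x + y * y) * v1) / t) ^ 2 +
      36 * (a ^ 2 + b ^ 2) + 9 * v1 ^ 2 := by
  have htp : 0 < t := by linarith
  refine ⟨?_, ?_, ?_⟩
  · have h4 : (1 / 4 : ℝ) ≤ t ^ 2 := by nlinarith
    rw [mul_pow]
    nlinarith [mul_le_mul_of_nonneg_right h4 (sq_nonneg v1)]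
  · nlinarith [sq_nonneg (a - 2 * (x * v1)), sq_nonneg (b - 2 * (y * v1)),
      mul_le_mul_of_nonneg_right hz (sq_nonneg v1)]
  · set A := v0 - 2 * (x * a + y * b) + (x * x + y * y) * v1 with hA
    set u := x * a + y * b with hu
    set n := x * x + y * y with hn
    have hn0 : 0 ≤ n := add_nonneg (mul_self_nonneg x) (mul_self_nonneg y)
    have hu2 : u ^ 2 ≤ 3 / 4 * (a ^ 2 + b ^ 2) := by
      have : u ^ 2 ≤ n * (a ^ 2 + b ^ 2) := by rw [hu, hn]; nlinarith [sq_nonneg (x * b - y * a)]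
      exact this.trans (mul_le_mul_of_nonneg_right hz (by positivity))
    have hn2 : (n * v1) ^ 2 ≤ 9 / 16 * v1 ^ 2 := by
      rw [mul_pow]
      exact mul_le_mul_of_nonneg_right (by nlinarith) (sq_nonneg v1)
    have h1 : v0 ^ 2 ≤ 3 * A ^ 2 + 9 * (a ^ 2 + b ^ 2) + 9 / 4 * v1 ^ 2 := by
      have hv : v0 = A + 2 * u - n * v1 := by rw [hA]; ring
      rw [hv]
      nlinarith [sq_nonneg (A - 2 * u), sq_nonneg (A + n * v1), sq_nonneg (2 * u + n * v1)]
    have ht2 : (1 / t) ^ 2 ≤ 4 := by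
      rw [div_pow, one_pow, div_le_iff₀ (by positivity)]; nlinarith
    have h2 := mul_le_mul_of_nonneg_left ht2
      (show 0 ≤ 9 * (a ^ 2 + b ^ 2) + 9 / 4 * v1 ^ 2 by positivity)
    calc (v0 / t) ^ 2 = v0 ^ 2 * (1 / t) ^ 2 := by ring
      _ ≤ (3 * A ^ 2 + 9 * (a ^ 2 + b ^ 2) + 9 / 4 * v1 ^ 2) * (1 / t) ^ 2 :=
        mul_le_mul_of_nonneg_right h1 (sq_nonneg _)
      _ = 3 * (A / t) ^ 2 + (9 * (a ^ 2 + b ^ 2) + 9 / 4 * v1 ^ 2) * (1 / t) ^ 2 := by ring
      _ ≤ _ := by linarith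

theorem maj_lower_siegel (V : Fin 4 → ℝ) {p : H3} (hp : p ∈ siegel) :
    1 / 1024 * ((V 0 / p.t) ^ 2 + V 1 ^ 2 + V 2 ^ 2 + V 3 ^ 2) ≤ maj V p := by
  obtain ⟨hz, ht⟩ := hp
  have h3 : (√3 : ℝ) * √3 = 3 := Real.mul_self_sqrt (by norm_num)
  rw [maj_eq]
  rw [Complex.normSq_apply] at hz ⊢
  obtain ⟨e2, e1, e3⟩ := quad_lower_aux (v0 := V 0) (v1 := V 1) (a := V 2 - V 3 / 2)
    (b := V 3 * (√3 / 2)) ht hz
  have hb : (V 3 * (√3 / 2)) ^ 2 = 3 / 4 * V 3 ^ 2 := by linear_combination (V 3 ^ 2 / 4) * h3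
  have hab : V 2 ^ 2 + V 3 ^ 2 ≤ 2 * ((V 2 - V 3 / 2) ^ 2 + (V 3 * (√3 / 2)) ^ 2) := by
    rw [hb]; nlinarith [sq_nonneg (V 2 - V 3)]
  have hA0 := sq_nonneg ((V 0 - 2 * (p.z.re * (V 2 - V 3 / 2) + p.z.im * (V 3 * (√3 / 2))) +
    (p.z.re * p.z.re + p.z.im * p.z.im) * V 1) / p.t)
  have hB0 := add_nonneg (sq_nonneg (V 2 - V 3 / 2 - p.z.re * V 1))
    (sq_nonneg (V 3 * (√3 / 2) - p.z.im * V 1))
  generalize (V 2 - V 3 / 2) = a at *
  generalize (V 3 * (√3 / 2)) = b at *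
  generalize ((V 0 - 2 * (p.z.re * a + p.z.im * b) + (p.z.re * p.z.re + p.z.im * p.z.im) * V 1) /
    p.t) ^ 2 = A at *
  generalize (a - p.z.re * V 1) ^ 2 + (b - p.z.im * V 1) ^ 2 = B at *
  generalize (p.t * V 1) ^ 2 = T at *
  have : 0 ≤ (V 0 / p.t) ^ 2 := sq_nonneg _
  linarith [sq_nonneg (V 1), sq_nonneg a, sq_nonneg b]

/-- The theta series is `O(t)` on the reduced set. -/
theorem exists_tsum_norm_gterm_le {y : ℝ} (hy : 0 < y) {r : ℕ} (hr : 0 < r) :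
    ∃ C, 0 ≤ C ∧ ∀ τ : ℂ, y ≤ τ.im → ∀ p ∈ siegel,
      ∑' m : Fin 4 → ℤ, ‖gterm τ ((1 / (r : ℝ)) • realV m) p‖ ≤ C * p.t := by
  have hr' : (0 : ℝ) < r := by exact_mod_cast hr
  obtain ⟨a, ha_def⟩ : ∃ a, a = 2 * Real.pi * y * (1 / 1024) * (1 / (r : ℝ)) ^ 2 := ⟨_, rfl⟩
  have ha : 0 < a := by rw [ha_def]; positivity
  refine ⟨6 * (2 + 1 / √a) * (6 * (1 + 1 / √a)) ^ 3, by positivity, fun τ hτ p hp ↦ ?_⟩
  have ht := p.t_pos
  have ha0 : 0 < a / p.t ^ 2 := by positivity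
  have hle : ∀ m : Fin 4 → ℤ, ‖gterm τ ((1 / (r : ℝ)) • realV m) p‖ ≤
      gau (a / p.t ^ 2) (m 0) * ∏ i : Fin 3, gau a (m i.succ) := by
    intro m
    simp only [gau, norm_gterm, ← Real.exp_sum, ← Real.exp_add, Real.exp_le_exp]
    have h1 := maj_lower_siegel ((1 / (r : ℝ)) • realV m) hp
    have h2 := mul_le_mul (mul_le_mul_of_nonneg_left hτ (show 0 ≤ 2 * Real.pi by positivity)) h1
      (by positivity) (by have := hy.trans_le hτ; positivity)
    simp only [realV, Pi.smul_apply, smul_eq_mul] at h2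
    simp only [Fin.sum_univ_three, Fin.succ_zero_eq_one, Fin.succ_one_eq_two,
      show (2 : Fin 3).succ = (3 : Fin 4) from rfl]
    refine le_trans (neg_le_neg h2) (le_of_eq ?_)
    rw [ha_def]
    field_simp
    ring
  have hsum : Summable fun m : Fin 4 → ℤ ↦
      gau (a / p.t ^ 2) (m 0) * ∏ i : Fin 3, gau a (m i.succ) := by
    rw [← (Fin.consEquiv fun _ ↦ ℤ).summable_iff]
    simpa [Function.comp_def] using summable_gau_mul ha0 ha 3
  refine (((summable_gterm (hy.trans_le hτ) p hr)).tsum_le_tsum hle hsum).trans ?_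
  rw [← (Fin.consEquiv fun _ ↦ ℤ).tsum_eq]
  simp only [Fin.consEquiv_apply, Fin.cons_zero, Fin.cons_succ]
  rw [tsum_gau_mul ha0 ha 3]
  have h0 : ∑' n : ℤ, gau (a / p.t ^ 2) n ≤ 6 * (2 + 1 / √a) * p.t := by
    refine (tsum_gau_le ha0).trans ?_
    rw [Real.sqrt_div ha.le, Real.sqrt_sq ht.le, one_div_div]
    have h1 : 1 ≤ 2 * p.t := by linarith [hp.2]
    have h3 : 6 * (2 + 1 / √a) * p.t = 6 * (2 * p.t + p.t / √a) := by ring
    rw [h3]
    linarith
  calc (∑' n : ℤ, gau (a / p.t ^ 2) n) * ∑' v : Fin 3 → ℤ, ∏ i, gau a (v i)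
      ≤ (6 * (2 + 1 / √a) * p.t) * (6 * (1 + 1 / √a)) ^ 3 := by
        refine mul_le_mul h0 (tsum_prod_gau_le ha 3) (tsum_nonneg fun _ ↦
          Finset.prod_nonneg fun _ _ ↦ gau_nonneg a _) ?_
        positivity
    _ = _ := by ring

end FermatAgent.LT.Lift
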