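import Mathlib
import Fermat.Agent.LT.Lift.BallMoments
import Fermat.Agent.LT.Lift.Theta

/-!
# Small ball averages of the majorant Gaussians

Second order expansion of `∫_{ball ε} exp (-k maj V)` against the spherical function of
parameter zero.
-/

set_option autoImplicit false

noncomputable section

open MeasureTheory Filter Topology

namespace FermatAgent.LT.Lift

/-- The integral of `r / sinh r` over a ball of radius `ε`. -/
def sphBall (ε : ℝ) : ℝ := 4 * Real.pi * ∫ r in (0 : ℝ)..ε, r * Real.sinh r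

/-- The Gaussian `exp (-k maj V)`. -/
def kern (k : ℝ) (V : Fin 4 → ℝ) (p : H3) : ℝ := Real.exp (-(k * maj V p))

namespace Ball

/-- The parameter space: `(ε, ξ)`. -/
abbrev Par := ℝ × (ℂ × ℝ)

/-- The value `cosh ε + sinh ε · t` at `e = (ε, ξ)`, `ξ = (z, t)`. -/
def tc (e : Par) : ℝ := Real.cosh e.1 + Real.sinh e.1 * e.2.2
/-- The derivative of `tc` in `ε`. -/
def td (e : Par) : ℝ := Real.sinh e.1 + Real.cosh e.1 * e.2.2
/-- The value `sinh ε · re z` at `e = (ε, ξ)`, `ξ = (z, t)`. -/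
def xc (e : Par) : ℝ := Real.sinh e.1 * e.2.1.re
/-- The derivative of `xc` in `ε`. -/
def xd (e : Par) : ℝ := Real.cosh e.1 * e.2.1.re
/-- The value `sinh ε · im z` at `e = (ε, ξ)`, `ξ = (z, t)`. -/
def yc (e : Par) : ℝ := Real.sinh e.1 * e.2.1.im
/-- The derivative of `yc` in `ε`. -/
def yd (e : Par) : ℝ := Real.cosh e.1 * e.2.1.im

/-- The first coordinate `V 2 - V 3 / 2` of the middle entries of `V`. -/
def aV (V : Fin 4 → ℝ) : ℝ := V 2 - V 3 / 2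
/-- The second coordinate `V 3 √3 / 2` of the middle entries of `V`. -/
def bV (V : Fin 4 → ℝ) : ℝ := V 3 * (√3 / 2)

/-- The form of `V` at `(xc, yc)`. -/
def A0 (V : Fin 4 → ℝ) (e : Par) : ℝ :=
  V 0 - 2 * (xc e * aV V + yc e * bV V) + (xc e ^ 2 + yc e ^ 2) * V 1
/-- The first `ε`-derivative of `A0`. -/
def A1 (V : Fin 4 → ℝ) (e : Par) : ℝ :=
  -2 * (xd e * aV V + yd e * bV V) + 2 * (xc e * xd e + yc e * yd e) * V 1
/-- The second `ε`-derivative of `A0`. -/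
def A2 (V : Fin 4 → ℝ) (e : Par) : ℝ :=
  -2 * (xc e * aV V + yc e * bV V) + 2 * (xd e ^ 2 + yd e ^ 2 + xc e ^ 2 + yc e ^ 2) * V 1
/-- The quotient `A0 / tc`. -/
def Q0 (V : Fin 4 → ℝ) (e : Par) : ℝ := A0 V e / tc e
/-- The first `ε`-derivative of `Q0`. -/
def Q1 (V : Fin 4 → ℝ) (e : Par) : ℝ := (A1 V e - Q0 V e * td e) / tc e
/-- The second `ε`-derivative of `Q0`. -/
def Q2 (V : Fin 4 → ℝ) (e : Par) : ℝ := (A2 V e - 2 * Q1 V e * td e - Q0 V e * tc e) / tc e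
/-- The exponent of the Gaussian in the parameters `(ε, ξ)`. -/
def R0 (V : Fin 4 → ℝ) (e : Par) : ℝ :=
  (Q0 V e ^ 2 + (tc e * V 1) ^ 2) / 2 + ((aV V - xc e * V 1) ^ 2 + (bV V - yc e * V 1) ^ 2)
/-- The first `ε`-derivative of `R0`. -/
def R1 (V : Fin 4 → ℝ) (e : Par) : ℝ :=
  Q0 V e * Q1 V e + tc e * td e * V 1 ^ 2 -
    2 * V 1 * (xd e * (aV V - xc e * V 1) + yd e * (bV V - yc e * V 1))
/-- The second `ε`-derivative of `R0`. -/
def R2 (V : Fin 4 → ℝ) (e : Par) : ℝ :=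
  Q1 V e ^ 2 + Q0 V e * Q2 V e + (td e ^ 2 + tc e ^ 2) * V 1 ^ 2 -
    2 * V 1 * (xc e * (aV V - xc e * V 1) + yc e * (bV V - yc e * V 1)) +
    2 * V 1 ^ 2 * (xd e ^ 2 + yd e ^ 2)

variable (k : ℝ) (V : Fin 4 → ℝ)

/-- The integrand `exp (-k R0) / tc ^ 3`. -/
def G0 (e : Par) : ℝ := Real.exp (-(k * R0 V e)) / tc e ^ 3
/-- The logarithmic `ε`-derivative of `G0`. -/
def D1 (e : Par) : ℝ := -(k * R1 V e) - 3 * td e / tc e
/-- The `ε`-derivative of `D1`. -/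
def D2 (e : Par) : ℝ := -(k * R2 V e) - 3 + 3 * td e ^ 2 / tc e ^ 2
/-- The first `ε`-derivative of `G0`. -/
def G1 (e : Par) : ℝ := D1 k V e * G0 k V e
/-- The second `ε`-derivative of `G0`. -/
def G2 (e : Par) : ℝ := (D1 k V e ^ 2 + D2 k V e) * G0 k V e

theorem hasDerivAt_all (ξ : ℂ × ℝ) (ε : ℝ) (ht : tc (ε, ξ) ≠ 0) :
    HasDerivAt (fun s ↦ G0 k V (s, ξ)) (G1 k V (ε, ξ)) ε ∧
      HasDerivAt (fun s ↦ G1 k V (s, ξ)) (G2 k V (ε, ξ)) ε := by
  have hs := Real.hasDerivAt_sinh ε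
  have hc := Real.hasDerivAt_cosh ε
  have htc : HasDerivAt (fun s ↦ tc (s, ξ)) (td (ε, ξ)) ε := hc.add (hs.mul_const ξ.2)
  have htd : HasDerivAt (fun s ↦ td (s, ξ)) (tc (ε, ξ)) ε := hs.add (hc.mul_const ξ.2)
  have hx : HasDerivAt (fun s ↦ xc (s, ξ)) (xd (ε, ξ)) ε := hs.mul_const ξ.1.re
  have hx' : HasDerivAt (fun s ↦ xd (s, ξ)) (xc (ε, ξ)) ε := hc.mul_const ξ.1.re
  have hy : HasDerivAt (fun s ↦ yc (s, ξ)) (yd (ε, ξ)) ε := hs.mul_const ξ.1.im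
  have hy' : HasDerivAt (fun s ↦ yd (s, ξ)) (yc (ε, ξ)) ε := hc.mul_const ξ.1.im
  have hA0 : HasDerivAt (fun s ↦ A0 V (s, ξ)) (A1 V (ε, ξ)) ε :=
    (((hasDerivAt_const ε (V 0)).sub (((hx.mul_const (aV V)).add (hy.mul_const (bV V))).const_mul
      2)).add (((hx.pow 2).add (hy.pow 2)).mul_const (V 1))).congr_deriv (by simp [A1, -mul_eq_mul_right_iff, -mul_eq_mul_left_iff]; ring)
  have hA1 : HasDerivAt (fun s ↦ A1 V (s, ξ)) (A2 V (ε, ξ)) ε :=
    ((((hx'.mul_const (aV V)).add (hy'.mul_const (bV V))).const_mul (-2 : ℝ)).add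
      ((((hx.mul hx').add (hy.mul hy')).const_mul (2 : ℝ)).mul_const (V 1))).congr_deriv
      (by simp [A2, -mul_eq_mul_right_iff, -mul_eq_mul_left_iff]; ring)
  have hQ0 : HasDerivAt (fun s ↦ Q0 V (s, ξ)) (Q1 V (ε, ξ)) ε :=
    (hA0.div htc ht).congr_deriv (by simp [Q1, Q0]; field_simp)
  have hQ1 : HasDerivAt (fun s ↦ Q1 V (s, ξ)) (Q2 V (ε, ξ)) ε :=
    ((hA1.sub (hQ0.mul htd)).div htc ht).congr_deriv (by simp [Q2, Q1]; field_simp; ring)
  have hR0 : HasDerivAt (fun s ↦ R0 V (s, ξ)) (R1 V (ε, ξ)) ε :=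
    ((((hQ0.pow 2).add ((htc.mul_const (V 1)).pow 2)).div_const 2).add
      (((((hasDerivAt_const ε (aV V)).sub (hx.mul_const (V 1)))).pow 2).add
        ((((hasDerivAt_const ε (bV V)).sub (hy.mul_const (V 1)))).pow 2))).congr_deriv
      (by simp [R1]; ring)
  have hR1 : HasDerivAt (fun s ↦ R1 V (s, ξ)) (R2 V (ε, ξ)) ε :=
    (((hQ0.mul hQ1).add ((htc.mul htd).mul_const (V 1 ^ 2))).sub
      ((((hx'.mul ((hasDerivAt_const ε (aV V)).sub (hx.mul_const (V 1)))).add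
        (hy'.mul ((hasDerivAt_const ε (bV V)).sub (hy.mul_const (V 1))))).const_mul
          (2 * V 1)))).congr_deriv (by simp [R2]; ring)
  have hG : HasDerivAt (fun s ↦ G0 k V (s, ξ)) (G1 k V (ε, ξ)) ε :=
    (((hR0.const_mul k).neg.exp).div (htc.pow 3) (pow_ne_zero 3 ht)).congr_deriv
      (by simp [G1, D1, G0]; field_simp)
  refine ⟨hG, ?_⟩
  have hD : HasDerivAt (fun s ↦ D1 k V (s, ξ)) (D2 k V (ε, ξ)) ε :=
    ((hR1.const_mul k).neg.sub ((htd.const_mul 3).div htc ht)).congr_deriv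
      (by simp [D2]; field_simp; ring)
  exact (hD.mul hG).congr_deriv (by simp [G2, G1]; ring)

/-- The compact parameter set. -/
def dom : Set Par := Set.Icc (-(1 / 4)) (1 / 4) ×ˢ unitBall

theorem isCompact_dom : IsCompact dom := isCompact_Icc.prod isCompact_unitBall

theorem exp_bounds {s : ℝ} (hs : s ∈ Set.Icc (-(1 / 4 : ℝ)) (1 / 4)) :
    |Real.sinh s| ≤ 1 / 2 ∧ Real.cosh s ≤ 3 / 2 := by
  have h : ∀ u : ℝ, |u| ≤ 1 / 4 → |Real.exp u - 1| ≤ 1 / 2 := fun u hu ↦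
    (Real.abs_exp_sub_one_le (hu.trans (by norm_num))).trans (by linarith)
  have ha : |s| ≤ 1 / 4 := abs_le.2 hs
  have h1 := abs_le.1 (h s ha)
  have h2 := abs_le.1 (h (-s) (by rwa [abs_neg]))
  rw [Real.sinh_eq, Real.cosh_eq, abs_le]
  refine ⟨⟨?_, ?_⟩, ?_⟩ <;> linarith

theorem dom_facts {e : Par} (he : e ∈ dom) :
    1 / 2 ≤ tc e ∧ tc e ≤ 2 ∧ xc e ^ 2 + yc e ^ 2 ≤ 3 / 4 := by
  obtain ⟨hs, hc⟩ := exp_bounds he.1
  have h1 := Real.one_le_cosh e.1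
  have hξ : e.2.1.re ^ 2 + e.2.1.im ^ 2 + e.2.2 ^ 2 ≤ 1 := he.2
  have hw : |e.2.2| ≤ 1 := abs_le_one_iff_mul_self_le_one.2 (by
    nlinarith [sq_nonneg e.2.1.re, sq_nonneg e.2.1.im])
  have hp : |Real.sinh e.1 * e.2.2| ≤ 1 / 2 := by
    rw [abs_mul]
    calc |Real.sinh e.1| * |e.2.2| ≤ 1 / 2 * 1 :=
          mul_le_mul hs hw (abs_nonneg _) (by norm_num)
      _ = 1 / 2 := mul_one _
  rw [abs_le] at hp
  refine ⟨by unfold tc; linarith, by unfold tc; linarith, ?_⟩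
  have hs2 : Real.sinh e.1 ^ 2 ≤ 1 / 4 := by
    rw [← sq_abs]; nlinarith [abs_nonneg (Real.sinh e.1)]
  unfold xc yc
  rw [mul_pow, mul_pow, ← mul_add]
  nlinarith [sq_nonneg e.2.1.re, sq_nonneg e.2.1.im, sq_nonneg e.2.2]

theorem tc_ne_zero {e : Par} (he : e ∈ dom) : tc e ≠ 0 := by
  linarith [(dom_facts he).1]

theorem quad_bound (f : (Fin 4 → ℝ) → Par → ℝ)
    (hf : ContinuousOn (fun x : Par × (Fin 4 → ℝ) ↦ f x.2 x.1) (dom ×ˢ Set.univ))
    (hhom : ∀ (c : ℝ) V e, f (c • V) e = c ^ 2 * f V e) :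
    ∃ C, 0 ≤ C ∧ ∀ V, ∀ e ∈ dom, |f V e| ≤ C * ∑ i, V i ^ 2 := by
  obtain ⟨B, hB⟩ := ((isCompact_dom.prod (isCompact_closedBall (0 : Fin 4 → ℝ) 1)).image_of_continuousOn
    (hf.mono (Set.prod_mono le_rfl (Set.subset_univ _)))).isBounded.exists_norm_le
  refine ⟨|B|, abs_nonneg _, fun V e he ↦ ?_⟩
  set s := ‖V‖
  have hsum : s ^ 2 ≤ ∑ i, V i ^ 2 := by
    have h0 : 0 ≤ ∑ i, V i ^ 2 := Finset.sum_nonneg fun i _ ↦ sq_nonneg _
    have : s ≤ √(∑ i, V i ^ 2) :=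
      (pi_norm_le_iff_of_nonneg (Real.sqrt_nonneg _)).2 fun i ↦ Real.le_sqrt_of_sq_le (by
        rw [Real.norm_eq_abs, sq_abs]
        exact Finset.single_le_sum (fun j _ ↦ sq_nonneg (V j)) (Finset.mem_univ i))
    calc s ^ 2 ≤ √(∑ i, V i ^ 2) ^ 2 := pow_le_pow_left₀ (norm_nonneg _) this 2
      _ = _ := Real.sq_sqrt h0
  by_cases hs : s = 0
  · have hV : V = 0 := norm_eq_zero.1 hs
    have := hhom 0 V e
    rw [zero_smul, ← hV] at this
    rw [this]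
    simp [hV]
  · have hmem : s⁻¹ • V ∈ Metric.closedBall (0 : Fin 4 → ℝ) 1 := by
      rw [mem_closedBall_zero_iff, norm_smul, norm_inv, norm_norm, inv_mul_cancel₀ hs]
    have hb := hB _ ⟨(e, s⁻¹ • V), ⟨he, hmem⟩, rfl⟩
    simp only [Real.norm_eq_abs] at hb
    rw [hhom, abs_mul, abs_of_nonneg (sq_nonneg _)] at hb
    calc |f V e| = s ^ 2 * ((s⁻¹) ^ 2 * |f V e|) := by field_simp
      _ ≤ s ^ 2 * |B| := mul_le_mul_of_nonneg_left (hb.trans (le_abs_self B)) (sq_nonneg _)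
      _ ≤ _ := by rw [mul_comm]; exact mul_le_mul_of_nonneg_left hsum (abs_nonneg _)

theorem exists_R_bounds :
    ∃ C, 0 ≤ C ∧ ∀ V, ∀ e ∈ dom,
      |R1 V e| ≤ C * ∑ i, V i ^ 2 ∧ |R2 V e| ≤ C * ∑ i, V i ^ 2 := by
  have hne : ∀ x ∈ dom ×ˢ (Set.univ : Set (Fin 4 → ℝ)), tc x.1 ≠ 0 := fun x hx ↦ tc_ne_zero hx.1
  have hne' : ∀ x ∈ dom ×ˢ (Set.univ : Set (Fin 4 → ℝ)),
      Real.cosh x.1.1 + Real.sinh x.1.1 * x.1.2.2 ≠ 0 := hne
  obtain ⟨C1, h1, hC1⟩ := quad_bound R1 (by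
    unfold R1 Q1 Q0 A1 A0 tc td xc xd yc yd aV bV
    fun_prop (disch := assumption)) (by
    intro c V e
    simp only [R1, Q1, Q0, A1, A0, aV, bV, Pi.smul_apply, smul_eq_mul]
    ring)
  obtain ⟨C2, h2, hC2⟩ := quad_bound R2 (by
    unfold R2 Q2 Q1 Q0 A2 A1 A0 tc td xc xd yc yd aV bV
    fun_prop (disch := assumption)) (by
    intro c V e
    simp only [R2, Q2, Q1, Q0, A2, A1, A0, aV, bV, Pi.smul_apply, smul_eq_mul]
    ring)
  have hs : ∀ V : Fin 4 → ℝ, 0 ≤ ∑ i, V i ^ 2 := fun V ↦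
    Finset.sum_nonneg fun i _ ↦ sq_nonneg _
  exact ⟨C1 + C2, add_nonneg h1 h2, fun V e he ↦
    ⟨(hC1 V e he).trans (by nlinarith [hs V]), (hC2 V e he).trans (by nlinarith [hs V])⟩⟩

/-- The point of the path. -/
def pt (e : Par) (h : 0 < tc e) : H3 := ⟨⟨xc e, yc e⟩, tc e, h⟩

theorem maj_pt (e : Par) (h : 0 < tc e) : maj V (pt e h) = R0 V e := by
  rw [maj_eq]
  simp [pt, R0, Q0, A0, aV, bV, Complex.normSq_apply]
  ring

theorem R0_lower {e : Par} (he : e ∈ dom) : (∑ i, V i ^ 2) / 4096 ≤ R0 V e := by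
  obtain ⟨h1, h2, h3⟩ := dom_facts he
  have hpos : 0 < tc e := by linarith
  have h := maj_lower_siegel V (p := pt e hpos) ⟨by
    simpa [pt, Complex.normSq_apply, sq] using h3, h1⟩
  rw [maj_pt] at h
  refine le_trans ?_ h
  have h4 : V 0 ^ 2 / 4 ≤ (V 0 / tc e) ^ 2 := by
    rw [div_pow]
    exact div_le_div_of_nonneg_left (sq_nonneg _) (by positivity) (by nlinarith)
  simp only [Fin.sum_univ_four, pt]
  nlinarith [sq_nonneg (V 1), sq_nonneg (V 2), sq_nonneg (V 3)]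

/-- Second derivative bound, with Gaussian decay. -/
theorem exists_G2_bound : ∃ δ > 0, ∃ C, 0 ≤ C ∧ ∀ k V, 0 < k → ∀ e ∈ dom,
    |G2 k V e| ≤ C * kern (δ * k) V H3.origin := by
  obtain ⟨C, hC0, hC⟩ := exists_R_bounds
  obtain ⟨B, hB⟩ := (isCompact_dom.image_of_continuousOn
    (f := fun e ↦ td e / tc e) ((by unfold td; fun_prop : Continuous td).continuousOn.div
      (by unfold tc; fun_prop : Continuous tc).continuousOn fun e he ↦ tc_ne_zero he)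
      ).isBounded.exists_norm_le
  set E := (C + 3 * |B| + 1) ^ 2 + (C + 3 + 3 * B ^ 2)
  refine ⟨1 / 16384, by norm_num, 8 * (E * 16385 ^ 2), by positivity, fun k V hk e he ↦ ?_⟩
  set S := ∑ i, V i ^ 2 with hSdef
  have hS : 0 ≤ S := Finset.sum_nonneg fun i _ ↦ sq_nonneg _
  obtain ⟨hR1, hR2⟩ := hC V e he
  obtain ⟨ht1, ht2, -⟩ := dom_facts he
  have hb : |td e / tc e| ≤ |B| := (hB _ ⟨e, he, rfl⟩).trans (le_abs_self B)
  have hu : (0 : ℝ) ≤ k * S := mul_nonneg hk.le hS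
  have hD1 : |D1 k V e| ≤ (C + 3 * |B| + 1) * (1 + k * S) := by
    rw [D1, mul_div_assoc]
    refine (abs_sub _ _).trans ?_
    rw [abs_neg, abs_mul, abs_of_pos hk, abs_mul, abs_of_pos (by norm_num : (0 : ℝ) < 3)]
    nlinarith [mul_le_mul_of_nonneg_left hR1 hk.le, abs_nonneg B]
  have hD2 : |D2 k V e| ≤ (C + 3 + 3 * B ^ 2) * (1 + k * S) := by
    rw [D2, mul_div_assoc, ← div_pow]
    refine (abs_add_le _ _).trans ?_
    refine (add_le_add (abs_sub _ _) le_rfl).trans ?_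
    rw [abs_neg, abs_mul, abs_of_pos hk, abs_of_pos (by norm_num : (0 : ℝ) < 3),
      abs_of_nonneg (show 0 ≤ 3 * (td e / tc e) ^ 2 by positivity)]
    have : (td e / tc e) ^ 2 ≤ B ^ 2 := by rw [← sq_abs, ← sq_abs B]; gcongr
    nlinarith [mul_le_mul_of_nonneg_left hR2 hk.le, sq_nonneg B]
  have hP : |D1 k V e ^ 2 + D2 k V e| ≤ E * (1 + k * S) ^ 2 := by
    refine (abs_add_le _ _).trans ?_
    rw [abs_pow, show E * (1 + k * S) ^ 2 = ((C + 3 * |B| + 1) * (1 + k * S)) ^ 2 +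
      (C + 3 + 3 * B ^ 2) * (1 + k * S) ^ 2 by simp only [E]; ring]
    refine add_le_add (pow_le_pow_left₀ (abs_nonneg _) hD1 2) (hD2.trans ?_)
    refine mul_le_mul_of_nonneg_left ?_ (by positivity)
    nlinarith
  have hG : |G0 k V e| ≤ 8 * Real.exp (-(k * S / 4096)) := by
    have hpos : 0 < tc e := by linarith
    rw [G0, abs_of_nonneg (div_nonneg (Real.exp_pos _).le (pow_nonneg hpos.le 3))]
    rw [div_le_iff₀ (pow_pos hpos 3)]
    have h8 : 1 ≤ 8 * tc e ^ 3 := by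
      have : (1 / 2 : ℝ) ^ 3 ≤ tc e ^ 3 := pow_le_pow_left₀ (by norm_num) ht1 3
      linarith
    calc Real.exp (-(k * R0 V e)) ≤ Real.exp (-(k * S / 4096)) := Real.exp_le_exp.2 (by
          have h := mul_le_mul_of_nonneg_left (R0_lower V he) hk.le
          rw [← hSdef, mul_div_assoc'] at h
          linarith)
      _ ≤ Real.exp (-(k * S / 4096)) * (8 * tc e ^ 3) :=
          le_mul_of_one_le_right (Real.exp_pos _).le h8
      _ = _ := by ring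
  have habs : (1 + k * S) ^ 2 * Real.exp (-(k * S / 4096)) ≤
      16385 ^ 2 * Real.exp (-(k * S / 8192)) := by
    have h1 : 1 + k * S ≤ 16385 * Real.exp (k * S / 16384) := by
      have := Real.add_one_le_exp (k * S / 16384)
      have := Real.one_le_exp (show 0 ≤ k * S / 16384 by positivity)
      nlinarith [Real.exp_pos (k * S / 16384)]
    have h2 := pow_le_pow_left₀ (by positivity) h1 2
    rw [mul_pow, ← Real.exp_nat_mul] at h2
    calc (1 + k * S) ^ 2 * Real.exp (-(k * S / 4096))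
        ≤ (16385 : ℝ) ^ 0 * (16385 ^ 2 * Real.exp ((2 : ℕ) * (k * S / 16384))) *
            Real.exp (-(k * S / 4096)) := by
          rw [pow_zero, one_mul]
          exact mul_le_mul_of_nonneg_right h2 (Real.exp_pos _).le
      _ = _ := by
          rw [pow_zero, one_mul, mul_assoc, ← Real.exp_add]
          congr 2
          push_cast
          ring
  have hmaj : maj V H3.origin ≤ 2 * S := by
    rw [maj_origin, hSdef, Fin.sum_univ_four]
    nlinarith [sq_nonneg (V 0), sq_nonneg (V 1), sq_nonneg (V 2 + V 3)]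
  have hk' : Real.exp (-(k * S / 8192)) ≤ kern (1 / 16384 * k) V H3.origin := by
    rw [kern, Real.exp_le_exp]
    nlinarith
  rw [G2, abs_mul]
  calc |D1 k V e ^ 2 + D2 k V e| * |G0 k V e|
      ≤ E * (1 + k * S) ^ 2 * (8 * Real.exp (-(k * S / 4096))) :=
        mul_le_mul hP hG (abs_nonneg _) (by positivity)
    _ = 8 * E * ((1 + k * S) ^ 2 * Real.exp (-(k * S / 4096))) := by ring
    _ ≤ 8 * E * (16385 ^ 2 * Real.exp (-(k * S / 8192))) :=
        mul_le_mul_of_nonneg_left habs (by positivity)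
    _ ≤ 8 * E * (16385 ^ 2 * kern (1 / 16384 * k) V H3.origin) :=
        mul_le_mul_of_nonneg_left (mul_le_mul_of_nonneg_left hk' (by positivity)) (by positivity)
    _ = _ := by ring

theorem G0_zero (ξ : ℂ × ℝ) : G0 k V (0, ξ) = kern k V H3.origin := by
  have h : (√3 : ℝ) * √3 = 3 := Real.mul_self_sqrt (by norm_num)
  simp [G0, R0, Q0, A0, tc, xc, yc, aV, bV, kern, maj_origin]
  left
  linear_combination (V 3 ^ 2 / 4) * h

theorem G0_symm (s : ℝ) (ξ : ℂ × ℝ) : G0 k V (-s, -ξ) = G0 k V (s, ξ) := by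
  simp [G0, R0, Q0, A0, tc, xc, yc]

/-- The integral of the second derivative at the centre. -/
theorem integral_G2_zero :
    (1 / 2 : ℝ) * (∫ ξ in unitBall, G2 k V (0, ξ)) + 8 * Real.pi / 15 * kern k V H3.origin =
      2 * Real.pi / 15 * (4 * k ^ 2 * (maj V H3.origin ^ 2 - quad V ^ 2) -
        k * (8 * maj V H3.origin - 4 * quad V) + 1) * kern k V H3.origin := by
  have h3 : (√3 : ℝ) * √3 = 3 := Real.mul_self_sqrt (by norm_num)
  set a := aV V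
  set b := bV V
  set K := kern k V H3.origin
  set rt := V 1 ^ 2 - V 0 ^ 2
  set rx := -2 * a * (V 0 + V 1)
  set ry := -2 * b * (V 0 + V 1)
  have e : ∀ ξ : ℂ × ℝ, G2 k V (0, ξ) =
      (-k * rt - 3) * K +
      (k ^ 2 * rx ^ 2 - k * (4 * a ^ 2 + 2 * V 0 * V 1 + 2 * V 1 ^ 2)) * K * ξ.1.re ^ 2 +
      (k ^ 2 * ry ^ 2 - k * (4 * b ^ 2 + 2 * V 0 * V 1 + 2 * V 1 ^ 2)) * K * ξ.1.im ^ 2 +
      ((k * rt + 3) ^ 2 - k * (3 * V 0 ^ 2 + V 1 ^ 2) + 3) * K * ξ.2 ^ 2 +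
      (2 * k ^ 2 * rx * ry - 8 * k * a * b) * K * (ξ.1.re * ξ.1.im) +
      (2 * (k * rx) * (k * rt + 3) - 8 * k * a * V 0) * K * (ξ.1.re * ξ.2) +
      (2 * (k * ry) * (k * rt + 3) - 8 * k * b * V 0) * K * (ξ.1.im * ξ.2) := by
    intro ξ
    rw [G2, G0_zero]
    simp [D1, D2, R1, R2, Q2, Q1, Q0, A2, A1, A0, tc, td, xc, xd, yc, yd, a, b, rt, rx, ry, K]
    ring
  simp only [e]
  rw [ball_quadratic]
  have hm : maj V H3.origin = (V 0 ^ 2 + V 1 ^ 2) / 2 + (a ^ 2 + b ^ 2) := by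
    rw [maj_origin]; simp only [a, b, aV, bV]
    linear_combination (-(V 3) ^ 2 / 4) * h3
  have hq : quad V = a ^ 2 + b ^ 2 - V 0 * V 1 := by
    simp only [quad, a, b, aV, bV]
    linear_combination (-(V 3) ^ 2 / 4) * h3
  rw [hm, hq]
  simp only [rt, rx, ry]
  ring

end Ball

end FermatAgent.LT.Lift
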