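import Mathlib
import Fermat.Agent.LT.Lift.SphAsymp

/-!
# Small ball averages: the limit
-/

set_option autoImplicit false

noncomputable section

open MeasureTheory Filter Topology
open scoped ENNReal NNReal

namespace FermatAgent.LT.Lift

/-- The closed hyperbolic ball. -/
def hball (P : H3) (ε : ℝ) : Set H3 := {Q | coshDist P Q ≤ Real.cosh ε}

/-- The defect of `kern` against the spherical function of parameter zero. -/
def sphDefect (k : ℝ) (V : Fin 4 → ℝ) (P : H3) (ε : ℝ) : ℝ :=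
  (∫ Q in hball P ε, kern k V Q) - sphBall ε * kern k V P

theorem integral_eq_coord {E : Type*} [NormedAddCommGroup E] [NormedSpace ℝ E] (F : ℂ × ℝ → E) :
    ∫ p : H3, F p.coord = ∫ x in {x : ℂ × ℝ | 0 < x.2}, (dens x : ℝ) • F x := by
  rw [← range_coord, ← measurableEmbedding_coord.map_comap,
    measurableEmbedding_coord.integral_map,
    show (volume : Measure H3) = ((volume : Measure (ℂ × ℝ)).comap H3.coord).withDensity
      (fun p ↦ (dens p.coord : ℝ≥0∞)) from rfl]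
  exact integral_withDensity_eq_integral_smul
    (measurable_dens.comp measurableEmbedding_coord.measurable) _

theorem measurableSet_hball (P : H3) (ε : ℝ) : MeasurableSet (hball P ε) := by
  refine measurableSet_le ?_ measurable_const
  rw [show coshDist P = fun q : H3 ↦
    1 + (Complex.normSq (P.z - q.z) + (P.t - q.t) ^ 2) / (2 * P.t * q.t) from
      funext (coshDist_eq P)]
  have := continuous_z.measurable
  have := continuous_t.measurable
  fun_prop

namespace Ball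

theorem pt_coord (ε : ℝ) (ξ : ℂ × ℝ) :
    Real.sinh ε • ξ + ((0 : ℂ), Real.cosh ε) = ((⟨xc (ε, ξ), yc (ε, ξ)⟩ : ℂ), tc (ε, ξ)) := by
  refine Prod.ext (Complex.ext ?_ ?_) ?_ <;>
    simp [xc, yc, tc, mul_comm, add_comm, Complex.sinh_ofReal_re]

theorem mem_hball_origin {ε : ℝ} (hε : 0 < ε) (p : H3) :
    p ∈ hball H3.origin ε ↔
      ∃ ξ ∈ unitBall, p.coord = Real.sinh ε • ξ + ((0 : ℂ), Real.cosh ε) := by
  have hs := Real.sinh_pos_iff.2 hε
  have hc := Real.cosh_sq ε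
  have ht := p.t_pos
  have e : coshDist H3.origin p ≤ Real.cosh ε ↔
      p.z.re ^ 2 + p.z.im ^ 2 + (p.t - Real.cosh ε) ^ 2 ≤ Real.sinh ε ^ 2 := by
    rw [coshDist_eq]
    simp [H3.origin, Complex.normSq_apply]
    rw [← le_sub_iff_add_le', div_le_iff₀ (by positivity)]
    constructor <;> intro h <;> nlinarith
  show coshDist H3.origin p ≤ Real.cosh ε ↔ _
  rw [e]
  constructor
  · intro h
    refine ⟨(Real.sinh ε)⁻¹ • (p.coord - ((0 : ℂ), Real.cosh ε)), ?_, ?_⟩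
    · show sumSq _ ≤ 1
      simp only [sumSq, H3.coord, Prod.smul_fst, Prod.smul_snd, Prod.fst_sub, Prod.snd_sub,
        sub_zero, Complex.smul_re, Complex.smul_im, smul_eq_mul, mul_pow, ← mul_add]
      rw [inv_pow, ← div_eq_inv_mul, div_le_one (by positivity)]
      exact h
    · rw [smul_inv_smul₀ hs.ne', sub_add_cancel]
  · rintro ⟨ξ, hξ, h⟩
    rw [pt_coord] at h
    obtain ⟨h1, h2⟩ := Prod.ext_iff.1 h
    simp only [H3.coord] at h1 h2
    rw [h1, h2]
    have hξ' : ξ.1.re ^ 2 + ξ.1.im ^ 2 + ξ.2 ^ 2 ≤ 1 := hξ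
    simp only [xc, yc, tc]
    nlinarith [mul_le_mul_of_nonneg_left hξ' (sq_nonneg (Real.sinh ε))]

/-- The average of the path. -/
def T (k : ℝ) (V : Fin 4 → ℝ) (ε : ℝ) : ℝ := ∫ ξ in unitBall, G0 k V (ε, ξ)

theorem setIntegral_hball_origin (k : ℝ) (V : Fin 4 → ℝ) {ε : ℝ} (hε : 0 < ε) :
    ∫ p in hball H3.origin ε, kern k V p = Real.sinh ε ^ 3 * T k V ε := by
  set s := Real.sinh ε with hsdef
  have hs : 0 < s := Real.sinh_pos_iff.2 hε
  set c : ℂ × ℝ := ((0 : ℂ), Real.cosh ε)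
  set A : Set (ℂ × ℝ) := (fun ξ ↦ s • ξ + c) '' unitBall
  set F : ℂ × ℝ → ℝ := A.indicator fun x ↦
    if h : 0 < x.2 then kern k V ⟨x.1, x.2, h⟩ else 0
  have hmem : ∀ p : H3, p ∈ hball H3.origin ε ↔ p.coord ∈ A := by
    intro p
    rw [mem_hball_origin hε]
    constructor
    · rintro ⟨ξ, hξ, h⟩; exact ⟨ξ, hξ, h.symm⟩
    · rintro ⟨ξ, hξ, h⟩; exact ⟨ξ, hξ, h.symm⟩
  have hF : ∀ p : H3, (hball H3.origin ε).indicator (kern k V) p = F p.coord := by
    intro p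
    by_cases hp : p ∈ hball H3.origin ε
    · rw [Set.indicator_of_mem hp]
      simp only [F, Set.indicator_of_mem ((hmem p).1 hp)]
      rw [dif_pos (show 0 < p.coord.2 from p.t_pos)]
      rfl
    · rw [Set.indicator_of_notMem hp]
      simp only [F, Set.indicator_of_notMem (mt (hmem p).2 hp)]
  rw [← integral_indicator (measurableSet_hball _ _)]
  simp only [hF]
  rw [integral_eq_coord]
  have hpos : ∀ ξ ∈ unitBall, 0 < tc (ε, ξ) := by
    intro ξ hξ
    have hξ' : ξ.1.re ^ 2 + ξ.1.im ^ 2 + ξ.2 ^ 2 ≤ 1 := hξ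
    have hw : |ξ.2| ≤ 1 := abs_le_one_iff_mul_self_le_one.2 (by
      nlinarith [sq_nonneg ξ.1.re, sq_nonneg ξ.1.im])
    rw [abs_le] at hw
    show 0 < Real.cosh ε + Real.sinh ε * ξ.2
    have := Real.sinh_lt_cosh ε
    nlinarith
  rw [setIntegral_eq_integral_of_forall_compl_eq_zero (fun x hx ↦ by
    have hA : x ∉ A := by
      rintro ⟨ξ, hξ, rfl⟩
      refine hx ?_
      show 0 < (s • ξ + c).2
      rw [hsdef, pt_coord]
      exact hpos ξ hξ
    simp [F, Set.indicator_of_notMem hA])]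
  set H : ℂ × ℝ → ℝ := fun x ↦ (dens x : ℝ) • F x
  have h1 : ∫ x, H (s • x + c) = (s ^ 3)⁻¹ * ∫ x, H x := by
    have h0 : ∫ x, H (s • x + c) = ∫ x, (fun y ↦ H (y + c)) (s • x) := rfl
    rw [h0, Measure.integral_comp_smul_of_nonneg volume (fun y ↦ H (y + c)) s (hR := hs.le),
      integral_add_right_eq_self, Module.finrank_prod, Complex.finrank_real_complex,
      Module.finrank_self, smul_eq_mul]
  have h2 : ∀ x, H (s • x + c) = unitBall.indicator (fun ξ ↦ G0 k V (ε, ξ)) x := by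
    intro x
    by_cases hx : x ∈ unitBall
    · rw [Set.indicator_of_mem hx]
      have hm : s • x + c ∈ A := ⟨x, hx, rfl⟩
      simp only [H, F]
      rw [Set.indicator_of_mem hm]
      have e := pt_coord ε x
      rw [← hsdef] at e
      change s • x + c = _ at e
      have hp := hpos x hx
      simp only [e, dif_pos hp]
      have : maj V (⟨⟨xc (ε, x), yc (ε, x)⟩, tc (ε, x), hp⟩ : H3) = R0 V (ε, x) :=
        maj_pt V (ε, x) hp
      simp only [kern, this, dens, G0, smul_eq_mul, one_div]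
      rw [Real.coe_toNNReal _ (by positivity), ← div_eq_inv_mul]
    · rw [Set.indicator_of_notMem hx]
      have hA : s • x + c ∉ A := by
        rintro ⟨ξ, hξ, h⟩
        exact hx (smul_right_injective (ℂ × ℝ) hs.ne' (add_right_cancel h) ▸ hξ)
      simp [H, F, Set.indicator_of_notMem hA]
  simp only [h2] at h1
  rw [integral_indicator measurableSet_unitBall] at h1
  rw [T, h1]
  field_simp

theorem continuousOn_slice (k : ℝ) (V : Fin 4 → ℝ) :
    ContinuousOn (G0 k V) dom ∧ ContinuousOn (G2 k V) dom := by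
  have hne : ∀ x ∈ dom, tc x ≠ 0 := fun x hx ↦ tc_ne_zero hx
  have hne' : ∀ x ∈ dom, Real.cosh x.1 + Real.sinh x.1 * x.2.2 ≠ 0 := hne
  have hne2 : ∀ x ∈ dom, (Real.cosh x.1 + Real.sinh x.1 * x.2.2) ^ 2 ≠ 0 :=
    fun x hx ↦ pow_ne_zero _ (hne x hx)
  have hne3 : ∀ x ∈ dom, (Real.cosh x.1 + Real.sinh x.1 * x.2.2) ^ 3 ≠ 0 :=
    fun x hx ↦ pow_ne_zero _ (hne x hx)
  constructor
  · unfold G0 R0 Q0 A0 tc xc yc aV bV
    fun_prop (disch := assumption)
  · unfold G2 D1 D2 G0 R0 R1 R2 Q2 Q1 Q0 A2 A1 A0 tc td xc xd yc yd aV bV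
    fun_prop (disch := assumption)

/-- Symmetric second difference. -/
theorem sym_second (f f' f'' : ℝ → ℝ) {ε η c : ℝ} (hε : 0 ≤ ε) (hη : 0 ≤ η)
    (hf : ∀ s ∈ Set.Icc (-ε) ε, HasDerivAt f (f' s) s ∧ HasDerivAt f' (f'' s) s)
    (hb : ∀ s ∈ Set.Icc (-ε) ε, |f'' s - c| ≤ η) :
    |f ε + f (-ε) - 2 * f 0 - c * ε ^ 2| ≤ 2 * η * ε ^ 2 := by
  have hd : ∀ s ∈ Set.Icc (0 : ℝ) ε,
      HasDerivWithinAt (fun u ↦ f u + f (-u) - c * u ^ 2) (f' s - f' (-s) - c * (2 * s))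
        (Set.Icc 0 ε) s := by
    intro s hs
    have h1 := (hf s ⟨by linarith [hs.1], hs.2⟩).1
    have h2 := ((hf (-s) ⟨by linarith [hs.2], by linarith [hs.1]⟩).1).comp s (hasDerivAt_neg s)
    have h3 := (hasDerivAt_pow 2 s).const_mul c
    refine ((h1.add h2).sub h3).hasDerivWithinAt.congr_deriv ?_
    simp
    ring
  have hb' : ∀ s ∈ Set.Ico (0 : ℝ) ε, ‖f' s - f' (-s) - c * (2 * s)‖ ≤ 2 * η * ε := by
    intro s hs
    have := norm_image_sub_le_of_norm_deriv_le_segment' (a := -s) (b := s)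
      (f := fun u ↦ f' u - c * u) (f' := fun u ↦ f'' u - c) (C := η)
      (fun u hu ↦ ?_) (fun u hu ↦ ?_) s ⟨by linarith [hs.1], le_rfl⟩
    · simp only [Real.norm_eq_abs] at this ⊢
      rw [show f' s - f' (-s) - c * (2 * s) = f' s - c * s - (f' (-s) - c * -s) by ring]
      nlinarith [hs.1, hs.2]
    · exact ((hf u ⟨by linarith [hu.1, hs.2], by linarith [hu.2, hs.2]⟩).2.sub
        ((hasDerivAt_id u).const_mul c |>.congr_deriv (mul_one c))).hasDerivWithinAt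
    · rw [Real.norm_eq_abs]
      exact hb u ⟨by linarith [hu.1, hs.2], by linarith [hu.2, hs.2]⟩
  have := norm_image_sub_le_of_norm_deriv_le_segment' hd hb' ε ⟨hε, le_rfl⟩
  simp only [neg_zero, Real.norm_eq_abs] at this
  rw [show f ε + f (-ε) - 2 * f 0 - c * ε ^ 2 =
    f ε + f (-ε) - c * ε ^ 2 - (f 0 + f 0 - c * 0 ^ 2) by ring]
  refine this.trans (le_of_eq ?_)
  ring

theorem T_sub (k : ℝ) (V : Fin 4 → ℝ) {ε : ℝ} (hε : ε ∈ Set.Icc (-(1 / 4 : ℝ)) (1 / 4)) :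
    T k V ε - 4 * Real.pi / 3 * kern k V H3.origin =
      ∫ ξ in unitBall, (G0 k V (ε, ξ) + G0 k V (-ε, ξ) - 2 * G0 k V (0, ξ)) / 2 := by
  have hi : ∀ s ∈ Set.Icc (-(1 / 4 : ℝ)) (1 / 4),
      IntegrableOn (fun ξ ↦ G0 k V (s, ξ)) unitBall := fun s hs ↦
    ((continuousOn_slice k V).1.comp (continuous_const.prodMk continuous_id).continuousOn
      (fun ξ hξ ↦ ⟨hs, hξ⟩)).integrableOn_compact isCompact_unitBall
  have hn : -ε ∈ Set.Icc (-(1 / 4 : ℝ)) (1 / 4) := ⟨by linarith [hε.2], by linarith [hε.1]⟩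
  have hsym : ∫ ξ in unitBall, G0 k V (-ε, ξ) = T k V ε := by
    rw [T, ← integral_ball_symm (-LinearMap.id) (fun x ↦ by simp)
      (fun x ↦ by simp [sumSq]) (fun ξ ↦ G0 k V (-ε, ξ))]
    refine integral_congr_ae (.of_forall fun ξ ↦ ?_)
    simp only [LinearMap.neg_apply, LinearMap.id_apply]
    exact (G0_symm k V ε ξ)
  have h0 := hi 0 ⟨by norm_num, by norm_num⟩
  have hadd : IntegrableOn (fun ξ ↦ G0 k V (ε, ξ) + G0 k V (-ε, ξ)) unitBall :=
    (hi ε hε).add (hi _ hn)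
  rw [integral_div, integral_sub hadd (h0.const_mul 2), integral_add (hi ε hε) (hi _ hn),
    integral_const_mul, hsym]
  simp only [G0_zero]
  rw [show (fun _ : ℂ × ℝ ↦ kern k V H3.origin) = fun _ ↦ kern k V H3.origin * 1 by simp,
    integral_const_mul, ball_volume, T]
  ring

theorem exists_T_bound : ∃ δ > 0, δ ≤ 1 ∧ ∃ C, 0 ≤ C ∧ ∀ k V, 0 < k →
    ∀ ε ∈ Set.Icc (0 : ℝ) (1 / 4), ∀ ξ ∈ unitBall,
      |G0 k V (ε, ξ) + G0 k V (-ε, ξ) - 2 * G0 k V (0, ξ)| ≤
        C * kern (δ * k) V H3.origin * ε ^ 2 := by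
  obtain ⟨δ, hδ, C, hC, h⟩ := exists_G2_bound
  refine ⟨min δ 1, lt_min hδ one_pos, min_le_right _ _, 2 * C, by positivity,
    fun k V hk ε hε ξ hξ ↦ ?_⟩
  have hδ' : kern (δ * k) V H3.origin ≤ kern (min δ 1 * k) V H3.origin := by
    refine Real.exp_le_exp.2 (neg_le_neg ?_)
    exact mul_le_mul_of_nonneg_right
      (mul_le_mul_of_nonneg_right (min_le_left _ _) hk.le) (maj_nonneg _ _)
  have hsub : ∀ s ∈ Set.Icc (-ε) ε, ((s, ξ) : Par) ∈ dom := fun s hs ↦
    ⟨⟨by linarith [hs.1, hε.2], by linarith [hs.2, hε.2]⟩, hξ⟩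
  have := sym_second (fun s ↦ G0 k V (s, ξ)) (fun s ↦ G1 k V (s, ξ)) (fun s ↦ G2 k V (s, ξ))
    (c := 0) hε.1 (mul_nonneg hC (Real.exp_pos _).le)
    (fun s hs ↦ hasDerivAt_all k V ξ s (tc_ne_zero (hsub s hs)))
    (fun s hs ↦ by rw [sub_zero]; exact h k V hk _ (hsub s hs))
  rw [zero_mul, sub_zero] at this
  refine this.trans ?_
  rw [← mul_assoc]
  exact mul_le_mul_of_nonneg_right (mul_le_mul_of_nonneg_left hδ' (by positivity)) (sq_nonneg ε)

theorem tendsto_T (k : ℝ) (V : Fin 4 → ℝ) (hk : 0 < k) :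
    Tendsto (fun ε ↦ (T k V ε - 4 * Real.pi / 3 * kern k V H3.origin) / ε ^ 2) (𝓝[>] 0)
      (𝓝 (1 / 2 * ∫ ξ in unitBall, G2 k V (0, ξ))) := by
  obtain ⟨δ, -, -, C, hC, hbd⟩ := exists_T_bound
  have hev : ∀ᶠ ε in 𝓝[>] (0 : ℝ), ε ∈ Set.Ioc (0 : ℝ) (1 / 4) :=
    Ioc_mem_nhdsGT (by norm_num)
  have hlim : Tendsto (fun ε ↦ ∫ ξ in unitBall,
      (G0 k V (ε, ξ) + G0 k V (-ε, ξ) - 2 * G0 k V (0, ξ)) / 2 / ε ^ 2) (𝓝[>] 0)
      (𝓝 (∫ ξ in unitBall, G2 k V (0, ξ) / 2)) := by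
    refine tendsto_integral_filter_of_dominated_convergence
      (fun _ ↦ C * kern (δ * k) V H3.origin) ?_ ?_ ?_ ?_
    · filter_upwards [hev] with ε hε
      have hc : ∀ s ∈ Set.Icc (-(1 / 4 : ℝ)) (1 / 4),
          ContinuousOn (fun ξ ↦ G0 k V (s, ξ)) unitBall := fun s hs ↦
        (continuousOn_slice k V).1.comp (continuous_const.prodMk continuous_id).continuousOn
          (fun ξ hξ ↦ ⟨hs, hξ⟩)
      refine ((((hc ε ⟨by linarith [hε.1], hε.2⟩).add
        (hc (-ε) ⟨by linarith [hε.2], by linarith [hε.1]⟩)).sub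
          ((hc 0 ⟨by norm_num, by norm_num⟩).const_smul (2 : ℝ))).div_const 2
            |>.div_const (ε ^ 2)).aestronglyMeasurable measurableSet_unitBall
    · filter_upwards [hev] with ε hε
      refine (ae_restrict_mem measurableSet_unitBall).mono fun ξ hξ ↦ ?_
      have := hbd k V hk ε ⟨hε.1.le, hε.2⟩ ξ hξ
      rw [Real.norm_eq_abs, abs_div, abs_div, abs_of_pos (pow_pos hε.1 2),
        div_le_iff₀ (pow_pos hε.1 2), abs_two, div_le_iff₀ two_pos]
      have h0 : 0 ≤ C * kern (δ * k) V H3.origin * ε ^ 2 :=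
        mul_nonneg (mul_nonneg hC (Real.exp_pos _).le) (sq_nonneg ε)
      nlinarith
    · exact integrableOn_const isCompact_unitBall.measure_lt_top.ne
    · refine (ae_restrict_mem measurableSet_unitBall).mono fun ξ hξ ↦ ?_
      rw [Metric.tendsto_nhds]
      intro η hη
      have hc : ContinuousWithinAt (fun s ↦ G2 k V (s, ξ)) (Set.Icc (-(1 / 4)) (1 / 4)) 0 :=
        ((continuousOn_slice k V).2.comp (continuous_id.prodMk continuous_const).continuousOn
          (fun s hs ↦ ⟨hs, hξ⟩)) 0 ⟨by norm_num, by norm_num⟩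
      obtain ⟨r, hr, hr'⟩ := Metric.continuousWithinAt_iff.1 hc (η / 2) (half_pos hη)
      filter_upwards [hev, Ioo_mem_nhdsGT hr] with ε hε hεr
      have hsub : ∀ s ∈ Set.Icc (-ε) ε, s ∈ Set.Icc (-(1 / 4 : ℝ)) (1 / 4) := fun s hs ↦
        ⟨by linarith [hs.1, hε.2], by linarith [hs.2, hε.2]⟩
      have := sym_second (fun s ↦ G0 k V (s, ξ)) (fun s ↦ G1 k V (s, ξ)) (fun s ↦ G2 k V (s, ξ))
        (c := G2 k V (0, ξ)) hε.1.le (half_pos hη).le
        (fun s hs ↦ hasDerivAt_all k V ξ s (tc_ne_zero (e := (s, ξ)) ⟨hsub s hs, hξ⟩))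
        (fun s hs ↦ by
          have := hr' (hsub s hs) (by
            rw [Real.dist_eq, sub_zero, abs_lt]
            constructor <;> linarith [hs.1, hs.2, hεr.2])
          rw [Real.dist_eq] at this
          exact this.le)
      rw [Real.dist_eq]
      have h2 := pow_pos hε.1 2
      rw [show (G0 k V (ε, ξ) + G0 k V (-ε, ξ) - 2 * G0 k V (0, ξ)) / 2 / ε ^ 2 -
          G2 k V (0, ξ) / 2 = (G0 k V (ε, ξ) + G0 k V (-ε, ξ) - 2 * G0 k V (0, ξ) -
            G2 k V (0, ξ) * ε ^ 2) / (2 * ε ^ 2) by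
            field_simp; rw [div_sub' h2.ne'],
        abs_div, abs_of_pos (by positivity : (0 : ℝ) < 2 * ε ^ 2), div_lt_iff₀ (by positivity)]
      nlinarith
  rw [integral_div] at hlim
  rw [show (1 : ℝ) / 2 * ∫ ξ in unitBall, G2 k V (0, ξ) =
    (∫ ξ in unitBall, G2 k V (0, ξ)) / 2 by ring]
  refine hlim.congr' (hev.mono fun ε hε ↦ ?_)
  show ∫ ξ in unitBall, _ / ε ^ 2 = _
  rw [integral_div, ← T_sub k V ⟨by linarith [hε.1], hε.2⟩]

theorem tendsto_sinh_div : Tendsto (fun ε ↦ Real.sinh ε / ε) (𝓝[>] 0) (𝓝 1) := by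
  have := (Real.hasDerivAt_sinh 0).tendsto_slope_zero_right
  simpa [div_eq_inv_mul] using this

theorem tendsto_sphBall :
    Tendsto (fun ε ↦ (4 * Real.pi / 3 * Real.sinh ε ^ 3 - sphBall ε) / ε ^ 5) (𝓝[>] 0)
      (𝓝 (8 * Real.pi / 15)) := by
  have hz : ∀ f : ℝ → ℝ, Continuous f → f 0 = 0 → Tendsto f (𝓝[>] 0) (𝓝 0) := fun f hf h0 ↦
    Tendsto.mono_left (by simpa [h0] using hf.tendsto 0) nhdsWithin_le_nhds
  have h1 : Tendsto (fun ε ↦ (Real.sinh ε * Real.cosh ε - ε) / ε ^ 3) (𝓝[>] 0) (𝓝 (2 / 3)) := by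
    refine HasDerivAt.lhopital_zero_nhdsGT (f' := fun ε ↦ 2 * Real.sinh ε ^ 2)
      (g' := fun ε ↦ 3 * ε ^ 2) (.of_forall fun ε ↦ ?_)
      (.of_forall fun ε ↦ by simpa using hasDerivAt_pow 3 ε)
      (eventually_mem_nhdsWithin.mono fun ε hε ↦ by
        have : 0 < ε := hε
        positivity)
      (hz _ (by fun_prop) (by simp)) (hz _ (by fun_prop) (by simp)) ?_
    · refine (((Real.hasDerivAt_sinh ε).mul (Real.hasDerivAt_cosh ε)).sub
        (hasDerivAt_id ε)).congr_deriv ?_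
      linear_combination Real.cosh_sq ε
    · have := (tendsto_sinh_div.pow 2).const_mul (2 / 3)
      rw [one_pow, mul_one] at this
      refine this.congr' (.of_forall fun ε ↦ ?_)
      ring
  refine HasDerivAt.lhopital_zero_nhdsGT
    (f' := fun ε ↦ 4 * Real.pi * Real.sinh ε * (Real.sinh ε * Real.cosh ε - ε))
    (g' := fun ε ↦ 5 * ε ^ 4) (.of_forall fun ε ↦ ?_)
    (.of_forall fun ε ↦ by simpa using hasDerivAt_pow 5 ε)
    (eventually_mem_nhdsWithin.mono fun ε hε ↦ by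
      have : 0 < ε := hε
      positivity) (hz _ ?_ (by simp [sphBall])) (hz _ (by fun_prop) (by simp)) ?_
  · have hI : HasDerivAt (fun u ↦ ∫ r in (0 : ℝ)..u, r * Real.sinh r) (ε * Real.sinh ε) ε :=
      intervalIntegral.integral_hasDerivAt_right (Continuous.intervalIntegrable (by fun_prop) _ _)
        (Continuous.stronglyMeasurableAtFilter (by fun_prop) _ _) (by fun_prop)
    refine ((((Real.hasDerivAt_sinh ε).pow 3).const_mul (4 * Real.pi / 3)).sub
      (hI.const_mul (4 * Real.pi))).congr_deriv ?_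
    simp
    ring
  · unfold sphBall
    have := intervalIntegral.continuous_primitive
      (f := fun r ↦ r * Real.sinh r) (μ := volume)
      (fun a b ↦ Continuous.intervalIntegrable (by fun_prop) a b) 0
    fun_prop
  · have := (tendsto_sinh_div.mul h1).const_mul (4 * Real.pi / 5)
    rw [one_mul, show 4 * Real.pi / 5 * (2 / 3) = 8 * Real.pi / 15 by ring] at this
    refine this.congr' (.of_forall fun ε ↦ ?_)
    ring

theorem tendsto_defect_origin (k : ℝ) (V : Fin 4 → ℝ) (hk : 0 < k) :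
    Tendsto (fun ε ↦ sphDefect k V H3.origin ε / ε ^ 5) (𝓝[>] 0)
      (𝓝 (2 * Real.pi / 15 * (4 * k ^ 2 * (maj V H3.origin ^ 2 - quad V ^ 2) -
        k * (8 * maj V H3.origin - 4 * quad V) + 1) * kern k V H3.origin)) := by
  rw [← integral_G2_zero]
  have := ((tendsto_sinh_div.pow 3).mul (tendsto_T k V hk)).add
    (tendsto_sphBall.mul_const (kern k V H3.origin))
  rw [one_pow, one_mul] at this
  refine this.congr' (eventually_mem_nhdsWithin.mono fun ε hε ↦ ?_)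
  have hε' : 0 < ε := hε
  simp only [sphDefect, setIntegral_hball_origin k V hε']
  field_simp
  ring

theorem exists_defect_origin_bound : ∃ ε₀ > 0, ∃ δ > 0, ∃ C, 0 ≤ C ∧ ∀ k V, 0 < k →
    ∀ ε ∈ Set.Ioo (0 : ℝ) ε₀,
      |sphDefect k V H3.origin ε| ≤ C * ε ^ 5 * kern (δ * k) V H3.origin := by
  obtain ⟨δ, hδ, hδ1, C, hC, hbd⟩ := exists_T_bound
  have hev : ∀ᶠ ε in 𝓝[>] (0 : ℝ), ε < 1 / 4 ∧ Real.sinh ε / ε ≤ 2 ∧
      |(4 * Real.pi / 3 * Real.sinh ε ^ 3 - sphBall ε) / ε ^ 5| ≤ 8 * Real.pi / 15 + 1 := by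
    filter_upwards [Ioo_mem_nhdsGT (show (0 : ℝ) < 1 / 4 by norm_num),
      tendsto_sinh_div.eventually_le_const (show (1 : ℝ) < 2 by norm_num),
      tendsto_sphBall.abs.eventually_le_const
        (show |8 * Real.pi / 15| < 8 * Real.pi / 15 + 1 by
          rw [abs_of_pos (by positivity)]; linarith)] with ε h1 h2 h3
    exact ⟨h1.2, h2, h3⟩
  obtain ⟨e, he, he'⟩ := (nhdsGT_basis 0).eventually_iff.1 hev
  refine ⟨e, he, δ, hδ, 8 * (C * (4 * Real.pi / 3)) + (8 * Real.pi / 15 + 1), by positivity,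
    fun k V hk ε hε ↦ ?_⟩
  obtain ⟨h1, h2, h3⟩ := he' hε
  have hε0 := hε.1
  set K := kern (δ * k) V H3.origin
  have hK : kern k V H3.origin ≤ K := by
    refine Real.exp_le_exp.2 (neg_le_neg ?_)
    exact mul_le_mul_of_nonneg_right (mul_le_of_le_one_left hk.le hδ1) (maj_nonneg _ _)
  have hK0 : 0 ≤ K := (Real.exp_pos _).le
  have hT : |T k V ε - 4 * Real.pi / 3 * kern k V H3.origin| ≤
      C * (4 * Real.pi / 3) * K * ε ^ 2 := by
    rw [T_sub k V ⟨by linarith, h1.le⟩]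
    have hb := norm_setIntegral_le_of_norm_le_const (μ := (volume : Measure (ℂ × ℝ)))
      isCompact_unitBall.measure_lt_top
      (C := C * K * ε ^ 2)
      (f := fun ξ ↦ (G0 k V (ε, ξ) + G0 k V (-ε, ξ) - 2 * G0 k V (0, ξ)) / 2) fun ξ hξ ↦ by
        have := hbd k V hk ε ⟨hε0.le, h1.le⟩ ξ hξ
        rw [Real.norm_eq_abs, abs_div, abs_two, div_le_iff₀ two_pos]
        nlinarith [mul_nonneg (mul_nonneg hC hK0) (sq_nonneg ε)]
    refine hb.trans (le_of_eq ?_)
    have hv : (volume : Measure (ℂ × ℝ)).real unitBall = 4 * Real.pi / 3 := by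
      rw [← ball_volume, setIntegral_const, smul_eq_mul, mul_one]
    rw [hv]
    ring
  have hs : 0 ≤ Real.sinh ε := (Real.sinh_pos_iff.2 hε0).le
  have hs3 : Real.sinh ε ^ 3 ≤ 8 * ε ^ 3 := by
    rw [div_le_iff₀ hε0] at h2
    calc Real.sinh ε ^ 3 ≤ (2 * ε) ^ 3 := pow_le_pow_left₀ hs h2 3
      _ = _ := by ring
  rw [abs_div, abs_of_pos (pow_pos hε0 5), div_le_iff₀ (pow_pos hε0 5)] at h3
  rw [sphDefect, setIntegral_hball_origin k V hε0,
    show Real.sinh ε ^ 3 * T k V ε - sphBall ε * kern k V H3.origin =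
      Real.sinh ε ^ 3 * (T k V ε - 4 * Real.pi / 3 * kern k V H3.origin) +
      (4 * Real.pi / 3 * Real.sinh ε ^ 3 - sphBall ε) * kern k V H3.origin by ring]
  refine (abs_add_le _ _).trans ?_
  rw [abs_mul, abs_mul, abs_of_nonneg (pow_nonneg hs 3),
    abs_of_nonneg (show 0 ≤ kern k V H3.origin from (Real.exp_pos _).le)]
  calc _ ≤ 8 * ε ^ 3 * (C * (4 * Real.pi / 3) * K * ε ^ 2) +
        (8 * Real.pi / 15 + 1) * ε ^ 5 * K :=
        add_le_add (mul_le_mul hs3 hT (abs_nonneg _) (by positivity))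
          (mul_le_mul h3 hK (Real.exp_pos _).le (by positivity))
    _ = _ := by ring

end Ball

theorem hball_smul (g : GL (Fin 2) ℂ) (P : H3) (ε : ℝ) :
    (fun q : H3 ↦ g • q) ⁻¹' hball (g • P) ε = hball P ε := by
  ext q
  simp [hball, coshDist_smul]

theorem kern_smul (g : GL (Fin 2) ℂ) (k : ℝ) (V : Fin 4 → ℝ) (P : H3) :
    kern k (actV g V) (g • P) = kern k V P := by
  simp only [kern, maj_smul]

theorem sphDefect_smul (g : GL (Fin 2) ℂ) (k : ℝ) (V : Fin 4 → ℝ) (P : H3) (ε : ℝ) :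
    sphDefect k (actV g V) (g • P) ε = sphDefect k V P ε := by
  simp only [sphDefect, kern_smul]
  congr 1
  rw [← integral_indicator (measurableSet_hball _ _), ← integral_smul_h3 g,
    ← integral_indicator (measurableSet_hball _ _)]
  refine integral_congr_ae (.of_forall fun q ↦ ?_)
  simp only [← hball_smul g P ε]
  by_cases hq : g • q ∈ hball (g • P) ε
  · rw [Set.indicator_of_mem hq, Set.indicator_of_mem (Set.mem_preimage.2 hq), kern_smul]
  · rw [Set.indicator_of_notMem hq, Set.indicator_of_notMem (mt Set.mem_preimage.1 hq)]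

theorem pull_origin (k : ℝ) (V : Fin 4 → ℝ) (P : H3) :
    let W := actV (trans P)⁻¹ V
    maj W H3.origin = maj V P ∧ quad W = quad V ∧ kern k W H3.origin = kern k V P ∧
      ∀ ε, sphDefect k W H3.origin ε = sphDefect k V P ε := by
  intro W
  have hP : (trans P)⁻¹ • P = H3.origin := by rw [inv_smul_eq_iff, trans_smul]
  refine ⟨?_, quad_actV _ V, ?_, fun ε ↦ ?_⟩
  · rw [← hP]; exact maj_smul _ V P
  · rw [← hP]; exact kern_smul _ k V P
  · rw [← hP]; exact sphDefect_smul _ k V P ε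

/-- The second order term of the small ball averages. -/
theorem tendsto_sphDefect (k : ℝ) (V : Fin 4 → ℝ) (P : H3) (hk : 0 < k) :
    Tendsto (fun ε ↦ sphDefect k V P ε / ε ^ 5) (𝓝[>] 0)
      (𝓝 (2 * Real.pi / 15 * (4 * k ^ 2 * (maj V P ^ 2 - quad V ^ 2) -
        k * (8 * maj V P - 4 * quad V) + 1) * kern k V P)) := by
  obtain ⟨h1, h2, h3, h4⟩ := pull_origin k V P
  have := Ball.tendsto_defect_origin k (actV (trans P)⁻¹ V) hk
  simp only [h1, h2, h3, h4] at this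
  exact this

/-- Domination of the small ball averages. -/
theorem exists_sphDefect_bound : ∃ ε₀ > 0, ∃ δ > 0, ∃ C, 0 ≤ C ∧ ∀ k V P, 0 < k →
    ∀ ε ∈ Set.Ioo (0 : ℝ) ε₀, |sphDefect k V P ε| ≤ C * ε ^ 5 * kern (δ * k) V P := by
  obtain ⟨e, he, δ, hδ, C, hC, h⟩ := Ball.exists_defect_origin_bound
  refine ⟨e, he, δ, hδ, C, hC, fun k V P hk ε hε ↦ ?_⟩
  obtain ⟨-, -, -, h4⟩ := pull_origin k V P
  obtain ⟨-, -, h3, -⟩ := pull_origin (δ * k) V P
  simpa only [h3, h4] using h k (actV (trans P)⁻¹ V) hk ε hε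

end FermatAgent.LT.Lift
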