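import Mathlib
import Fermat.Agent.LT.Lift.Weight

/-!
# Independence of the weight in folded integrals
-/

set_option autoImplicit false

noncomputable section

open MeasureTheory
open scoped ENNReal NNReal

namespace FermatAgent.LT.Lift

namespace Unfold

/-- A measurable function whose translates add up to one. -/
structure IsPartition (Γ : Type*) {X : Type*} [SMul Γ X] [MeasurableSpace X]
    (w : X → ℝ≥0∞) : Prop where
  measurable : Measurable w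
  tsum : ∀ x, ∑' γ : Γ, w (γ • x) = 1

variable {Γ X H : Type*} [Group Γ] [MulAction Γ X] [MeasurableSpace X]
  [MulAction Γ H] [Fintype H] {μ : Measure X}

theorem IsPartition.le_one {w : X → ℝ≥0∞} (hw : IsPartition Γ w) (x : X) : w x ≤ 1 := by
  have := ENNReal.le_tsum (f := fun γ : Γ ↦ w (γ • x)) 1
  rwa [hw.tsum, one_smul] at this

theorem IsPartition.tsum_inv {w : X → ℝ≥0∞} (hw : IsPartition Γ w) (x : X) :
    ∑' γ : Γ, w (γ⁻¹ • x) = 1 := by
  rw [← hw.tsum x, ← (Equiv.inv Γ).tsum_eq (fun γ : Γ ↦ w (γ • x))]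
  rfl

theorem IsPartition.ne_top {w : X → ℝ≥0∞} (hw : IsPartition Γ w) (x : X) : w x ≠ ⊤ :=
  ne_top_of_le_ne_top ENNReal.one_ne_top (hw.le_one x)

variable (hμ : ∀ γ : Γ, MeasurePreserving (fun x : X ↦ γ • x) μ μ)
include hμ

theorem lintegral_translate (γ : Γ) (F : X → ℝ≥0∞) :
    ∫⁻ x, F (γ • x) ∂μ = ∫⁻ x, F x ∂μ :=
  (hμ γ).lintegral_comp_emb
    (MeasurableEquiv.measurableEmbedding ⟨MulAction.toPerm γ, (hμ γ).measurable,
      (hμ γ⁻¹).measurable⟩) F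

theorem integral_translate {E : Type*} [NormedAddCommGroup E] [NormedSpace ℝ E] (γ : Γ)
    (F : X → E) : ∫ x, F (γ • x) ∂μ = ∫ x, F x ∂μ :=
  (hμ γ).integral_comp
    (MeasurableEquiv.measurableEmbedding ⟨MulAction.toPerm γ, (hμ γ).measurable,
      (hμ γ⁻¹).measurable⟩) F

variable [Countable Γ]

theorem lintegral_swap {w w' : X → ℝ≥0∞} (hw : IsPartition Γ w) (hw' : IsPartition Γ w')
    (f : H → X → ℝ≥0∞) (hf : ∀ h, Measurable (f h))
    (hinv : ∀ (γ : Γ) h x, f (γ • h) (γ • x) = f h x) :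
    ∑ h, ∫⁻ x, w x * f h x ∂μ = ∑ h, ∫⁻ x, w' x * f h x ∂μ := by
  have h1 := hw.measurable
  have h2 := hw'.measurable
  have m1 : ∀ γ : Γ, Measurable fun x ↦ w (γ • x) := fun γ ↦ h1.comp (hμ γ).measurable
  have m2 : ∀ γ : Γ, Measurable fun x ↦ w' (γ • x) := fun γ ↦ h2.comp (hμ γ).measurable
  calc ∑ h, ∫⁻ x, w x * f h x ∂μ
      = ∑ h, ∑' γ : Γ, ∫⁻ x, w x * w' (γ • x) * f h x ∂μ := by
        refine Finset.sum_congr rfl fun h _ ↦ ?_
        rw [← lintegral_tsum (f := fun (γ : Γ) x ↦ w x * w' (γ • x) * f h x)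
      fun γ ↦ ((h1.mul (m2 γ)).mul (hf h)).aemeasurable]
        refine lintegral_congr fun x ↦ ?_
        rw [ENNReal.tsum_mul_right, ENNReal.tsum_mul_left, hw'.tsum, mul_one]
    _ = ∑ h, ∑' γ : Γ, ∫⁻ x, w (γ⁻¹ • x) * w' x * f (γ • h) x ∂μ := by
        refine Finset.sum_congr rfl fun h _ ↦ tsum_congr fun γ ↦ ?_
        rw [← lintegral_translate hμ γ (fun x ↦ w (γ⁻¹ • x) * w' x * f (γ • h) x)]
        simp only [inv_smul_smul, hinv]
    _ = ∑' γ : Γ, ∑ h, ∫⁻ x, w (γ⁻¹ • x) * w' x * f h x ∂μ := by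
        rw [← Summable.tsum_finsetSum fun _ _ ↦ ENNReal.summable]
        exact tsum_congr fun γ ↦ Equiv.sum_comp (MulAction.toPerm γ)
          (fun h ↦ ∫⁻ x, w (γ⁻¹ • x) * w' x * f h x ∂μ)
    _ = ∑ h, ∫⁻ x, w' x * f h x ∂μ := by
        rw [Summable.tsum_finsetSum fun _ _ ↦ ENNReal.summable]
        refine Finset.sum_congr rfl fun h _ ↦ ?_
        rw [← lintegral_tsum (f := fun (γ : Γ) x ↦ w (γ⁻¹ • x) * w' x * f h x)
      fun γ ↦ (((m1 γ⁻¹).mul h2).mul (hf h)).aemeasurable]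
        refine lintegral_congr fun x ↦ ?_
        rw [ENNReal.tsum_mul_right, ENNReal.tsum_mul_right]
        rw [hw.tsum_inv, one_mul]

theorem integral_swap {w w' : X → ℝ≥0∞} (hw : IsPartition Γ w) (hw' : IsPartition Γ w')
    (f : H → X → ℂ) (hf : ∀ h, Measurable (f h))
    (hinv : ∀ (γ : Γ) h x, f (γ • h) (γ • x) = f h x)
    (hfin : ∀ h, ∫⁻ x, w x * ‖f h x‖ₑ ∂μ ≠ ⊤) :
    ∑ h, ∫ x, (w x).toReal • f h x ∂μ = ∑ h, ∫ x, (w' x).toReal • f h x ∂μ := by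
  have h1 := hw.measurable
  have h2 := hw'.measurable
  have m1 : ∀ γ : Γ, Measurable fun x ↦ w (γ • x) := fun γ ↦ h1.comp (hμ γ).measurable
  have m2 : ∀ γ : Γ, Measurable fun x ↦ w' (γ • x) := fun γ ↦ h2.comp (hμ γ).measurable
  have hfin' : ∀ h, ∫⁻ x, w' x * ‖f h x‖ₑ ∂μ ≠ ⊤ := fun h ↦ by
    refine ne_top_of_le_ne_top (ENNReal.sum_ne_top.2 fun h' (_ : h' ∈ Finset.univ) ↦ hfin h') ?_
    rw [lintegral_swap hμ hw hw' (fun h x ↦ ‖f h x‖ₑ) (fun h ↦ (hf h).enorm)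
      (fun γ h x ↦ by rw [hinv])]
    exact Finset.single_le_sum (f := fun h ↦ ∫⁻ x, w' x * ‖f h x‖ₑ ∂μ)
      (fun _ _ ↦ zero_le) (Finset.mem_univ h)
  set A : H → Γ → X → ℂ := fun h γ x ↦ (w x * w' (γ • x)).toReal • f h x
  set B : H → Γ → X → ℂ := fun h γ x ↦ (w (γ⁻¹ • x) * w' x).toReal • f h x
  have henorm : ∀ (a : ℝ≥0∞) (z : ℂ), a ≠ ⊤ → ‖a.toReal • z‖ₑ = a * ‖z‖ₑ := fun a z ha ↦ by
    rw [enorm_smul, Real.enorm_eq_ofReal ENNReal.toReal_nonneg, ENNReal.ofReal_toReal ha]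
  have hA : ∀ h, ∑' γ, ∫⁻ x, ‖A h γ x‖ₑ ∂μ = ∫⁻ x, w x * ‖f h x‖ₑ ∂μ := fun h ↦ by
    simp only [A, henorm _ _ (ENNReal.mul_ne_top (hw.ne_top _) (hw'.ne_top _))]
    rw [← lintegral_tsum (f := fun (γ : Γ) x ↦ w x * w' (γ • x) * ‖f h x‖ₑ)
      fun γ ↦ ((h1.mul (m2 γ)).mul (hf h).enorm).aemeasurable]
    refine lintegral_congr fun x ↦ ?_
    rw [ENNReal.tsum_mul_right, ENNReal.tsum_mul_left, hw'.tsum, mul_one]
  have hB : ∀ h, ∑' γ, ∫⁻ x, ‖B h γ x‖ₑ ∂μ = ∫⁻ x, w' x * ‖f h x‖ₑ ∂μ := fun h ↦ by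
    simp only [B, henorm _ _ (ENNReal.mul_ne_top (hw.ne_top _) (hw'.ne_top _))]
    rw [← lintegral_tsum (f := fun (γ : Γ) x ↦ w (γ⁻¹ • x) * w' x * ‖f h x‖ₑ)
      fun γ ↦ (((m1 γ⁻¹).mul h2).mul (hf h).enorm).aemeasurable]
    refine lintegral_congr fun x ↦ ?_
    rw [ENNReal.tsum_mul_right, ENNReal.tsum_mul_right,
      hw.tsum_inv, one_mul]
  have mA : ∀ h γ, AEStronglyMeasurable (A h γ) μ := fun h γ ↦
    (((h1.mul (h2.comp (hμ γ).measurable)).ennreal_toReal).smul (hf h)).aestronglyMeasurable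
  have mB : ∀ h γ, AEStronglyMeasurable (B h γ) μ := fun h γ ↦
    ((((h1.comp (hμ γ⁻¹).measurable).mul h2).ennreal_toReal).smul (hf h)).aestronglyMeasurable
  have sumA : ∀ h, Summable fun γ ↦ ∫ x, A h γ x ∂μ := fun h ↦ by
    refine Summable.of_norm_bounded (g := fun γ ↦ (∫⁻ x, ‖A h γ x‖ₑ ∂μ).toReal)
      (ENNReal.summable_toReal (by rw [hA h]; exact hfin h)) fun γ ↦ ?_
    rw [← toReal_enorm]
    exact ENNReal.toReal_mono
      (ne_top_of_le_ne_top (b := ∑' γ', ∫⁻ x, ‖A h γ' x‖ₑ ∂μ) (by rw [hA]; exact hfin h)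
        (ENNReal.le_tsum γ))
      (enorm_integral_le_lintegral_enorm _)
  have sumB : ∀ h, Summable fun γ ↦ ∫ x, B h γ x ∂μ := fun h ↦ by
    refine Summable.of_norm_bounded (g := fun γ ↦ (∫⁻ x, ‖B h γ x‖ₑ ∂μ).toReal)
      (ENNReal.summable_toReal (by rw [hB]; exact hfin' h)) fun γ ↦ ?_
    rw [← toReal_enorm]
    exact ENNReal.toReal_mono
      (ne_top_of_le_ne_top (b := ∑' γ', ∫⁻ x, ‖B h γ' x‖ₑ ∂μ) (by rw [hB]; exact hfin' h)
        (ENNReal.le_tsum γ))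
      (enorm_integral_le_lintegral_enorm _)
  have eAB : ∀ h (γ : Γ), ∫ x, A h γ x ∂μ = ∫ x, B (γ • h) γ x ∂μ := fun h γ ↦ by
    rw [← integral_translate hμ γ (B (γ • h) γ)]
    simp only [A, B, inv_smul_smul, hinv]
  calc ∑ h, ∫ x, (w x).toReal • f h x ∂μ = ∑ h, ∑' γ, ∫ x, A h γ x ∂μ := by
        refine Finset.sum_congr rfl fun h _ ↦ ?_
        rw [← integral_tsum (mA h) (by rw [hA]; exact hfin h)]
        refine integral_congr_ae (.of_forall fun x ↦ ?_)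
        simp only [A]
        rw [Summable.tsum_smul_const, ← ENNReal.tsum_toReal_eq fun γ ↦
          ENNReal.mul_ne_top (hw.ne_top _) (hw'.ne_top _), ENNReal.tsum_mul_left, hw'.tsum,
          mul_one]
        exact ENNReal.summable_toReal (by
          rw [ENNReal.tsum_mul_left, hw'.tsum, mul_one]; exact hw.ne_top x)
    _ = ∑' γ, ∑ h, ∫ x, A h γ x ∂μ := (Summable.tsum_finsetSum fun h _ ↦ sumA h).symm
    _ = ∑' γ, ∑ h, ∫ x, B h γ x ∂μ := tsum_congr fun γ ↦ by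
        simp only [eAB]
        exact Equiv.sum_comp (MulAction.toPerm γ) (fun h ↦ ∫ x, B h γ x ∂μ)
    _ = ∑ h, ∑' γ, ∫ x, B h γ x ∂μ := Summable.tsum_finsetSum fun h _ ↦ sumB h
    _ = ∑ h, ∫ x, (w' x).toReal • f h x ∂μ := by
        refine Finset.sum_congr rfl fun h _ ↦ ?_
        rw [← integral_tsum (mB h) (by rw [hB]; exact hfin' h)]
        refine integral_congr_ae (.of_forall fun x ↦ ?_)
        simp only [B]
        have e : ∑' γ : Γ, w (γ⁻¹ • x) * w' x = w' x := by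
          rw [ENNReal.tsum_mul_right, hw.tsum_inv, one_mul]
        rw [Summable.tsum_smul_const, ← ENNReal.tsum_toReal_eq fun γ ↦
          ENNReal.mul_ne_top (hw.ne_top _) (hw'.ne_top _), e]
        exact ENNReal.summable_toReal (by rw [e]; exact hw'.ne_top x)

end Unfold

theorem isPartition_wgt : Unfold.IsPartition GO wgt := ⟨measurable_wgt, tsum_wgt⟩

theorem measurePreserving_go (γ : GO) :
    MeasurePreserving (fun p : H3 ↦ γ • p) volume volume :=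
  mem_preserving (toC γ)

/-- Left translation on the level group. -/
instance (N : ℕ) : MulAction GO (GN N) := MulAction.compHom (GN N) (toN N)

theorem smul_gn {N : ℕ} (γ : GO) (h : GN N) : γ • h = toN N γ * h := rfl

end FermatAgent.LT.Lift
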