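import Mathlib
import Fermat.Agent.LT.Lift.Theta
import Fermat.Agent.LT.Lift.SphLimit
import Fermat.Agent.LT.Lift.Unfold

/-!
# The Gaussian moments of a form
-/

set_option autoImplicit false

noncomputable section

open MeasureTheory Filter Topology
open scoped ENNReal NNReal

namespace FermatAgent.LT.Lift

/-- The automorphic input. -/
structure Form (N : ℕ) where
  /-- the function -/
  φ : H3 → GN N → ℂ
  invariant : ∀ (γ : GO) (p : H3) h, φ (γ • p) (toN N γ * h) = φ p h
  continuous : ∀ h, Continuous fun p ↦ φ p h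
  bounded : ∃ C, ∀ p h, ‖φ p h‖ ≤ C
  sph : ∀ h (p : H3) (ε : ℝ), 0 < ε →
    ∫ q in hball p ε, φ q h = (sphBall ε : ℂ) * φ p h

theorem continuous_maj (V : Fin 4 → ℝ) : Continuous (maj V) := by
  rw [show maj V = _ from funext (maj_eq V)]
  have := continuous_z
  have := continuous_t
  fun_prop (disch := exact fun p : H3 ↦ p.t_pos.ne')

theorem continuous_kern (k : ℝ) (V : Fin 4 → ℝ) : Continuous (kern k V) := by
  have := continuous_maj V
  unfold kern
  fun_prop

theorem kern_pos (k : ℝ) (V : Fin 4 → ℝ) (p : H3) : 0 < kern k V p := Real.exp_pos _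

theorem kern_anti {k l : ℝ} (h : k ≤ l) (V : Fin 4 → ℝ) (p : H3) : kern l V p ≤ kern k V p :=
  Real.exp_le_exp.2 (neg_le_neg (mul_le_mul_of_nonneg_right h (maj_nonneg V p)))

theorem kern_eq_norm_gterm (k : ℝ) (V : Fin 4 → ℝ) (p : H3) :
    kern k V p = ‖gterm (Complex.I * (k / (2 * Real.pi) : ℝ)) V p‖ := by
  rw [norm_gterm, kern]
  congr 2
  simp only [Complex.mul_im, Complex.I_re, zero_mul, Complex.I_im, one_mul, zero_add,
    Complex.ofReal_re]
  field_simp

/-- `x ^ j e ^ (-x)` bound. -/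
theorem pow_mul_kern_le (j : ℕ) {k : ℝ} (hk : 0 < k) (V : Fin 4 → ℝ) (p : H3) :
    maj V p ^ j * kern k V p ≤ (j.factorial * (2 / k) ^ j) * kern (k / 2) V p := by
  have hx : 0 ≤ k / 2 * maj V p := mul_nonneg (by positivity) (maj_nonneg V p)
  have h := Real.pow_div_factorial_le_exp _ hx j
  rw [div_le_iff₀ (by exact_mod_cast j.factorial_pos)] at h
  have e : kern k V p = kern (k / 2) V p * kern (k / 2) V p := by
    simp only [kern, ← Real.exp_add]; congr 1; ring
  have e2 : Real.exp (k / 2 * maj V p) * kern (k / 2) V p = 1 := by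
    simp only [kern, ← Real.exp_add, add_neg_cancel, Real.exp_zero]
  have hpos := kern_pos (k / 2) V p
  calc maj V p ^ j * kern k V p
      = (2 / k) ^ j * ((k / 2 * maj V p) ^ j * kern (k / 2) V p * kern (k / 2) V p) := by
        have h1 : (2 / k) ^ j * (k / 2) ^ j = 1 := by
          rw [← mul_pow, show 2 / k * (k / 2) = 1 by field_simp, one_pow]
        rw [e, mul_pow]
        linear_combination (-(maj V p ^ j * (kern (k / 2) V p * kern (k / 2) V p))) * h1
    _ ≤ (2 / k) ^ j * (Real.exp (k / 2 * maj V p) * j.factorial * kern (k / 2) V p *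
          kern (k / 2) V p) :=
        mul_le_mul_of_nonneg_left (mul_le_mul_of_nonneg_right
          (mul_le_mul_of_nonneg_right h hpos.le) hpos.le) (by positivity)
    _ = (2 / k) ^ j * (Real.exp (k / 2 * maj V p) * kern (k / 2) V p) * j.factorial *
          kern (k / 2) V p := by ring
    _ = _ := by rw [e2]; ring

/-- Generalisation of `lintegral_siegel_t_ne_top`. -/
theorem lintegral_siegel_rpow_ne_top {s : ℝ} (hs : s < 2) :
    ∫⁻ p : H3, siegel.indicator (fun p : H3 ↦ ENNReal.ofReal (p.t ^ s)) p ≠ ⊤ := by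
  set T : Set (ℂ × ℝ) := Metric.closedBall 0 1 ×ˢ Set.Ici (1 / 2)
  have hT : MeasurableSet T := Metric.isClosed_closedBall.measurableSet.prod measurableSet_Ici
  have e : ∀ p : H3, siegel.indicator (fun p : H3 ↦ ENNReal.ofReal (p.t ^ s)) p ≤
      T.indicator (fun x ↦ ENNReal.ofReal (x.2 ^ s)) p.coord := by
    intro p
    by_cases hp : p ∈ siegel
    · rw [Set.indicator_of_mem hp, Set.indicator_of_mem]
      · rfl
      · refine ⟨?_, hp.2⟩
        rw [mem_closedBall_zero_iff, ← Real.sqrt_sq (norm_nonneg _), ← Complex.normSq_eq_norm_sq]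
        exact Real.sqrt_le_one.2 (le_trans hp.1 (by norm_num))
    · rw [Set.indicator_of_notMem hp]; exact zero_le
  refine ne_top_of_le_ne_top ?_ (lintegral_mono e)
  rw [lintegral_eq]
  have e2 : ∀ x : ℂ × ℝ, (dens x : ℝ≥0∞) * T.indicator (fun x ↦ ENNReal.ofReal (x.2 ^ s)) x =
      T.indicator (fun x ↦ ENNReal.ofReal (x.2 ^ (s - 3))) x := by
    intro x
    by_cases hx : x ∈ T
    · have h : (0 : ℝ) < x.2 := lt_of_lt_of_le (by norm_num) hx.2
      rw [Set.indicator_of_mem hx, Set.indicator_of_mem hx, dens, ← ENNReal.ofReal,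
        ← ENNReal.ofReal_mul (by positivity)]
      congr 1
      rw [Real.rpow_sub h, show x.2 ^ (3 : ℝ) = x.2 ^ 3 from Real.rpow_natCast _ 3]
      field_simp
    · simp [Set.indicator_of_notMem hx]
  simp only [e2]
  refine ne_top_of_le_ne_top ?_ (setLIntegral_le_lintegral _ _)
  rw [lintegral_indicator hT, show (volume : Measure (ℂ × ℝ)) = (volume : Measure ℂ).prod volume
    from rfl, ← Measure.prod_restrict, lintegral_prod _ (by fun_prop)]
  simp only [lintegral_const, Measure.restrict_apply MeasurableSet.univ, Set.univ_inter]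
  refine ENNReal.mul_ne_top ?_ measure_closedBall_lt_top.ne
  have h := integrableOn_Ioi_rpow_of_lt (show s - 3 < -1 by linarith)
    (show (0 : ℝ) < 1 / 4 by norm_num)
  refine ne_top_of_le_ne_top h.2.ne
    ((setLIntegral_mono' measurableSet_Ici fun y hy ↦ le_of_eq ?_).trans
      (lintegral_mono_set (Set.Ici_subset_Ioi.2 (by norm_num))))
  have hy0 : (0 : ℝ) < y := lt_of_lt_of_le (by norm_num) (Set.mem_Ici.1 hy)
  rw [Real.enorm_eq_ofReal (by positivity)]

theorem rpow_exp_le {x : ℝ} (hx : 0 < x) : x ^ (3 / 4 : ℝ) * Real.exp (-x) ≤ 1 := by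
  have h1 : x ≤ Real.exp x := by linarith [Real.add_one_le_exp x]
  have h2 : x ^ (3 / 4 : ℝ) ≤ Real.exp x :=
    calc x ^ (3 / 4 : ℝ) ≤ Real.exp x ^ (3 / 4 : ℝ) :=
          Real.rpow_le_rpow hx.le h1 (by norm_num)
      _ ≤ Real.exp x ^ (1 : ℝ) :=
          Real.rpow_le_rpow_of_exponent_le (Real.one_le_exp hx.le) (by norm_num)
      _ = _ := Real.rpow_one _
  rw [Real.exp_neg, ← div_eq_mul_inv, div_le_one (Real.exp_pos x)]
  exact h2

/-- Pointwise bound on the reduced set for the sum over nonzero vectors. -/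
theorem exists_tsum_kern_le {r : ℕ} (hr : 0 < r) :
    ∃ a A : ℝ, 0 < a ∧ 0 ≤ A ∧ ∀ k : ℝ, 1 ≤ k → ∀ p ∈ siegel,
      ∑' m : Fin 4 → ℤ, (if m = 0 then 0 else
          ENNReal.ofReal (kern k ((1 / (r : ℝ)) • realV m) p)) ≤
        ENNReal.ofReal (A / k * p.t) + ∑' n : ℤ,
          (if n = 0 then 0 else ENNReal.ofReal ((a * k * (n : ℝ) ^ 2) ^ (-(3 / 4) : ℝ) *
            p.t ^ (3 / 2 : ℝ))) := by
  classical
  have hr' : (0 : ℝ) < r := by exact_mod_cast hr
  set a := 1 / 1024 * (1 / (r : ℝ)) ^ 2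
  have ha : 0 < a := by positivity
  set B := (6 * (1 + 1 / √a)) ^ 3
  refine ⟨a, Real.exp a / a * (6 * (2 + 1 / √a) * B), ha, by positivity, fun k hk p hp ↦ ?_⟩
  have ht := p.t_pos
  have hk0 : 0 < k := one_pos.trans_le hk
  have ha0 : 0 < a / p.t ^ 2 := by positivity
  set c := Real.exp a / (a * k)
  have hcomp : ∀ (n : ℤ) (v : Fin 3 → ℤ),
      ((1 / (r : ℝ)) • realV (Fin.cons n v)) 0 = 1 / (r : ℝ) * (n : ℝ) ∧
      ((1 / (r : ℝ)) • realV (Fin.cons n v)) 1 = 1 / (r : ℝ) * (v 0 : ℝ) ∧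
      ((1 / (r : ℝ)) • realV (Fin.cons n v)) 2 = 1 / (r : ℝ) * (v 1 : ℝ) ∧
      ((1 / (r : ℝ)) • realV (Fin.cons n v)) 3 = 1 / (r : ℝ) * (v 2 : ℝ) :=
    fun n v ↦ ⟨rfl, rfl, rfl, rfl⟩
  have hle : ∀ (n : ℤ) (v : Fin 3 → ℤ),
      (if Fin.cons n v = (0 : Fin 4 → ℤ) then 0 else
        ENNReal.ofReal (kern k ((1 / (r : ℝ)) • realV (Fin.cons n v)) p)) ≤
      (if v = 0 then if n = 0 then 0 else
          ENNReal.ofReal ((a * k * (n : ℝ) ^ 2) ^ (-(3 / 4) : ℝ) * p.t ^ (3 / 2 : ℝ)) else 0) +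
        ENNReal.ofReal c * (ENNReal.ofReal (gau (a / p.t ^ 2) n) *
          ENNReal.ofReal (∏ i, gau a (v i))) := by
    intro n v
    by_cases h0 : Fin.cons n v = (0 : Fin 4 → ℤ)
    · rw [if_pos h0]; exact zero_le
    rw [if_neg h0]
    by_cases hv : v = 0
    · have hn : n ≠ 0 := fun hn ↦ h0 (by
        rw [hn, hv]; ext i; fin_cases i <;> rfl)
      rw [if_pos hv, if_neg hn]
      refine le_add_of_le_of_nonneg (ENNReal.ofReal_le_ofReal ?_) zero_le
      have hn' : (0 : ℝ) < (n : ℝ) ^ 2 := by positivity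
      have h1 := maj_lower_siegel ((1 / (r : ℝ)) • realV (Fin.cons n v)) hp
      have hx : a * k * (n : ℝ) ^ 2 / p.t ^ 2 ≤
          k * maj ((1 / (r : ℝ)) • realV (Fin.cons n v)) p := by
        refine le_trans (le_of_eq ?_) (mul_le_mul_of_nonneg_left h1 hk0.le)
        subst hv
        obtain ⟨e0, e1, e2, e3⟩ := hcomp n 0
        simp only [e0, e1, e2, e3, Pi.zero_apply, Int.cast_zero, a]
        field_simp
        ring
      have hpos : (0 : ℝ) < a * k * (n : ℝ) ^ 2 := by positivity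
      have hX : 0 < a * k * (n : ℝ) ^ 2 / p.t ^ 2 := by positivity
      refine (Real.exp_le_exp.2 (neg_le_neg hx)).trans ?_
      have h2 := rpow_exp_le hX
      rw [Real.div_rpow hpos.le (by positivity), div_mul_eq_mul_div,
        div_le_one (Real.rpow_pos_of_pos (by positivity) _),
        show (p.t ^ 2) ^ (3 / 4 : ℝ) = p.t ^ (3 / 2 : ℝ) by
          rw [← Real.rpow_natCast p.t 2, ← Real.rpow_mul ht.le]; norm_num] at h2
      rw [Real.rpow_neg hpos.le, ← div_eq_inv_mul, le_div_iff₀ (Real.rpow_pos_of_pos hpos _)]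
      rw [mul_comm]
      exact h2
    · rw [if_neg hv, zero_add, ← ENNReal.ofReal_mul (gau_nonneg _ _),
        ← ENNReal.ofReal_mul (by positivity)]
      refine ENNReal.ofReal_le_ofReal ?_
      have hv1 : (1 : ℝ) ≤ ∑ i, (v i : ℝ) ^ 2 := by
        obtain ⟨i, hi⟩ := Function.ne_iff.1 hv
        refine le_trans ?_ (Finset.single_le_sum (fun j _ ↦ sq_nonneg ((v j : ℝ)))
          (Finset.mem_univ i))
        have : (1 : ℤ) ≤ v i ^ 2 := by
          rw [one_le_sq_iff_one_le_abs]; exact Int.one_le_abs hi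
        exact_mod_cast this
      have hgl : Real.exp (-(k * maj ((1 / (r : ℝ)) • realV (Fin.cons n v)) p)) ≤
          gau (a / p.t ^ 2) n * (∏ i, gau a (v i)) * Real.exp (-(a * (k - 1))) := by
        simp only [gau, ← Real.exp_sum, ← Real.exp_add, Real.exp_le_exp]
        have h1 := mul_le_mul_of_nonneg_left
          (maj_lower_siegel ((1 / (r : ℝ)) • realV (Fin.cons n v)) hp) hk0.le
        have e : (1 / 1024 : ℝ) * (((((1 / (r : ℝ)) • realV (Fin.cons n v)) 0) / p.t) ^ 2 +
            (((1 / (r : ℝ)) • realV (Fin.cons n v)) 1) ^ 2 +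
            (((1 / (r : ℝ)) • realV (Fin.cons n v)) 2) ^ 2 +
            (((1 / (r : ℝ)) • realV (Fin.cons n v)) 3) ^ 2) =
            a / p.t ^ 2 * (n : ℝ) ^ 2 + a * ∑ i, (v i : ℝ) ^ 2 := by
          obtain ⟨e0, e1, e2, e3⟩ := hcomp n v
          simp only [e0, e1, e2, e3, a, Fin.sum_univ_three]
          field_simp
          ring
        rw [e] at h1
        have h3 : 0 ≤ (k - 1) * (a / p.t ^ 2 * (n : ℝ) ^ 2) :=
          mul_nonneg (by linarith) (by positivity)
        have h4 : 0 ≤ (k - 1) * a * (∑ i, (v i : ℝ) ^ 2 - 1) :=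
          mul_nonneg (mul_nonneg (by linarith) ha.le) (by linarith)
        rw [← Finset.mul_sum]
        nlinarith
      refine hgl.trans (le_of_le_of_eq (mul_le_mul_of_nonneg_left (b := Real.exp (-(a * (k - 1))))
        (c := c) ?_ (mul_nonneg (gau_nonneg _ _)
          (Finset.prod_nonneg fun i _ ↦ gau_nonneg _ _))) (by ring))
      simp only [c]
      rw [le_div_iff₀ (by positivity), show -(a * (k - 1)) = a - a * k by ring, Real.exp_sub,
        div_mul_eq_mul_div, div_le_iff₀ (Real.exp_pos _)]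
      exact mul_le_mul_of_nonneg_left (by linarith [Real.add_one_le_exp (a * k)])
        (Real.exp_pos _).le
  rw [← (Fin.consEquiv fun _ ↦ ℤ).tsum_eq]
  rw [ENNReal.tsum_prod']
  refine (ENNReal.tsum_le_tsum fun n ↦ ENNReal.tsum_le_tsum fun v ↦ hle n v).trans ?_
  simp only [ENNReal.tsum_add, ENNReal.tsum_mul_left]
  rw [add_comm]
  refine add_le_add ?_ (le_of_eq (tsum_congr fun n ↦ tsum_ite_eq 0 _))
  rw [ENNReal.tsum_mul_right,
    ← ENNReal.ofReal_tsum_of_nonneg (fun n ↦ gau_nonneg _ n) (summable_gau ha0),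
    ← ENNReal.ofReal_tsum_of_nonneg (fun v : Fin 3 → ℤ ↦ Finset.prod_nonneg
      fun i _ ↦ gau_nonneg a (v i)) (summable_pi_prod (summable_gau ha) (gau_nonneg a) 3),
    ← ENNReal.ofReal_mul (tsum_nonneg fun n ↦ gau_nonneg _ n),
    ← ENNReal.ofReal_mul (by positivity)]
  refine ENNReal.ofReal_le_ofReal ?_
  have h0 : ∑' n : ℤ, gau (a / p.t ^ 2) n ≤ 6 * (2 + 1 / √a) * p.t := by
    refine (tsum_gau_le ha0).trans ?_
    rw [Real.sqrt_div ha.le, Real.sqrt_sq ht.le, one_div_div]
    have h1 : 1 ≤ 2 * p.t := by linarith [hp.2]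
    have h3 : 6 * (2 + 1 / √a) * p.t = 6 * (2 * p.t + p.t / √a) := by ring
    rw [h3]
    linarith
  calc c * ((∑' n, gau (a / p.t ^ 2) n) * ∑' v : Fin 3 → ℤ, ∏ i, gau a (v i))
      ≤ c * (6 * (2 + 1 / √a) * p.t * B) :=
        mul_le_mul_of_nonneg_left (mul_le_mul h0 (tsum_prod_gau_le ha 3)
          (tsum_nonneg fun _ ↦ Finset.prod_nonneg fun _ _ ↦ gau_nonneg a _) (by positivity))
          (by positivity)
    _ = _ := by simp only [c]; field_simp

/-- The mass of a vector. -/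
def mass (r : ℕ) (k : ℝ) (m : Fin 4 → ℤ) : ℝ≥0∞ :=
  ∫⁻ p, wgt p * ENNReal.ofReal (kern k ((1 / (r : ℝ)) • realV m) p)

theorem tsum_mass_ne_top {r : ℕ} (hr : 0 < r) {k : ℝ} (hk : 0 < k) :
    ∑' m, mass r k m ≠ ⊤ := by
  obtain ⟨C, hC, h⟩ := exists_tsum_norm_gterm_le (y := k / (2 * Real.pi)) (by positivity) hr
  have := continuous_t.measurable
  simp only [mass]
  rw [← lintegral_tsum (f := fun (m : Fin 4 → ℤ) p ↦
    wgt p * ENNReal.ofReal (kern k ((1 / (r : ℝ)) • realV m) p)) fun m ↦ (measurable_wgt.mul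
    (continuous_kern k _).measurable.ennreal_ofReal).aemeasurable]
  refine ne_top_of_le_ne_top
    (ENNReal.mul_ne_top (a := ENNReal.ofReal C) ENNReal.ofReal_ne_top lintegral_wgt_mul_t_ne_top) ?_
  rw [← lintegral_const_mul' _ _ ENNReal.ofReal_ne_top]
  refine lintegral_mono fun p ↦ ?_
  rw [ENNReal.tsum_mul_left]
  by_cases hp : p ∈ siegel
  · simp only [kern_eq_norm_gterm]
    have him : (Complex.I * (k / (2 * Real.pi) : ℝ)).im = k / (2 * Real.pi) := by
      rw [Complex.mul_im, Complex.ofReal_im, Complex.ofReal_re]; simp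
    have hs := summable_gterm (τ := Complex.I * (k / (2 * Real.pi) : ℝ))
      (by rw [him]; positivity) p hr
    rw [← ENNReal.ofReal_tsum_of_nonneg (fun m ↦ norm_nonneg _) hs,
      ← mul_assoc, mul_comm (ENNReal.ofReal C), mul_assoc, ← ENNReal.ofReal_mul hC]
    exact mul_le_mul' le_rfl (ENNReal.ofReal_le_ofReal (h _ (le_of_eq him.symm) p hp))
  · have : wgt p = 0 := by simp [wgt, hp]
    simp [this]

theorem mass_ne_top {r : ℕ} (hr : 0 < r) {k : ℝ} (hk : 0 < k) (m : Fin 4 → ℤ) :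
    mass r k m ≠ ⊤ :=
  ne_top_of_le_ne_top (tsum_mass_ne_top hr hk) (ENNReal.le_tsum m)

theorem mass_anti {r : ℕ} {k l : ℝ} (h : k ≤ l) (m : Fin 4 → ℤ) : mass r l m ≤ mass r k m :=
  lintegral_mono fun p ↦ mul_le_mul' le_rfl (ENNReal.ofReal_le_ofReal (kern_anti h _ p))

/-- Decay of the mass of the nonzero vectors. -/
theorem exists_tsum_mass_le {r : ℕ} (hr : 0 < r) :
    ∃ A, 0 ≤ A ∧ ∀ k : ℝ, 1 ≤ k → ∑' m, (if m = 0 then 0 else (mass r k m).toReal) ≤
      A * k ^ (-(3 / 4) : ℝ) := by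
  classical
  obtain ⟨a, A, ha, hA, h⟩ := exists_tsum_kern_le hr
  have := continuous_t.measurable
  have := measurable_wgt
  set Z : ℤ → ℝ := fun n ↦ if n = 0 then 0 else |(n : ℝ)| ^ (-(3 / 2) : ℝ)
  have hZ0 : ∀ n, 0 ≤ Z n := fun n ↦ by
    simp only [Z]; split_ifs <;> positivity
  have hZ : Summable Z := by
    refine Summable.of_nonneg_of_le hZ0 (fun n ↦ ?_)
      (Real.summable_abs_int_rpow (show (1 : ℝ) < 3 / 2 by norm_num))
    simp only [Z]; split_ifs
    · positivity
    · exact le_rfl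
  set I1 := (∫⁻ p, wgt p * ENNReal.ofReal p.t).toReal
  set I2 := (∫⁻ p : H3, siegel.indicator (fun p : H3 ↦ ENNReal.ofReal (p.t ^ (3 / 2 : ℝ))) p).toReal
  refine ⟨A * I1 + a ^ (-(3 / 4) : ℝ) * (∑' n, Z n) * I2, by
    have : 0 ≤ ∑' n, Z n := tsum_nonneg hZ0; positivity, fun k hk ↦ ?_⟩
  have hk0 : 0 < k := one_pos.trans_le hk
  have hkk : 1 / k ≤ k ^ (-(3 / 4) : ℝ) := by
    rw [one_div, ← Real.rpow_neg_one]
    exact Real.rpow_le_rpow_of_exponent_le hk (by norm_num)
  have key : ∑' m, (if m = 0 then 0 else mass r k m) ≤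
      ENNReal.ofReal (A / k) * (∫⁻ p, wgt p * ENNReal.ofReal p.t) +
      ENNReal.ofReal (a ^ (-(3 / 4) : ℝ) * k ^ (-(3 / 4) : ℝ) * ∑' n, Z n) *
        ∫⁻ p : H3, siegel.indicator (fun p : H3 ↦ ENNReal.ofReal (p.t ^ (3 / 2 : ℝ))) p := by
    have hmeas : ∀ m : Fin 4 → ℤ, Measurable fun p ↦ wgt p *
        (if m = 0 then 0 else ENNReal.ofReal (kern k ((1 / (r : ℝ)) • realV m) p)) := fun m ↦ by
      split_ifs
      · simp
      · exact measurable_wgt.mul (continuous_kern k _).measurable.ennreal_ofReal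
    calc ∑' m, (if m = 0 then 0 else mass r k m)
        = ∫⁻ p, ∑' m, wgt p * (if m = 0 then 0 else
            ENNReal.ofReal (kern k ((1 / (r : ℝ)) • realV m) p)) := by
          rw [lintegral_tsum fun m ↦ (hmeas m).aemeasurable]
          refine tsum_congr fun m ↦ ?_
          split_ifs <;> simp [mass]
      _ ≤ ∫⁻ p, (ENNReal.ofReal (A / k) * (wgt p * ENNReal.ofReal p.t) +
          ENNReal.ofReal (a ^ (-(3 / 4) : ℝ) * k ^ (-(3 / 4) : ℝ) * ∑' n, Z n) *
            siegel.indicator (fun p : H3 ↦ ENNReal.ofReal (p.t ^ (3 / 2 : ℝ))) p) := by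
          refine lintegral_mono fun p ↦ ?_
          rw [ENNReal.tsum_mul_left]
          by_cases hp : p ∈ siegel
          · refine (mul_le_mul' le_rfl (h k hk p hp)).trans ?_
            rw [mul_add, Set.indicator_of_mem hp]
            refine add_le_add (le_of_eq ?_) ((mul_le_of_le_one_left zero_le
              (isPartition_wgt.le_one p)).trans (le_of_eq ?_))
            · rw [ENNReal.ofReal_mul (by positivity)]; ring
            · rw [← ENNReal.ofReal_mul (by have : 0 ≤ ∑' n, Z n := tsum_nonneg hZ0; positivity),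
                ← tsum_mul_left, ← tsum_mul_right, ENNReal.ofReal_tsum_of_nonneg
                  (fun n ↦ by have := hZ0 n; have := p.t_pos; positivity)
                  ((hZ.mul_left _).mul_right _)]
              refine tsum_congr fun n ↦ ?_
              simp only [Z]
              split_ifs with hn
              · simp
              · congr 2
                rw [Real.mul_rpow (by positivity) (sq_nonneg _), Real.mul_rpow ha.le hk0.le,
                  ← sq_abs, ← Real.rpow_natCast |(n : ℝ)| 2, ← Real.rpow_mul (abs_nonneg _)]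
                norm_num
          · have : wgt p = 0 := by simp [wgt, hp]
            simp [this]
      _ = _ := by
          rw [lintegral_add_left (by fun_prop),
            lintegral_const_mul' _ _ ENNReal.ofReal_ne_top,
            lintegral_const_mul' _ _ ENNReal.ofReal_ne_top]
  have hf := ENNReal.toReal_mono (ENNReal.add_ne_top.2
    ⟨ENNReal.mul_ne_top ENNReal.ofReal_ne_top lintegral_wgt_mul_t_ne_top,
      ENNReal.mul_ne_top ENNReal.ofReal_ne_top (lintegral_siegel_rpow_ne_top (by norm_num))⟩) key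
  rw [ENNReal.tsum_toReal_eq fun m ↦ by
    split_ifs
    · exact ENNReal.zero_ne_top
    · exact mass_ne_top hr hk0 m] at hf
  simp only [apply_ite ENNReal.toReal, ENNReal.toReal_zero] at hf
  refine hf.trans ?_
  have hs : 0 ≤ ∑' n, Z n := tsum_nonneg hZ0
  rw [ENNReal.toReal_add (ENNReal.mul_ne_top ENNReal.ofReal_ne_top lintegral_wgt_mul_t_ne_top)
    (ENNReal.mul_ne_top ENNReal.ofReal_ne_top (lintegral_siegel_rpow_ne_top (by norm_num))),
    ENNReal.toReal_mul, ENNReal.toReal_mul, ENNReal.toReal_ofReal (by positivity),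
    ENNReal.toReal_ofReal (by positivity), add_mul]
  refine add_le_add ?_ (le_of_eq (by ring))
  rw [div_eq_mul_one_div A k]
  calc A * (1 / k) * I1 ≤ A * k ^ (-(3 / 4) : ℝ) * I1 := by gcongr
    _ = _ := by ring

end FermatAgent.LT.Lift
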