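import Mathlib
import Fermat.Agent.LT.Lift.Moments

/-!
# The coefficient functions of the lift
-/

set_option autoImplicit false

noncomputable section

open MeasureTheory Filter Topology
open scoped ENNReal NNReal

namespace FermatAgent.LT.Lift

variable {N : ℕ}

/-- The real weight. -/
def wR (p : H3) : ℝ := (wgt p).toReal

theorem measurable_wR : Measurable wR := measurable_wgt.ennreal_toReal

theorem wR_nonneg (p : H3) : 0 ≤ wR p := ENNReal.toReal_nonneg

theorem ofReal_wR (p : H3) : ENNReal.ofReal (wR p) = wgt p :=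
  ENNReal.ofReal_toReal (isPartition_wgt.ne_top p)

theorem integrable_wR_kern {r : ℕ} (hr : 0 < r) {k : ℝ} (hk : 0 < k) (m : Fin 4 → ℤ) :
    Integrable fun p : H3 ↦ wR p * kern k ((1 / (r : ℝ)) • realV m) p := by
  refine ⟨(measurable_wR.mul (continuous_kern k _).measurable).aestronglyMeasurable, ?_⟩
  rw [hasFiniteIntegral_iff_ofReal
    (.of_forall fun p ↦ mul_nonneg (wR_nonneg p) (kern_pos _ _ _).le)]
  simp only [ENNReal.ofReal_mul (wR_nonneg _), ofReal_wR]
  exact (mass_ne_top hr hk m).lt_top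

theorem integral_wR_kern (r : ℕ) (k : ℝ) (m : Fin 4 → ℤ) :
    ∫ p : H3, wR p * kern k ((1 / (r : ℝ)) • realV m) p = (mass r k m).toReal := by
  rw [integral_eq_lintegral_of_nonneg_ae
    (.of_forall fun p ↦ mul_nonneg (wR_nonneg p) (kern_pos _ _ _).le)
    (measurable_wR.mul (continuous_kern k _).measurable).aestronglyMeasurable]
  simp only [ENNReal.ofReal_mul (wR_nonneg _), ofReal_wR]
  rfl

theorem Datum.vec_eq (d : Datum N) (m : Fin 4 → ℤ) : d.vec m = (1 / (d.r : ℝ)) • realV m := rfl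

/-- The quadratic form of the scaled vector. -/
theorem Datum.quad_vec (d : Datum N) (m : Fin 4 → ℤ) :
    quad (d.vec m) = (quadR m : ℤ) / (d.r : ℝ) ^ 2 := by
  rw [Datum.vec, show quad ((1 / (d.r : ℝ)) • realV m) = (1 / (d.r : ℝ)) ^ 2 * quad (realV m)
    by simp [quad]; ring, quad_realV, div_pow, one_pow, one_div_mul_eq_div]

namespace Form

variable [NeZero N] (F : Form N) (d : Datum N)

omit [NeZero N] in
theorem exists_bound : ∃ C, 0 ≤ C ∧ ∀ p h, ‖F.φ p h‖ ≤ C :=
  let ⟨C, hC⟩ := F.bounded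
  ⟨|C|, abs_nonneg C, fun p h ↦ (hC p h).trans (le_abs_self C)⟩

/-- The integrand of a moment. -/
def momI (j : ℕ) (k : ℝ) (h : GN N) (m : Fin 4 → ℤ) (p : H3) : ℂ :=
  (wR p * (maj (d.vec m) p ^ j * kern k (d.vec m) p) : ℝ) * F.φ p h

omit [NeZero N] in
theorem measurable_momI (j : ℕ) (k : ℝ) (h : GN N) (m : Fin 4 → ℤ) :
    Measurable (F.momI d j k h m) :=
  (Complex.measurable_ofReal.comp (measurable_wR.mul
    (((continuous_maj _).pow j).mul (continuous_kern k _)).measurable)).mul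
      (F.continuous h).measurable

omit [NeZero N] in
theorem norm_momI_le {C : ℝ} (hC : ∀ p h, ‖F.φ p h‖ ≤ C) (j : ℕ) {k : ℝ} (hk : 0 < k)
    (h : GN N) (m : Fin 4 → ℤ) (p : H3) :
    ‖F.momI d j k h m p‖ ≤
      C * (j.factorial * (2 / k) ^ j) * (wR p * kern (k / 2) (d.vec m) p) := by
  have hw := wR_nonneg p
  have hC0 : 0 ≤ C := (norm_nonneg _).trans (hC p h)
  have h1 : 0 ≤ maj (d.vec m) p ^ j * kern k (d.vec m) p :=
    mul_nonneg (pow_nonneg (maj_nonneg _ _) _) (kern_pos _ _ _).le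
  rw [momI, norm_mul, Complex.norm_real, Real.norm_of_nonneg (mul_nonneg hw h1)]
  refine (mul_le_mul (mul_le_mul_of_nonneg_left (pow_mul_kern_le j hk _ p) hw) (hC p h)
    (norm_nonneg _) ?_).trans (le_of_eq (by ring))
  exact mul_nonneg hw (mul_nonneg (by positivity) (kern_pos _ _ _).le)

omit [NeZero N] in
theorem integrable_momI (j : ℕ) {k : ℝ} (hk : 0 < k) (h : GN N) (m : Fin 4 → ℤ) :
    Integrable (F.momI d j k h m) := by
  obtain ⟨C, -, hC⟩ := F.exists_bound
  exact ((integrable_wR_kern d.r_pos (half_pos hk) m).const_mul _).mono'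
    (F.measurable_momI d j k h m).aestronglyMeasurable
    (.of_forall fun p ↦ F.norm_momI_le d hC j hk h m p)

/-- The moments. -/
def mom (j : ℕ) (k : ℝ) (h : GN N) (m : Fin 4 → ℤ) : ℂ := ∫ p, F.momI d j k h m p

/-- The contribution of a vector. -/
def term (j : ℕ) (k : ℝ) (m : Fin 4 → ℤ) : ℂ := ∑ h, d.W h m * F.mom d j k h m

/-- The coefficient function of a set of vectors. -/
def coef (S : Set (Fin 4 → ℤ)) (j : ℕ) (k : ℝ) : ℂ := ∑' m, S.indicator (F.term d j k) m

omit [NeZero N] in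
theorem hasDerivAt_mom (j : ℕ) {k : ℝ} (hk : 0 < k) (h : GN N) (m : Fin 4 → ℤ) :
    HasDerivAt (fun l ↦ F.mom d j l h m) (-F.mom d (j + 1) k h m) k := by
  obtain ⟨C, hC0, hC⟩ := F.exists_bound
  have hk2 : 0 < k / 2 := half_pos hk
  have := hasDerivAt_integral_of_dominated_loc_of_deriv_le (μ := (volume : Measure H3))
    (F := fun l p ↦ F.momI d j l h m p) (F' := fun l p ↦ -F.momI d (j + 1) l h m p)
    (x₀ := k) (s := Set.Ioi (k / 2))
    (bound := fun p ↦ C * ((j + 1).factorial * (2 / (k / 2)) ^ (j + 1)) *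
      (wR p * kern (k / 2 / 2) (d.vec m) p))
    (Ioi_mem_nhds (by linarith)) (.of_forall fun l ↦ (F.measurable_momI d j l h m).aestronglyMeasurable)
    (F.integrable_momI d j hk h m) (F.measurable_momI d (j + 1) k h m).neg.aestronglyMeasurable
    (.of_forall fun p l hl ↦ ?_)
    ((integrable_wR_kern d.r_pos (half_pos hk2) m).const_mul _)
    (.of_forall fun p l _ ↦ ?_)
  · have h2 := this.2
    rw [integral_neg] at h2
    exact h2
  · rw [norm_neg]
    have hl' : k / 2 < l := hl
    refine (F.norm_momI_le d hC (j + 1) (hk2.trans hl') h m p).trans ?_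
    have hp := wR_nonneg p
    refine mul_le_mul (mul_le_mul_of_nonneg_left (mul_le_mul_of_nonneg_left
      (pow_le_pow_left₀ (div_nonneg zero_le_two (hk2.trans hl').le)
        (div_le_div_of_nonneg_left zero_le_two hk2 hl'.le) _) (by positivity)) hC0)
      (mul_le_mul_of_nonneg_left (kern_anti (by linarith) _ p) hp)
      (mul_nonneg hp (kern_pos _ _ _).le) (by positivity)
  · have hd : HasDerivAt (fun u : ℝ ↦ wR p * (maj (d.vec m) p ^ j * kern u (d.vec m) p))
        (-(wR p * (maj (d.vec m) p ^ (j + 1) * kern l (d.vec m) p))) l := by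
      refine (((((hasDerivAt_id l).mul_const (maj (d.vec m) p)).neg.exp).const_mul
        (maj (d.vec m) p ^ j)).const_mul (wR p)).congr_deriv ?_
      simp only [kern, id_eq, Pi.neg_apply]
      ring
    have := (hd.ofReal_comp).mul_const (F.φ p h)
    simp only [momI]
    refine this.congr_deriv ?_
    push_cast
    ring

theorem exists_norm_term_le (j : ℕ) : ∃ A, 0 ≤ A ∧ ∀ k : ℝ, 0 < k → ∀ m,
    ‖F.term d j k m‖ ≤ A / k ^ j * (mass d.r (k / 2) m).toReal := by
  obtain ⟨C, hC0, hC⟩ := F.exists_bound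
  obtain ⟨B, hB0, hB⟩ := d.exists_bound
  refine ⟨Fintype.card (GN N) * (B * (C * (j.factorial * 2 ^ j))), by positivity,
    fun k hk m ↦ ?_⟩
  have h1 : ∀ h, ‖d.W h m * F.mom d j k h m‖ ≤
      B * (C * (j.factorial * (2 / k) ^ j) * (mass d.r (k / 2) m).toReal) := fun h ↦ by
    rw [norm_mul]
    refine mul_le_mul (hB h m) ?_ (norm_nonneg _) hB0
    rw [← integral_wR_kern, ← integral_const_mul]
    exact norm_integral_le_of_norm_le ((integrable_wR_kern d.r_pos (half_pos hk) m).const_mul _)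
      (.of_forall fun p ↦ F.norm_momI_le d hC j hk h m p)
  refine (norm_sum_le_of_le _ fun h _ ↦ h1 h).trans (le_of_eq ?_)
  simp only [Finset.sum_const, Finset.card_univ, nsmul_eq_mul, div_pow]
  ring

theorem hasDerivAt_term (j : ℕ) {k : ℝ} (hk : 0 < k) (m : Fin 4 → ℤ) :
    HasDerivAt (fun l ↦ F.term d j l m) (-F.term d (j + 1) k m) k := by
  refine (HasDerivAt.fun_sum (u := Finset.univ) fun h _ ↦
    (F.hasDerivAt_mom d j hk h m).const_mul (d.W h m)).congr_deriv ?_
  simp [term]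

theorem summable_term (j : ℕ) {k : ℝ} (hk : 0 < k) (S : Set (Fin 4 → ℤ)) :
    Summable (S.indicator (F.term d j k)) := by
  obtain ⟨A, hA0, hA⟩ := F.exists_norm_term_le d j
  refine Summable.of_norm_bounded
    ((ENNReal.summable_toReal (tsum_mass_ne_top d.r_pos (half_pos hk))).mul_left (A / k ^ j))
    fun m ↦ ?_
  exact (norm_indicator_le_norm_self _ m).trans (hA k hk m)

theorem hasDerivAt_coef (S : Set (Fin 4 → ℤ)) (j : ℕ) {k : ℝ} (hk : 0 < k) :
    HasDerivAt (F.coef d S j) (-F.coef d S (j + 1) k) k := by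
  obtain ⟨A, hA0, hA⟩ := F.exists_norm_term_le d (j + 1)
  have hk2 : 0 < k / 2 := half_pos hk
  have := hasDerivAt_tsum_of_isPreconnected (y₀ := k) (y := k)
    (g := fun m l ↦ S.indicator (F.term d j l) m)
    (g' := fun m l ↦ -S.indicator (F.term d (j + 1) l) m)
    ((ENNReal.summable_toReal (tsum_mass_ne_top d.r_pos (half_pos hk2))).mul_left
      (A / (k / 2) ^ (j + 1)))
    isOpen_Ioi isPreconnected_Ioi (fun m l hl ↦ ?_) (fun m l hl ↦ ?_)
    (show k ∈ Set.Ioi (k / 2) by simp; linarith) (F.summable_term d j hk S)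
    (show k ∈ Set.Ioi (k / 2) by simp; linarith)
  · rw [tsum_neg] at this
    exact this
  · by_cases hm : m ∈ S
    · simp only [Set.indicator_of_mem hm]
      exact F.hasDerivAt_term d j (hk2.trans hl) m
    · simp only [Set.indicator_of_notMem hm, neg_zero]
      exact hasDerivAt_const _ _
  · rw [norm_neg]
    have hl' : k / 2 < l := hl
    refine (norm_indicator_le_norm_self _ m).trans ((hA l (hk2.trans hl') m).trans ?_)
    refine mul_le_mul (div_le_div_of_nonneg_left hA0 (pow_pos hk2 _)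
      (pow_le_pow_left₀ hk2.le hl'.le _)) (ENNReal.toReal_mono (mass_ne_top d.r_pos (half_pos hk2) m)
        (mass_anti (by linarith) m)) ENNReal.toReal_nonneg (by positivity)

/-- Decay of the coefficient functions of sets avoiding zero. -/
theorem exists_norm_coef_le (S : Set (Fin 4 → ℤ)) (hS : (0 : Fin 4 → ℤ) ∉ S) (j : ℕ) :
    ∃ A, 0 ≤ A ∧ ∀ k : ℝ, 2 ≤ k → ‖F.coef d S j k‖ ≤ A / k ^ j * k ^ (-(3 / 4) : ℝ) := by
  classical
  obtain ⟨A, hA0, hA⟩ := F.exists_norm_term_le d j
  obtain ⟨B, hB0, hB⟩ := exists_tsum_mass_le d.r_pos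
  refine ⟨A * (B * (1 / 2 : ℝ) ^ (-(3 / 4) : ℝ)), by positivity, fun k hk ↦ ?_⟩
  have hk0 : 0 < k := by linarith
  have hsum : Summable fun m : Fin 4 → ℤ ↦ if m = 0 then 0 else (mass d.r (k / 2) m).toReal :=
    Summable.of_nonneg_of_le (fun m ↦ by split_ifs <;> simp)
      (fun m ↦ by split_ifs <;> simp)
      (ENNReal.summable_toReal (tsum_mass_ne_top d.r_pos (half_pos hk0)))
  refine (tsum_of_norm_bounded (hsum.mul_left (A / k ^ j)).hasSum fun m ↦ ?_).trans ?_
  · by_cases hm : m ∈ S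
    · rw [Set.indicator_of_mem hm, if_neg (fun h : m = 0 ↦ hS (h ▸ hm))]
      exact hA k hk0 m
    · rw [Set.indicator_of_notMem hm, norm_zero]
      exact mul_nonneg (by positivity) (by split_ifs <;> simp)
  · rw [tsum_mul_left]
    refine (mul_le_mul_of_nonneg_left (hB (k / 2) (by linarith)) (by positivity)).trans
      (le_of_eq ?_)
    rw [show k / 2 = 1 / 2 * k by ring, Real.mul_rpow (by norm_num) hk0.le]
    ring

end Form

end FermatAgent.LT.Lift
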