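import Mathlib
import Fermat.Agent.LT.Lift.Coef

/-!
# Self-adjointness of the ball averages and the differential equation of the coefficients
-/

set_option autoImplicit false

noncomputable section

open MeasureTheory Filter Topology
open scoped ENNReal NNReal

namespace FermatAgent.LT.Lift

instance : T2Space H3 := isOpenEmbedding_coord.toIsEmbedding.t2Space

instance : IsFiniteMeasureOnCompacts (volume : Measure H3) := by
  refine ⟨fun K hK ↦ ?_⟩
  rw [measure_eq hK.measurableSet]
  have hK' : IsCompact (H3.coord '' K) := hK.image isOpenEmbedding_coord.continuous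
  have hc : ContinuousOn (fun x : ℂ × ℝ ↦ 1 / x.2 ^ 3) (H3.coord '' K) :=
    continuousOn_const.div (continuous_snd.pow 3).continuousOn fun x hx ↦ by
      obtain ⟨p, -, rfl⟩ := hx
      exact (pow_pos p.t_pos 3).ne'
  obtain ⟨C, hC⟩ := (hK'.image_of_continuousOn hc).isBounded.exists_norm_le
  refine lt_of_le_of_lt (setLIntegral_mono' hK'.measurableSet fun x hx ↦ ?_) ?_ (b :=
    ∫⁻ _ in H3.coord '' K, ENNReal.ofReal C)
  · rw [dens, ← ENNReal.ofReal]
    exact ENNReal.ofReal_le_ofReal ((le_abs_self _).trans (hC _ ⟨x, hx, rfl⟩))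
  · rw [setLIntegral_const]
    exact ENNReal.mul_lt_top ENNReal.ofReal_lt_top hK'.measure_lt_top

theorem isCompact_hball (P : H3) {ε : ℝ} (hε : 0 < ε) : IsCompact (hball P ε) := by
  have h0 : IsCompact (hball H3.origin ε) := by
    rw [(⟨rfl⟩ : Topology.IsInducing H3.coord).isCompact_iff]
    have e : H3.coord '' hball H3.origin ε =
        (fun ξ ↦ Real.sinh ε • ξ + ((0 : ℂ), Real.cosh ε)) '' unitBall := by
      ext x
      constructor
      · rintro ⟨p, hp, rfl⟩
        obtain ⟨ξ, hξ, h⟩ := (Ball.mem_hball_origin hε p).1 hp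
        exact ⟨ξ, hξ, h.symm⟩
      · rintro ⟨ξ, hξ, rfl⟩
        have hξ' : ξ.1.re ^ 2 + ξ.1.im ^ 2 + ξ.2 ^ 2 ≤ 1 := hξ
        have hw : |ξ.2| ≤ 1 := abs_le_one_iff_mul_self_le_one.2 (by
          nlinarith [sq_nonneg ξ.1.re, sq_nonneg ξ.1.im])
        rw [abs_le] at hw
        have := Real.sinh_lt_cosh ε
        have := Real.sinh_pos_iff.2 hε
        have hpos : 0 < (Real.sinh ε • ξ + ((0 : ℂ), Real.cosh ε)).2 := by
          show 0 < Real.sinh ε * ξ.2 + Real.cosh ε
          nlinarith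
        refine ⟨⟨_, _, hpos⟩, ?_, rfl⟩
        exact (Ball.mem_hball_origin hε _).2 ⟨ξ, hξ, rfl⟩
    rw [e]
    exact isCompact_unitBall.image (by fun_prop)
  have e : hball P ε = (fun q : H3 ↦ trans P • q) '' hball H3.origin ε := by
    rw [← hball_smul (trans P) H3.origin ε, Set.image_preimage_eq _ (MulAction.surjective _),
      trans_smul]
  rw [e]
  exact h0.image (continuous_smul_h3 _)

theorem coshDist_comm (p q : H3) : coshDist p q = coshDist q p := by
  rw [coshDist_eq, coshDist_eq, ← Complex.normSq_neg (p.z - q.z), neg_sub]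
  ring

/-- Pairs of points at distance at most `ε`. -/
def pairs (ε : ℝ) : Set (H3 × H3) := {z | coshDist z.1 z.2 ≤ Real.cosh ε}

theorem mem_pairs_iff {ε : ℝ} {P Q : H3} : (P, Q) ∈ pairs ε ↔ Q ∈ hball P ε := Iff.rfl

theorem mem_pairs_iff' {ε : ℝ} {P Q : H3} : (P, Q) ∈ pairs ε ↔ P ∈ hball Q ε := by
  simp only [pairs, hball, Set.mem_ofPred_eq, coshDist_comm P Q]

theorem measurableSet_pairs (ε : ℝ) :
    MeasurableSet (pairs ε) :=
  measurableSet_le (by
    simp only [coshDist_eq]
    have := continuous_z.measurable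
    have := continuous_t.measurable
    fun_prop) measurable_const

theorem measurable_coshDist : Measurable fun z : H3 × H3 ↦ coshDist z.1 z.2 := by
  simp only [coshDist_eq]
  have := continuous_z.measurable
  have := continuous_t.measurable
  fun_prop

theorem measurable_sphDefect (k : ℝ) (V : Fin 4 → ℝ) (ε : ℝ) :
    Measurable fun P ↦ sphDefect k V P ε := by
  refine Measurable.sub ?_ ((continuous_kern k V).measurable.const_mul _)
  have h := (((continuous_kern k V).measurable.comp measurable_snd).indicator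
    (measurableSet_pairs ε)).stronglyMeasurable.integral_prod_right' (ν := (volume : Measure H3))
  have e : (fun P ↦ ∫ Q in hball P ε, kern k V Q) = fun P ↦ ∫ Q,
      ((pairs ε).indicator
        (kern k V ∘ Prod.snd)) (P, Q) := by
    funext P
    rw [← integral_indicator (measurableSet_hball P ε)]
    refine integral_congr_ae (.of_forall fun Q ↦ ?_)
    beta_reduce
    by_cases hQ : Q ∈ hball P ε
    · rw [Set.indicator_of_mem (mem_pairs_iff.2 hQ), Set.indicator_of_mem hQ]; rfl
    · rw [Set.indicator_of_notMem (mt mem_pairs_iff.1 hQ), Set.indicator_of_notMem hQ]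
  rw [e]
  exact h.measurable

theorem integrableOn_kern (k : ℝ) (V : Fin 4 → ℝ) (P : H3) {ε : ℝ} (hε : 0 < ε) :
    Integrable (kern k V) (volume.restrict (hball P ε)) := by
  refine (continuous_kern k V).continuousOn.integrableOn_compact' (isCompact_hball P hε)
    (measurableSet_hball P ε)

/-- A set of vectors stable under `GO`. -/
def Stable (S : Set (Fin 4 → ℤ)) : Prop := ∀ (γ : GO) m, m ∈ S → actR γ m ∈ S

theorem Stable.mem_iff {S : Set (Fin 4 → ℤ)} (hS : Stable S) (γ : GO) (m : Fin 4 → ℤ) :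
    actR γ m ∈ S ↔ m ∈ S :=
  ⟨fun h ↦ actR_inv_cancel γ m ▸ hS γ⁻¹ _ h, hS γ m⟩

namespace Form

variable {N : ℕ} [NeZero N] (F : Form N) (d : Datum N) (S : Set (Fin 4 → ℤ))

/-- The kernel of a vector on pairs of points. -/
def pairK (ε k : ℝ) (h : GN N) (m : Fin 4 → ℤ) (z : H3 × H3) : ℂ :=
  S.indicator (d.W h) m * ((pairs ε).indicator
    (fun z ↦ F.φ z.1 h * (kern k (d.vec m) z.2 : ℂ)) z)

omit [NeZero N] in
theorem measurable_pairK (ε k : ℝ) (h : GN N) (m : Fin 4 → ℤ) :
    Measurable (F.pairK d S ε k h m) :=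
  measurable_const.mul ((((F.continuous h).measurable.comp measurable_fst).mul
    (Complex.measurable_ofReal.comp ((continuous_kern k _).measurable.comp measurable_snd))
    ).indicator (measurableSet_le measurable_coshDist measurable_const))

theorem summable_pairK (ε : ℝ) {k : ℝ} (hk : 0 < k) (h : GN N) (z : H3 × H3) :
    Summable fun m ↦ F.pairK d S ε k h m z := by
  obtain ⟨C, hC0, hC⟩ := F.exists_bound
  obtain ⟨B, hB0, hB⟩ := d.exists_bound
  have him : (0 : ℝ) < (Complex.I * (k / (2 * Real.pi) : ℝ)).im := by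
    rw [Complex.mul_im, Complex.ofReal_im, Complex.ofReal_re]
    simp only [Complex.I_re, zero_mul, Complex.I_im, one_mul, zero_add]
    positivity
  refine Summable.of_norm_bounded (((summable_gterm him z.2 d.r_pos).mul_left (B * C))) fun m ↦ ?_
  rw [← kern_eq_norm_gterm, pairK, norm_mul]
  refine (mul_le_mul ((norm_indicator_le_norm_self _ m).trans (hB h m))
    (norm_indicator_le_norm_self _ z) (norm_nonneg _) hB0).trans ?_
  rw [norm_mul, Complex.norm_real, Real.norm_of_nonneg (kern_pos _ _ _).le, mul_assoc B,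
    ← d.vec_eq]
  exact mul_le_mul_of_nonneg_left (mul_le_mul_of_nonneg_right (hC _ _) (kern_pos _ _ _).le) hB0

omit [NeZero N] in
theorem pairK_smul (hS : Stable S) (ε k : ℝ) (γ : GO) (h : GN N) (m : Fin 4 → ℤ) (z : H3 × H3) :
    F.pairK d S ε k (γ • h) (actR γ m) (γ • z) = F.pairK d S ε k h m z := by
  have e1 : S.indicator (d.W (γ • h)) (actR γ m) = S.indicator (d.W h) m := by
    by_cases hm : m ∈ S
    · rw [Set.indicator_of_mem hm, Set.indicator_of_mem (hS γ m hm), smul_gn, d.equivariant]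
    · rw [Set.indicator_of_notMem hm, Set.indicator_of_notMem (mt (hS.mem_iff γ m).1 hm)]
  have e2 : coshDist (γ • z.1) (γ • z.2) = coshDist z.1 z.2 := coshDist_smul _ _ _
  have e3 : kern k (d.vec (actR γ m)) (γ • z.2) = kern k (d.vec m) z.2 := by
    rw [← d.actV_vec, smul_def', kern_smul]
  rw [pairK, pairK, e1]
  congr 1
  generalize hA : (pairs ε) = A
  have hiff : γ • z ∈ A ↔ z ∈ A := by
    rw [← hA]
    simp only [pairs, Set.mem_ofPred_eq, Prod.smul_fst, Prod.smul_snd, e2]
  by_cases hz : z ∈ A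
  · rw [Set.indicator_of_mem hz, Set.indicator_of_mem (hiff.2 hz), Prod.smul_fst, Prod.smul_snd,
      e3, smul_gn, F.invariant]
  · rw [Set.indicator_of_notMem hz, Set.indicator_of_notMem (mt hiff.1 hz)]

theorem isPartition_fst : Unfold.IsPartition GO fun z : H3 × H3 ↦ wgt z.1 :=
  ⟨measurable_wgt.comp measurable_fst, fun z ↦ tsum_wgt z.1⟩

theorem isPartition_snd : Unfold.IsPartition GO fun z : H3 × H3 ↦ wgt z.2 :=
  ⟨measurable_wgt.comp measurable_snd, fun z ↦ tsum_wgt z.2⟩

/-- The bound for a vector on pairs. -/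
theorem exists_lintegral_pairK_le : ∃ ε₀ > 0, ∀ ε ∈ Set.Ioo (0 : ℝ) ε₀, ∀ k, 0 < k →
    (∀ h, ∑' m, ∫⁻ z, wgt z.1 * ‖F.pairK d S ε k h m z‖ₑ
      ∂((volume : Measure H3).prod volume) ≠ ⊤) ∧
    (∀ h, ∑' m, ∫⁻ z, wgt z.2 * ‖F.pairK d S ε k h m z‖ₑ
      ∂((volume : Measure H3).prod volume) ≠ ⊤) := by
  obtain ⟨C, hC0, hC⟩ := F.exists_bound
  obtain ⟨B, hB0, hB⟩ := d.exists_bound
  obtain ⟨e, he, δ, hδ, D, hD, hbd⟩ := exists_sphDefect_bound
  refine ⟨e, he, fun ε hε k hk ↦ ?_⟩
  set l := min δ 1 * k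
  have hl : 0 < l := mul_pos (lt_min hδ one_pos) hk
  have hlk : l ≤ k := mul_le_of_le_one_left hk.le (min_le_right _ _)
  set K := |sphBall ε| + D * ε ^ 5
  have hball : ∀ V P, ∫⁻ Q in hball P ε, ENNReal.ofReal (kern k V Q) ≤
      ENNReal.ofReal (K * kern l V P) := by
    intro V P
    rw [← ofReal_integral_eq_lintegral_ofReal (integrableOn_kern k V P hε.1)
      (.of_forall fun Q ↦ (kern_pos _ _ _).le)]
    refine ENNReal.ofReal_le_ofReal ?_
    have h1 := abs_le.1 (hbd k V P hk ε hε)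
    rw [sphDefect] at h1
    have h2 : kern (δ * k) V P ≤ kern l V P :=
      kern_anti (mul_le_mul_of_nonneg_right (min_le_left _ _) hk.le) _ _
    have h3 := kern_anti hlk V P
    have hεp := hε.1
    have h4 : D * ε ^ 5 * kern (δ * k) V P ≤ D * ε ^ 5 * kern l V P :=
      mul_le_mul_of_nonneg_left h2 (by positivity)
    have h5 : sphBall ε * kern k V P ≤ |sphBall ε| * kern l V P :=
      (mul_le_mul_of_nonneg_right (le_abs_self _) (kern_pos _ _ _).le).trans
        (mul_le_mul_of_nonneg_left h3 (abs_nonneg _))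
    simp only [K, add_mul]
    linarith [h1.2]
  set T : Set (H3 × H3) := pairs ε with hTdef
  have hT : MeasurableSet T := measurableSet_le measurable_coshDist measurable_const
  have hle : ∀ h m z, ‖F.pairK d S ε k h m z‖ₑ ≤
      ENNReal.ofReal (B * C) * T.indicator (fun z ↦ ENNReal.ofReal (kern k (d.vec m) z.2)) z := by
    intro h m z
    by_cases hz : z ∈ T
    · rw [pairK, Set.indicator_of_mem hz, Set.indicator_of_mem hz, ← ofReal_norm,
        ← ENNReal.ofReal_mul (mul_nonneg hB0 hC0), norm_mul, norm_mul, Complex.norm_real,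
        Real.norm_of_nonneg (kern_pos _ _ _).le, mul_assoc]
      exact ENNReal.ofReal_le_ofReal (mul_le_mul ((norm_indicator_le_norm_self _ m).trans (hB h m))
        (mul_le_mul_of_nonneg_right (hC _ _) (kern_pos _ _ _).le)
        (mul_nonneg (norm_nonneg _) (kern_pos _ _ _).le) hB0)
    · rw [pairK, Set.indicator_of_notMem hz, Set.indicator_of_notMem hz]
      simp
  have hfin := ENNReal.mul_ne_top (a := ENNReal.ofReal (B * C) * ENNReal.ofReal K)
    (ENNReal.mul_ne_top ENNReal.ofReal_ne_top ENNReal.ofReal_ne_top) (tsum_mass_ne_top d.r_pos hl)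
  have := measurable_wgt
  have hm : ∀ m, Measurable
      (T.indicator fun z : H3 × H3 ↦ ENNReal.ofReal (kern k (d.vec m) z.2)) := fun m ↦
    ((continuous_kern k _).measurable.comp measurable_snd).ennreal_ofReal.indicator hT
  constructor
  · intro h
    refine ne_top_of_le_ne_top hfin ?_
    rw [← ENNReal.tsum_mul_left]
    refine ENNReal.tsum_le_tsum fun m ↦ ?_
    rw [mass, mul_assoc, ← lintegral_const_mul' (ENNReal.ofReal K) _ ENNReal.ofReal_ne_top,
      ← lintegral_const_mul' (ENNReal.ofReal (B * C)) _ ENNReal.ofReal_ne_top]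
    refine (lintegral_mono fun z ↦ mul_le_mul' le_rfl (hle h m z)).trans ?_
    rw [lintegral_prod (fun z : H3 × H3 ↦ wgt z.1 * (ENNReal.ofReal (B * C) *
      T.indicator (fun z ↦ ENNReal.ofReal (kern k (d.vec m) z.2)) z))
      ((measurable_wgt.comp measurable_fst).mul ((hm m).const_mul _)).aemeasurable]
    refine lintegral_mono fun P ↦ ?_
    simp only [mul_left_comm (wgt P) (ENNReal.ofReal (B * C))]
    rw [lintegral_const_mul' _ _ ENNReal.ofReal_ne_top,
      lintegral_const_mul' _ _ (isPartition_wgt.ne_top P), mul_left_comm (ENNReal.ofReal K)]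
    refine mul_le_mul' le_rfl (mul_le_mul' le_rfl ?_)
    rw [← ENNReal.ofReal_mul (by have := hε.1; positivity), ← d.vec_eq]
    refine le_trans (le_of_eq ?_) (hball (d.vec m) P)
    rw [← lintegral_indicator (measurableSet_hball P ε)]
    refine lintegral_congr fun Q ↦ ?_
    by_cases hQ : Q ∈ FermatAgent.LT.Lift.hball P ε
    · rw [Set.indicator_of_mem (mem_pairs_iff.2 hQ), Set.indicator_of_mem hQ]
    · rw [Set.indicator_of_notMem (mt mem_pairs_iff.1 hQ), Set.indicator_of_notMem hQ]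
  · intro h
    set v := ∫⁻ _Q in FermatAgent.LT.Lift.hball H3.origin ε, (1 : ℝ≥0∞)
    have hv : v ≠ ⊤ := by
      simp only [v, setLIntegral_one]
      exact (isCompact_hball _ hε.1).measure_lt_top.ne
    have hvol : ∀ Q, ∫⁻ _ in FermatAgent.LT.Lift.hball Q ε, (1 : ℝ≥0∞) = v := fun Q ↦ by
      simp only [v, setLIntegral_one]
      rw [← (mem_preserving (trans Q)).measure_preimage
        (measurableSet_hball Q ε).nullMeasurableSet]
      congr 1
      have := hball_smul (trans Q) H3.origin ε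
      rwa [trans_smul] at this
    refine ne_top_of_le_ne_top (ENNReal.mul_ne_top (a := ENNReal.ofReal (B * C) * v)
      (ENNReal.mul_ne_top ENNReal.ofReal_ne_top hv) (tsum_mass_ne_top d.r_pos hk)) ?_
    rw [← ENNReal.tsum_mul_left]
    refine ENNReal.tsum_le_tsum fun m ↦ ?_
    rw [mass, mul_assoc, ← lintegral_const_mul' v _ hv,
      ← lintegral_const_mul' (ENNReal.ofReal (B * C)) _ ENNReal.ofReal_ne_top]
    refine (lintegral_mono fun z ↦ mul_le_mul' le_rfl (hle h m z)).trans ?_
    rw [lintegral_prod_symm (fun z : H3 × H3 ↦ wgt z.2 * (ENNReal.ofReal (B * C) *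
      T.indicator (fun z ↦ ENNReal.ofReal (kern k (d.vec m) z.2)) z))
      ((measurable_wgt.comp measurable_snd).mul ((hm m).const_mul _)).aemeasurable]
    refine lintegral_mono fun Q ↦ ?_
    simp only [mul_left_comm (wgt Q) (ENNReal.ofReal (B * C))]
    rw [lintegral_const_mul' _ _ ENNReal.ofReal_ne_top,
      lintegral_const_mul' _ _ (isPartition_wgt.ne_top Q), mul_left_comm v]
    refine mul_le_mul' le_rfl (mul_le_mul' le_rfl (le_of_eq ?_))
    rw [← d.vec_eq, ← hvol Q, ← lintegral_indicator (measurableSet_hball Q ε),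
      ← lintegral_mul_const _ (measurable_const.indicator (measurableSet_hball Q ε))]
    refine lintegral_congr fun P ↦ ?_
    by_cases hP : P ∈ FermatAgent.LT.Lift.hball Q ε
    · rw [Set.indicator_of_mem (mem_pairs_iff'.2 hP), Set.indicator_of_mem hP]
      simp
    · rw [Set.indicator_of_notMem (mt mem_pairs_iff'.1 hP), Set.indicator_of_notMem hP]
      simp

/-- The integrand of the defect. -/
def defI (k ε : ℝ) (h : GN N) (m : Fin 4 → ℤ) (p : H3) : ℂ :=
  (wR p * sphDefect k (d.vec m) p ε : ℝ) * F.φ p h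

omit [NeZero N] in
theorem integral_pairK_fst (ε k : ℝ) (h : GN N) (m : Fin 4 → ℤ)
    (hi : Integrable (fun z : H3 × H3 ↦ ((wgt z.1).toReal : ℂ) * F.pairK d S ε k h m z)
      ((volume : Measure H3).prod volume)) :
    ∫ z, ((wgt z.1).toReal : ℂ) * F.pairK d S ε k h m z ∂((volume : Measure H3).prod volume) =
      S.indicator (d.W h) m *
        ∫ P, ((wR P * ∫ Q in hball P ε, kern k (d.vec m) Q : ℝ) : ℂ) * F.φ P h := by
  rw [integral_prod (fun z : H3 × H3 ↦ ((wgt z.1).toReal : ℂ) * F.pairK d S ε k h m z) hi,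
    ← integral_const_mul]
  refine integral_congr_ae (.of_forall fun P ↦ ?_)
  set c := S.indicator (d.W h) m * (wR P : ℂ) * F.φ P h with hc
  have e : ∀ Q, ((wgt (P, Q).1).toReal : ℂ) * F.pairK d S ε k h m (P, Q) =
      c * (hball P ε).indicator (fun Q ↦ (kern k (d.vec m) Q : ℂ)) Q := by
    intro Q
    simp only [pairK, hc, wR]
    by_cases hQ : Q ∈ hball P ε
    · rw [Set.indicator_of_mem (mem_pairs_iff.2 hQ), Set.indicator_of_mem hQ]
      ring
    · rw [Set.indicator_of_notMem (mt mem_pairs_iff.1 hQ), Set.indicator_of_notMem hQ]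
      ring
  refine (integral_congr_ae (.of_forall e)).trans ?_
  rw [integral_const_mul, integral_indicator (measurableSet_hball P ε), integral_complex_ofReal,
    hc]
  push_cast
  ring

omit [NeZero N] in
theorem integral_pairK_snd {ε : ℝ} (hε : 0 < ε) (k : ℝ) (h : GN N) (m : Fin 4 → ℤ)
    (hi : Integrable (fun z : H3 × H3 ↦ ((wgt z.2).toReal : ℂ) * F.pairK d S ε k h m z)
      ((volume : Measure H3).prod volume)) :
    ∫ z, ((wgt z.2).toReal : ℂ) * F.pairK d S ε k h m z ∂((volume : Measure H3).prod volume) =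
      S.indicator (d.W h) m *
        ∫ Q, ((wR Q * (sphBall ε * kern k (d.vec m) Q) : ℝ) : ℂ) * F.φ Q h := by
  rw [integral_prod_symm (fun z : H3 × H3 ↦ ((wgt z.2).toReal : ℂ) * F.pairK d S ε k h m z) hi,
    ← integral_const_mul]
  refine integral_congr_ae (.of_forall fun Q ↦ ?_)
  set c := S.indicator (d.W h) m * (wR Q : ℂ) * (kern k (d.vec m) Q : ℂ) with hc
  have e : ∀ P, ((wgt (P, Q).2).toReal : ℂ) * F.pairK d S ε k h m (P, Q) =
      c * (hball Q ε).indicator (fun P ↦ F.φ P h) P := by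
    intro P
    simp only [pairK, hc, wR]
    by_cases hP : P ∈ hball Q ε
    · rw [Set.indicator_of_mem (mem_pairs_iff'.2 hP), Set.indicator_of_mem hP]
      ring
    · rw [Set.indicator_of_notMem (mt mem_pairs_iff'.1 hP), Set.indicator_of_notMem hP]
      ring
  refine (integral_congr_ae (.of_forall e)).trans ?_
  rw [integral_const_mul, integral_indicator (measurableSet_hball Q ε), F.sph h Q ε hε, hc]
  push_cast
  ring

omit [NeZero N] in
/-- Integrability and bound of the defect integrand. -/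
theorem exists_defI_bound : ∃ ε₀ > 0, ∃ δ > 0, ∃ D, 0 ≤ D ∧ ∀ ε ∈ Set.Ioo (0 : ℝ) ε₀, ∀ k, 0 < k →
    ∀ h m, Integrable (F.defI d k ε h m) ∧
      ∀ p, ‖F.defI d k ε h m p‖ ≤ D * ε ^ 5 * (wR p * kern (δ * k) (d.vec m) p) := by
  obtain ⟨C, hC0, hC⟩ := F.exists_bound
  obtain ⟨e, he, δ, hδ, D, hD, hbd⟩ := exists_sphDefect_bound
  refine ⟨e, he, δ, hδ, D * C, by positivity, fun ε hε k hk h m ↦ ?_⟩
  have hp : ∀ p, ‖F.defI d k ε h m p‖ ≤ D * C * ε ^ 5 * (wR p * kern (δ * k) (d.vec m) p) := by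
    intro p
    rw [defI, norm_mul, Complex.norm_real, norm_mul, Real.norm_of_nonneg (wR_nonneg p)]
    refine (mul_le_mul (mul_le_mul_of_nonneg_left (hbd k _ p hk ε hε) (wR_nonneg p)) (hC p h)
      (norm_nonneg _) ?_).trans (le_of_eq (by ring))
    have := hε.1
    exact mul_nonneg (wR_nonneg p) (mul_nonneg (by positivity) (kern_pos _ _ _).le)
  refine ⟨((integrable_wR_kern d.r_pos (mul_pos hδ hk) m).const_mul (D * C * ε ^ 5)).mono' ?_
    (.of_forall hp), hp⟩
  exact ((Complex.measurable_ofReal.comp (measurable_wR.mul (measurable_sphDefect k _ ε))).mul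
    (F.continuous h).measurable).aestronglyMeasurable

/-- Self-adjointness of the ball averages. -/
theorem exists_sum_defect_eq_zero (hS : Stable S) : ∃ ε₀ > 0, ∀ ε ∈ Set.Ioo (0 : ℝ) ε₀,
    ∀ k, 0 < k → ∑' m, S.indicator (fun m ↦ ∑ h, d.W h m * ∫ p, F.defI d k ε h m p) m = 0 := by
  obtain ⟨e, he, hfin⟩ := F.exists_lintegral_pairK_le d S
  obtain ⟨e', he', δ, hδ, D, hD, hdb⟩ := F.exists_defI_bound d
  refine ⟨min e e', lt_min he he', fun ε hε k hk ↦ ?_⟩
  obtain ⟨hf1, hf2⟩ := hfin ε ⟨hε.1, hε.2.trans_le (min_le_left _ _)⟩ k hk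
  have hdef := fun h m ↦ (hdb ε ⟨hε.1, hε.2.trans_le (min_le_right _ _)⟩ k hk h m).1
  set μ := (volume : Measure H3).prod (volume : Measure H3)
  set f : GN N → H3 × H3 → ℂ := fun h z ↦ ∑' m, F.pairK d S ε k h m z
  have hmf : ∀ h, Measurable (f h) := fun h ↦
    measurable_of_tendsto_metrizable' (ι := Finset (Fin 4 → ℤ)) atTop
      (fun s ↦ Finset.measurable_fun_sum s fun m _ ↦ F.measurable_pairK d S ε k h m)
      (tendsto_pi_nhds.2 fun z ↦ (F.summable_pairK d S ε hk h z).hasSum)
  have hinv : ∀ (γ : GO) h z, f (γ • h) (γ • z) = f h z := fun γ h z ↦ by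
    simp only [f]
    rw [← (actEquiv γ).tsum_eq]
    exact tsum_congr fun m ↦ F.pairK_smul d S hS ε k γ h m z
  have hwt : ∀ (w : H3 → ℝ≥0∞), (∀ p, w p ≠ ⊤) → ∀ (π : H3 × H3 → H3) h z,
      ∑' m, ((w (π z)).toReal : ℂ) * F.pairK d S ε k h m z = (w (π z)).toReal • f h z :=
    fun w _ π h z ↦ by rw [Complex.real_smul, tsum_mul_left]
  have hsw := Unfold.integral_swap (μ := μ) (Γ := GO)
    (fun γ ↦ (measurePreserving_go γ).prod (measurePreserving_go γ))
    isPartition_fst isPartition_snd f hmf hinv (fun h ↦ by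
      refine ne_top_of_le_ne_top (hf1 h) ?_
      rw [← lintegral_tsum (f := fun m z ↦ wgt z.1 * ‖F.pairK d S ε k h m z‖ₑ) fun m ↦
        ((measurable_wgt.comp measurable_fst).mul
          (F.measurable_pairK d S ε k h m).enorm).aemeasurable]
      refine lintegral_mono fun z ↦ ?_
      rw [ENNReal.tsum_mul_left]
      exact mul_le_mul' le_rfl enorm_tsum_le_tsum_enorm)
  set Y1 : GN N → (Fin 4 → ℤ) → ℂ := fun h m ↦
    ∫ z, ((wgt z.1).toReal : ℂ) * F.pairK d S ε k h m z ∂μ
  set Y2 : GN N → (Fin 4 → ℤ) → ℂ := fun h m ↦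
    ∫ z, ((wgt z.2).toReal : ℂ) * F.pairK d S ε k h m z ∂μ
  have henorm : ∀ (a : ℝ≥0∞) (x : ℂ), a ≠ ⊤ → ‖(a.toReal : ℂ) * x‖ₑ = a * ‖x‖ₑ := fun a x ha ↦ by
    rw [enorm_mul, ← ofReal_norm, Complex.norm_real, Real.norm_of_nonneg ENNReal.toReal_nonneg,
      ENNReal.ofReal_toReal ha]
  have hm1 : ∀ h m, Measurable fun z : H3 × H3 ↦
      ((wgt z.1).toReal : ℂ) * F.pairK d S ε k h m z := fun h m ↦
    ((Complex.measurable_ofReal.comp measurable_wR).comp measurable_fst).mul
      (F.measurable_pairK d S ε k h m)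
  have hm2 : ∀ h m, Measurable fun z : H3 × H3 ↦
      ((wgt z.2).toReal : ℂ) * F.pairK d S ε k h m z := fun h m ↦
    ((Complex.measurable_ofReal.comp measurable_wR).comp measurable_snd).mul
      (F.measurable_pairK d S ε k h m)
  have hi1 : ∀ h m, Integrable (fun z : H3 × H3 ↦
      ((wgt z.1).toReal : ℂ) * F.pairK d S ε k h m z) μ := fun h m ↦
    ⟨(hm1 h m).aestronglyMeasurable, by
      rw [hasFiniteIntegral_iff_enorm]
      simp only [henorm _ _ (isPartition_wgt.ne_top _)]
      exact (ne_top_of_le_ne_top (hf1 h) (ENNReal.le_tsum m)).lt_top⟩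
  have hi2 : ∀ h m, Integrable (fun z : H3 × H3 ↦
      ((wgt z.2).toReal : ℂ) * F.pairK d S ε k h m z) μ := fun h m ↦
    ⟨(hm2 h m).aestronglyMeasurable, by
      rw [hasFiniteIntegral_iff_enorm]
      simp only [henorm _ _ (isPartition_wgt.ne_top _)]
      exact (ne_top_of_le_ne_top (hf2 h) (ENNReal.le_tsum m)).lt_top⟩
  have hY1 : ∀ h, Summable (Y1 h) ∧
      ∫ z, (wgt z.1).toReal • f h z ∂μ = ∑' m, Y1 h m := fun h ↦ by
    have hne : ∑' m, ∫⁻ z, ‖((wgt z.1).toReal : ℂ) * F.pairK d S ε k h m z‖ₑ ∂μ ≠ ⊤ := by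
      simp only [henorm _ _ (isPartition_wgt.ne_top _)]
      exact hf1 h
    refine ⟨Summable.of_norm_bounded (ENNReal.summable_toReal hne) fun m ↦ ?_, ?_⟩
    · rw [← toReal_enorm]
      exact ENNReal.toReal_mono (ne_top_of_le_ne_top hne (ENNReal.le_tsum m))
        (enorm_integral_le_lintegral_enorm _)
    · rw [← integral_tsum (fun m ↦ (hm1 h m).aestronglyMeasurable) hne]
      exact integral_congr_ae (.of_forall fun z ↦
        (hwt wgt isPartition_wgt.ne_top Prod.fst h z).symm)
  have hY2 : ∀ h, Summable (Y2 h) ∧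
      ∫ z, (wgt z.2).toReal • f h z ∂μ = ∑' m, Y2 h m := fun h ↦ by
    have hne : ∑' m, ∫⁻ z, ‖((wgt z.2).toReal : ℂ) * F.pairK d S ε k h m z‖ₑ ∂μ ≠ ⊤ := by
      simp only [henorm _ _ (isPartition_wgt.ne_top _)]
      exact hf2 h
    refine ⟨Summable.of_norm_bounded (ENNReal.summable_toReal hne) fun m ↦ ?_, ?_⟩
    · rw [← toReal_enorm]
      exact ENNReal.toReal_mono (ne_top_of_le_ne_top hne (ENNReal.le_tsum m))
        (enorm_integral_le_lintegral_enorm _)
    · rw [← integral_tsum (fun m ↦ (hm2 h m).aestronglyMeasurable) hne]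
      exact integral_congr_ae (.of_forall fun z ↦
        (hwt wgt isPartition_wgt.ne_top Prod.snd h z).symm)
  have hdiff : ∀ h m, Y1 h m - Y2 h m =
      S.indicator (fun m ↦ d.W h m * ∫ p, F.defI d k ε h m p) m := by
    intro h m
    have e1 := F.integral_pairK_fst d S ε k h m (hi1 h m)
    have e2 := F.integral_pairK_snd d S hε.1 k h m (hi2 h m)
    have ib : Integrable fun Q ↦ (wR Q * (sphBall ε * kern k (d.vec m) Q) : ℝ) * F.φ Q h := by
      refine ((F.integrable_momI d 0 hk h m).const_mul (sphBall ε : ℂ)).congr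
        (.of_forall fun Q ↦ ?_)
      simp only [momI, pow_zero, one_mul]
      push_cast
      ring
    have ic : Integrable (F.defI d k ε h m) := hdef h m
    have e3 : ∀ P, ((wR P * ∫ Q in hball P ε, kern k (d.vec m) Q : ℝ) : ℂ) * F.φ P h =
        F.defI d k ε h m P + ((wR P * (sphBall ε * kern k (d.vec m) P) : ℝ) : ℂ) * F.φ P h := by
      intro P
      simp only [defI, sphDefect]
      push_cast
      ring
    simp only [Y1, Y2]
    rw [e1, e2, integral_congr_ae (.of_forall e3), integral_add ic ib, mul_add, add_sub_cancel_right]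
    by_cases hm : m ∈ S
    · rw [Set.indicator_of_mem hm, Set.indicator_of_mem hm]
    · rw [Set.indicator_of_notMem hm, Set.indicator_of_notMem hm, zero_mul]
  have h0 : ∑ h, (∑' m, Y1 h m - ∑' m, Y2 h m) = 0 := by
    rw [Finset.sum_sub_distrib, sub_eq_zero]
    simp only [← (hY1 _).2, ← (hY2 _).2]
    exact hsw
  rw [← h0]
  simp only [← ((hY1 _).1.tsum_sub (hY2 _).1)]
  rw [← Summable.tsum_finsetSum fun h _ ↦ (hY1 h).1.sub (hY2 h).1]
  refine tsum_congr fun m ↦ ?_
  simp only [hdiff]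
  by_cases hm : m ∈ S
  · simp only [Set.indicator_of_mem hm]
  · simp only [Set.indicator_of_notMem hm, Finset.sum_const_zero]

end Form

end FermatAgent.LT.Lift
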