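import Mathlib
import Fermat.Agent.LT.Lift.Lattice
import Fermat.Prelude.Def_ModularForm_EisensteinChiNegThree

/-!
# The Gauss sum of the quaternary form modulo a prime
-/

set_option autoImplicit false

noncomputable section

open Finset

namespace FermatAgent.LT.Lift

/-- `χ₋₃`. -/
def chi3 (n : ℕ) : ℂ := (EisensteinWeightOne.chiNegThree n : ℂ)

variable {p : ℕ} [Fact p.Prime]

/-- The norm form. -/
def nq (v : ZMod p × ZMod p) : ZMod p := v.1 ^ 2 - v.1 * v.2 + v.2 ^ 2

theorem three_ne_zero_mod (h3 : p ≠ 3) : (3 : ZMod p) ≠ 0 := by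
  intro h
  have h' : ((3 : ℕ) : ZMod p) = 0 := by exact_mod_cast h
  rw [ZMod.natCast_eq_zero_iff] at h'
  exact h3 ((Nat.prime_dvd_prime_iff_eq Fact.out Nat.prime_three).1 h')

theorem sum_psi_mul (b : ZMod p) :
    ∑ x : ZMod p, ZMod.stdAddChar (x * b) = if b = 0 then (p : ℂ) else 0 := by
  rw [AddChar.sum_mulShift b (ZMod.isPrimitive_stdAddChar p)]
  simp [ZMod.card]

theorem sum_psi_hyperbolic {u : ZMod p} (hu : u ≠ 0) :
    ∑ v : ZMod p × ZMod p, ZMod.stdAddChar (u * (v.1 * v.2)) = (p : ℂ) := by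
  rw [Fintype.sum_prod_type]
  rw [Finset.sum_congr rfl fun a _ ↦ (Finset.sum_congr rfl fun x _ ↦
    congrArg ZMod.stdAddChar (show u * (a * x) = x * (u * a) by ring)).trans (sum_psi_mul (u * a))]
  simp [hu]

theorem exists_root (h1 : p % 3 = 1) : ∃ ρ : ZMod p, ρ ^ 2 - ρ + 1 = 0 := by
  have hdvd : 3 ∣ Fintype.card (ZMod p)ˣ := by
    rw [ZMod.card_units p]; omega
  obtain ⟨z, hz⟩ := exists_prime_orderOf_dvd_card 3 hdvd
  refine ⟨-(z : ZMod p), ?_⟩
  have h3 : (z : ZMod p) ^ 3 = 1 := by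
    rw [← Units.val_pow_eq_pow_val, ← hz, pow_orderOf_eq_one, Units.val_one]
  have hne : (z : ZMod p) - 1 ≠ 0 := fun h ↦ by
    rw [sub_eq_zero, Units.val_eq_one] at h
    rw [h, orderOf_one] at hz
    omega
  have : ((z : ZMod p) - 1) * ((z : ZMod p) ^ 2 + z + 1) = 0 := by linear_combination h3
  have h := (mul_eq_zero.1 this).resolve_left hne
  linear_combination h

theorem anisotropic (h2 : p % 3 = 2) {v : ZMod p × ZMod p} (hv : nq v = 0) : v = 0 := by
  obtain ⟨x, y⟩ := v
  have hv' : x ^ 2 - x * y + y ^ 2 = 0 := hv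
  by_cases hy : y = 0
  · rw [hy] at hv'
    simp at hv'
    simp [hv', hy]
  · exfalso
    set r := -(x / y) with hr
    have hr3 : r ^ 2 + r + 1 = 0 := by rw [hr]; field_simp; linear_combination hv'
    have hr0 : r ≠ 0 := fun h ↦ by rw [h] at hr3; norm_num at hr3
    have h1 : r ^ 3 = 1 := by linear_combination (r - 1) * hr3
    have h2' := ZMod.pow_card_sub_one_eq_one hr0
    rw [show p - 1 = 3 * (p / 3) + 1 by omega, pow_succ, pow_mul, h1, one_pow, one_mul] at h2'
    rw [h2'] at hr3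
    exact three_ne_zero_mod (p := p) (by omega) (by linear_combination hr3)

/-- Multiplication in the norm algebra. -/
def nmul (v w : ZMod p × ZMod p) : ZMod p × ZMod p :=
  (v.1 * w.1 - v.2 * w.2, v.1 * w.2 + v.2 * w.1 - v.2 * w.2)

theorem nq_nmul (v w : ZMod p × ZMod p) : nq (nmul v w) = nq v * nq w := by
  simp [nq, nmul]; ring

theorem exists_nq_eq (h3 : p ≠ 3) (t : ZMod p) : ∃ v : ZMod p × ZMod p, nq v = t := by
  rcases eq_or_ne p 2 with rfl | hp
  · exact ⟨(t, 0), by simp [nq, ZMod.pow_card]⟩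
  · have hodd : Fintype.card (ZMod p) % 2 = 1 := by
      rw [ZMod.card]; exact (Nat.Prime.eq_two_or_odd Fact.out).resolve_left hp
    have h2 : (2 : ZMod p) ≠ 0 := by
      intro h
      have h' : ((2 : ℕ) : ZMod p) = 0 := by exact_mod_cast h
      rw [ZMod.natCast_eq_zero_iff] at h'
      exact hp ((Nat.prime_dvd_prime_iff_eq Fact.out Nat.prime_two).1 h')
    set c : ZMod p := 3 / 4
    have hc : c ≠ 0 := div_ne_zero (three_ne_zero_mod h3) (by
      rw [show (4 : ZMod p) = 2 * 2 by norm_num]; exact mul_ne_zero h2 h2)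
    obtain ⟨a, b, hab⟩ := FiniteField.exists_root_sum_quadratic
      (f := (Polynomial.X ^ 2 : Polynomial (ZMod p)))
      (g := Polynomial.C c * Polynomial.X ^ 2 - Polynomial.C t)
      (Polynomial.degree_X_pow 2) (by
        rw [Polynomial.degree_sub_eq_left_of_degree_lt] <;> rw [Polynomial.degree_C_mul_X_pow 2 hc]
        · rfl
        · exact lt_of_le_of_lt Polynomial.degree_C_le (by norm_num)) hodd
    simp only [Polynomial.eval_pow, Polynomial.eval_X, Polynomial.eval_sub, Polynomial.eval_mul,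
      Polynomial.eval_C] at hab
    refine ⟨(a + b / 2, b), ?_⟩
    simp only [nq]
    rw [show c = 3 / 4 from rfl, show (4 : ZMod p) = 2 * 2 by norm_num] at hab
    field_simp at hab ⊢
    linear_combination hab

theorem sum_psi_nq (h3 : p ≠ 3) {u : ZMod p} (hu : u ≠ 0) :
    ∑ v : ZMod p × ZMod p, ZMod.stdAddChar (u * nq v) = chi3 p * p := by
  have hp3 : p % 3 ≠ 0 := fun h ↦
    h3 ((Nat.prime_dvd_prime_iff_eq Nat.prime_three Fact.out).1 (Nat.dvd_of_mod_eq_zero h)).symm
  rcases (show p % 3 = 1 ∨ p % 3 = 2 by omega) with h1 | h2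
  · obtain ⟨ρ, hρ⟩ := exists_root h1
    set f : ZMod p × ZMod p → ZMod p × ZMod p :=
      fun v ↦ (v.1 - ρ * v.2, v.1 - (1 - ρ) * v.2) with hf
    have hd : (2 * ρ - 1) ≠ 0 := fun h ↦ by
      have : (2 * ρ - 1) ^ 2 = -3 := by linear_combination 4 * hρ
      rw [h] at this
      exact three_ne_zero_mod (p := p) h3 (by linear_combination this)
    have hbij : Function.Bijective f := by
      refine Finite.injective_iff_bijective.1 fun v w h ↦ ?_
      simp only [hf, Prod.mk.injEq] at h
      have hy : (2 * ρ - 1) * (v.2 - w.2) = 0 := by linear_combination h.2 - h.1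
      have hy' := sub_eq_zero.1 ((mul_eq_zero.1 hy).resolve_left hd)
      refine Prod.ext ?_ hy'
      linear_combination h.1 + ρ * hy'
    rw [show chi3 p = 1 by simp [chi3, EisensteinWeightOne.chiNegThree, h1], one_mul,
      ← sum_psi_hyperbolic hu, ← hbij.sum_comp (fun v ↦ ZMod.stdAddChar (u * (v.1 * v.2)))]
    refine Finset.sum_congr rfl fun v _ ↦ congrArg _ ?_
    simp only [nq, hf]
    linear_combination u * v.2 ^ 2 * hρ
  · set S : ZMod p → ℂ := fun u ↦ ∑ v : ZMod p × ZMod p, ZMod.stdAddChar (u * nq v)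
    have hind : ∀ t, t ≠ 0 → S t = S 1 := fun t ht ↦ by
      obtain ⟨w, hw⟩ := exists_nq_eq h3 t
      have hbij : Function.Bijective (nmul w) := by
        refine Finite.injective_iff_bijective.1 fun v v' h ↦ ?_
        have h0 : nmul w (v - v') = 0 := by
          obtain ⟨e1, e2⟩ := Prod.ext_iff.1 h
          simp only [nmul] at e1 e2
          refine Prod.ext ?_ ?_ <;> simp [nmul]
          · linear_combination e1
          · linear_combination e2
        have h1 := nq_nmul w (v - v')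
        rw [h0, hw] at h1
        have : nq (0 : ZMod p × ZMod p) = 0 := by simp [nq]
        rw [this] at h1
        exact sub_eq_zero.1 (anisotropic h2 ((mul_eq_zero.1 h1.symm).resolve_left ht))
      simp only [S, one_mul]
      rw [← hbij.sum_comp (fun v ↦ ZMod.stdAddChar (nq v))]
      simp only [nq_nmul, hw]
    have htot : ∑ t, S t = (p : ℂ) := by
      simp only [S]
      rw [Finset.sum_comm, Finset.sum_congr rfl fun v _ ↦ sum_psi_mul (nq v),
        Finset.sum_eq_single (0 : ZMod p × ZMod p)]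
      · simp [nq]
      · intro v _ hv
        rw [if_neg (fun h ↦ hv (anisotropic h2 h))]
      · simp
    rw [← Finset.add_sum_erase _ _ (Finset.mem_univ 0),
      Finset.sum_congr rfl fun t ht ↦ hind t (Finset.ne_of_mem_erase ht), Finset.sum_const,
      Finset.card_erase_of_mem (Finset.mem_univ _), Finset.card_univ, ZMod.card, nsmul_eq_mul,
      show S 0 = (p : ℂ) * p by simp [S, ZMod.card],
      Nat.cast_sub (Nat.Prime.one_le (Fact.out : p.Prime))] at htot
    show S u = _
    rw [hind u hu, show chi3 p = -1 by simp [chi3, EisensteinWeightOne.chiNegThree, h2]]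
    have hne : ((p : ℂ) - 1) ≠ 0 := sub_ne_zero.2 (by
      exact_mod_cast (Nat.Prime.one_lt (Fact.out : p.Prime)).ne')
    push_cast at htot
    refine mul_left_cancel₀ hne ?_
    linear_combination htot

/-- The quaternary Gauss sum. -/
theorem sum_psi_quadR (h3 : p ≠ 3) {u : ZMod p} (hu : u ≠ 0) :
    ∑ z : Fin 4 → ZMod p, ZMod.stdAddChar (u * quadR z) = chi3 p * (p : ℂ) ^ 2 := by
  let e : (ZMod p × ZMod p) × (ZMod p × ZMod p) ≃ (Fin 4 → ZMod p) :=
    { toFun := fun v ↦ ![v.1.1, v.1.2, v.2.1, v.2.2]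
      invFun := fun z ↦ ((z 0, z 1), (z 2, z 3))
      left_inv := fun v ↦ by simp
      right_inv := fun z ↦ by ext i; fin_cases i <;> simp }
  rw [← e.sum_comp, Fintype.sum_prod_type]
  have h : ∀ a b : ZMod p × ZMod p, ZMod.stdAddChar (u * quadR (e (a, b))) =
      ZMod.stdAddChar (-u * (a.1 * a.2)) * ZMod.stdAddChar (u * nq b) := fun a b ↦ by
    rw [← AddChar.map_add_eq_mul]
    congr 1
    simp [e, quadR, nq]
    ring
  simp only [h, ← Finset.mul_sum, sum_psi_nq h3 hu, ← Finset.sum_mul,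
    sum_psi_hyperbolic (neg_ne_zero.2 hu)]
  ring

end FermatAgent.LT.Lift
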