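import Mathlib
import Fermat.Agent.LT.Lift.Ode

/-!
# The differential equation of the coefficient functions and its solutions
-/

set_option autoImplicit false

noncomputable section

open MeasureTheory Filter Topology
open scoped ENNReal NNReal

namespace FermatAgent.LT.Lift

namespace Form

variable {N : ℕ} [NeZero N] (F : Form N) (d : Datum N) (S : Set (Fin 4 → ℤ))

omit [NeZero N] in
theorem tendsto_defI {k : ℝ} (hk : 0 < k) {q : ℝ} (h : GN N) (m : Fin 4 → ℤ)
    (hq : quad (d.vec m) = q) :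
    Tendsto (fun ε ↦ (∫ p, F.defI d k ε h m p) / (ε : ℂ) ^ 5) (𝓝[>] (0 : ℝ))
      (𝓝 ((2 * Real.pi / 15 : ℝ) * ((4 * k ^ 2 : ℝ) * F.mom d 2 k h m -
        (8 * k : ℝ) * F.mom d 1 k h m +
          (1 + 4 * k * q - 4 * k ^ 2 * q ^ 2 : ℝ) * F.mom d 0 k h m))) := by
  obtain ⟨e, he, δ, hδ, D, hD, hb⟩ := F.exists_defI_bound d
  have e2 : ∀ p, ((wR p * (2 * Real.pi / 15 * (4 * k ^ 2 * (maj (d.vec m) p ^ 2 -
      quad (d.vec m) ^ 2) - k * (8 * maj (d.vec m) p - 4 * quad (d.vec m)) + 1) *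
        kern k (d.vec m) p) : ℝ) : ℂ) * F.φ p h =
      ((2 * Real.pi / 15 : ℝ) : ℂ) * ((4 * k ^ 2 : ℝ) * F.momI d 2 k h m p -
        (8 * k : ℝ) * F.momI d 1 k h m p +
          (1 + 4 * k * q - 4 * k ^ 2 * q ^ 2 : ℝ) * F.momI d 0 k h m p) := fun p ↦ by
    simp only [momI, hq]
    push_cast
    ring
  have hlim : Tendsto (fun ε ↦ ∫ p, F.defI d k ε h m p / (ε : ℂ) ^ 5) (𝓝[>] (0 : ℝ))
      (𝓝 (∫ p, ((wR p * (2 * Real.pi / 15 * (4 * k ^ 2 * (maj (d.vec m) p ^ 2 -
      quad (d.vec m) ^ 2) - k * (8 * maj (d.vec m) p - 4 * quad (d.vec m)) + 1) *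
        kern k (d.vec m) p) : ℝ) : ℂ) * F.φ p h)) := by
    refine tendsto_integral_filter_of_dominated_convergence
      (fun p ↦ D * (wR p * kern (δ * k) (d.vec m) p)) ?_ ?_
      ((integrable_wR_kern d.r_pos (mul_pos hδ hk) m).const_mul D) ?_
    · filter_upwards [Ioo_mem_nhdsGT he] with ε hε
      exact ((hb ε hε k hk h m).1.div_const _).aestronglyMeasurable
    · filter_upwards [Ioo_mem_nhdsGT he] with ε hε
      refine .of_forall fun p ↦ ?_
      have h5 : 0 < ε ^ 5 := pow_pos hε.1 5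
      rw [norm_div, norm_pow, Complex.norm_real, Real.norm_of_nonneg hε.1.le, div_le_iff₀ h5]
      exact ((hb ε hε k hk h m).2 p).trans (le_of_eq (by ring))
    · refine .of_forall fun p ↦ ?_
      have := ((Complex.continuous_ofReal.tendsto _).comp
        ((tendsto_sphDefect k (d.vec m) p hk).const_mul (wR p))).mul_const (F.φ p h)
      refine this.congr fun ε ↦ ?_
      simp only [defI, Function.comp_apply]
      push_cast
      ring
  simp only [e2] at hlim
  rw [integral_const_mul, integral_add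
      (((F.integrable_momI d 2 hk h m).const_mul _).sub' ((F.integrable_momI d 1 hk h m).const_mul _))
      ((F.integrable_momI d 0 hk h m).const_mul _),
    integral_sub ((F.integrable_momI d 2 hk h m).const_mul _)
      ((F.integrable_momI d 1 hk h m).const_mul _),
    integral_const_mul, integral_const_mul, integral_const_mul] at hlim
  simp only [integral_div] at hlim
  exact hlim

/-- The differential equation. -/
theorem radial_ode (hS : Stable S) {q : ℝ} (hq : ∀ m ∈ S, quad (d.vec m) = q) {k : ℝ}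
    (hk : 0 < k) :
    (4 * k ^ 2 : ℝ) * F.coef d S 2 k - (8 * k : ℝ) * F.coef d S 1 k +
      (1 + 4 * k * q - 4 * k ^ 2 * q ^ 2 : ℝ) * F.coef d S 0 k = 0 := by
  obtain ⟨e, he, hzero⟩ := F.exists_sum_defect_eq_zero d S hS
  obtain ⟨e', he', δ, hδ, D, hD, hb⟩ := F.exists_defI_bound d
  obtain ⟨B, hB0, hB⟩ := d.exists_bound
  have hlim : Tendsto (fun ε : ℝ ↦ ∑' m,
      S.indicator (fun m ↦ ∑ h, d.W h m * ((∫ p, F.defI d k ε h m p) / (ε : ℂ) ^ 5)) m)
      (𝓝[>] 0) (𝓝 (∑' m, S.indicator (fun m ↦ ((2 * Real.pi / 15 : ℝ) : ℂ) *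
        ((4 * k ^ 2 : ℝ) * F.term d 2 k m - (8 * k : ℝ) * F.term d 1 k m +
          (1 + 4 * k * q - 4 * k ^ 2 * q ^ 2 : ℝ) * F.term d 0 k m)) m)) := by
    refine tendsto_tsum_of_dominated_convergence
      (bound := fun m ↦ Fintype.card (GN N) * (B * (D * (mass d.r (δ * k) m).toReal)))
      ((((ENNReal.summable_toReal (tsum_mass_ne_top d.r_pos (mul_pos hδ hk))).mul_left D).mul_left
        B).mul_left _) (fun m ↦ ?_) ?_
    · by_cases hm : m ∈ S
      · simp only [Set.indicator_of_mem hm]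
        have := tendsto_finsetSum (Finset.univ : Finset (GN N)) fun h _ ↦
          (F.tendsto_defI d hk h m (hq m hm)).const_mul (d.W h m)
        convert this using 2
        simp only [term, Finset.mul_sum, mul_add, mul_sub, ← Finset.sum_sub_distrib,
          ← Finset.sum_add_distrib]
        exact Finset.sum_congr rfl fun h _ ↦ by ring
      · simp only [Set.indicator_of_notMem hm]
        exact tendsto_const_nhds
    · filter_upwards [Ioo_mem_nhdsGT he'] with ε hε m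
      refine (norm_indicator_le_norm_self _ m).trans ((norm_sum_le_of_le
        (n := fun _ ↦ B * (D * (mass d.r (δ * k) m).toReal)) _ fun h _ ↦ ?_).trans
          (le_of_eq (by simp [Finset.card_univ])))
      rw [norm_mul, norm_div, norm_pow, Complex.norm_real, Real.norm_of_nonneg hε.1.le]
      refine mul_le_mul (hB h m) ?_ (div_nonneg (norm_nonneg _) (pow_pos hε.1 5).le) hB0
      rw [div_le_iff₀ (pow_pos hε.1 5), ← integral_wR_kern, ← integral_const_mul,
        ← integral_mul_const]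
      refine norm_integral_le_of_norm_le
        (((integrable_wR_kern d.r_pos (mul_pos hδ hk) m).const_mul _).mul_const _)
        (.of_forall fun p ↦ ((hb ε hε k hk h m).2 p).trans (le_of_eq ?_))
      rw [d.vec_eq]
      ring
  have h0 : ∀ᶠ ε in 𝓝[>] (0 : ℝ), ∑' m,
      S.indicator (fun m ↦ ∑ h, d.W h m * ((∫ p, F.defI d k ε h m p) / (ε : ℂ) ^ 5)) m = 0 := by
    filter_upwards [Ioo_mem_nhdsGT he] with ε hε
    rw [show (0 : ℂ) = (∑' m, S.indicator (fun m ↦ ∑ h, d.W h m * ∫ p, F.defI d k ε h m p) m) /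
      (ε : ℂ) ^ 5 by rw [hzero ε hε k hk, zero_div], ← tsum_div_const]
    refine tsum_congr fun m ↦ ?_
    by_cases hm : m ∈ S
    · simp only [Set.indicator_of_mem hm, Finset.sum_div, mul_div_assoc]
    · simp only [Set.indicator_of_notMem hm, zero_div]
  have hval := tendsto_nhds_unique hlim (Tendsto.congr' (h0.mono fun ε h ↦ h.symm) tendsto_const_nhds)
  simp only [Set.indicator_const_mul] at hval
  rw [tsum_mul_left, mul_eq_zero,
    or_iff_right (Complex.ofReal_ne_zero.2 (by positivity))] at hval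
  rw [coef, coef, coef, ← tsum_mul_left, ← tsum_mul_left, ← tsum_mul_left,
    ← ((F.summable_term d 2 hk S).mul_left _).tsum_sub ((F.summable_term d 1 hk S).mul_left _),
    ← (((F.summable_term d 2 hk S).mul_left _).sub ((F.summable_term d 1 hk S).mul_left _)).tsum_add
      ((F.summable_term d 0 hk S).mul_left _)]
  rw [← hval]
  refine tsum_congr fun m ↦ ?_
  by_cases hm : m ∈ S
  · simp only [Set.indicator_of_mem hm]
  · simp only [Set.indicator_of_notMem hm]
    simp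

/-- The first integral `k (u' + q u)`, `u = √k · coef`. -/
def firstInt (q k : ℝ) : ℂ :=
  (√k : ℝ) * (F.coef d S 0 k / 2 - (k : ℂ) * F.coef d S 1 k + (q * k : ℝ) * F.coef d S 0 k)

theorem hasDerivAt_sqrt_coef {k : ℝ} (hk : 0 < k) (q : ℝ) :
    HasDerivAt (fun l : ℝ ↦ ((√l * Real.exp (q * l) : ℝ) : ℂ) * F.coef d S 0 l)
      ((Real.exp (q * k) / k : ℝ) * F.firstInt d S q k) k := by
  refine ((((Real.hasDerivAt_sqrt hk.ne').mul
    (((hasDerivAt_id k).const_mul q).exp)).ofReal_comp).mul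
      (F.hasDerivAt_coef d S 0 hk)).congr_deriv ?_
  have hs : (√k : ℂ) * √k = k := by exact_mod_cast Real.mul_self_sqrt hk.le
  have hs0 : (√k : ℂ) ≠ 0 := by exact_mod_cast (Real.sqrt_pos.2 hk).ne'
  have hk0 : (k : ℂ) ≠ 0 := by exact_mod_cast hk.ne'
  simp only [firstInt, id_eq, mul_one, Pi.mul_apply]
  push_cast
  field_simp
  linear_combination (-(F.coef d S 0 k)) * hs

theorem exists_firstInt (hS : Stable S) {q : ℝ} (hq : ∀ m ∈ S, quad (d.vec m) = q) :
    ∃ c : ℂ, ∀ k, 0 < k → F.firstInt d S q k = (Real.exp (q * k) : ℝ) * c := by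
  set w : ℝ → ℂ := fun k ↦ (Real.exp (-(q * k)) : ℝ) * F.firstInt d S q k
  have hd : ∀ k ∈ Set.Ioi (0 : ℝ), HasDerivAt w 0 k := fun k hk ↦ by
    have hk' : 0 < k := hk
    have h0 := F.hasDerivAt_coef d S 0 hk'
    have h1 := F.hasDerivAt_coef d S 1 hk'
    have hv : HasDerivAt (F.firstInt d S q)
        (((1 / (2 * √k) : ℝ) : ℂ) * (F.coef d S 0 k / 2 - (k : ℂ) * F.coef d S 1 k +
          (q * k : ℝ) * F.coef d S 0 k) + (√k : ℝ) * ((-F.coef d S 1 k) / 2 -
            (F.coef d S 1 k + (k : ℂ) * -F.coef d S 2 k) +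
              ((q : ℂ) * F.coef d S 0 k + (q * k : ℝ) * -F.coef d S 1 k))) k := by
      refine (((Real.hasDerivAt_sqrt hk'.ne').ofReal_comp).mul
        (((h0.div_const 2).sub ((hasDerivAt_id k).ofReal_comp.mul h1)).add
          (((hasDerivAt_id k).const_mul q).ofReal_comp.mul h0))).congr_deriv ?_
      simp
    refine ((((hasDerivAt_id k).const_mul q).neg.exp).ofReal_comp.mul hv).congr_deriv ?_
    have hode := F.radial_ode d S hS hq hk'
    have hs : (√k : ℂ) * √k = k := by exact_mod_cast Real.mul_self_sqrt hk'.le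
    have hs0 : (√k : ℂ) ≠ 0 := by exact_mod_cast (Real.sqrt_pos.2 hk').ne'
    simp only [firstInt, id_eq, mul_one, Pi.neg_apply]
    push_cast at hode ⊢
    field_simp
    linear_combination Complex.exp (-(q * k : ℂ)) * hode + Complex.exp (-(q * k : ℂ)) *
      (-2 * (q : ℂ) * (F.coef d S 0 k / 2 - (k : ℂ) * F.coef d S 1 k + q * k * F.coef d S 0 k) +
        2 * ((-F.coef d S 1 k) / 2 - (F.coef d S 1 k + (k : ℂ) * -F.coef d S 2 k) +
              ((q : ℂ) * F.coef d S 0 k + q * k * -F.coef d S 1 k)) +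
        ((q : ℂ) * F.coef d S 0 k - 2 * q ^ 2 * k * F.coef d S 0 k + 2 * k * F.coef d S 2 k -
          3 * F.coef d S 1 k)) * hs
  refine ⟨w 1, fun k hk ↦ ?_⟩
  have := isOpen_Ioi.is_const_of_deriv_eq_zero isPreconnected_Ioi
    (fun x hx ↦ (hd x hx).differentiableAt.differentiableWithinAt)
    (fun x hx ↦ (hd x hx).deriv) (show k ∈ Set.Ioi (0 : ℝ) from hk)
    (show (1 : ℝ) ∈ Set.Ioi (0 : ℝ) from Set.mem_Ioi.2 one_pos)
  rw [← this]
  simp only [w, ← mul_assoc, ← Complex.ofReal_mul, ← Real.exp_add, add_neg_cancel, Real.exp_zero,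
    Complex.ofReal_one, one_mul]

theorem eq_zero_of_norm_le_tendsto {c : ℂ} {g : ℝ → ℝ} (hg : Tendsto g atTop (𝓝 0))
    (h : ∀ᶠ k in atTop, ‖c‖ ≤ g k) : c = 0 :=
  norm_le_zero_iff.1 (le_of_tendsto_of_tendsto tendsto_const_nhds hg h)

theorem firstInt_eq_zero (hS : Stable S) (h0 : (0 : Fin 4 → ℤ) ∉ S) {q : ℝ} (hq0 : 0 ≤ q)
    (hq : ∀ m ∈ S, quad (d.vec m) = q) : ∀ k, 0 < k → F.firstInt d S q k = 0 := by
  obtain ⟨c, hc⟩ := F.exists_firstInt d S hS hq
  obtain ⟨A, hA0, hA⟩ := F.exists_norm_coef_le d S h0 0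
  obtain ⟨A', hA0', hA'⟩ := F.exists_norm_coef_le d S h0 1
  have hb : ∀ k, 2 ≤ k → ‖c‖ ≤
      Real.exp (-(q * k)) * ((A / 2 + A') * k ^ (-(1 / 4) : ℝ) + q * A * k ^ (3 / 4 : ℝ)) := by
    intro k hk
    have hk0 : 0 < k := by linarith
    have e1 : k ^ (-(1 / 4) : ℝ) = √k * k ^ (-(3 / 4) : ℝ) := by
      rw [Real.sqrt_eq_rpow, ← Real.rpow_add hk0]; norm_num
    have e2 : k ^ (3 / 4 : ℝ) = √k * k ^ (-(3 / 4) : ℝ) * k := by
      rw [← e1, ← Real.rpow_add_one hk0.ne']; norm_num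
    have hh := hc k hk0
    have hn : ‖F.firstInt d S q k‖ = Real.exp (q * k) * ‖c‖ := by
      rw [hh, norm_mul, Complex.norm_real, Real.norm_of_nonneg (Real.exp_pos _).le]
    rw [Real.exp_neg, ← div_eq_inv_mul, le_div_iff₀ (Real.exp_pos _), mul_comm, ← hn, firstInt,
      norm_mul, Complex.norm_real, Real.norm_of_nonneg (Real.sqrt_nonneg k), e1, e2]
    have h1 := hA k hk
    have h2 := hA' k hk
    rw [pow_zero, div_one] at h1
    rw [pow_one, div_mul_eq_mul_div, le_div_iff₀ hk0] at h2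
    refine (mul_le_mul_of_nonneg_left ((norm_add_le _ _).trans (add_le_add (norm_sub_le _ _) le_rfl))
      (Real.sqrt_nonneg k)).trans ?_
    rw [norm_div, norm_mul, norm_mul, Complex.norm_real, Complex.norm_real, Complex.norm_ofNat,
      Real.norm_of_nonneg hk0.le, Real.norm_of_nonneg (mul_nonneg hq0 hk0.le)]
    have h3 : ‖F.coef d S 0 k‖ / 2 + k * ‖F.coef d S 1 k‖ + q * k * ‖F.coef d S 0 k‖ ≤
        (A / 2 + A') * k ^ (-(3 / 4) : ℝ) + q * A * (k ^ (-(3 / 4) : ℝ) * k) := by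
      have := mul_le_mul_of_nonneg_left h1 (mul_nonneg hq0 hk0.le)
      linarith
    refine (mul_le_mul_of_nonneg_left h3 (Real.sqrt_nonneg k)).trans (le_of_eq ?_)
    ring
  have hc0 : c = 0 := by
    refine eq_zero_of_norm_le_tendsto ?_ (eventually_atTop.2 ⟨2, hb⟩)
    rcases hq0.eq_or_lt with rfl | hq1
    · simpa using (tendsto_rpow_neg_atTop (show (0 : ℝ) < 1 / 4 by norm_num)).const_mul (A / 2 + A')
    · have h1 := (tendsto_rpow_mul_exp_neg_mul_atTop_nhds_zero (-(1 / 4)) q hq1).const_mul (A / 2 + A')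
      have h2 := (tendsto_rpow_mul_exp_neg_mul_atTop_nhds_zero (3 / 4) q hq1).const_mul (q * A)
      have := h1.add h2
      rw [mul_zero, mul_zero, add_zero] at this
      refine this.congr fun k ↦ ?_
      rw [neg_mul]
      ring
  exact fun k hk ↦ by rw [hc k hk, hc0, mul_zero]

/-- With vanishing first integral the coefficient function is a multiple of `k^{-1/2} e^{-qk}`. -/
theorem exists_sqrt_coef_eq {q : ℝ} (h : ∀ k, 0 < k → F.firstInt d S q k = 0) :
    ∃ a : ℂ, ∀ k, 0 < k → (√k : ℂ) * F.coef d S 0 k = (Real.exp (-(q * k)) : ℝ) * a := by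
  set g : ℝ → ℂ := fun l ↦ ((√l * Real.exp (q * l) : ℝ) : ℂ) * F.coef d S 0 l
  have hd : ∀ k ∈ Set.Ioi (0 : ℝ), HasDerivAt g 0 k := fun k hk ↦
    (F.hasDerivAt_sqrt_coef d S hk q).congr_deriv (by rw [h k hk, mul_zero])
  refine ⟨g 1, fun k hk ↦ ?_⟩
  have := isOpen_Ioi.is_const_of_deriv_eq_zero isPreconnected_Ioi
    (fun x hx ↦ (hd x hx).differentiableAt.differentiableWithinAt)
    (fun x hx ↦ (hd x hx).deriv) (show k ∈ Set.Ioi (0 : ℝ) from hk)
    (show (1 : ℝ) ∈ Set.Ioi (0 : ℝ) from Set.mem_Ioi.2 one_pos)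
  rw [← this]
  simp only [g, ← mul_assoc, ← Complex.ofReal_mul]
  rw [show Real.exp (-(q * k)) * √k * Real.exp (q * k) = √k * (Real.exp (-(q * k)) *
    Real.exp (q * k)) by ring, ← Real.exp_add, neg_add_cancel, Real.exp_zero, mul_one]

/-- The coefficient functions of the isotropic vectors vanish. -/
theorem coef_eq_zero_of_isotropic (hS : Stable S) (hq : ∀ m ∈ S, quad (d.vec m) = 0) {k : ℝ}
    (hk : 0 < k) : F.coef d S 0 k = 0 := by
  classical
  set S₁ : Set (Fin 4 → ℤ) := S \ {0}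
  set S₀ : Set (Fin 4 → ℤ) := S ∩ {0}
  have hact0 : ∀ γ : GO, actR γ (0 : Fin 4 → ℤ) = 0 := fun γ ↦ by
    rw [← zero_smul ℤ (0 : Fin 4 → ℤ), actR_smul, zero_smul]
    simp
  have hS₀ : Stable S₀ := fun γ m hm ↦ by
    obtain ⟨h1, rfl⟩ := hm
    exact ⟨hS γ 0 h1, hact0 γ⟩
  have hS₁ : Stable S₁ := fun γ m hm ↦ ⟨hS γ m hm.1, fun h ↦ hm.2 (by
    have h' : actR γ m = 0 := h
    rw [Set.mem_singleton_iff, ← actR_inv_cancel γ m, h', hact0])⟩
  have hq' : ∀ m ∈ S₀, quad (d.vec m) = 0 := fun m hm ↦ hq m hm.1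
  have hz : ∀ j, ∀ l, 0 < j → F.coef d S₀ j l = 0 := fun j l hj ↦ by
    rw [coef, ← tsum_zero (α := ℂ) (β := Fin 4 → ℤ)]
    refine tsum_congr fun m ↦ ?_
    by_cases hm : m ∈ S₀
    · obtain ⟨-, rfl⟩ := hm
      have hm0 : ∀ p, maj (d.vec 0) p = 0 := fun p ↦ by
        rw [maj_eq]; simp [Datum.vec, realV]
      by_cases h' : (0 : Fin 4 → ℤ) ∈ S₀
      · rw [Set.indicator_of_mem h']
        simp only [term, mom, momI, hm0, zero_pow hj.ne', zero_mul, mul_zero, Complex.ofReal_zero,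
          integral_zero, Finset.sum_const_zero]
      · rw [Set.indicator_of_notMem h']
    · rw [Set.indicator_of_notMem hm]
  have e0 : F.coef d S₀ 0 k = 0 := by
    have := F.radial_ode d S₀ hS₀ hq' hk
    rw [hz 2 k two_pos, hz 1 k one_pos] at this
    simpa using this
  have h1 : F.coef d S₁ 0 k = 0 := by
    obtain ⟨a, ha⟩ := F.exists_sqrt_coef_eq d S₁
      (F.firstInt_eq_zero d S₁ hS₁ (fun h ↦ h.2 rfl) le_rfl fun m hm ↦ hq m hm.1)
    obtain ⟨A, hA0, hA⟩ := F.exists_norm_coef_le d S₁ (fun h ↦ h.2 rfl) 0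
    have ha0 : a = 0 := by
      refine eq_zero_of_norm_le_tendsto ?_ (eventually_atTop.2 ⟨2, fun l hl ↦ ?_⟩)
        (g := fun l ↦ A * l ^ (-(1 / 4) : ℝ))
      · simpa using (tendsto_rpow_neg_atTop (show (0 : ℝ) < 1 / 4 by norm_num)).const_mul A
      · have hl0 : 0 < l := by linarith
        have h := ha l hl0
        rw [zero_mul, neg_zero, Real.exp_zero, Complex.ofReal_one, one_mul] at h
        rw [← h, norm_mul, Complex.norm_real, Real.norm_of_nonneg (Real.sqrt_nonneg l)]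
        refine (mul_le_mul_of_nonneg_left (hA l hl) (Real.sqrt_nonneg l)).trans (le_of_eq ?_)
        rw [pow_zero, div_one, Real.sqrt_eq_rpow, mul_left_comm, ← Real.rpow_add hl0]
        norm_num
    have h := ha k hk
    rw [ha0, mul_zero, mul_eq_zero] at h
    exact h.resolve_left (by exact_mod_cast (Real.sqrt_pos.2 hk).ne')
  rw [coef, show S = S₀ ∪ S₁ from (Set.inter_union_sdiff S {0}).symm,
    Set.indicator_union_of_disjoint (Set.disjoint_sdiff_inter.symm)]
  rw [(F.summable_term d 0 hk S₀).tsum_add (F.summable_term d 0 hk S₁), ← coef, ← coef, e0, h1,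
    add_zero]

end Form

end FermatAgent.LT.Lift
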