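import Mathlib
import Fermat.Agent.LT.Lift.Radial

/-!
# The lift as a series, and its derivative
-/

set_option autoImplicit false

noncomputable section

open MeasureTheory Filter Topology
open scoped ENNReal NNReal

namespace FermatAgent.LT.Lift

/-- `e (q Re τ)`. -/
def eX (q : ℝ) (τ : ℂ) : ℂ := Complex.exp (2 * Real.pi * Complex.I * (q * τ.re : ℝ))

theorem norm_eX (q : ℝ) (τ : ℂ) : ‖eX q τ‖ = 1 := by
  simp [eX, Complex.norm_exp]

theorem gterm_eq (τ : ℂ) (V : Fin 4 → ℝ) (p : H3) :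
    gterm τ V p = eX (quad V) τ * (kern (2 * Real.pi * τ.im) V p : ℂ) := by
  rw [gterm, eX, kern, Complex.ofReal_exp, ← Complex.exp_add]
  congr 1
  push_cast
  ring

/-- `(y / 2) (∂ₓ + i ∂_y)`. -/
def ybar (f : ℂ → ℂ) (τ : ℂ) : ℂ :=
  (τ.im : ℂ) / 2 * (fderiv ℝ f τ 1 + Complex.I * fderiv ℝ f τ Complex.I)

theorem linear_conj (L : ℂ →L[ℝ] ℂ) (c : ℂ) :
    L c + Complex.I * L (c * Complex.I) =
      (starRingEnd ℂ) c * (L 1 + Complex.I * L Complex.I) := by
  have hd : ∀ z : ℂ, L z = (z.re : ℂ) * L 1 + (z.im : ℂ) * L Complex.I := fun z ↦ by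
    conv_lhs => rw [show z = z.re • (1 : ℂ) + z.im • Complex.I by
      simp [Complex.real_smul]]
    rw [map_add, map_smul, map_smul, Complex.real_smul, Complex.real_smul]
  rw [hd c, hd (c * Complex.I)]
  apply Complex.ext <;> simp <;> ring

/-- Covariance of `ybar`. -/
theorem ybar_mul_comp {f : ℂ → ℂ} {j ψ : ℂ → ℂ} {τ j' ψ' : ℂ} (hj : HasDerivAt j j' τ)
    (hψ : HasDerivAt ψ ψ' τ) (hf : DifferentiableAt ℝ f (ψ τ)) :
    ((ψ τ).im : ℂ) * ybar (fun z ↦ j z * f (ψ z)) τ =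
      (τ.im : ℂ) * (j τ * (starRingEnd ℂ) ψ' * ybar f (ψ τ)) := by
  have hJ := hj.hasFDerivAt.restrictScalars ℝ
  have hP := hψ.hasFDerivAt.restrictScalars ℝ
  have hF : HasFDerivAt (fun z ↦ j z * f (ψ z)) _ τ := hJ.mul (hf.hasFDerivAt.comp τ hP)
  have h := linear_conj (fderiv ℝ f (ψ τ)) ψ'
  simp only [ybar, hF.fderiv, add_apply, ContinuousLinearMap.comp_apply,
    smul_apply, ContinuousLinearMap.coe_restrictScalars', ContinuousLinearMap.toSpanSingleton_apply,
    smul_eq_mul, one_mul]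
  rw [mul_comm Complex.I ψ', mul_comm Complex.I j']
  have hII := Complex.I_mul_I
  linear_combination ((ψ τ).im : ℂ) * (τ.im : ℂ) / 2 * j τ * h +
    ((ψ τ).im : ℂ) * (τ.im : ℂ) / 2 * f (ψ τ) * j' * hII

theorem differentiableAt_of_ybar {f : ℂ → ℂ} {τ : ℂ} (hτ : τ.im ≠ 0)
    (hf : DifferentiableAt ℝ f τ) (h : ybar f τ = 0) : DifferentiableAt ℂ f τ := by
  have h' : fderiv ℝ f τ Complex.I = Complex.I * fderiv ℝ f τ 1 := by
    rw [ybar, mul_eq_zero, or_iff_right (div_ne_zero (Complex.ofReal_ne_zero.2 hτ) two_ne_zero)] at h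
    linear_combination (-Complex.I) * h + fderiv ℝ f τ Complex.I * Complex.I_mul_I
  set L : ℂ →L[ℂ] ℂ := ContinuousLinearMap.toSpanSingleton ℂ (fderiv ℝ f τ 1)
  refine (hasFDerivAt_of_restrictScalars (𝕜 := ℝ) (𝕜' := ℂ) (f := f) (f' := L) hf.hasFDerivAt
    ?_).differentiableAt
  apply ContinuousLinearMap.ext
  intro z
  conv_rhs => rw [show z = z.re • (1 : ℂ) + z.im • Complex.I by simp [Complex.real_smul]]
  rw [map_add, map_smul, map_smul, h']
  simp only [L, ContinuousLinearMap.coe_restrictScalars', ContinuousLinearMap.toSpanSingleton_apply,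
    smul_eq_mul, Complex.real_smul]
  conv_lhs => rw [← Complex.re_add_im z]
  ring

/-- The frequency of a vector. -/
def Datum.qv {N : ℕ} (d : Datum N) (m : Fin 4 → ℤ) : ℝ := quad (d.vec m)

namespace Form

variable {N : ℕ} [NeZero N] (F : Form N) (d : Datum N)

/-- The summands. -/
def sT (j : ℕ) (τ : ℂ) (m : Fin 4 → ℤ) : ℂ :=
  eX (d.qv m) τ * F.term d j (2 * Real.pi * τ.im) m

/-- The series of the `j`-th moments. -/
def fnS (j : ℕ) (τ : ℂ) : ℂ := ∑' m, F.sT d j τ m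

/-- The series weighted by the frequencies. -/
def fnQ (τ : ℂ) : ℂ := ∑' m, (d.qv m : ℂ) * F.sT d 0 τ m

/-- The lift. -/
def fnC (τ : ℂ) : ℂ := (√τ.im : ℝ) * F.fnS d 0 τ

/-- The series of the first integrals. -/
def fnV (τ : ℂ) : ℂ :=
  (√τ.im : ℝ) * (F.fnS d 0 τ / 2 - (2 * Real.pi * τ.im : ℝ) * F.fnS d 1 τ +
    (2 * Real.pi * τ.im : ℝ) * F.fnQ d τ)

theorem exists_norm_qv_term_le : ∃ A, 0 ≤ A ∧ ∀ k : ℝ, 0 < k → ∀ m,
    ‖(d.qv m : ℂ) * F.term d 0 k m‖ ≤ A / k * (mass d.r (k / 2) m).toReal := by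
  obtain ⟨C, hC0, hC⟩ := F.exists_bound
  obtain ⟨B, hB0, hB⟩ := d.exists_bound
  refine ⟨Fintype.card (GN N) * (B * (C * 2)), by positivity, fun k hk m ↦ ?_⟩
  rw [term, Finset.mul_sum]
  refine (norm_sum_le_of_le (n := fun _ ↦ B * (C * (2 / k) * (mass d.r (k / 2) m).toReal)) _
    fun h _ ↦ ?_).trans (le_of_eq (by simp [Finset.card_univ]; ring))
  rw [← mul_assoc, mul_comm (d.qv m : ℂ), mul_assoc, norm_mul]
  refine mul_le_mul (hB h m) ?_ (norm_nonneg _) hB0
  rw [mom, ← integral_const_mul, ← integral_wR_kern, ← integral_const_mul]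
  refine norm_integral_le_of_norm_le ((integrable_wR_kern d.r_pos (half_pos hk) m).const_mul _)
    (.of_forall fun p ↦ ?_)
  have h1 := pow_mul_kern_le 1 hk (d.vec m) p
  simp only [pow_one, Nat.factorial_one, Nat.cast_one, one_mul] at h1
  have h2 := abs_quad_le_maj (d.vec m) p
  rw [momI, ← mul_assoc, norm_mul, norm_mul, Complex.norm_real, Complex.norm_real, pow_zero, one_mul,
    Real.norm_eq_abs, Real.norm_of_nonneg (mul_nonneg (wR_nonneg p) (kern_pos _ _ _).le)]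
  calc |d.qv m| * (wR p * kern k (d.vec m) p) * ‖F.φ p h‖
      = wR p * (|d.qv m| * kern k (d.vec m) p) * ‖F.φ p h‖ := by ring
    _ ≤ wR p * (2 / k * kern (k / 2) (d.vec m) p) * C := by
        refine mul_le_mul (mul_le_mul_of_nonneg_left ?_ (wR_nonneg p)) (hC p h) (norm_nonneg _) ?_
        · exact (mul_le_mul_of_nonneg_right h2 (kern_pos _ _ _).le).trans h1
        · exact mul_nonneg (wR_nonneg p) (mul_nonneg (by positivity) (kern_pos _ _ _).le)
    _ = _ := by rw [d.vec_eq]; ring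

theorem summable_sT (j : ℕ) {τ : ℂ} (hτ : 0 < τ.im) : Summable (F.sT d j τ) := by
  refine Summable.of_norm_bounded
    ((F.summable_term d j (k := 2 * Real.pi * τ.im) (by positivity) Set.univ).norm) fun m ↦ ?_
  rw [Set.indicator_univ, sT, norm_mul, norm_eX, one_mul]

theorem summable_qv_sT {τ : ℂ} (hτ : 0 < τ.im) :
    Summable fun m ↦ (d.qv m : ℂ) * F.sT d 0 τ m := by
  obtain ⟨A, hA0, hA⟩ := F.exists_norm_qv_term_le d
  have hk : 0 < 2 * Real.pi * τ.im := by positivity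
  refine Summable.of_norm_bounded
    ((ENNReal.summable_toReal (tsum_mass_ne_top d.r_pos (half_pos hk))).mul_left
      (A / (2 * Real.pi * τ.im))) fun m ↦ le_of_eq_of_le ?_ (hA _ hk m)
  rw [sT, mul_left_comm, norm_mul, norm_eX, one_mul]

theorem hasFDerivAt_sT (m : Fin 4 → ℤ) {τ : ℂ} (hτ : 0 < τ.im) :
    HasFDerivAt (fun z ↦ F.sT d 0 z m)
      (Complex.reCLM.smulRight (2 * Real.pi * Complex.I * ((d.qv m : ℂ) * F.sT d 0 τ m)) +
        Complex.imCLM.smulRight (-(2 * Real.pi : ℂ) * F.sT d 1 τ m)) τ := by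
  have h1 : HasFDerivAt (fun z : ℂ ↦ eX (d.qv m) z)
      (Complex.reCLM.smulRight (2 * Real.pi * Complex.I * d.qv m * eX (d.qv m) τ)) τ := by
    have h0 : HasFDerivAt (fun z : ℂ ↦ z.re) Complex.reCLM τ := Complex.reCLM.hasFDerivAt
    have := (((hasDerivAt_id τ.re).const_mul (d.qv m)).ofReal_comp.const_mul
      (2 * Real.pi * Complex.I)).cexp
    refine (this.hasFDerivAt.comp τ h0).congr_fderiv ?_
    ext z
    simp [eX, -mul_eq_mul_left_iff, -mul_eq_mul_right_iff]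
    ring
  have h2 : HasFDerivAt (fun z : ℂ ↦ F.term d 0 (2 * Real.pi * z.im) m)
      (Complex.imCLM.smulRight (-(2 * Real.pi : ℂ) * F.term d 1 (2 * Real.pi * τ.im) m)) τ := by
    have h0 : HasFDerivAt (fun z : ℂ ↦ 2 * Real.pi * z.im) ((2 * Real.pi) • Complex.imCLM) τ :=
      Complex.imCLM.hasFDerivAt.const_mul _
    refine ((F.hasDerivAt_term d 0 (k := 2 * Real.pi * τ.im) (by positivity) m).hasFDerivAt.comp τ
      h0).congr_fderiv ?_
    ext z
    simp [Complex.real_smul]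
    ring
  refine (h1.mul h2).congr_fderiv ?_
  ext z
  simp [sT, Complex.real_smul]
  ring

theorem hasFDerivAt_fnS {τ : ℂ} (hτ : 0 < τ.im) :
    HasFDerivAt (F.fnS d 0)
      (Complex.reCLM.smulRight (2 * Real.pi * Complex.I * F.fnQ d τ) +
        Complex.imCLM.smulRight (-(2 * Real.pi : ℂ) * F.fnS d 1 τ)) τ := by
  obtain ⟨A, hA0, hA⟩ := F.exists_norm_qv_term_le d
  obtain ⟨A', hA0', hA'⟩ := F.exists_norm_term_le d 1
  set y₀ := τ.im / 2
  have hy : 0 < y₀ := half_pos hτ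
  set k₀ := 2 * Real.pi * y₀
  have hk₀ : 0 < k₀ := by positivity
  set s : Set ℂ := {z | y₀ < z.im}
  have hs : IsOpen s := isOpen_lt continuous_const Complex.continuous_im
  have hs' : IsPreconnected s := ((convex_halfSpace_im_gt y₀).isPreconnected)
  have hτs : τ ∈ s := by show τ.im / 2 < τ.im; linarith
  have hbound : ∀ (m : Fin 4 → ℤ), ∀ z ∈ s, ‖(d.qv m : ℂ) * F.sT d 0 z m‖ ≤
      A / k₀ * (mass d.r (k₀ / 2) m).toReal ∧ ‖F.sT d 1 z m‖ ≤
      A' / k₀ * (mass d.r (k₀ / 2) m).toReal := by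
    intro m z hz
    have hz' : k₀ ≤ 2 * Real.pi * z.im :=
      mul_le_mul_of_nonneg_left (le_of_lt hz) (by positivity)
    have hm : (mass d.r (2 * Real.pi * z.im / 2) m).toReal ≤ (mass d.r (k₀ / 2) m).toReal :=
      ENNReal.toReal_mono (mass_ne_top d.r_pos (half_pos hk₀) m) (mass_anti (by linarith) m)
    have h1 := hA _ (hk₀.trans_le hz') m
    have h2 := hA' _ (hk₀.trans_le hz') m
    rw [pow_one] at h2
    constructor
    · rw [sT, mul_left_comm, norm_mul, norm_eX, one_mul]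
      exact h1.trans (mul_le_mul (div_le_div_of_nonneg_left hA0 hk₀ hz') hm ENNReal.toReal_nonneg
        (div_nonneg hA0 hk₀.le))
    · rw [sT, norm_mul, norm_eX, one_mul]
      exact h2.trans (mul_le_mul (div_le_div_of_nonneg_left hA0' hk₀ hz') hm ENNReal.toReal_nonneg
        (div_nonneg hA0' hk₀.le))
  have hsum := (ENNReal.summable_toReal (tsum_mass_ne_top d.r_pos (half_pos hk₀)))
  have := hasFDerivAt_tsum_of_isPreconnected (x₀ := τ) (x := τ)
    (f := fun m z ↦ F.sT d 0 z m)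
    (f' := fun m z ↦ Complex.reCLM.smulRight (2 * Real.pi * Complex.I * ((d.qv m : ℂ) * F.sT d 0 z m)) +
        Complex.imCLM.smulRight (-(2 * Real.pi : ℂ) * F.sT d 1 z m))
    ((hsum.mul_left (2 * Real.pi * (A / k₀))).add (hsum.mul_left (2 * Real.pi * (A' / k₀))))
    hs hs' (fun m z hz ↦ F.hasFDerivAt_sT d m (hy.trans hz)) (fun m z hz ↦ ?_) hτs
    (F.summable_sT d 0 hτ) hτs
  · refine this.congr_fderiv ?_
    apply ContinuousLinearMap.ext
    intro z
    obtain ⟨h1, h2⟩ : Summable (fun m ↦ (d.qv m : ℂ) * F.sT d 0 τ m) ∧ Summable (F.sT d 1 τ) :=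
      ⟨F.summable_qv_sT d hτ, F.summable_sT d 1 hτ⟩
    have hsumf : Summable fun m ↦ Complex.reCLM.smulRight
        (2 * Real.pi * Complex.I * ((d.qv m : ℂ) * F.sT d 0 τ m)) +
        Complex.imCLM.smulRight (-(2 * Real.pi : ℂ) * F.sT d 1 τ m) :=
      Summable.add ((h1.mul_left _).map (ContinuousLinearMap.smulRightL ℝ ℂ ℂ Complex.reCLM)
          (ContinuousLinearMap.continuous _))
        ((h2.mul_left _).map (ContinuousLinearMap.smulRightL ℝ ℂ ℂ Complex.imCLM)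
          (ContinuousLinearMap.continuous _))
    rw [← ContinuousLinearMap.apply_apply (𝕜 := ℝ) z, ContinuousLinearMap.map_tsum _ hsumf]
    simp only [ContinuousLinearMap.apply_apply, add_apply,
      ContinuousLinearMap.smulRight_apply, Complex.real_smul]
    rw [((h1.mul_left _).mul_left _).tsum_add ((h2.mul_left _).mul_left _), tsum_mul_left,
      tsum_mul_left, tsum_mul_left, tsum_mul_left]
    rfl
  · refine (norm_add_le _ _).trans ?_
    rw [ContinuousLinearMap.norm_smulRight_apply, ContinuousLinearMap.norm_smulRight_apply,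
      Complex.reCLM_norm, Complex.imCLM_norm, one_mul, one_mul, norm_mul, norm_mul _ (F.sT d 1 z m)]
    obtain ⟨b1, b2⟩ := hbound m z hz
    simp only [norm_neg, norm_mul, Complex.norm_I, Complex.norm_real, mul_one, Complex.norm_ofNat,
      Real.norm_of_nonneg Real.pi_pos.le] at b1 ⊢
    rw [mul_assoc (2 * Real.pi), mul_assoc (2 * Real.pi)]
    exact add_le_add (mul_le_mul_of_nonneg_left b1 (by positivity))
      (mul_le_mul_of_nonneg_left b2 (by positivity))

theorem hasFDerivAt_fnC {τ : ℂ} (hτ : 0 < τ.im) :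
    HasFDerivAt (F.fnC d)
      ((√τ.im : ℂ) • (Complex.reCLM.smulRight (2 * Real.pi * Complex.I * F.fnQ d τ) +
        Complex.imCLM.smulRight (-(2 * Real.pi : ℂ) * F.fnS d 1 τ)) +
        Complex.imCLM.smulRight (((1 / (2 * √τ.im) : ℝ) : ℂ) * F.fnS d 0 τ)) τ := by
  have h0 : HasFDerivAt (fun z : ℂ ↦ z.im) Complex.imCLM τ := Complex.imCLM.hasFDerivAt
  have h1 := ((Real.hasDerivAt_sqrt hτ.ne').ofReal_comp).hasFDerivAt.comp τ h0
  refine (h1.mul (F.hasFDerivAt_fnS d hτ)).congr_fderiv ?_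
  ext z
  simp [Complex.real_smul]
  ring

theorem differentiableAt_fnC {τ : ℂ} (hτ : 0 < τ.im) : DifferentiableAt ℝ (F.fnC d) τ :=
  (F.hasFDerivAt_fnC d hτ).differentiableAt

theorem ybar_fnC {τ : ℂ} (hτ : 0 < τ.im) : ybar (F.fnC d) τ = Complex.I / 2 * F.fnV d τ := by
  rw [ybar, (F.hasFDerivAt_fnC d hτ).fderiv, fnV]
  have hs : (√τ.im : ℂ) * √τ.im = τ.im := by exact_mod_cast Real.mul_self_sqrt hτ.le
  have hs0 : (√τ.im : ℂ) ≠ 0 := by exact_mod_cast (Real.sqrt_pos.2 hτ).ne'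
  simp [Complex.real_smul]
  field_simp
  linear_combination (-(F.fnS d 0 τ)) * hs

/-- The lift is the pairing with the theta series. -/
theorem fnC_eq_theta {τ : ℂ} (hτ : 0 < τ.im) :
    F.fnC d τ = (√τ.im : ℝ) * ∑ h, ∫ p, (wR p : ℂ) * (F.φ p h * d.theta τ h p) := by
  have hk : 0 < 2 * Real.pi * τ.im := by positivity
  obtain ⟨C, hC0, hC⟩ := F.exists_bound
  obtain ⟨B, hB0, hB⟩ := d.exists_bound
  have e : ∀ h m p, (wR p : ℂ) * (F.φ p h * (d.W h m * gterm τ (d.vec m) p)) =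
      eX (d.qv m) τ * (d.W h m * F.momI d 0 (2 * Real.pi * τ.im) h m p) := fun h m p ↦ by
    simp only [gterm_eq, momI, Datum.qv, pow_zero, one_mul]
    push_cast
    ring
  have hn : ∀ h m, ∫⁻ p, ‖(wR p : ℂ) * (F.φ p h * (d.W h m * gterm τ (d.vec m) p))‖ₑ ≤
      ENNReal.ofReal (B * C) * mass d.r (2 * Real.pi * τ.im) m := fun h m ↦ by
    rw [mass, ← lintegral_const_mul' _ _ ENNReal.ofReal_ne_top]
    refine lintegral_mono fun p ↦ ?_
    rw [← ofReal_norm, norm_mul, norm_mul, norm_mul, Complex.norm_real,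
      Real.norm_of_nonneg (wR_nonneg p), gterm_eq, norm_mul, norm_eX, one_mul, Complex.norm_real,
      Real.norm_of_nonneg (kern_pos _ _ _).le, ← ofReal_wR, ← ENNReal.ofReal_mul (wR_nonneg p),
      ← ENNReal.ofReal_mul (mul_nonneg hB0 hC0)]
    refine ENNReal.ofReal_le_ofReal ?_
    rw [d.vec_eq]
    calc wR p * (‖F.φ p h‖ * (‖d.W h m‖ * kern _ ((1 / (d.r : ℝ)) • realV m) p))
        ≤ wR p * (C * (B * kern (2 * Real.pi * τ.im) ((1 / (d.r : ℝ)) • realV m) p)) :=
          mul_le_mul_of_nonneg_left (mul_le_mul (hC p h)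
            (mul_le_mul_of_nonneg_right (hB h m) (kern_pos _ _ _).le)
            (mul_nonneg (norm_nonneg _) (kern_pos _ _ _).le) hC0) (wR_nonneg p)
      _ = _ := by ring
  have hne : ∀ h, ∑' m, ∫⁻ p, ‖(wR p : ℂ) * (F.φ p h * (d.W h m * gterm τ (d.vec m) p))‖ₑ ≠ ⊤ :=
    fun h ↦ ne_top_of_le_ne_top (ENNReal.mul_ne_top ENNReal.ofReal_ne_top
      (tsum_mass_ne_top d.r_pos hk)) ((ENNReal.tsum_le_tsum (hn h)).trans ENNReal.tsum_mul_left.le)
  have hmeas : ∀ h m, AEStronglyMeasurable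
      (fun p ↦ (wR p : ℂ) * (F.φ p h * (d.W h m * gterm τ (d.vec m) p))) volume := fun h m ↦ by
    simp only [e]
    exact (((F.integrable_momI d 0 hk h m).const_mul _).const_mul _).aestronglyMeasurable
  have hh : ∀ h, ∫ p, (wR p : ℂ) * (F.φ p h * d.theta τ h p) =
      ∑' m, eX (d.qv m) τ * (d.W h m * F.mom d 0 (2 * Real.pi * τ.im) h m) := fun h ↦ by
    simp only [Datum.theta, ← tsum_mul_left]
    rw [integral_tsum (hmeas h) (hne h)]
    refine tsum_congr fun m ↦ ?_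
    simp only [e, integral_const_mul, mom]
  have hsm : ∀ h, Summable fun m ↦ eX (d.qv m) τ * (d.W h m * F.mom d 0 (2 * Real.pi * τ.im) h m) :=
    fun h ↦ by
    refine Summable.of_norm_bounded (ENNReal.summable_toReal (hne h)) fun m ↦ ?_
    have : eX (d.qv m) τ * (d.W h m * F.mom d 0 (2 * Real.pi * τ.im) h m) =
        ∫ p, (wR p : ℂ) * (F.φ p h * (d.W h m * gterm τ (d.vec m) p)) := by
      simp only [e, integral_const_mul, mom]
    rw [this, ← toReal_enorm]
    exact ENNReal.toReal_mono (ne_top_of_le_ne_top (hne h) (ENNReal.le_tsum m))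
      (enorm_integral_le_lintegral_enorm _)
  rw [fnC, fnS, Finset.sum_congr rfl fun h _ ↦ hh h, ← Summable.tsum_finsetSum fun h _ ↦ hsm h]
  congr 1
  refine tsum_congr fun m ↦ ?_
  rw [sT, term, Finset.mul_sum]

end Form

end FermatAgent.LT.Lift
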