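import Mathlib
import Fermat.Agent.LT.Lift.Series
import Fermat.Agent.LT.Lift.GaussSum

/-!
# Transformation of the lift
-/

set_option autoImplicit false

noncomputable section

open MeasureTheory

namespace FermatAgent.LT.Lift

theorem im_neg_one_div {τ : ℂ} : (-1 / τ).im = τ.im / Complex.normSq τ := by
  rw [neg_div, Complex.neg_im, one_div, Complex.inv_im, neg_div, neg_neg]

theorem gterm_scale (τ : ℂ) (V : Fin 4 → ℝ) (p : H3) {s : ℝ} (hs : s ≠ 0) (j : ℝ) :
    gterm ((s ^ 2 : ℝ) * τ + j) (s⁻¹ • V) p =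
      Complex.exp (2 * Real.pi * Complex.I * ((j / s ^ 2 * quad V : ℝ) : ℂ)) * gterm τ V p := by
  have h1 : quad (s⁻¹ • V) = (s ^ 2)⁻¹ * quad V := by simp [quad]; ring
  have h2 : maj (s⁻¹ • V) p = (s ^ 2)⁻¹ * maj V p := by
    simp only [maj_eq, Pi.smul_apply, smul_eq_mul]; ring
  rw [gterm, gterm, h1, h2, ← Complex.exp_add]
  congr 1
  simp only [Complex.add_re, Complex.add_im, Complex.mul_re, Complex.mul_im, Complex.ofReal_re,
    Complex.ofReal_im, zero_mul, sub_zero, add_zero]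
  have : (s : ℂ) ≠ 0 := by exact_mod_cast hs
  push_cast
  field_simp
  ring

/-- Twist of a datum with integral vectors by `e (b q / p)`. -/
def Datum.twist {N : ℕ} (d : Datum N) (_hr : d.r = 1) (b : ℤ) {p : ℕ} (hp : 0 < p) : Datum N where
  r := 1
  D := d.D * p
  W h m := d.W h m * ecD p (b * quadR m)
  r_pos := one_pos
  D_pos := Nat.mul_pos d.D_pos hp
  r_dvd := one_dvd _
  periodic h m k := by
    have e : ((d.D * p : ℕ) : ℤ) • k = (d.D : ℤ) • ((p : ℤ) • k) := by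
      rw [smul_smul]; push_cast; rfl
    rw [e, d.periodic, ← e]
    congr 1
    rw [quadR_add, bilR_comm, bilR_smul_left, quadR_smul,
      show b * (quadR m + ((d.D * p : ℕ) : ℤ) * bilR k m +
        ((d.D * p : ℕ) : ℤ) ^ 2 * quadR k) =
        b * quadR m + ((p : ℕ) : ℤ) * (b * (d.D * bilR k m + d.D ^ 2 * p * quadR k)) by
          push_cast; ring, ecD_add, ecD_mul_self hp, mul_one]
  equivariant γ h m := by rw [d.equivariant, quadR_actR]

theorem Datum.theta_add_div {N : ℕ} (d : Datum N) (hr : d.r = 1) (b : ℤ) {p : ℕ} (hp : 0 < p)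
    (τ : ℂ) (h : GN N) (q : H3) :
    d.theta (τ + ((b : ℝ) / p : ℝ)) h q = (d.twist hr b hp).theta τ h q := by
  refine tsum_congr fun m ↦ ?_
  show _ = d.W h m * ecD p (b * quadR m) * gterm τ ((1 / ((1 : ℕ) : ℝ)) • realV m) q
  rw [mul_assoc]
  congr 1
  have hq : quad (d.vec m) = (quadR m : ℤ) := by
    rw [d.quad_vec, hr]; simp
  rw [show (1 / ((1 : ℕ) : ℝ)) • realV m = d.vec m by rw [Datum.vec, hr]]
  rw [gterm, gterm, ecD, ← Complex.exp_add, hq]
  congr 1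
  simp only [Complex.add_re, Complex.ofReal_re, Complex.add_im, Complex.ofReal_im, add_zero]
  push_cast
  ring

theorem stdAddChar_intCast' (p : ℕ) [NeZero p] (x : ℤ) :
    ZMod.stdAddChar (x : ZMod p) = ecD p x := by
  rw [ZMod.stdAddChar_coe, ecD]
  congr 1
  push_cast
  ring

theorem ecD_mul_left (p : ℕ) (_hp : 0 < p) (c : ℕ) (hc' : 0 < c) (x : ℤ) :
    ecD (c * p) ((c : ℤ) * x) = ecD p x := by
  rw [ecD, ecD]
  congr 3
  have : (c : ℝ) ≠ 0 := by exact_mod_cast hc'.ne'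
  push_cast
  exact mul_div_mul_left _ _ this

theorem three_dvd_quadR {m : Fin 4 → ℤ} (hm : InThree m) : 3 ∣ quadR m := by
  obtain ⟨k, rfl⟩ : m ∈ Set.range threeDual := range_threeDual ▸ hm
  refine ⟨k 2 ^ 2 + k 2 * k 3 + k 3 ^ 2 - 3 * (k 0 * k 1), ?_⟩
  simp [threeDual, quadR]
  ring

/-- The finite Fourier transform of a twisted datum. -/
theorem Datum.hat_twist {N : ℕ} (d : Datum N) (hr : d.r = 1)
    (hsc : ∀ (a : ℤ) h m, IsCoprime a (d.D : ℤ) → d.W h (a • m) = d.W h m)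
    {p : ℕ} (hpp : p.Prime) {a b c₀ : ℤ} (hdet : a * p - b * (3 * (d.D : ℤ) ^ 2 * c₀) = 1)
    (h : GN N) (m : Fin 4 → ℤ) :
    (d.twist hr b hpp.pos).hat h m * ecD (3 * p) (-(c₀ * quadR m)) =
      chi3 p * (p : ℂ) ^ 2 * d.hat h m := by
  have : Fact p.Prime := ⟨hpp⟩
  have : NeZero d.D := ⟨d.D_pos.ne'⟩
  have : NeZero (d.D * p) := ⟨(Nat.mul_pos d.D_pos hpp.pos).ne'⟩
  by_cases hm : InThree m
  swap
  · simp [Datum.hat, hm]
  set D := d.D with hD
  have hpD : IsCoprime (p : ℤ) (D : ℤ) :=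
    ⟨a, -(b * 3 * D * c₀), by linear_combination hdet⟩
  have hp3 : p ≠ 3 := by
    rintro rfl
    have h3 : (3 : ℤ) ∣ 1 := ⟨a - b * (D : ℤ) ^ 2 * c₀, by push_cast at hdet; linear_combination -hdet⟩
    norm_num at h3
  let f : (Fin 4 → ZMod D) × (Fin 4 → ZMod p) → (Fin 4 → ZMod (D * p)) := fun x i ↦
    (((p : ℤ) * (x.1 i).val + (D : ℤ) * (x.2 i).val : ℤ) : ZMod (D * p))
  have hf : Function.Bijective f := by
    refine (Fintype.bijective_iff_injective_and_card f).2 ⟨fun x y hxy ↦ ?_, ?_⟩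
    · have key : ∀ i, (x.1 i = y.1 i) ∧ (x.2 i = y.2 i) := fun i ↦ by
        have hi := congrFun hxy i
        simp only [f] at hi
        rw [ZMod.intCast_eq_intCast_iff_dvd_sub] at hi
        have h1 : (D : ℤ) ∣ (y.1 i).val - ((x.1 i).val : ℤ) := by
          refine hpD.symm.dvd_of_dvd_mul_left ?_
          have := (Dvd.intro (p : ℤ) rfl).trans (by push_cast at hi; exact hi)
          obtain ⟨k, hk⟩ := this
          exact ⟨k - ((y.2 i).val - (x.2 i).val : ℤ), by linear_combination hk⟩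
        have h2 : (p : ℤ) ∣ (y.2 i).val - ((x.2 i).val : ℤ) := by
          refine hpD.dvd_of_dvd_mul_left ?_
          have := (Dvd.intro_left (D : ℤ) rfl).trans (by push_cast at hi; exact hi)
          obtain ⟨k, hk⟩ := this
          exact ⟨k - ((y.1 i).val - (x.1 i).val : ℤ), by linear_combination hk⟩
        rw [← ZMod.intCast_eq_intCast_iff_dvd_sub] at h1 h2
        exact ⟨by simpa using h1, by simpa using h2⟩
      exact Prod.ext (funext fun i ↦ (key i).1) (funext fun i ↦ (key i).2)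
    · simp [ZMod.card, mul_pow]
  have hsplit : ∀ x : (Fin 4 → ZMod D) × (Fin 4 → ZMod p),
      (d.twist hr b hpp.pos).Wz h (f x) *
          ecD (3 * (D * p)) (bilR m fun i ↦ ((f x i).val : ℤ)) =
        (d.Wz h x.1 * ecD (3 * D) (bilR m fun i ↦ ((x.1 i).val : ℤ))) *
          (ecD (3 * p) (3 * (b * (D : ℤ) ^ 2) * quadR (fun i ↦ ((x.2 i).val : ℤ)) +
            bilR m fun i ↦ ((x.2 i).val : ℤ))) := by
    intro x
    set x1 : Fin 4 → ℤ := fun i ↦ ((x.1 i).val : ℤ)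
    set x2 : Fin 4 → ℤ := fun i ↦ ((x.2 i).val : ℤ)
    set z : Fin 4 → ℤ := (p : ℤ) • x1 + (D : ℤ) • x2
    have e0 : f x = fun i ↦ (z i : ZMod (D * p)) := funext fun i ↦ by
      simp [f, z, x1, x2]
    have e1 : (d.twist hr b hpp.pos).Wz h (f x) = (d.twist hr b hpp.pos).W h z := by
      rw [Datum.W_eq (d.twist hr b hpp.pos) h z, e0]; rfl
    have e2 : (fun i ↦ ((f x i).val : ℤ)) =
        z + ((D * p : ℕ) : ℤ) • fun i ↦ -(z i / ((D * p : ℕ) : ℤ)) := funext fun i ↦ by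
      rw [e0]
      simp only [Pi.add_apply, Pi.smul_apply, smul_eq_mul]
      rw [ZMod.val_intCast]
      linarith [Int.emod_add_mul_ediv (z i) ((D * p : ℕ) : ℤ)]
    rw [e1, e2, hm.ecD_congr (Nat.mul_pos d.D_pos hpp.pos)]
    have ep : ecD p (b * quadR z) = ecD p (b * (D : ℤ) ^ 2 * quadR x2) := by
      rw [show b * quadR z = b * (D : ℤ) ^ 2 * quadR x2 +
        ((p : ℕ) : ℤ) * (b * ((p : ℤ) * quadR x1 + D * bilR x1 x2)) by
          simp only [z, quadR, bilR, Pi.add_apply, Pi.smul_apply, smul_eq_mul]; ring,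
        ecD_add, ecD_mul_self hpp.pos, mul_one]
    have eW : d.W h z = d.Wz h x.1 := by
      rw [show z = (p : ℤ) • x1 + (d.D : ℤ) • x2 from rfl, d.periodic, hsc _ h x1 hpD, d.W_eq]
      congr 1
      funext i
      simp [x1]
    show d.W h z * ecD p (b * quadR z) * _ = _
    rw [ep, eW, show bilR m z = (p : ℤ) * bilR m x1 + (D : ℤ) * bilR m x2 by
        simp only [z, bilR, Pi.add_apply, Pi.smul_apply, smul_eq_mul]; ring, ecD_add,
      show 3 * (D * p) = p * (3 * D) by ring, ecD_mul_left _ (Nat.mul_pos (by norm_num) d.D_pos) _ hpp.pos,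
      show p * (3 * D) = D * (3 * p) by ring, ecD_mul_left _ (Nat.mul_pos (by norm_num) hpp.pos) _ d.D_pos,
      ecD_add, show 3 * (b * (D : ℤ) ^ 2) * quadR x2 = ((3 : ℕ) : ℤ) * (b * (D : ℤ) ^ 2 * quadR x2) by
        push_cast; ring, ecD_mul_left _ hpp.pos _ (by norm_num)]
    ring
  have hgauss : ∑ y : Fin 4 → ZMod p,
      ecD (3 * p) (3 * (b * (D : ℤ) ^ 2) * quadR (fun i ↦ ((y i).val : ℤ)) +
        bilR m fun i ↦ ((y i).val : ℤ)) = ecD (3 * p) (c₀ * quadR m) * (chi3 p * (p : ℂ) ^ 2) := by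
    obtain ⟨q3, hq3⟩ := three_dvd_quadR hm
    have hu : ((b * (D : ℤ) ^ 2 : ℤ) : ZMod p) ≠ 0 := by
      intro h0
      have hc := congrArg (fun z : ℤ ↦ (z : ZMod p)) hdet
      push_cast at hc h0
      rw [ZMod.natCast_self, mul_zero, zero_sub,
        show (b : ZMod p) * (3 * (D : ZMod p) ^ 2 * c₀) = 3 * c₀ * ((b : ZMod p) * (D : ZMod p) ^ 2)
          by ring, h0, mul_zero, neg_zero] at hc
      exact zero_ne_one hc
    set t : Fin 4 → ℤ := fun i ↦ -c₀ * m i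
    have hterm : ∀ y : Fin 4 → ZMod p,
        ecD (3 * p) (3 * (b * (D : ℤ) ^ 2) * quadR (fun i ↦ ((y i).val : ℤ)) +
          bilR m fun i ↦ ((y i).val : ℤ)) =
        ecD (3 * p) (c₀ * quadR m) * ZMod.stdAddChar
          (((b * (D : ℤ) ^ 2 : ℤ) : ZMod p) * quadR (fun i ↦ y i + (t i : ZMod p))) := by
      intro y
      set v : Fin 4 → ℤ := fun i ↦ ((y i).val : ℤ)
      obtain ⟨L, hL⟩ := hm v
      have ey : (fun i ↦ y i + (t i : ZMod p)) = fun i ↦ (((v + t) i : ℤ) : ZMod p) := by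
        funext i; simp [v]
      rw [ey, show quadR (fun i ↦ (((v + t) i : ℤ) : ZMod p)) = ((quadR (v + t) : ℤ) : ZMod p) by
        simp [quadR], ← Int.cast_mul, stdAddChar_intCast', hL, hq3,
        show 3 * (b * (D : ℤ) ^ 2) * quadR v + 3 * L = ((3 : ℕ) : ℤ) *
          (b * (D : ℤ) ^ 2 * quadR v + L) by push_cast; ring,
        show c₀ * (3 * q3) = ((3 : ℕ) : ℤ) * (c₀ * q3) by push_cast; ring,
        ecD_mul_left _ hpp.pos _ (by norm_num), ecD_mul_left _ hpp.pos _ (by norm_num), ← ecD_add]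
      have e : b * (D : ℤ) ^ 2 * quadR (v + t) =
          b * (D : ℤ) ^ 2 * quadR v - 3 * (b * (D : ℤ) ^ 2 * c₀) * L +
            3 * (b * (D : ℤ) ^ 2 * c₀) * (c₀ * q3) := by
        have hb : bilR v t = -c₀ * bilR m v := by
          simp only [bilR, t]; ring
        have hq : quadR t = c₀ ^ 2 * quadR m := by simp only [quadR, t]; ring
        rw [quadR_add, hb, hq, hL, hq3]; ring
      rw [e, show c₀ * q3 + (b * (D : ℤ) ^ 2 * quadR v - 3 * (b * (D : ℤ) ^ 2 * c₀) * L +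
          3 * (b * (D : ℤ) ^ 2 * c₀) * (c₀ * q3)) =
        (b * (D : ℤ) ^ 2 * quadR v + L) + ((p : ℕ) : ℤ) * (a * (c₀ * q3 - L)) by
          linear_combination (L - c₀ * q3) * hdet,
        ecD_add p (b * (D : ℤ) ^ 2 * quadR v + L) (((p : ℕ) : ℤ) * (a * (c₀ * q3 - L))),
        ecD_mul_self hpp.pos, mul_one]
    simp only [hterm, ← Finset.mul_sum]
    congr 1
    rw [← sum_psi_quadR hp3 hu]
    exact Equiv.sum_comp (Equiv.addRight fun i ↦ (t i : ZMod p))
      (fun z ↦ ZMod.stdAddChar (((b * (D : ℤ) ^ 2 : ℤ) : ZMod p) * quadR z))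
  rw [Datum.hat, Datum.hat, if_pos hm, if_pos hm]
  show (∑ x : Fin 4 → ZMod (D * p), (d.twist hr b hpp.pos).Wz h x *
    ecD (3 * (D * p)) (bilR m fun i ↦ ((x i).val : ℤ))) * _ = _
  rw [← hf.sum_comp, Finset.sum_congr rfl fun x _ ↦ hsplit x, Fintype.sum_prod_type]
  simp only [← Finset.mul_sum, hgauss, ← Finset.sum_mul]
  rw [mul_assoc, mul_right_comm (ecD _ _), ← ecD_add, add_neg_cancel,
    show ecD (3 * p) 0 = 1 by simp [ecD], one_mul]
  ring

namespace Form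

variable {N : ℕ} [NeZero N] (F : Form N)

theorem fnC_of_theta (d d' : Datum N) {τ σ : ℂ} (hτ : 0 < τ.im) (hσ : 0 < σ.im) (c : ℂ)
    (h : ∀ h p, d.theta τ h p = c * d'.theta σ h p) :
    F.fnC d τ = ((√τ.im / √σ.im : ℝ) : ℂ) * c * F.fnC d' σ := by
  rw [F.fnC_eq_theta d hτ, F.fnC_eq_theta d' hσ]
  simp only [h]
  have e : ∀ h p, (wR p : ℂ) * (F.φ p h * (c * d'.theta σ h p)) =
      c * ((wR p : ℂ) * (F.φ p h * d'.theta σ h p)) := fun h p ↦ by ring
  simp only [e, integral_const_mul, ← Finset.mul_sum]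
  have : (√σ.im : ℂ) ≠ 0 := by exact_mod_cast (Real.sqrt_pos.2 hσ).ne'
  push_cast
  field_simp

theorem fnC_fourier (d : Datum N) {τ : ℂ} (hτ : 0 < τ.im) :
    F.fnC d τ = -1 / τ * F.fnC d.fourier (-1 / τ) := by
  have h0 : τ ≠ 0 := fun h ↦ by simp [h] at hτ
  have hn : 0 < Complex.normSq τ := Complex.normSq_pos.2 h0
  have hs : 0 < (-1 / τ).im := by rw [im_neg_one_div]; positivity
  rw [F.fnC_of_theta d d.fourier hτ hs _ (fun h p ↦ d.theta_eq_fourier hτ h p), im_neg_one_div,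
    Real.sqrt_div hτ.le, ← Complex.norm_def]
  have hyy : (√τ.im : ℂ) ≠ 0 := by exact_mod_cast (Real.sqrt_pos.2 hτ).ne'
  have hnn : (‖τ‖ : ℂ) ≠ 0 := by exact_mod_cast (norm_ne_zero_iff.2 h0)
  push_cast
  field_simp

theorem fnC_shift (d : Datum N) {τ : ℂ} (hτ : 0 < τ.im) (j : ℤ) :
    F.fnC d (τ + j) = F.fnC (d.shift j) τ := by
  rw [F.fnC_of_theta d (d.shift j) (τ := τ + j) (by simpa using hτ) hτ 1
    (fun h p ↦ by rw [one_mul, d.theta_add_intCast])]
  have : (√τ.im : ℂ) ≠ 0 := by exact_mod_cast (Real.sqrt_pos.2 hτ).ne'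
  simp [this]

/-- Periodicity for integral vectors. -/
theorem fnC_periodic (d : Datum N) (hr : d.r = 1) {τ : ℂ} (hτ : 0 < τ.im) (j : ℤ) :
    F.fnC d (τ + j) = F.fnC d τ := by
  rw [F.fnC_shift d hτ j, F.fnC_of_theta (d.shift j) d hτ hτ 1 fun h p ↦ ?_]
  · simp [(Real.sqrt_pos.2 hτ).ne']
  · rw [one_mul]
    refine tsum_congr fun m ↦ ?_
    show d.W h m * ecD (d.r ^ 2) (j * quadR m) * gterm τ (d.vec m) p = _
    rw [hr, one_pow, show j * quadR m = ((1 : ℕ) : ℤ) * (j * quadR m) by simp,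
      ecD_mul_self one_pos, mul_one]

/-- The transformation under the congruence group, for a prime lower right entry. -/
theorem fnC_gamma0_prime (d : Datum N) (hr : d.r = 1)
    (hsc : ∀ (a : ℤ) h m, IsCoprime a (d.D : ℤ) → d.W h (a • m) = d.W h m)
    {p : ℕ} (hpp : p.Prime) {a b c₀ : ℤ} (hdet : a * p - b * (3 * (d.D : ℤ) ^ 2 * c₀) = 1)
    {τ : ℂ} (hτ : 0 < τ.im) :
    F.fnC d ((a * τ + b) / ((3 * (d.D : ℤ) ^ 2 * c₀ : ℤ) * τ + (p : ℂ))) =
      chi3 p * ((3 * (d.D : ℤ) ^ 2 * c₀ : ℤ) * τ + (p : ℂ)) * F.fnC d τ := by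
  set c : ℤ := 3 * (d.D : ℤ) ^ 2 * c₀ with hc
  set u : ℂ := (c : ℂ) * τ + p with hu
  have hp0 : (p : ℂ) ≠ 0 := by exact_mod_cast hpp.ne_zero
  have hp0' : (p : ℝ) ≠ 0 := by exact_mod_cast hpp.ne_zero
  have hD0 : (d.D : ℝ) ≠ 0 := by exact_mod_cast d.D_pos.ne'
  have h0 : τ ≠ 0 := fun h ↦ by simp [h] at hτ
  have hu0 : u ≠ 0 := by
    intro h
    have him := congrArg Complex.im h
    simp [hu] at him
    rcases him with h' | h'
    · rw [hu, show (c : ℂ) = 0 by exact_mod_cast h', zero_mul, zero_add] at h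
      exact hp0 h
    · exact hτ.ne' h'
  set σ : ℂ := -1 / τ with hσ
  have hσi : 0 < σ.im := by
    rw [hσ, im_neg_one_div]; exact div_pos hτ (Complex.normSq_pos.2 h0)
  set w : ℂ := (((p : ℝ) ^ 2 : ℝ) : ℂ) * σ + ((-(c : ℝ) * p : ℝ) : ℂ) with hw
  have hwi : 0 < w.im := by
    rw [hw, Complex.add_im, Complex.mul_im, Complex.ofReal_re, Complex.ofReal_im,
      Complex.ofReal_im, zero_mul, add_zero, add_zero]
    exact mul_pos (by positivity) hσi
  have hw' : w = -(p : ℂ) * u / τ := by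
    rw [hw, hσ, hu]; push_cast; field_simp; ring
  have hw0 : w ≠ 0 := fun h ↦ by simp [h] at hwi
  have hσ2 : 0 < (-1 / w).im := by
    rw [im_neg_one_div]; exact div_pos hwi (Complex.normSq_pos.2 hw0)
  set γτ : ℂ := (a * τ + b) / u with hγ
  have hdetC : (a : ℂ) * p - b * c = 1 := by exact_mod_cast hdet
  have hγ' : γτ = -1 / w + (((b : ℝ) / p : ℝ) : ℂ) := by
    rw [hγ, hw']; push_cast; field_simp
    linear_combination τ * hdetC + (b : ℂ) * hu * 0
  have himγ : γτ.im = τ.im / Complex.normSq u := by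
    rw [hγ, Complex.div_im]
    have : (a : ℝ) * p - b * c = 1 := by exact_mod_cast hdet
    simp [hu, Complex.normSq_apply]
    rw [← sub_div]
    congr 1
    linear_combination τ.im * this
  have hθ : ∀ h q, d.theta γτ h q =
      chi3 p * (‖u‖ : ℂ) * u * d.theta τ h q := by
    intro h q
    have eK : ∀ m, (d.twist hr b hpp.pos).fourier.W h m * ecD (3 * p) (-(c₀ * quadR m)) =
        chi3 p * ((p : ℂ) ^ 2)⁻¹ * d.fourier.W h m := by
      intro m
      show (-(Complex.I / ((√3 * (((d.D * p : ℕ) : ℝ) / ((1 : ℕ) : ℝ)) ^ 4 : ℝ) : ℂ))) * _ * _ =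
        chi3 p * _ * ((-(Complex.I / ((√3 * ((d.D : ℝ) / d.r) ^ 4 : ℝ) : ℂ))) * _)
      rw [mul_assoc, d.hat_twist hr hsc hpp hdet, hr]
      have hD' : (d.D : ℂ) ≠ 0 := by exact_mod_cast d.D_pos.ne'
      have h3 : (√3 : ℂ) ≠ 0 := by simp
      push_cast
      field_simp
    have eterm : ∀ m, (d.twist hr b hpp.pos).fourier.W h m *
        gterm w ((d.twist hr b hpp.pos).fourier.vec m) q =
        chi3 p * ((p : ℂ) ^ 2)⁻¹ * (d.fourier.W h m * gterm σ (d.fourier.vec m) q) := by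
      intro m
      have ev : (d.twist hr b hpp.pos).fourier.vec m = (p : ℝ)⁻¹ • d.fourier.vec m := by
        show (1 / ((3 * (d.D * p / 1) : ℕ) : ℝ)) • realV m =
          (p : ℝ)⁻¹ • ((1 / ((3 * (d.D / d.r) : ℕ) : ℝ)) • realV m)
        rw [hr, Nat.div_one, Nat.div_one, smul_smul]
        congr 1
        push_cast
        field_simp
      have eq : quad (d.fourier.vec m) = ((quadR m : ℤ) : ℝ) / (9 * (d.D : ℝ) ^ 2) := by
        rw [d.fourier.quad_vec, show d.fourier.r = 3 * (d.D / d.r) from rfl, hr, Nat.div_one]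
        push_cast
        ring
      rw [ev, hw, gterm_scale σ _ q hp0', eq]
      have ee : Complex.exp (2 * Real.pi * Complex.I * (((-(c : ℝ) * p) / (p : ℝ) ^ 2 *
          (((quadR m : ℤ) : ℝ) / (9 * (d.D : ℝ) ^ 2)) : ℝ) : ℂ)) = ecD (3 * p) (-(c₀ * quadR m)) := by
        rw [ecD]
        congr 3
        rw [hc]
        push_cast
        field_simp
        ring
      rw [ee, ← mul_assoc, eK, mul_assoc]
    have e1 : (d.twist hr b hpp.pos).fourier.theta w h q =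
        chi3 p * ((p : ℂ) ^ 2)⁻¹ * d.fourier.theta σ h q := by
      rw [Datum.theta, Datum.theta, ← tsum_mul_left]
      exact tsum_congr eterm
    rw [hγ', d.theta_add_div hr b hpp.pos,
      (d.twist hr b hpp.pos).theta_eq_fourier hσ2, d.theta_eq_fourier hτ, ← hσ,
      show -1 / (-1 / w) = w by field_simp, e1]
    have hn : ‖(-1 : ℂ) / w‖ = (p : ℝ)⁻¹ * ‖τ‖ / ‖u‖ := by
      rw [hw', norm_div, norm_div, norm_mul, norm_neg, norm_neg, norm_one, Complex.norm_natCast]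
      field_simp
    rw [hn, hw']
    have hτn : (‖τ‖ : ℂ) ≠ 0 := by exact_mod_cast norm_ne_zero_iff.2 h0
    have hun : (‖u‖ : ℂ) ≠ 0 := by exact_mod_cast norm_ne_zero_iff.2 hu0
    push_cast
    field_simp
  have hγi : 0 < γτ.im := himγ ▸ div_pos hτ (Complex.normSq_pos.2 hu0)
  rw [F.fnC_of_theta d d hγi hτ _ hθ, himγ, Real.sqrt_div hτ.le, ← Complex.norm_def]
  have hyy : (√τ.im : ℂ) ≠ 0 := by exact_mod_cast (Real.sqrt_pos.2 hτ).ne'
  have hun : (‖u‖ : ℂ) ≠ 0 := by exact_mod_cast norm_ne_zero_iff.2 hu0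
  push_cast
  field_simp

end Form

end FermatAgent.LT.Lift
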