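import Mathlib
import Fermat.Agent.LT.Lift.Transform

/-!
# The lift on the upper half plane
-/

set_option autoImplicit false

noncomputable section

open MeasureTheory Filter Topology UpperHalfPlane
open scoped MatrixGroups ModularForm

namespace FermatAgent.LT.Lift

namespace Form

variable {N : ℕ} [NeZero N] (F : Form N)

/-- The lift. -/
def lift (d : Datum N) (τ : ℍ) : ℂ := F.fnC d τ

theorem lift_slash_T_zpow (d : Datum N) (j : ℤ) :
    F.lift d ∣[(1 : ℤ)] (ModularGroup.T ^ j) = F.lift (d.shift j) := by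
  funext τ
  have hd : denom ((ModularGroup.T ^ j : SL(2, ℤ)) : GL (Fin 2) ℝ) τ = 1 := by
    rw [ModularGroup.denom_apply (ModularGroup.T ^ j) τ, ModularGroup.coe_T_zpow]
    simp
  rw [ModularForm.SL_slash_apply, hd, one_zpow, mul_one, lift, lift,
    ← F.fnC_shift d τ.im_pos j, ← ModularGroup.coe_T_zpow_smul_eq]

theorem lift_slash_S (d : Datum N) :
    F.lift d ∣[(1 : ℤ)] ModularGroup.S = F.lift d.fourier := by
  funext τ
  rw [ModularForm.SL_slash_apply, ModularGroup.denom_S, zpow_neg_one, lift, lift, modular_S_smul]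
  have h0 : (τ : ℂ) ≠ 0 := τ.ne_zero
  have him : 0 < ((-(τ : ℂ))⁻¹).im := τ.im_inv_neg_coe_pos
  show F.fnC d (-(τ : ℂ))⁻¹ * (τ : ℂ)⁻¹ = _
  rw [F.fnC_fourier d him, show -1 / (-(τ : ℂ))⁻¹ = (τ : ℂ) by field_simp]
  field_simp

/-- Every translate of a lift is a lift. -/
theorem exists_slash (γ : SL(2, ℤ)) (d : Datum N) :
    ∃ d' : Datum N, F.lift d ∣[(1 : ℤ)] γ = F.lift d' := by
  let P : SL(2, ℤ) → Prop := fun g ↦ ∀ d : Datum N, ∃ d', F.lift d ∣[(1 : ℤ)] g = F.lift d'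
  have hmul : ∀ g g', P g → P g' → P (g * g') := fun g g' hg hg' d ↦ by
    obtain ⟨d1, h1⟩ := hg d
    obtain ⟨d2, h2⟩ := hg' d1
    exact ⟨d2, by rw [SlashAction.slash_mul, h1, h2]⟩
  have hS : P ModularGroup.S := fun d ↦ ⟨_, F.lift_slash_S d⟩
  have hSi : P ModularGroup.S⁻¹ := by
    rw [show ModularGroup.S⁻¹ = ModularGroup.S * (ModularGroup.S * ModularGroup.S) by
      apply inv_eq_of_mul_eq_one_right
      ext i j
      simp only [Matrix.SpecialLinearGroup.coe_mul, ModularGroup.coe_S, Matrix.SpecialLinearGroup.coe_one]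
      fin_cases i <;> fin_cases j <;> simp [Matrix.mul_apply]]
    exact hmul _ _ hS (hmul _ _ hS hS)
  have hT : ∀ j : ℤ, P (ModularGroup.T ^ j) := fun j d ↦ ⟨_, F.lift_slash_T_zpow d j⟩
  have h : ∀ g : SL(2, ℤ), P g ∧ P g⁻¹ := by
    intro g
    have hg : g ∈ Subgroup.closure {ModularGroup.S, ModularGroup.T} := by
      rw [SpecialLinearGroup.SL2Z_generators]; trivial
    induction hg using Subgroup.closure_induction with
    | mem x hx =>
      rcases hx with rfl | rfl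
      · exact ⟨hS, hSi⟩
      · exact ⟨by simpa using hT 1, by simpa using hT (-1)⟩
    | one => exact ⟨fun d ↦ ⟨d, SlashAction.slash_one _ _⟩,
        fun d ↦ ⟨d, by rw [inv_one, SlashAction.slash_one]⟩⟩
    | mul x y _ _ hx hy => exact ⟨hmul _ _ hx.1 hy.1, by rw [mul_inv_rev]; exact hmul _ _ hy.2 hx.2⟩
    | inv x _ hx => exact ⟨hx.2, by rw [inv_inv]; exact hx.1⟩
  exact (h γ).1 d

theorem term_zero (d : Datum N) {k : ℝ} (hk : 0 < k) :
    F.term d 0 k 0 = 0 ∧ F.term d 1 k 0 = 0 := by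
  have hm0 : ∀ p, maj (d.vec 0) p = 0 := fun p ↦ by
    rw [maj_eq]; simp [Datum.vec, realV]
  refine ⟨?_, ?_⟩
  · have hS : Stable ({0} : Set (Fin 4 → ℤ)) := fun γ m hm ↦ by
      rw [Set.mem_singleton_iff] at hm ⊢
      rw [hm, ← zero_smul ℤ (0 : Fin 4 → ℤ), actR_smul, zero_smul]
      simp
    have h := F.coef_eq_zero_of_isotropic d {0} hS (fun m hm ↦ by
      rw [Set.mem_singleton_iff] at hm; simp [hm, Datum.vec, realV, quad]) hk
    rw [coef, tsum_eq_single 0 fun m hm ↦ Set.indicator_of_notMem (by simpa using hm) _] at h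
    simpa using h
  · simp [term, mom, momI, hm0]

theorem exists_tail_bound (d : Datum N) : ∃ A, 0 ≤ A ∧ ∀ τ : ℂ, 1 ≤ τ.im →
    ‖F.fnS d 0 τ‖ ≤ A * τ.im ^ (-(3 / 4) : ℝ) ∧
    τ.im * ‖F.fnS d 1 τ‖ ≤ A * τ.im ^ (-(3 / 4) : ℝ) ∧
    τ.im * ‖F.fnQ d τ‖ ≤ A * τ.im ^ (-(3 / 4) : ℝ) := by
  classical
  obtain ⟨A0, hA0, h0⟩ := F.exists_norm_term_le d 0
  obtain ⟨A1, hA1, h1⟩ := F.exists_norm_term_le d 1
  obtain ⟨A2, hA2, h2⟩ := F.exists_norm_qv_term_le d
  obtain ⟨B, hB, hmass⟩ := exists_tsum_mass_le d.r_pos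
  refine ⟨(A0 + A1 + A2) * (B * Real.pi ^ (-(3 / 4) : ℝ)), by positivity, fun τ hτ ↦ ?_⟩
  have hy : 0 < τ.im := by linarith
  set k := 2 * Real.pi * τ.im with hk
  have hk0 : 0 < k := by positivity
  have hk1 : 1 ≤ k / 2 := by
    rw [hk]; nlinarith [Real.pi_gt_three]
  have hM := hmass (k / 2) hk1
  rw [show (k / 2) = Real.pi * τ.im by rw [hk]; ring, Real.mul_rpow Real.pi_pos.le hy.le] at hM
  rw [show Real.pi * τ.im = k / 2 by rw [hk]; ring] at hM
  set M := ∑' m, (if m = 0 then 0 else (mass d.r (k / 2) m).toReal)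
  have hM0 : 0 ≤ M := tsum_nonneg fun m ↦ by split_ifs <;> simp
  have hsum : Summable fun m : Fin 4 → ℤ ↦ if m = 0 then 0 else (mass d.r (k / 2) m).toReal :=
    Summable.of_nonneg_of_le (fun m ↦ by split_ifs <;> simp)
      (fun m ↦ by split_ifs <;> simp)
      (ENNReal.summable_toReal (tsum_mass_ne_top d.r_pos (half_pos hk0)))
  have key : ∀ (f : (Fin 4 → ℤ) → ℂ) (c : ℝ), 0 ≤ c → f 0 = 0 →
      (∀ m, ‖f m‖ ≤ c * (mass d.r (k / 2) m).toReal) →
      ‖∑' m, f m‖ ≤ c * (B * (Real.pi ^ (-(3 / 4) : ℝ) * τ.im ^ (-(3 / 4) : ℝ))) := by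
    intro f c hc hf0 hf
    refine (tsum_of_norm_bounded (hsum.mul_left c).hasSum fun m ↦ ?_).trans ?_
    · by_cases hm : m = 0
      · rw [hm, hf0, norm_zero]; simp
      · rw [if_neg hm]; exact hf m
    · rw [tsum_mul_left]
      exact mul_le_mul_of_nonneg_left hM hc
  obtain ⟨z0, z1⟩ := F.term_zero d hk0
  have hX : 0 ≤ B * (Real.pi ^ (-(3 / 4) : ℝ) * τ.im ^ (-(3 / 4) : ℝ)) := by positivity
  have hyk : τ.im * (1 / k) ≤ 1 := by
    rw [mul_one_div, div_le_one hk0, hk]; nlinarith [Real.pi_gt_three]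
  refine ⟨?_, ?_, ?_⟩
  · refine (key _ A0 hA0 (by rw [sT, ← hk, z0, mul_zero]) fun m ↦ ?_).trans ?_
    · rw [sT, norm_mul, norm_eX, one_mul]
      simpa using h0 k hk0 m
    · nlinarith
  · have := key _ (A1 / k) (by positivity) (by rw [sT, ← hk, z1, mul_zero]) fun m ↦ (by
      rw [sT, norm_mul, norm_eX, one_mul]
      simpa using h1 k hk0 m : ‖F.sT d 1 τ m‖ ≤ _)
    refine (mul_le_mul_of_nonneg_left this hy.le).trans ?_
    have := mul_le_mul_of_nonneg_right hyk (mul_nonneg hA1 hX)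
    rw [div_eq_mul_one_div A1 k]
    nlinarith
  · have := key _ (A2 / k) (by positivity) (by rw [sT, ← hk, z0, mul_zero, mul_zero]) fun m ↦ (by
      rw [sT, mul_left_comm, norm_mul, norm_eX, one_mul]
      exact h2 k hk0 m : ‖(d.qv m : ℂ) * F.sT d 0 τ m‖ ≤ _)
    refine (mul_le_mul_of_nonneg_left this hy.le).trans ?_
    have := mul_le_mul_of_nonneg_right hyk (mul_nonneg hA2 hX)
    rw [div_eq_mul_one_div A2 k]
    nlinarith

theorem exists_fnC_fnV_bound (d : Datum N) : ∃ A, 0 ≤ A ∧ ∀ τ : ℂ, 1 ≤ τ.im →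
    ‖F.fnC d τ‖ ≤ A * τ.im ^ (-(1 / 4) : ℝ) ∧ ‖F.fnV d τ‖ ≤ A * τ.im ^ (-(1 / 4) : ℝ) := by
  obtain ⟨A, hA, h⟩ := F.exists_tail_bound d
  refine ⟨A * (1 + 4 * Real.pi), by positivity, fun τ hτ ↦ ?_⟩
  have hy : 0 < τ.im := by linarith
  obtain ⟨a, b, c⟩ := h τ hτ
  have e : τ.im ^ (-(1 / 4) : ℝ) = √τ.im * τ.im ^ (-(3 / 4) : ℝ) := by
    rw [Real.sqrt_eq_rpow, ← Real.rpow_add hy]; norm_num
  have hX : 0 ≤ A * τ.im ^ (-(3 / 4) : ℝ) := by positivity
  rw [e]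
  constructor
  · rw [fnC, norm_mul, Complex.norm_real, Real.norm_of_nonneg (Real.sqrt_nonneg _)]
    refine (mul_le_mul_of_nonneg_left a (Real.sqrt_nonneg _)).trans ?_
    nlinarith [Real.pi_pos, mul_nonneg (mul_nonneg Real.pi_pos.le hX) (Real.sqrt_nonneg τ.im)]
  · rw [fnV, norm_mul, Complex.norm_real, Real.norm_of_nonneg (Real.sqrt_nonneg _)]
    refine (mul_le_mul_of_nonneg_left ((norm_add_le _ _).trans
      (add_le_add (norm_sub_le _ _) le_rfl)) (Real.sqrt_nonneg _)).trans ?_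
    rw [norm_div, norm_mul, norm_mul, Complex.norm_real, Complex.norm_ofNat,
      Real.norm_of_nonneg (show (0 : ℝ) ≤ 2 * Real.pi * τ.im by positivity)]
    have h3 : ‖F.fnS d 0 τ‖ / 2 + 2 * Real.pi * τ.im * ‖F.fnS d 1 τ‖ +
        2 * Real.pi * τ.im * ‖F.fnQ d τ‖ ≤ (1 + 4 * Real.pi) * (A * τ.im ^ (-(3 / 4) : ℝ)) := by
      nlinarith [mul_le_mul_of_nonneg_left b (show 0 ≤ 2 * Real.pi by positivity),
        mul_le_mul_of_nonneg_left c (show 0 ≤ 2 * Real.pi by positivity), norm_nonneg (F.fnS d 0 τ)]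
    refine (mul_le_mul_of_nonneg_left h3 (Real.sqrt_nonneg _)).trans (le_of_eq ?_)
    ring

theorem isZeroAtImInfty_lift (d : Datum N) : IsZeroAtImInfty (F.lift d) := by
  obtain ⟨A, -, h⟩ := F.exists_fnC_fnV_bound d
  rw [isZeroAtImInfty_iff]
  intro ε hε
  have hev := ((tendsto_rpow_neg_atTop (show (0 : ℝ) < 1 / 4 by norm_num)).const_mul A).eventually
    (gt_mem_nhds (show A * 0 < ε by simpa using hε))
  obtain ⟨Y, hY⟩ := eventually_atTop.1 hev
  refine ⟨max Y 1, fun z hz ↦ ((h z ((le_max_right _ _).trans hz)).1).trans (hY _ ?_).le⟩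
  exact (le_max_left _ _).trans hz

/-- The transformation under `Γ₀(3D²)`. -/
theorem lift_slash_gamma0 (d : Datum N) (hr : d.r = 1)
    (hsc : ∀ (a : ℤ) h m, IsCoprime a (d.D : ℤ) → d.W h (a • m) = d.W h m)
    (γ : SL(2, ℤ)) (hγ : γ ∈ CongruenceSubgroup.Gamma0 (3 * d.D ^ 2)) :
    F.lift d ∣[(1 : ℤ)] γ =
      chi3 ((γ 1 1 : ℤ) % (3 * d.D ^ 2 : ℕ)).toNat • F.lift d := by
  set M := 3 * d.D ^ 2
  have hMpos : 0 < M := by have := d.D_pos; positivity
  funext τ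
  set a := γ 0 0
  set b := γ 0 1
  set c := γ 1 0
  set e := γ 1 1
  have hdet : a * e - b * c = 1 := by
    have := γ.det_coe; rw [Matrix.det_fin_two] at this; exact this
  obtain ⟨c₀, hc₀⟩ : (M : ℤ) ∣ c := (ZMod.intCast_zmod_eq_zero_iff_dvd c M).1
    (CongruenceSubgroup.Gamma0_mem.1 hγ)
  have hchi : ∀ n : ℕ, (n : ℤ) % 3 = e % 3 → chi3 n = chi3 (e % (M : ℤ)).toNat := by
    intro n hn
    have h1 : ((e % (M : ℤ)).toNat : ℤ) = e % (M : ℤ) :=
      Int.toNat_of_nonneg (Int.emod_nonneg _ (by exact_mod_cast hMpos.ne'))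
    have h2 : (e % (M : ℤ)) % 3 = e % 3 := Int.emod_emod_of_dvd _ ⟨(d.D : ℤ) ^ 2, by simp [M]⟩
    have h3 : n % 3 = (e % (M : ℤ)).toNat % 3 := by omega
    simp [chi3, EisensteinWeightOne.chiNegThree, h3]
  have happ : (F.lift d ∣[(1 : ℤ)] γ) τ =
      F.fnC d (((a : ℂ) * τ + b) / ((c : ℂ) * τ + e)) * ((c : ℂ) * τ + e)⁻¹ := by
    rw [ModularForm.SL_slash_apply, zpow_neg_one, lift, coe_specialLinearGroup_apply]
    simp [denom, a, b, c, e]
  rw [happ]
  show _ = chi3 _ * F.fnC d τ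
  by_cases hc : c = 0
  · rw [hc, mul_zero, sub_zero] at hdet
    rcases Int.eq_one_or_neg_one_of_mul_eq_one' hdet with ⟨ha, he⟩ | ⟨ha, he⟩
    · rw [← hchi 1 (by rw [he]; rfl), show chi3 1 = 1 by simp [chi3, EisensteinWeightOne.chiNegThree],
        ha, he, hc]
      simp [F.fnC_periodic d hr τ.im_pos]
    · rw [← hchi 2 (by rw [he]; rfl),
        show chi3 2 = -1 by simp [chi3, EisensteinWeightOne.chiNegThree], ha, he, hc]
      have e1 : (((-1 : ℤ) : ℂ) * (τ : ℂ) + (b : ℂ)) / (((0 : ℤ) : ℂ) * τ + ((-1 : ℤ) : ℂ)) =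
          (τ : ℂ) + ((-b : ℤ) : ℂ) := by push_cast; ring
      rw [e1, F.fnC_periodic d hr τ.im_pos]
      push_cast
      ring
  · obtain ⟨p, hpgt, hpp, hpmod⟩ := Nat.forall_exists_prime_gt_and_zmodEq 1
      (q := c.natAbs) (a := e) (Int.natAbs_ne_zero.2 hc)
      (IsCoprime.of_isCoprime_of_dvd_right ⟨a, -b, by linear_combination hdet⟩
        (Int.natAbs_dvd.2 dvd_rfl))
    obtain ⟨j, hj⟩ : c ∣ (p : ℤ) - e := Int.natAbs_dvd.1 (Int.modEq_iff_dvd.1 hpmod.symm)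
    have hσ : 0 < ((τ : ℂ) - (j : ℂ)).im := by simpa using τ.im_pos
    have := F.fnC_gamma0_prime d hr hsc hpp (a := a) (b := a * j + b) (c₀ := c₀) (by
      have e' : c = 3 * (d.D : ℤ) ^ 2 * c₀ := by rw [hc₀]; simp [M]
      rw [← e']; linear_combination hdet + a * hj) hσ
    rw [show (3 * (d.D : ℤ) ^ 2 * c₀) = c by rw [hc₀]; simp [M]] at this
    have hj' : (p : ℂ) = c * j + e := by
      have : (p : ℤ) = c * j + e := by linarith
      exact_mod_cast this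
    rw [hj'] at this
    have e1 : (c : ℂ) * ((τ : ℂ) - j) + (c * j + e) = c * τ + e := by ring
    have e2 : (a : ℂ) * ((τ : ℂ) - j) + ((a * j + b : ℤ) : ℂ) = a * τ + b := by push_cast; ring
    rw [e1, e2, sub_eq_add_neg, show -(j : ℂ) = ((-j : ℤ) : ℂ) by push_cast; rfl,
      F.fnC_periodic d hr τ.im_pos] at this
    have hden : (c : ℂ) * τ + e ≠ 0 := by
      intro h
      have him := congrArg Complex.im h
      simp [hc, τ.im_pos.ne'] at him
    rw [this, ← hchi p]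
    · field_simp
    · have h3 : (3 : ℤ) ∣ c := hc₀ ▸ dvd_mul_of_dvd_left ⟨(d.D : ℤ) ^ 2, by simp [M]⟩ _
      have := h3.trans ⟨j, hj⟩
      omega

end Form

end FermatAgent.LT.Lift
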