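import Mathlib
import Fermat.Agent.LT.Lift.Slash

/-!
# The conjugate of the antiholomorphic derivative
-/

set_option autoImplicit false

noncomputable section

open MeasureTheory Filter Topology UpperHalfPlane ComplexConjugate
open scoped MatrixGroups ModularForm

namespace FermatAgent.LT.Lift

/-- The upper half plane in `ℂ`. -/
def upper : Set ℂ := {z | 0 < z.im}

theorem isOpen_upper : IsOpen upper := isOpen_lt continuous_const Complex.continuous_im

namespace Form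

variable {N : ℕ} [NeZero N] (F : Form N) (d : Datum N)

/-- The set of vectors of a given norm. -/
def lev (n : ℤ) : Set (Fin 4 → ℤ) := {m | quadR m = n}

theorem stable_lev (n : ℤ) : Stable (lev n) := fun γ m hm ↦ by
  rw [lev, Set.mem_ofPred_eq, quadR_actR]; exact hm

omit [NeZero N] in
theorem qv_lev (n : ℤ) : ∀ m ∈ lev n, quad (d.vec m) = (n : ℝ) / (d.r : ℝ) ^ 2 := fun m hm ↦ by
  rw [d.quad_vec, show quadR m = n from hm]

/-- The frequency of a level. -/
def freq (n : ℤ) : ℝ := (n : ℝ) / (d.r : ℝ) ^ 2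

theorem tsum_lev (f : (Fin 4 → ℤ) → ℂ) (hf : Summable f) :
    HasSum (fun n : ℤ ↦ ∑' m, (lev n).indicator f m) (∑' m, f m) := by
  have := hf.hasSum.tsum_fiberwise (fun m ↦ quadR m)
  simp only [tsum_subtype] at this
  exact this

/-- The constants of the first integrals. -/
def cV (n : ℤ) : ℂ := (F.exists_firstInt d (lev n) (stable_lev n) (qv_lev d n)).choose

theorem firstInt_lev (n : ℤ) {k : ℝ} (hk : 0 < k) :
    F.firstInt d (lev n) (freq d n) k = (Real.exp (freq d n * k) : ℝ) * F.cV d n :=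
  (F.exists_firstInt d (lev n) (stable_lev n) (qv_lev d n)).choose_spec k hk

/-- The summand of `fnV`. -/
def vT (τ : ℂ) (m : Fin 4 → ℤ) : ℂ :=
  (√τ.im : ℝ) * (F.sT d 0 τ m / 2 - (2 * Real.pi * τ.im : ℝ) * F.sT d 1 τ m +
    (2 * Real.pi * τ.im : ℝ) * ((d.qv m : ℂ) * F.sT d 0 τ m))

theorem summable_vT {τ : ℂ} (hτ : 0 < τ.im) : Summable (F.vT d τ) :=
  ((((F.summable_sT d 0 hτ).div_const 2).sub ((F.summable_sT d 1 hτ).mul_left _)).add
    ((F.summable_qv_sT d hτ).mul_left _)).mul_left _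

theorem tsum_vT {τ : ℂ} (hτ : 0 < τ.im) : ∑' m, F.vT d τ m = F.fnV d τ := by
  simp only [vT]
  rw [tsum_mul_left, Summable.tsum_add (((F.summable_sT d 0 hτ).div_const 2).sub
      ((F.summable_sT d 1 hτ).mul_left _)) ((F.summable_qv_sT d hτ).mul_left _),
    Summable.tsum_sub ((F.summable_sT d 0 hτ).div_const 2) ((F.summable_sT d 1 hτ).mul_left _),
    tsum_div_const, tsum_mul_left, tsum_mul_left]
  rfl

/-- The normalisation. -/
def sq2pi : ℝ := √(2 * Real.pi)

theorem tsum_lev_vT {τ : ℂ} (hτ : 0 < τ.im) (n : ℤ) :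
    ∑' m, (lev n).indicator (F.vT d τ) m =
      (sq2pi : ℂ)⁻¹ * (eX (freq d n) τ * ((Real.exp (freq d n * (2 * Real.pi * τ.im)) : ℝ) *
        F.cV d n)) := by
  have hk : 0 < 2 * Real.pi * τ.im := by positivity
  rw [← F.firstInt_lev d n hk, firstInt, coef, coef]
  have hs : (√(2 * Real.pi * τ.im) : ℂ) = (sq2pi : ℂ) * (√τ.im : ℂ) := by
    rw [sq2pi, Real.sqrt_mul (by positivity) τ.im, Complex.ofReal_mul]
  have hne : (sq2pi : ℂ) ≠ 0 := by
    rw [Complex.ofReal_ne_zero]; exact (Real.sqrt_pos.2 (by positivity)).ne'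
  rw [hs]
  have h0 := F.summable_term d 0 hk (lev n)
  have h1 := F.summable_term d 1 hk (lev n)
  rw [← tsum_mul_left (a := ((2 * Real.pi * τ.im : ℝ) : ℂ)),
    ← tsum_mul_left (a := ((freq d n * (2 * Real.pi * τ.im) : ℝ) : ℂ)), ← tsum_div_const,
    ← (h0.div_const 2).tsum_sub (h1.mul_left _),
    ← ((h0.div_const 2).sub (h1.mul_left _)).tsum_add (h0.mul_left _),
    ← tsum_mul_left, ← tsum_mul_left, ← tsum_mul_left]
  refine tsum_congr fun m ↦ ?_
  by_cases hm : m ∈ lev n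
  · have hq : d.qv m = freq d n := qv_lev d n m hm
    simp only [Set.indicator_of_mem hm, vT, sT, hq]
    push_cast
    field_simp
  · simp [Set.indicator_of_notMem hm]

theorem hasSum_fnV {τ : ℂ} (hτ : 0 < τ.im) :
    HasSum (fun n : ℤ ↦ (sq2pi : ℂ)⁻¹ * (eX (freq d n) τ *
      ((Real.exp (freq d n * (2 * Real.pi * τ.im)) : ℝ) * F.cV d n))) (F.fnV d τ) := by
  have := tsum_lev (F.vT d τ) (F.summable_vT d hτ)
  rw [F.tsum_vT d hτ] at this
  exact this.congr_fun fun n ↦ (F.tsum_lev_vT d hτ n).symm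

theorem summable_cV {y : ℝ} (hy : 0 < y) :
    Summable fun n : ℤ ↦ Real.exp (freq d n * (2 * Real.pi * y)) * ‖F.cV d n‖ := by
  set τ : ℂ := ⟨0, y⟩
  have hτ : 0 < τ.im := hy
  have hn : Summable fun m ↦ ‖F.vT d τ m‖ := (F.summable_vT d hτ).norm
  have := hn.hasSum.tsum_fiberwise (fun m ↦ quadR m)
  have hs : (0 : ℝ) < sq2pi := Real.sqrt_pos.2 (by positivity)
  refine (Summable.of_nonneg_of_le (fun n ↦ by positivity) (fun n ↦ ?_)
    (this.summable.mul_left sq2pi))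
  rw [tsum_subtype ((fun m : Fin 4 → ℤ ↦ quadR m) ⁻¹' {n}) fun m ↦ ‖F.vT d τ m‖]
  have e := F.tsum_lev_vT d hτ n
  have hle : ‖∑' m, (lev n).indicator (F.vT d τ) m‖ ≤
      ∑' m, ((fun m : Fin 4 → ℤ ↦ quadR m) ⁻¹' {n}).indicator (fun m ↦ ‖F.vT d τ m‖) m := by
    refine (norm_tsum_le_tsum_norm (Summable.of_nonneg_of_le (fun _ ↦ norm_nonneg _)
      (fun m ↦ norm_indicator_le_norm_self _ m) hn)).trans (le_of_eq (tsum_congr fun m ↦ ?_))
    rw [norm_indicator_eq_indicator_norm]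
    rfl
  rw [e, norm_mul, norm_mul, norm_mul, norm_eX, one_mul, norm_inv, Complex.norm_real,
    Complex.norm_real, Real.norm_of_nonneg hs.le, Real.norm_of_nonneg (Real.exp_pos _).le,
    ← div_eq_inv_mul, div_le_iff₀ hs, mul_comm _ sq2pi] at hle
  exact hle

/-- The conjugate derivative. -/
def gC (τ : ℂ) : ℂ := conj (F.fnV d τ)

theorem hasSum_gC {τ : ℂ} (hτ : 0 < τ.im) :
    HasSum (fun n : ℤ ↦ (sq2pi : ℂ)⁻¹ * conj (F.cV d n) *
      Complex.exp (-(2 * Real.pi * Complex.I * freq d n * τ))) (F.gC d τ) := by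
  have := (F.hasSum_fnV d hτ).map (starRingEnd ℂ) Complex.continuous_conj
  refine this.congr_fun fun n ↦ ?_
  simp only [Function.comp_apply, map_mul, map_inv₀, Complex.conj_ofReal, eX, ← Complex.exp_conj,
    Complex.ofReal_exp, Complex.conj_I, map_ofNat]
  rw [show -(2 * (Real.pi : ℂ) * Complex.I * freq d n * τ) =
    2 * (Real.pi : ℂ) * -Complex.I * ((freq d n * τ.re : ℝ) : ℂ) +
      ((freq d n * (2 * Real.pi * τ.im) : ℝ) : ℂ) by
    apply Complex.ext <;> simp <;> ring, Complex.exp_add]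
  ring

theorem differentiableOn_gC : DifferentiableOn ℂ (F.gC d) upper := by
  intro τ (hτ : 0 < τ.im)
  set y0 := τ.im / 2
  set y1 := 2 * τ.im
  have hy0 : 0 < y0 := half_pos hτ
  have hy1 : 0 < y1 := by positivity
  set U : Set ℂ := {z | y0 < z.im ∧ z.im < y1}
  have hU : IsOpen U := (isOpen_lt continuous_const Complex.continuous_im).inter
    (isOpen_lt Complex.continuous_im continuous_const)
  have hτU : τ ∈ U := ⟨by simp only [y0]; linarith, by simp only [y1]; linarith⟩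
  have h := Complex.differentiableOn_tsum_of_summable_norm
    (F := fun (n : ℤ) z ↦ (sq2pi : ℂ)⁻¹ * conj (F.cV d n) *
      Complex.exp (-(2 * Real.pi * Complex.I * freq d n * z))) (U := U)
    (((F.summable_cV d hy0).add (F.summable_cV d hy1)).mul_left sq2pi⁻¹)
    (fun n ↦ by fun_prop) hU (fun n z hz ↦ ?_)
  · have hd := h.differentiableAt (hU.mem_nhds hτU)
    refine (hd.congr_of_eventuallyEq ?_).differentiableWithinAt
    filter_upwards [hU.mem_nhds hτU] with z hz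
    exact ((F.hasSum_gC d (hy0.trans hz.1)).tsum_eq).symm
  · have hs : (0 : ℝ) < sq2pi := Real.sqrt_pos.2 (by positivity)
    rw [norm_mul, norm_mul, norm_inv, Complex.norm_real, Real.norm_of_nonneg hs.le, Complex.norm_conj,
      Complex.norm_exp, mul_assoc, ← add_mul, mul_comm ‖F.cV d n‖]
    refine mul_le_mul_of_nonneg_left (mul_le_mul_of_nonneg_right ?_ (norm_nonneg _)) (by positivity)
    have e : (-(2 * (Real.pi : ℂ) * Complex.I * freq d n * z)).re =
        freq d n * (2 * Real.pi * z.im) := by simp; ring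
    rw [e]
    rcases le_total 0 (freq d n) with hn | hn
    · refine le_trans ?_ (le_add_of_nonneg_left (Real.exp_pos _).le)
      exact Real.exp_le_exp.2 (mul_le_mul_of_nonneg_left (by nlinarith [Real.pi_pos, hz.2]) hn)
    · refine le_trans ?_ (le_add_of_nonneg_right (Real.exp_pos _).le)
      exact Real.exp_le_exp.2 (mul_le_mul_of_nonpos_left (by nlinarith [Real.pi_pos, hz.1]) hn)

/-- The conjugate derivative on the upper half plane. -/
def glift (τ : ℍ) : ℂ := F.gC d τ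

theorem exists_gC_bound : ∃ A, 0 ≤ A ∧ ∀ τ : ℂ, 1 ≤ τ.im →
    ‖F.fnC d τ‖ ≤ A * τ.im ^ (-(1 / 4) : ℝ) ∧ ‖F.gC d τ‖ ≤ A * τ.im ^ (-(1 / 4) : ℝ) := by
  obtain ⟨A, hA, h⟩ := F.exists_fnC_fnV_bound d
  exact ⟨A, hA, fun τ hτ ↦ ⟨(h τ hτ).1, by rw [gC, Complex.norm_conj]; exact (h τ hτ).2⟩⟩

theorem glift_slash (d' : Datum N) (γ : SL(2, ℤ))
    (h : F.lift d ∣[(1 : ℤ)] γ = F.lift d') :
    F.glift d ∣[(1 : ℤ)] γ = F.glift d' := by
  funext τ
  set a : ℂ := (γ 0 0 : ℂ)
  set b : ℂ := (γ 0 1 : ℂ)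
  set c : ℂ := (γ 1 0 : ℂ)
  set e : ℂ := (γ 1 1 : ℂ)
  have hdet : a * e - b * c = 1 := by
    have := γ.det_coe; rw [Matrix.det_fin_two] at this
    simp only [a, b, c, e]; exact_mod_cast this
  set u : ℂ → ℂ := fun z ↦ c * z + e
  set ψ : ℂ → ℂ := fun z ↦ (a * z + b) / u z
  have happ : ∀ (f : ℂ → ℂ) (σ : ℍ),
      ((fun t : ℍ ↦ f t) ∣[(1 : ℤ)] γ) σ = (u σ)⁻¹ * f (ψ σ) := fun f σ ↦ by
    rw [ModularForm.SL_slash_apply, zpow_neg_one, mul_comm, coe_specialLinearGroup_apply]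
    simp [denom, u, ψ, a, b, c, e]
  have hu : u τ ≠ 0 := by
    have := UpperHalfPlane.denom_ne_zero (γ : GL (Fin 2) ℝ) τ
    simpa [denom, u, c, e] using this
  have hy := τ.im_pos
  have hu' : HasDerivAt u c τ := by
    exact (((hasDerivAt_id (τ : ℂ)).const_mul c).add_const e).congr_deriv (mul_one c)
  have hψ : HasDerivAt ψ (1 / u τ ^ 2) τ := by
    refine ((((hasDerivAt_id (τ : ℂ)).const_mul a).add_const b).div hu' hu).congr_deriv ?_
    simp only [id_eq, u]
    congr 1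
    linear_combination hdet
  have hψτ : ψ τ = ((γ • τ : ℍ) : ℂ) := by
    rw [coe_specialLinearGroup_apply]; simp [ψ, u, a, b, c, e]
  have hψim : 0 < (ψ τ).im := hψτ ▸ (γ • τ).im_pos
  have him : (ψ τ).im = (τ : ℂ).im / Complex.normSq (u τ) := by
    rw [hψτ, UpperHalfPlane.coe_im, ModularGroup.im_smul_eq_div_normSq]
    simp [denom, u, c, e, UpperHalfPlane.coe_im]
  have heq : F.fnC d' =ᶠ[𝓝 (τ : ℂ)] fun z ↦ (u z)⁻¹ * F.fnC d (ψ z) := by
    filter_upwards [isOpen_upper.mem_nhds (show (τ : ℂ) ∈ upper from hy)] with z hz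
    have := happ (F.fnC d) ⟨z, hz⟩
    have h' := congrFun h ⟨z, hz⟩
    exact h'.symm.trans this
  have hyb := ybar_mul_comp (hu'.inv hu) hψ (F.differentiableAt_fnC d hψim)
  have e1 : ybar (fun z ↦ (u z)⁻¹ * F.fnC d (ψ z)) τ = ybar (F.fnC d') τ := by
    simp only [ybar, heq.fderiv_eq]
  simp only [Pi.inv_apply] at hyb
  rw [e1, F.ybar_fnC d hψim, F.ybar_fnC d' hy, him] at hyb
  rw [show F.glift d = fun t : ℍ ↦ F.gC d t from rfl, happ, glift, gC, gC]
  have hy' : ((τ : ℂ).im : ℂ) ≠ 0 := by exact_mod_cast hy.ne'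
  have hns : (Complex.normSq (u τ) : ℂ) = u τ * conj (u τ) := (Complex.mul_conj _).symm
  have huc : conj (u τ) ≠ 0 := by simpa using hu
  rw [Complex.ofReal_div, hns, map_div₀, map_one, map_pow] at hyb
  have hV : F.fnV d' τ = F.fnV d (ψ τ) / conj (u τ) := by
    field_simp at hyb
    rw [eq_div_iff huc, mul_comm]
    exact hyb
  rw [hV, map_div₀, Complex.conj_conj, div_eq_mul_inv, mul_comm]

end Form

end FermatAgent.LT.Lift
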