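import Mathlib
import Fermat.Agent.LT.Lift.Conjugate

/-!
# The lift is holomorphic

If `f` is a lift invariant under a congruence group and `g` its conjugate derivative, the trace of
`f g` to level one is a weight two invariant function whose antiholomorphic derivative is a sum of
`|g|² / y`; Stokes' formula on the fundamental domain forces `g = 0`.
-/

set_option autoImplicit false

noncomputable section

open MeasureTheory Filter Topology UpperHalfPlane ComplexConjugate CongruenceSubgroup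
open scoped MatrixGroups ModularForm

namespace FermatAgent.LT.Lift

namespace Stokes

/-- The height of the unit arc. -/
def arc (x : ℝ) : ℝ := √(1 - x ^ 2)

/-- Its derivative. -/
def arc' (x : ℝ) : ℝ := -x / arc x

theorem arc_ge {x : ℝ} (hx : x ∈ Set.Icc (-(1 / 2) : ℝ) (1 / 2)) : 1 / 2 ≤ arc x :=
  Real.le_sqrt_of_sq_le (by nlinarith [hx.1, hx.2])

theorem arc_pos {x : ℝ} (hx : x ∈ Set.Icc (-(1 / 2) : ℝ) (1 / 2)) : 0 < arc x :=
  lt_of_lt_of_le (by norm_num) (arc_ge hx)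

theorem hasDerivAt_arc {x : ℝ} (hx : x ∈ Set.Icc (-(1 / 2) : ℝ) (1 / 2)) :
    HasDerivAt arc (arc' x) x := by
  have h : (1 : ℝ) - x ^ 2 ≠ 0 := by nlinarith [hx.1, hx.2]
  refine (((hasDerivAt_const x (1 : ℝ)).sub (hasDerivAt_pow 2 x)).sqrt h).congr_deriv ?_
  simp [arc', arc]
  field_simp

theorem arc_neg (x : ℝ) : arc (-x) = arc x := by simp [arc]

/-- The parametrisation of the fundamental domain. -/
def pt (x s : ℝ) : ℂ := (x : ℂ) + Complex.I * ((arc x + s : ℝ) : ℂ)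

theorem pt_im (x s : ℝ) : (pt x s).im = arc x + s := by simp [pt]

variable (H : ℂ → ℂ)

/-- The horizontal component. -/
def P (x s : ℝ) : ℂ := H (pt x s) * (1 + Complex.I * (arc' x : ℂ))

theorem P_neg {x : ℝ} (hx : x ∈ Set.Icc (-(1 / 2) : ℝ) (1 / 2))
    (hS : ∀ z : ℂ, 0 < z.im → H (-1 / z) = z ^ 2 * H z) : P H (-x) 0 = -P H x 0 := by
  have he := arc_pos hx
  set z := pt x 0 with hz
  have hzi : 0 < z.im := by rw [hz, pt_im]; linarith
  have hsq : ((x : ℂ)) ^ 2 + (arc x : ℂ) ^ 2 = 1 := by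
    have : x ^ 2 + arc x ^ 2 = 1 := by
      rw [arc, Real.sq_sqrt (by nlinarith [hx.1, hx.2])]; ring
    exact_mod_cast this
  have hz0 : z ≠ 0 := fun h ↦ by simp [h] at hzi
  have e1 : pt (-x) 0 = -1 / z := by
    rw [eq_div_iff hz0, hz, pt, pt, arc_neg]
    push_cast
    linear_combination (-1 : ℂ) * hsq + (arc x : ℂ) ^ 2 * Complex.I_mul_I
  rw [P, P, e1, hS z hzi, arc', arc', arc_neg]
  show z ^ 2 * H z * _ = -(H z * _)
  generalize H z = K
  rw [hz, pt]
  have he' : (arc x : ℂ) ≠ 0 := by exact_mod_cast he.ne'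
  push_cast
  field_simp
  linear_combination K * (Complex.I * x - arc x) * hsq +
    K * (2 * (x : ℂ) ^ 2 * arc x + (arc x : ℂ) ^ 3 + Complex.I * x * (arc x : ℂ) ^ 2) *
      Complex.I_mul_I

theorem stokes (D : ℂ → ℂ →L[ℝ] ℂ) (ρ : ℂ → ℝ)
    (hH : ∀ z : ℂ, 0 < z.im → HasFDerivAt H (D z) z)
    (hD : ∀ v : ℂ, ContinuousOn (fun z ↦ D z v) upper) (hρc : ContinuousOn ρ upper)
    (hρ0 : ∀ z, 0 ≤ ρ z)
    (hDρ : ∀ z : ℂ, 0 < z.im → D z 1 + Complex.I * D z Complex.I = Complex.I * (ρ z : ℂ))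
    (hT : ∀ z : ℂ, 0 < z.im → H (z + 1) = H z)
    (hS : ∀ z : ℂ, 0 < z.im → H (-1 / z) = z ^ 2 * H z)
    {A : ℝ} (hA : ∀ z : ℂ, 1 ≤ z.im → ‖H z‖ ≤ A * z.im ^ (-(1 / 2) : ℝ)) :
    ∀ z : ℂ, z.re ∈ Set.Ioo (-(1 / 2) : ℝ) (1 / 2) → 2 < z.im → ρ z = 0 := by
  set I := Set.Icc (-(1 / 2) : ℝ) (1 / 2) with hI
  have huI : Set.uIcc (-(1 / 2) : ℝ) (1 / 2) = I := Set.uIcc_of_le (by norm_num)
  have hpos : ∀ x ∈ I, ∀ s : ℝ, -(1 / 4) ≤ s → 0 < (pt x s).im := fun x hx s hs ↦ by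
    rw [pt_im]; linarith [arc_ge hx]
  have harc : ContinuousOn arc I := fun x hx ↦ (hasDerivAt_arc hx).continuousAt.continuousWithinAt
  have harc' : ContinuousOn arc' I :=
    (continuous_neg.continuousOn).div harc fun x hx ↦ (arc_pos hx).ne'
  set R := I ×ˢ Set.Ici (-(1 / 4) : ℝ)
  have hfst : ∀ q ∈ R, q.1 ∈ I := fun q hq ↦ hq.1
  have hptc : ContinuousOn (fun q : ℝ × ℝ ↦ pt q.1 q.2) R := by
    have := harc.comp continuous_fst.continuousOn (fun q (hq : q ∈ R) ↦ hq.1)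
    exact ((Complex.continuous_ofReal.comp continuous_fst).continuousOn).add
      (continuousOn_const.mul (Complex.continuous_ofReal.comp_continuousOn
        (this.add continuous_snd.continuousOn)))
  have hmaps : Set.MapsTo (fun q : ℝ × ℝ ↦ pt q.1 q.2) R upper := fun q hq ↦ hpos _ hq.1 _ hq.2
  have hHc : ContinuousOn H upper := fun z hz ↦ (hH z hz).continuousAt.continuousWithinAt
  have hcE : ContinuousOn (fun q : ℝ × ℝ ↦ (1 : ℂ) + Complex.I * (arc' q.1 : ℂ)) R :=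
    continuousOn_const.add (continuousOn_const.mul (Complex.continuous_ofReal.comp_continuousOn
      (harc'.comp continuous_fst.continuousOn fun q (hq : q ∈ R) ↦ hq.1)))
  have hPc : ContinuousOn (fun q : ℝ × ℝ ↦ P H q.1 q.2) R := (hHc.comp hptc hmaps).mul hcE
  set P' : ℝ → ℝ → ℂ := fun x s ↦ D (pt x s) Complex.I * (1 + Complex.I * (arc' x : ℂ))
  have hP'c : ContinuousOn (fun q : ℝ × ℝ ↦ P' q.1 q.2) R :=
    ((hD Complex.I).comp hptc hmaps).mul hcE
  have hρR : ContinuousOn (fun q : ℝ × ℝ ↦ ρ (pt q.1 q.2)) R := hρc.comp hptc hmaps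
  have sect : ∀ {f : ℝ × ℝ → ℂ}, ContinuousOn f R → ∀ s : ℝ, -(1 / 4) ≤ s →
      ContinuousOn (fun x ↦ f (x, s)) I := fun hf s hs ↦
    hf.comp (continuous_id.prodMk continuous_const).continuousOn fun x hx ↦ ⟨hx, hs⟩
  have sectR : ∀ s : ℝ, -(1 / 4) ≤ s → ContinuousOn (fun x ↦ ρ (pt x s)) I := fun s hs ↦
    hρR.comp (f := fun x : ℝ ↦ (x, s)) (continuous_id.prodMk continuous_const).continuousOn
      fun x hx ↦ ⟨hx, hs⟩
  set Φ : ℝ → ℂ := fun s ↦ ∫ x in (-(1 / 2) : ℝ)..(1 / 2), P H x s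
  set r : ℝ → ℝ := fun s ↦ ∫ x in (-(1 / 2) : ℝ)..(1 / 2), ρ (pt x s)
  have hΦ : ∀ s : ℝ, -(1 / 8) < s → HasDerivAt Φ (r s : ℂ) s := by
    intro s hs
    have hQ : ∀ x ∈ I, HasDerivAt (fun u ↦ Complex.I * H (pt u s))
        (Complex.I * D (pt x s) (1 + Complex.I * (arc' x : ℂ))) x := fun x hx ↦ by
      have hpt : HasDerivAt (fun u ↦ pt u s) (1 + Complex.I * (arc' x : ℂ)) x := by
        refine ((hasDerivAt_id x).ofReal_comp.add
          ((((hasDerivAt_arc hx).add_const s).ofReal_comp).const_mul Complex.I)).congr_deriv ?_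
        simp
      exact ((hH _ (hpos x hx s (by linarith))).comp_hasDerivAt x hpt).const_mul Complex.I
    have key : ∀ x ∈ I, P' x s =
        Complex.I * D (pt x s) (1 + Complex.I * (arc' x : ℂ)) + (ρ (pt x s) : ℂ) := fun x hx ↦ by
      have h := hDρ _ (hpos x hx s (by linarith))
      rw [show (1 : ℂ) + Complex.I * (arc' x : ℂ) = 1 + arc' x • Complex.I by
        rw [Complex.real_smul]; ring, map_add, map_smul, Complex.real_smul]
      simp only [P']
      linear_combination -Complex.I * h +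
        (D (pt x s) Complex.I - (ρ (pt x s) : ℂ)) * Complex.I_mul_I
    obtain ⟨B, hB⟩ := ((isCompact_Icc.prod isCompact_Icc).image_of_continuousOn
      (f := fun q : ℝ × ℝ ↦ P' q.1 q.2) (s := I ×ˢ Set.Icc (-(1 / 4) : ℝ) (|s| + 1))
      (hP'c.mono (Set.prod_mono le_rfl fun u hu ↦ hu.1))).isBounded.exists_norm_le
    have huIoc : ∀ {x : ℝ}, x ∈ Set.uIoc (-(1 / 2) : ℝ) (1 / 2) → x ∈ I := fun hx ↦
      huI ▸ Set.uIoc_subset_uIcc hx
    have hmeas : ∀ {f : ℝ → ℂ}, ContinuousOn f I →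
        AEStronglyMeasurable f (volume.restrict (Set.uIoc (-(1 / 2) : ℝ) (1 / 2))) := fun hf ↦
      (hf.mono fun x hx ↦ huIoc hx).aestronglyMeasurable measurableSet_uIoc
    have hnhds : ∀ᶠ u in 𝓝 s, -(1 / 4) ≤ u ∧ u ≤ |s| + 1 := by
      filter_upwards [Icc_mem_nhds (show -(1 / 4 : ℝ) < s by linarith)
        (show s < |s| + 1 by linarith [le_abs_self s])] with u hu using hu
    obtain ⟨-, hd⟩ := intervalIntegral.hasDerivAt_integral_of_dominated_loc_of_deriv_le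
      (F := fun u x ↦ P H x u) (F' := fun u x ↦ P' x u) (x₀ := s) (bound := fun _ ↦ B)
      (s := {u | -(1 / 4) ≤ u ∧ u ≤ |s| + 1}) (μ := volume) (a := -(1 / 2)) (b := 1 / 2)
      hnhds (hnhds.mono fun u hu ↦ hmeas (sect hPc u hu.1))
      ((huI.symm ▸ sect hPc s (by linarith) : ContinuousOn _ _).intervalIntegrable)
      (hmeas (sect hP'c s (by linarith)))
      (.of_forall fun x hx u hu ↦ hB _ ⟨(x, u), ⟨huIoc hx, hu⟩, rfl⟩)
      intervalIntegrable_const
      (.of_forall fun x hx u hu ↦ by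
        have hpt : HasDerivAt (fun v ↦ pt x v) Complex.I u := by
          refine ((hasDerivAt_const u (x : ℂ)).add
            ((((hasDerivAt_id u).const_add (arc x))).ofReal_comp.const_mul Complex.I)).congr_deriv ?_
          simp
        exact ((hH _ (hpos x (huIoc hx) u hu.1)).comp_hasDerivAt u hpt).mul_const _)
    refine hd.congr_deriv ?_
    have h1 : ContinuousOn (fun x ↦ P' x s - (ρ (pt x s) : ℂ)) I :=
      (sect hP'c s (by linarith)).sub
        (Complex.continuous_ofReal.comp_continuousOn (sectR s (by linarith)))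
    have h2 : ∫ x in (-(1 / 2) : ℝ)..(1 / 2), (P' x s - (ρ (pt x s) : ℂ)) = 0 := by
      rw [intervalIntegral.integral_eq_sub_of_hasDerivAt
        (f := fun u ↦ Complex.I * H (pt u s))
        (fun x hx ↦ by
          have hx' : x ∈ I := by rwa [huI] at hx
          rw [key x hx']; simpa using hQ x hx')
        ((huI.symm ▸ h1 : ContinuousOn _ _).intervalIntegrable)]
      have e : pt (1 / 2) s = pt (-(1 / 2)) s + 1 := by
        simp only [pt, arc_neg]; push_cast; ring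
      rw [e, hT _ (hpos _ ⟨le_rfl, by norm_num⟩ s (by linarith)), sub_self]
    rw [intervalIntegral.integral_sub ((huI.symm ▸ sect hP'c s (by linarith) :
      ContinuousOn _ _).intervalIntegrable)
      ((huI.symm ▸ Complex.continuous_ofReal.comp_continuousOn (sectR s (by linarith)) :
        ContinuousOn _ _).intervalIntegrable), sub_eq_zero] at h2
    rw [h2, intervalIntegral.integral_ofReal]
  have hr0 : ∀ s, 0 ≤ r s := fun s ↦
    intervalIntegral.integral_nonneg (by norm_num) fun x _ ↦ hρ0 _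
  have hΦ0 : Φ 0 = 0 := by
    have h := intervalIntegral.integral_comp_neg (fun x ↦ P H x 0) (a := (-(1 / 2) : ℝ)) (b := 1 / 2)
    rw [neg_neg] at h
    have h2 : ∫ x in (-(1 / 2) : ℝ)..(1 / 2), P H (-x) 0 =
        -∫ x in (-(1 / 2) : ℝ)..(1 / 2), P H x 0 := by
      rw [← intervalIntegral.integral_neg]
      exact intervalIntegral.integral_congr fun x hx ↦ P_neg H (show x ∈ I by rwa [huI] at hx) hS
    rw [h2] at h
    show ∫ x in (-(1 / 2) : ℝ)..(1 / 2), P H x 0 = 0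
    linear_combination (-(1 / 2) : ℂ) * h
  have hΨ : ∀ s : ℝ, -(1 / 8) < s → HasDerivAt (fun u ↦ (Φ u).re) (r s) s := fun s hs ↦ by
    simpa [Function.comp_def] using Complex.reCLM.hasFDerivAt.comp_hasDerivAt s (hΦ s hs)
  have hmono : MonotoneOn (fun u ↦ (Φ u).re) (Set.Ici 0) :=
    monotoneOn_of_hasDerivWithinAt_nonneg (convex_Ici 0)
      (fun s (hs : 0 ≤ s) ↦ (hΨ s (by linarith)).continuousAt.continuousWithinAt)
      (fun s hs ↦ by
        rw [interior_Ici] at hs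
        exact (hΨ s (by linarith [Set.mem_Ioi.1 hs])).hasDerivWithinAt)
      (fun s _ ↦ hr0 s)
  have hlim : Tendsto (fun s ↦ (Φ s).re) atTop (𝓝 0) := by
    obtain ⟨C, hC⟩ := (isCompact_Icc.image_of_continuousOn (f := fun x : ℝ ↦
      (1 : ℂ) + Complex.I * (arc' x : ℂ)) (s := I) (continuousOn_const.add
        (continuousOn_const.mul (Complex.continuous_ofReal.comp_continuousOn harc')))
      ).isBounded.exists_norm_le
    refine squeeze_zero_norm' (a := fun s ↦ |A| * s ^ (-(1 / 2) : ℝ) * |C|) ?_ ?_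
    · filter_upwards [eventually_ge_atTop (1 : ℝ)] with s hs
      refine (Complex.abs_re_le_norm _).trans
        ((intervalIntegral.norm_integral_le_of_norm_le_const (C := |A| * s ^ (-(1 / 2) : ℝ) * |C|)
          fun x hx ↦ ?_).trans (le_of_eq (by norm_num)))
      have hx' : x ∈ I := huI ▸ Set.uIoc_subset_uIcc hx
      have hy : s ≤ (pt x s).im := by rw [pt_im]; linarith [arc_pos hx']
      rw [P, norm_mul]
      refine mul_le_mul ((hA _ (hs.trans hy)).trans ?_)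
        ((hC _ ⟨x, hx', rfl⟩).trans (le_abs_self C)) (norm_nonneg _) (by positivity)
      exact mul_le_mul (le_abs_self A) (Real.rpow_le_rpow_of_nonpos (by linarith) hy (by norm_num))
        (Real.rpow_nonneg (by linarith [hs.trans hy]) _) (abs_nonneg A)
    · simpa using ((tendsto_rpow_neg_atTop (show (0 : ℝ) < 1 / 2 by norm_num)).const_mul |A|
        ).mul_const |C|
  have hzero : ∀ s : ℝ, 0 ≤ s → (Φ s).re = 0 := fun s hs ↦ by
    refine le_antisymm (ge_of_tendsto hlim ((eventually_ge_atTop s).mono fun u hu ↦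
      hmono hs (hs.trans hu) hu)) ?_
    have := hmono (Set.self_mem_Ici) hs hs
    simpa [hΦ0] using this
  intro z hzre hzim
  set x₀ := z.re
  set s₀ := z.im - arc x₀
  have hx₀ : x₀ ∈ I := Set.Ioo_subset_Icc_self hzre
  have hs₀ : 0 < s₀ := by
    have : arc x₀ ≤ 1 := Real.sqrt_le_one.2 (by nlinarith [sq_nonneg x₀])
    simp only [s₀]; linarith
  have hr : r s₀ = 0 := by
    have h1 := (hΨ s₀ (by linarith)).hasDerivWithinAt (s := Set.Ioi 0)
    have h2 : HasDerivWithinAt (fun u ↦ (Φ u).re) 0 (Set.Ioi 0) s₀ :=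
      (hasDerivWithinAt_const s₀ (Set.Ioi 0) (0 : ℝ)).congr
        (fun u hu ↦ hzero u (le_of_lt hu)) (hzero s₀ hs₀.le)
    exact (uniqueDiffOn_Ioi 0 s₀ hs₀).eq_deriv _ h1 h2
  by_contra hne
  have hpt : pt x₀ s₀ = z := by
    apply Complex.ext <;> simp [pt, x₀, s₀]
  have := intervalIntegral.integral_pos (f := fun x ↦ ρ (pt x s₀))
    (show (-(1 / 2) : ℝ) < 1 / 2 by norm_num) (sectR s₀ (by linarith)) (fun x _ ↦ hρ0 _)
    ⟨x₀, hx₀, by rw [hpt]; exact lt_of_le_of_ne (hρ0 z) (Ne.symm hne)⟩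
  exact this.ne' hr

end Stokes

namespace Form

variable {N : ℕ} [NeZero N] (F : Form N)

theorem continuousOn_fnS_fnQ (d : Datum N) :
    ContinuousOn (F.fnS d 0) upper ∧ ContinuousOn (F.fnS d 1) upper ∧
      ContinuousOn (F.fnQ d) upper := by
  obtain ⟨A1, hA1, h1⟩ := F.exists_norm_term_le d 1
  obtain ⟨A2, hA2, h2⟩ := F.exists_norm_qv_term_le d
  have hc : ∀ j m, ContinuousOn (fun z ↦ F.sT d j z m) upper := fun j m z hz ↦ by
    have hk : 0 < 2 * Real.pi * z.im := mul_pos (by positivity) hz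
    refine ((ContinuousAt.mul ?_ ?_)).continuousWithinAt
    · exact Continuous.continuousAt (by unfold eX; fun_prop)
    · exact ContinuousAt.comp (g := fun k : ℝ ↦ F.term d j k m)
        (F.hasDerivAt_term d j hk m).continuousAt
        (Continuous.continuousAt (by fun_prop : Continuous fun z : ℂ ↦ 2 * Real.pi * z.im))
  have key : ∀ (f : (Fin 4 → ℤ) → ℂ → ℂ) (A : ℝ), 0 ≤ A → (∀ m, ContinuousOn (f m) upper) →
      (∀ z : ℂ, 0 < z.im → ∀ m, ‖f m z‖ ≤
        A / (2 * Real.pi * z.im) * (mass d.r (2 * Real.pi * z.im / 2) m).toReal) →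
      ContinuousOn (fun z ↦ ∑' m, f m z) upper := by
    intro f A hA0 hf hb z₀ (hz₀ : 0 < z₀.im)
    set y₀ := z₀.im / 2
    have hy₀ : 0 < y₀ := half_pos hz₀
    set k₀ := 2 * Real.pi * y₀
    have hk₀ : 0 < k₀ := by positivity
    set s : Set ℂ := {z | y₀ < z.im}
    have hs : IsOpen s := isOpen_lt continuous_const Complex.continuous_im
    have hmem : z₀ ∈ s := by show z₀.im / 2 < z₀.im; linarith
    refine ((continuousOn_tsum (fun m ↦ (hf m).mono fun z hz ↦ hy₀.trans hz)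
      ((ENNReal.summable_toReal (tsum_mass_ne_top d.r_pos (half_pos hk₀))).mul_left (A / k₀))
      fun m z hz ↦ (hb z (hy₀.trans hz) m).trans ?_).continuousAt
        (hs.mem_nhds hmem)).continuousWithinAt
    have hz' : k₀ ≤ 2 * Real.pi * z.im := mul_le_mul_of_nonneg_left (le_of_lt hz) (by positivity)
    exact mul_le_mul (div_le_div_of_nonneg_left hA0 hk₀ hz')
      (ENNReal.toReal_mono (mass_ne_top d.r_pos (half_pos hk₀) m) (mass_anti (by linarith) m))
      ENNReal.toReal_nonneg (div_nonneg hA0 hk₀.le)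
  refine ⟨fun z hz ↦ (F.hasFDerivAt_fnS d hz).continuousAt.continuousWithinAt, ?_, ?_⟩
  · refine key (fun m z ↦ F.sT d 1 z m) A1 hA1 (hc 1) fun z hz m ↦ ?_
    rw [sT, norm_mul, norm_eX, one_mul]
    simpa using h1 (2 * Real.pi * z.im) (by positivity) m
  · refine key (fun m z ↦ (d.qv m : ℂ) * F.sT d 0 z m) A2 hA2
      (fun m ↦ continuousOn_const.mul (hc 0 m)) fun z hz m ↦ ?_
    rw [sT, mul_left_comm, norm_mul, norm_eX, one_mul]
    exact h2 (2 * Real.pi * z.im) (by positivity) m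

theorem continuousOn_fderiv_fnC (d : Datum N) (v : ℂ) :
    ContinuousOn (fun z ↦ fderiv ℝ (F.fnC d) z v) upper := by
  obtain ⟨h0, h1, hQ⟩ := F.continuousOn_fnS_fnQ d
  have hs : ContinuousOn (fun z : ℂ ↦ (√z.im : ℂ)) upper := by fun_prop
  have hs' : ContinuousOn (fun z : ℂ ↦ ((1 / (2 * √z.im) : ℝ) : ℂ)) upper := fun z hz ↦ by
    have h : (2 : ℝ) * √z.im ≠ 0 := mul_ne_zero two_ne_zero (Real.sqrt_pos.2 hz).ne'
    exact ContinuousAt.continuousWithinAt (by fun_prop (disch := assumption))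
  refine ContinuousOn.congr (f := fun z ↦
    (√z.im : ℂ) * ((v.re : ℂ) * (2 * Real.pi * Complex.I * F.fnQ d z) +
      (v.im : ℂ) * (-(2 * Real.pi : ℂ) * F.fnS d 1 z)) +
      (v.im : ℂ) * (((1 / (2 * √z.im) : ℝ) : ℂ) * F.fnS d 0 z)) ?_ fun z hz ↦ ?_
  · exact (hs.mul ((continuousOn_const.mul (continuousOn_const.mul hQ)).add
      (continuousOn_const.mul (continuousOn_const.mul h1)))).add
        (continuousOn_const.mul (hs'.mul h0))
  · rw [(F.hasFDerivAt_fnC d hz).fderiv]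
    simp [Complex.real_smul]; ring

theorem glift_mul_slash (d : Datum N) {M : ℕ}
    (hinv : ∀ γ ∈ Gamma1 M, F.lift d ∣[(1 : ℤ)] γ = F.lift d) {γ : SL(2, ℤ)} (hγ : γ ∈ Gamma1 M) :
    (F.lift d * F.glift d) ∣[(2 : ℤ)] γ = F.lift d * F.glift d := by
  rw [show (2 : ℤ) = 1 + 1 from rfl, ModularForm.mul_slash_SL2, hinv γ hγ,
    F.glift_slash d d γ (hinv γ hγ)]

/-- The lift is killed by the antiholomorphic derivative. -/
theorem gC_eq_zero (d : Datum N) {M : ℕ} [NeZero M]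
    (hinv : ∀ γ ∈ Gamma1 M, F.lift d ∣[(1 : ℤ)] γ = F.lift d) {τ : ℂ} (hτ : 0 < τ.im) :
    F.gC d τ = 0 := by
  classical
  have : Fintype (SL(2, ℤ) ⧸ Gamma1 M) := Fintype.ofFinite _
  choose dq hdq using fun q : SL(2, ℤ) ⧸ Gamma1 M ↦ F.exists_slash (q.out)⁻¹ d
  set φ := F.lift d * F.glift d
  set Hl : ℍ → ℂ := ∑ q : SL(2, ℤ) ⧸ Gamma1 M, φ ∣[(2 : ℤ)] (q.out)⁻¹
  set HC : ℂ → ℂ := fun z ↦ ∑ q : SL(2, ℤ) ⧸ Gamma1 M, F.fnC (dq q) z * F.gC (dq q) z
  have hHl : ∀ t : ℍ, Hl t = HC t := fun t ↦ by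
    simp only [Hl, HC, Finset.sum_apply]
    refine Finset.sum_congr rfl fun q _ ↦ ?_
    rw [show (2 : ℤ) = 1 + 1 from rfl, ModularForm.mul_slash_SL2, hdq q,
      F.glift_slash d (dq q) _ (hdq q)]
    rfl
  have hinvH : ∀ δ : SL(2, ℤ), Hl ∣[(2 : ℤ)] δ = Hl := by
    intro δ
    simp only [Hl, SlashAction.sum_slash, ← SlashAction.slash_mul]
    rw [← Equiv.sum_comp (MulAction.toPerm δ⁻¹)
      (fun q : SL(2, ℤ) ⧸ Gamma1 M ↦ φ ∣[(2 : ℤ)] (q.out)⁻¹)]
    refine Finset.sum_congr rfl fun q _ ↦ ?_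
    obtain ⟨⟨γ, hγ⟩, hγeq⟩ := QuotientGroup.mk_out_eq_mul (Gamma1 M) (δ⁻¹ * q.out)
    have e : ((δ⁻¹ • q : SL(2, ℤ) ⧸ Gamma1 M)).out = δ⁻¹ * q.out * γ := by
      rw [← hγeq]
      congr 1
      conv_lhs => rw [← QuotientGroup.out_eq' q]
      rfl
    rw [MulAction.toPerm_apply, e, mul_inv_rev, mul_inv_rev, inv_inv, SlashAction.slash_mul _ γ⁻¹,
      F.glift_mul_slash d hinv (inv_mem hγ)]
  have hT : ∀ z : ℂ, 0 < z.im → HC (z + 1) = HC z := by
    intro z hz
    have h := congrFun (hinvH ModularGroup.T) ⟨z, hz⟩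
    rw [ModularForm.SL_slash_apply, hHl, hHl,
      ModularGroup.denom_apply ModularGroup.T ⟨z, hz⟩, modular_T_smul] at h
    simp [ModularGroup.coe_T] at h
    rw [add_comm]; exact h
  have hS : ∀ z : ℂ, 0 < z.im → HC (-1 / z) = z ^ 2 * HC z := by
    intro z hz
    have h := congrFun (hinvH ModularGroup.S) ⟨z, hz⟩
    rw [ModularForm.SL_slash_apply, hHl, hHl, ModularGroup.denom_S, modular_S_smul] at h
    have hz0 : z ≠ 0 := fun h0 ↦ by simp [h0] at hz
    have h' : HC (-z)⁻¹ * z ^ (-2 : ℤ) = HC z := h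
    rw [zpow_neg, zpow_ofNat, ← div_eq_mul_inv, div_eq_iff (pow_ne_zero 2 hz0)] at h'
    rw [show -1 / z = (-z)⁻¹ by rw [inv_neg, div_eq_mul_inv, neg_one_mul], h', mul_comm]
  set D : ℂ → ℂ →L[ℝ] ℂ := fun z ↦ fderiv ℝ HC z
  have hgd : ∀ q, ∀ z : ℂ, 0 < z.im → HasDerivAt (F.gC (dq q)) (deriv (F.gC (dq q)) z) z :=
    fun q z hz ↦ ((F.differentiableOn_gC (dq q)).differentiableAt
      (isOpen_upper.mem_nhds hz)).hasDerivAt
  have hHf : ∀ z : ℂ, 0 < z.im → HasFDerivAt HC (∑ q, (F.fnC (dq q) z •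
      (((1 : ℂ →L[ℂ] ℂ).smulRight (deriv (F.gC (dq q)) z)).restrictScalars ℝ) +
        F.gC (dq q) z • fderiv ℝ (F.fnC (dq q)) z)) z := fun z hz ↦ by
    refine HasFDerivAt.fun_sum fun q _ ↦ ?_
    exact (F.differentiableAt_fnC (dq q) hz).hasFDerivAt.mul
      ((hgd q z hz).hasFDerivAt.restrictScalars ℝ)
  have hDv : ∀ z : ℂ, 0 < z.im → ∀ v, D z v = ∑ q, (F.fnC (dq q) z * (v * deriv (F.gC (dq q)) z) +
      F.gC (dq q) z * fderiv ℝ (F.fnC (dq q)) z v) := fun z hz v ↦ by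
    simp [D, (hHf z hz).fderiv]
  set ρ : ℂ → ℝ := fun z ↦ (∑ q, ‖F.gC (dq q) z‖ ^ 2) / |z.im|
  obtain ⟨A, hA⟩ : ∃ A, ∀ z : ℂ, 1 ≤ z.im → ‖HC z‖ ≤ A * z.im ^ (-(1 / 2) : ℝ) := by
    choose B hB0 hB using fun q ↦ F.exists_gC_bound (dq q)
    refine ⟨∑ q, B q * B q, fun z hz ↦ (norm_sum_le_of_le _ fun q _ ↦ ?_).trans
      (le_of_eq (Finset.sum_mul _ _ _).symm)⟩
    obtain ⟨h1, h2⟩ := hB q z hz
    rw [norm_mul]
    refine (mul_le_mul h1 h2 (norm_nonneg _) (mul_nonneg (hB0 q) (by positivity))).trans (le_of_eq ?_)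
    rw [mul_mul_mul_comm, ← Real.rpow_add (by linarith)]
    norm_num
  have hgc : ∀ q, ContinuousOn (F.gC (dq q)) upper := fun q ↦ (F.differentiableOn_gC _).continuousOn
  have hzero := Stokes.stokes HC D ρ (fun z hz ↦ (hHf z hz).differentiableAt.hasFDerivAt)
    (fun v ↦ by
      refine ContinuousOn.congr (f := fun z ↦ ∑ q, (F.fnC (dq q) z * (v * deriv (F.gC (dq q)) z) +
        F.gC (dq q) z * fderiv ℝ (F.fnC (dq q)) z v)) ?_ fun z hz ↦ hDv z hz v
      refine continuousOn_finsetSum _ fun q _ ↦ ContinuousOn.add ?_ ((hgc q).mul ?_)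
      · exact (ContinuousOn.mul (fun z hz ↦
          (F.differentiableAt_fnC (dq q) hz).continuousAt.continuousWithinAt)
          (continuousOn_const.mul ((F.differentiableOn_gC (dq q)).deriv isOpen_upper).continuousOn))
      · exact F.continuousOn_fderiv_fnC (dq q) v)
    ((continuousOn_finsetSum _ fun q _ ↦ ((hgc q).norm.pow 2)).div
      (Complex.continuous_im.abs).continuousOn fun z (hz : 0 < z.im) ↦ by simp [hz.ne'])
    (fun z ↦ by positivity)
    (fun z hz ↦ by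
      rw [hDv z hz, hDv z hz, Finset.mul_sum, ← Finset.sum_add_distrib]
      simp only [ρ, abs_of_pos hz]
      push_cast
      rw [Finset.sum_div, Finset.mul_sum]
      refine Finset.sum_congr rfl fun q _ ↦ ?_
      have hy := F.ybar_fnC (dq q) hz
      rw [ybar] at hy
      have hy0 : (z.im : ℂ) ≠ 0 := by exact_mod_cast hz.ne'
      rw [← Complex.ofReal_pow, ← Complex.normSq_eq_norm_sq, ← Complex.mul_conj]
      have e : conj (F.gC (dq q) z) = F.fnV (dq q) z := by rw [gC, Complex.conj_conj]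
      rw [e]
      field_simp
      linear_combination (2 * F.gC (dq q) z) * hy +
        ((z.im : ℂ) * F.fnC (dq q) z * deriv (F.gC (dq q)) z) * Complex.I_mul_I)
    hT hS hA
  have h1 : ((1 : SL(2, ℤ)) : SL(2, ℤ) ⧸ Gamma1 M).out ∈ Gamma1 M := by
    obtain ⟨⟨γ, hγ⟩, hγe⟩ := QuotientGroup.mk_out_eq_mul (Gamma1 M) 1
    rw [hγe, one_mul]; exact hγ
  set q₁ : SL(2, ℤ) ⧸ Gamma1 M := ((1 : SL(2, ℤ)) : SL(2, ℤ) ⧸ Gamma1 M)
  have heq : ∀ z : ℂ, 0 < z.im → F.gC (dq q₁) z = F.gC d z := fun z hz ↦ by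
    have e := F.glift_slash d (dq q₁) _ (hdq q₁)
    rw [F.glift_slash d d _ (hinv _ (inv_mem h1))] at e
    exact (congrFun e ⟨z, hz⟩).symm
  have han : AnalyticOnNhd ℂ (F.gC d) upper := (F.differentiableOn_gC d).analyticOnNhd isOpen_upper
  have hpre : IsPreconnected upper := (convex_halfSpace_im_gt 0).isPreconnected
  refine han.eqOn_zero_of_preconnected_of_eventuallyEq_zero hpre
    (show (3 * Complex.I : ℂ) ∈ upper by show 0 < (3 * Complex.I : ℂ).im; simp) ?_ hτ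
  have hopen : {z : ℂ | z.re ∈ Set.Ioo (-(1 / 2) : ℝ) (1 / 2) ∧ 2 < z.im} ∈ 𝓝 (3 * Complex.I) :=
    ((isOpen_Ioo.preimage Complex.continuous_re).inter
      (isOpen_lt continuous_const Complex.continuous_im)).mem_nhds ⟨by simp, by simp; norm_num⟩
  filter_upwards [hopen] with z hz
  have hz0 : 0 < z.im := by linarith [hz.2]
  have hr := hzero z hz.1 hz.2
  simp only [ρ, div_eq_zero_iff, abs_eq_zero, hz0.ne', or_false] at hr
  rw [Finset.sum_eq_zero_iff_of_nonneg fun q _ ↦ by positivity] at hr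
  rw [← heq z hz0]
  simpa using hr q₁ (Finset.mem_univ _)

theorem differentiableOn_fnC (d : Datum N) {M : ℕ} [NeZero M]
    (hinv : ∀ γ ∈ Gamma1 M, F.lift d ∣[(1 : ℤ)] γ = F.lift d) :
    DifferentiableOn ℂ (F.fnC d) upper := fun τ hτ ↦ by
  refine (differentiableAt_of_ybar (ne_of_gt hτ) (F.differentiableAt_fnC d hτ) ?_
    ).differentiableWithinAt
  have h := F.gC_eq_zero d hinv hτ
  rw [gC, map_eq_zero] at h
  rw [F.ybar_fnC d hτ, h, mul_zero]

end Form

end FermatAgent.LT.Lift
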