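import Mathlib
import Fermat.Agent.LT.Lift.Holo
import Fermat.Prelude.Def_FLTPrelim_Modularity

/-!
# The cusp form of a lift and its coefficients
-/

set_option autoImplicit false

noncomputable section

open MeasureTheory Filter Topology UpperHalfPlane CongruenceSubgroup
open scoped MatrixGroups ModularForm Manifold

namespace FermatAgent.LT.Lift

/-- Reduction of a vector. -/
def redV (N : ℕ) (m : Fin 4 → ℤ) : Fin 4 → ZMod N := fun i ↦ (m i : ZMod N)

theorem mapQ_intCast (N : ℕ) : mapQ (Int.castRingHom (ZMod N)) = redO N :=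
  RingHom.ext fun _ ↦ rfl

theorem redV_actR (N : ℕ) (γ : GO) (m : Fin 4 → ℤ) :
    redV N (actR γ m) = actR (toN N γ) (redV N m) := by
  have h := actR_map (Int.castRingHom (ZMod N)) γ m
  rw [mapQ_intCast] at h
  exact h

theorem redV_smul (N : ℕ) (a : ℤ) (m : Fin 4 → ℤ) :
    redV N (a • m) = (a : ZMod N) • redV N m := by
  funext i; simp [redV]

/-- The datum of a function on residues, with integral vectors. -/
def Datum.ofFun {N : ℕ} [NeZero N] (w : (Fin 4 → ZMod N) → ℂ) : Datum N where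
  r := 1
  D := N
  W h m := w (actR h⁻¹ (redV N m))
  r_pos := one_pos
  D_pos := Nat.pos_of_ne_zero (NeZero.ne N)
  r_dvd := one_dvd _
  periodic h m k := by
    congr 2
    funext i
    simp [redV]
  equivariant γ h m := by
    rw [redV_actR, mul_inv_rev, actR_mul, actR_inv_cancel]

/-- Scalar invariance of a function on residues. -/
def ScalarInv {N : ℕ} (w : (Fin 4 → ZMod N) → ℂ) : Prop :=
  ∀ (a : (ZMod N)ˣ) v, w ((a : ZMod N) • v) = w v

theorem Datum.ofFun_smul {N : ℕ} [NeZero N] {w : (Fin 4 → ZMod N) → ℂ} (hw : ScalarInv w)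
    (a : ℤ) (h : GN N) (m : Fin 4 → ℤ) (ha : IsCoprime a (N : ℤ)) :
    (Datum.ofFun w).W h (a • m) = (Datum.ofFun w).W h m := by
  obtain ⟨u, hu⟩ := (ZMod.coe_int_isUnit_iff_isCoprime a N).2 ha.symm
  show w (actR h⁻¹ (redV N (a • m))) = w (actR h⁻¹ (redV N m))
  rw [redV_smul, actR_smul, ← hu, hw]

theorem one_mem_strictPeriods_Gamma1 (M : ℕ) :
    (1 : ℝ) ∈ ((Gamma1 M).map (Matrix.SpecialLinearGroup.mapGL ℝ)).strictPeriods := by
  refine Subgroup.mem_strictPeriods_iff.2 ⟨ModularGroup.T, ?_, ?_⟩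
  · show ModularGroup.T ∈ Gamma1 M
    simp [Gamma1_mem, ModularGroup.coe_T]
  · ext i j
    fin_cases i <;> fin_cases j <;> simp [ModularGroup.coe_T, Matrix.GeneralLinearGroup.upperRightHom]

namespace Form

variable {N : ℕ} [NeZero N] (F : Form N) {w : (Fin 4 → ZMod N) → ℂ}

theorem lift_slash_gamma0_ofFun (hw : ScalarInv w) {M : ℕ} (hMpos : 0 < M) (hM : 3 * N ^ 2 ∣ M)
    (γ : SL(2, ℤ)) (hγ : γ ∈ Gamma0 M) :
    F.lift (Datum.ofFun w) ∣[(1 : ℤ)] γ =
      chi3 ((γ 1 1 : ℤ) % M).toNat • F.lift (Datum.ofFun w) := by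
  have hγ' : γ ∈ Gamma0 (3 * N ^ 2) := by
    have h0 := (ZMod.intCast_zmod_eq_zero_iff_dvd (γ 1 0) M).1 (Gamma0_mem.1 hγ)
    exact Gamma0_mem.2 ((ZMod.intCast_zmod_eq_zero_iff_dvd (γ 1 0) _).2
      ((Int.natCast_dvd_natCast.2 hM).trans h0))
  have h := F.lift_slash_gamma0 (Datum.ofFun w) rfl
    (fun a h m ha ↦ Datum.ofFun_smul hw a h m ha) γ hγ'
  rw [h]
  congr 1
  show chi3 ((γ 1 1 : ℤ) % (3 * N ^ 2 : ℕ)).toNat = _
  have key : ∀ L : ℕ, 0 < L → 3 ∣ L →
      chi3 ((γ 1 1 : ℤ) % (L : ℤ)).toNat = chi3 ((γ 1 1 : ℤ) % (3 : ℤ)).toNat := by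
    intro L hL h3
    have h1 : (((γ 1 1 : ℤ) % (L : ℤ)).toNat : ℤ) = (γ 1 1 : ℤ) % (L : ℤ) :=
      Int.toNat_of_nonneg (Int.emod_nonneg _ (by exact_mod_cast hL.ne'))
    have h2 : ((γ 1 1 : ℤ) % (L : ℤ)) % 3 = (γ 1 1 : ℤ) % 3 :=
      Int.emod_emod_of_dvd _ (by exact_mod_cast h3)
    have h3' : ((γ 1 1 : ℤ) % (L : ℤ)).toNat % 3 = ((γ 1 1 : ℤ) % (3 : ℤ)).toNat % 3 := by omega
    simp [chi3, EisensteinWeightOne.chiNegThree, h3']
  rw [key _ (Nat.mul_pos (by norm_num) (pow_pos (Nat.pos_of_ne_zero (NeZero.ne N)) 2))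
    (dvd_mul_right 3 _), key M hMpos ((dvd_mul_right 3 _).trans hM)]

theorem lift_slash_gamma1 (hw : ScalarInv w) {M : ℕ} (hMpos : 0 < M) (hM : 3 * N ^ 2 ∣ M)
    (γ : SL(2, ℤ)) (hγ : γ ∈ Gamma1 M) :
    F.lift (Datum.ofFun w) ∣[(1 : ℤ)] γ = F.lift (Datum.ofFun w) := by
  have h1 := (Gamma1_mem M γ).1 hγ
  rw [F.lift_slash_gamma0_ofFun hw hMpos hM γ (Gamma0_mem.2 h1.2.2)]
  have he : (γ 1 1 : ℤ) % (M : ℤ) = 1 % (M : ℤ) :=
    (ZMod.intCast_eq_intCast_iff' (γ 1 1) 1 M).1 (by simpa using h1.2.1)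
  have h3 : 2 ≤ M := le_trans (by norm_num : 2 ≤ 3) (Nat.le_of_dvd hMpos ((dvd_mul_right 3 _).trans hM))
  rw [he, Int.emod_eq_of_lt (by norm_num) (by exact_mod_cast h3)]
  simp [chi3, EisensteinWeightOne.chiNegThree]

theorem mdifferentiable_lift {d : Datum N} {M : ℕ} [NeZero M]
    (hinv : ∀ γ ∈ Gamma1 M, F.lift d ∣[(1 : ℤ)] γ = F.lift d) : MDiff (F.lift d) := by
  rw [UpperHalfPlane.mdifferentiable_iff]
  refine (F.differentiableOn_fnC d hinv).congr fun z hz ↦ ?_
  show F.lift d (ofComplex z) = F.fnC d z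
  rw [ofComplex_apply_of_im_pos hz]
  rfl

/-- The cusp form. -/
def cuspForm (hw : ScalarInv w) {M : ℕ} [NeZero M] (hM : 3 * N ^ 2 ∣ M) :
    CuspForm (Gamma1 M) 1 where
  toFun := F.lift (Datum.ofFun w)
  slash_action_eq' A hA := by
    obtain ⟨γ, hγ, rfl⟩ := hA
    exact F.lift_slash_gamma1 hw (Nat.pos_of_ne_zero (NeZero.ne M)) hM γ hγ
  holo' := F.mdifferentiable_lift
    (F.lift_slash_gamma1 hw (Nat.pos_of_ne_zero (NeZero.ne M)) hM)
  zero_at_cusps' {c} hc := by
    rw [Subgroup.IsArithmetic.isCusp_iff_isCusp_SL2Z] at hc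
    rw [OnePoint.isZeroAt_iff_forall_SL2Z hc]
    intro γ _
    obtain ⟨d', hd'⟩ := F.exists_slash γ (Datum.ofFun w)
    rw [hd']
    exact F.isZeroAtImInfty_lift d'

theorem integral_exp_int (j : ℤ) :
    ∫ u in (0 : ℝ)..1, Complex.exp (2 * Real.pi * Complex.I * j * u) = if j = 0 then 1 else 0 := by
  split_ifs with hj
  · simp [hj]
  · have hc : (2 * Real.pi * Complex.I * j : ℂ) ≠ 0 :=
      mul_ne_zero (by simp) (by exact_mod_cast hj)
    rw [integral_exp_mul_complex hc]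
    simp only [Complex.ofReal_one, mul_one, Complex.ofReal_zero, mul_zero, Complex.exp_zero]
    rw [show (2 * Real.pi * Complex.I * j : ℂ) = j * (2 * Real.pi * Complex.I) by ring,
      Complex.exp_int_mul_two_pi_mul_I, sub_self, zero_div]

/-- The Fourier coefficients of the form. -/
theorem qCoeff_cuspForm (hw : ScalarInv w) {M : ℕ} [NeZero M] (hM : 3 * N ^ 2 ∣ M) (n : ℕ)
    {t : ℝ} (ht : 0 < t) :
    ModularFormClass.qCoeff (F.cuspForm hw hM) n =
      (Real.exp (2 * Real.pi * n * t) * √t : ℝ) *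
        F.coef (Datum.ofFun w) (lev (n : ℤ)) 0 (2 * Real.pi * t) := by
  set d := Datum.ofFun w
  rw [ModularFormClass.qCoeff, ModularFormClass.qExpansion_coeff_eq_intervalIntegral
    (F.cuspForm hw hM) one_pos (one_mem_strictPeriods_Gamma1 M) n ht]
  simp only [Complex.ofReal_one, div_one, one_mul]
  have hk : 0 < 2 * Real.pi * t := by positivity
  have hqv : ∀ m, d.qv m = (quadR m : ℤ) := fun m ↦ by
    rw [Datum.qv, d.quad_vec, show d.r = 1 from rfl]; simp
  set c : ℂ := ((Real.exp (2 * Real.pi * n * t) * √t : ℝ) : ℂ)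
  have e : ∀ u : ℝ, (1 / Function.Periodic.qParam 1 ((u : ℂ) + t * Complex.I) ^ n) *
      F.fnC d ((u : ℂ) + t * Complex.I) =
      ∑' m, c * (Complex.exp (2 * Real.pi * Complex.I * ((quadR m - n : ℤ) : ℂ) * u) *
        F.term d 0 (2 * Real.pi * t) m) := by
    intro u
    have him : ((u : ℂ) + t * Complex.I).im = t := by simp
    have hre : ((u : ℂ) + t * Complex.I).re = u := by simp
    rw [fnC, fnS, him, ← mul_assoc, ← tsum_mul_left]
    refine tsum_congr fun m ↦ ?_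
    rw [sT, eX, him, hre, hqv, Function.Periodic.qParam, ← Complex.exp_nat_mul, one_div,
      ← Complex.exp_neg]
    simp only [c, Complex.ofReal_mul, Complex.ofReal_exp]
    push_cast
    have h1 : Complex.exp (-(n * (2 * Real.pi * Complex.I * ((u : ℂ) + t * Complex.I) / 1))) *
        Complex.exp (2 * Real.pi * Complex.I * (((quadR m : ℤ) : ℂ) * u)) =
        Complex.exp (2 * Real.pi * n * t) *
          Complex.exp (2 * Real.pi * Complex.I * (((quadR m : ℤ) : ℂ) - n) * u) := by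
      rw [← Complex.exp_add, ← Complex.exp_add]
      congr 1
      linear_combination (-(2 * Real.pi * n * t) : ℂ) * Complex.I_mul_I
    linear_combination ((√t : ℝ) : ℂ) * F.term d 0 (2 * Real.pi * t) m * h1
  have hsum : Summable fun m ↦ ‖F.term d 0 (2 * Real.pi * t) m‖ := by
    simpa using (F.summable_term d 0 hk Set.univ).norm
  calc ∫ u in (0 : ℝ)..1, 1 / Function.Periodic.qParam 1 ((u : ℂ) + t * Complex.I) ^ n *
        F.fnC d ((u : ℂ) + t * Complex.I)
      = ∑' m, ∫ u in (0 : ℝ)..1, c * (Complex.exp (2 * Real.pi * Complex.I *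
          ((quadR m - n : ℤ) : ℂ) * u) * F.term d 0 (2 * Real.pi * t) m) := by
        simp only [e, intervalIntegral.integral_of_le zero_le_one]
        refine integral_tsum (fun m ↦ Continuous.aestronglyMeasurable (by fun_prop)) ?_
        have hb : ∀ m, ∫⁻ u in Set.Ioc (0 : ℝ) 1, ‖c * (Complex.exp (2 * Real.pi * Complex.I *
            ((quadR m - n : ℤ) : ℂ) * u) * F.term d 0 (2 * Real.pi * t) m)‖ₑ ≤
            ENNReal.ofReal (‖c‖ * ‖F.term d 0 (2 * Real.pi * t) m‖) := fun m ↦ by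
          have en : ∀ u : ℝ, ‖c * (Complex.exp (2 * Real.pi * Complex.I *
              ((quadR m - n : ℤ) : ℂ) * u) * F.term d 0 (2 * Real.pi * t) m)‖ₑ =
              ENNReal.ofReal (‖c‖ * ‖F.term d 0 (2 * Real.pi * t) m‖) := fun u ↦ by
            rw [← ofReal_norm, norm_mul, norm_mul, Complex.norm_exp]
            simp
          simp only [en, setLIntegral_const, Real.volume_Ioc]
          simp
        refine ne_top_of_le_ne_top ?_ (ENNReal.tsum_le_tsum hb)
        rw [← ENNReal.ofReal_tsum_of_nonneg (fun m ↦ by positivity) (hsum.mul_left _)]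
        exact ENNReal.ofReal_ne_top
    _ = c * F.coef d (lev (n : ℤ)) 0 (2 * Real.pi * t) := by
        rw [coef, ← tsum_mul_left]
        refine tsum_congr fun m ↦ ?_
        rw [intervalIntegral.integral_const_mul, intervalIntegral.integral_mul_const,
          integral_exp_int]
        by_cases hm : quadR m = (n : ℤ)
        · rw [if_pos (sub_eq_zero.2 hm), one_mul,
            Set.indicator_of_mem (show m ∈ lev (n : ℤ) from hm)]
        · rw [if_neg (sub_ne_zero.2 hm), zero_mul,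
            Set.indicator_of_notMem (show m ∉ lev (n : ℤ) from hm)]

end Form

end FermatAgent.LT.Lift
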