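import Mathlib
import Fermat.Agent.LT.Lift.CuspLift

/-!
# The matrices of determinant `π` and the hermitian forms of determinant divisible by `p`
-/

set_option autoImplicit false

noncomputable section

open Matrix

namespace FermatAgent.LT.Lift

/-- A split prime. -/
structure SplitPrime (N : ℕ) where
  /-- the prime -/
  p : ℕ
  /-- a prime element above it -/
  π : EO
  prime : p.Prime
  ne_three : p ≠ 3
  norm_eq : π.norm = p
  coprime : p.Coprime N

namespace SplitPrime

variable {N : ℕ} (P : SplitPrime N)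

instance : Fact P.p.Prime := ⟨P.prime⟩

theorem im_ne_zero : (P.π.im : ZMod P.p) ≠ 0 := by
  intro h
  have hb := (ZMod.intCast_zmod_eq_zero_iff_dvd _ _).1 h
  have hn := P.norm_eq
  rw [QuadraticAlgebra.norm_def] at hn
  have ha : (P.p : ℤ) ∣ P.π.re * P.π.re := by
    obtain ⟨k, hk⟩ := hb
    exact ⟨1 + P.π.re * k - P.p * k * k, by rw [hk] at hn; linear_combination hn⟩
  have ha' : (P.p : ℤ) ∣ P.π.re :=
    ((Nat.prime_iff_prime_int.1 P.prime).dvd_or_dvd ha).elim id id
  obtain ⟨k, hk⟩ := hb
  obtain ⟨l, hl⟩ := ha'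
  have h2 : (P.p : ℤ) * (P.p * (l * l - l * k + k * k)) = (P.p : ℤ) * 1 := by
    rw [hk, hl] at hn; linear_combination hn
  have h3 := Int.eq_one_of_mul_eq_one_right (Int.natCast_nonneg _)
    (mul_left_cancel₀ (by exact_mod_cast P.prime.ne_zero) h2)
  exact P.prime.ne_one (by exact_mod_cast h3)

/-- The root. -/
def root : ZMod P.p := -(P.π.re : ZMod P.p) / (P.π.im : ZMod P.p)

theorem norm_mod : (P.π.re : ZMod P.p) ^ 2 - P.π.re * P.π.im + (P.π.im : ZMod P.p) ^ 2 = 0 := by
  have hn : ((P.π.norm : ℤ) : ZMod P.p) = ((P.p : ℤ) : ZMod P.p) := by rw [P.norm_eq]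
  rw [QuadraticAlgebra.norm_def] at hn
  push_cast at hn
  rw [ZMod.natCast_self] at hn
  linear_combination hn

theorem root_sq : P.root ^ 2 + P.root + 1 = 0 := by
  have h := P.im_ne_zero
  rw [root]
  field_simp
  linear_combination P.norm_mod

/-- Reduction modulo `π`. -/
def red : EO →+* ZMod P.p where
  toFun x := (x.re : ZMod P.p) + x.im * P.root
  map_one' := by simp [QuadraticAlgebra.re_one, QuadraticAlgebra.im_one]
  map_mul' x y := by
    simp only [QuadraticAlgebra.re_mul, QuadraticAlgebra.im_mul]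
    push_cast
    linear_combination (-(x.im : ZMod P.p) * y.im) * P.root_sq
  map_zero' := by simp
  map_add' x y := by simp; ring

theorem red_apply (x : EO) : P.red x = (x.re : ZMod P.p) + x.im * P.root := rfl

theorem red_pi : P.red P.π = 0 := by
  have h := P.im_ne_zero
  rw [red_apply, root]
  field_simp
  ring

theorem π_ne_zero : P.π ≠ 0 := fun h ↦ by
  have := P.norm_eq
  rw [h, QuadraticAlgebra.norm_zero] at this
  exact P.prime.ne_zero (by exact_mod_cast this.symm)

theorem embC_π_ne_zero : embC P.π ≠ 0 := fun h ↦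
  P.π_ne_zero (embC_injective (by rw [h, map_zero]))

theorem π_mul_star : P.π * star P.π = (P.p : EO) := by
  rw [← QuadraticAlgebra.algebraMap_norm_eq_mul_star, P.norm_eq]
  simp

theorem dvd_p (x : EO) : (P.p : EO) ∣ x ↔ (P.p : ℤ) ∣ x.re ∧ (P.p : ℤ) ∣ x.im := by
  refine ⟨fun ⟨y, hy⟩ ↦ ?_, fun ⟨⟨a, ha⟩, ⟨b, hb⟩⟩ ↦ ⟨⟨a, b⟩, ?_⟩⟩
  · subst hy; simp
  · ext <;> simp [ha, hb]

theorem red_eq_zero_iff (x : EO) : P.red x = 0 ↔ P.π ∣ x := by
  refine ⟨fun h ↦ ?_, fun ⟨y, hy⟩ ↦ by rw [hy, map_mul, P.red_pi, zero_mul]⟩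
  have hb := P.im_ne_zero
  have h' : (x.re : ZMod P.p) * P.π.im - x.im * P.π.re = 0 := by
    rw [red_apply, root] at h
    field_simp at h
    linear_combination h
  have h1 : (P.p : EO) ∣ x * star P.π := by
    rw [P.dvd_p]
    constructor <;> rw [← ZMod.intCast_zmod_eq_zero_iff_dvd]
    · simp only [QuadraticAlgebra.re_mul, QuadraticAlgebra.re_star, QuadraticAlgebra.im_star]
      push_cast
      refine (mul_eq_zero.1 ?_).resolve_right hb
      linear_combination ((P.π.re : ZMod P.p) - P.π.im) * h' + (x.im : ZMod P.p) * P.norm_mod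
    · simp only [QuadraticAlgebra.im_mul, QuadraticAlgebra.re_star, QuadraticAlgebra.im_star]
      push_cast
      linear_combination -h'
  obtain ⟨y, hy⟩ := h1
  refine ⟨y, mul_right_cancel₀ (b := star P.π) (fun h0 ↦ P.π_ne_zero ?_) ?_⟩
  · simpa using congrArg star h0
  · rw [hy, ← P.π_mul_star]; ring

theorem red_both (x : EO) (h : P.red x = 0) (h' : P.red (star x) = 0) : (P.p : EO) ∣ x := by
  have hd : (x.im : ZMod P.p) * (2 * P.root + 1) = 0 := by
    simp only [red_apply, QuadraticAlgebra.re_star, QuadraticAlgebra.im_star] at h h'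
    push_cast at h'
    linear_combination h - h'
  have hne : 2 * P.root + 1 ≠ 0 := fun h0 ↦ three_ne_zero_mod (p := P.p) P.ne_three (by
    linear_combination (-(2 * P.root + 1)) * h0 + 4 * P.root_sq)
  have him := (mul_eq_zero.1 hd).resolve_right hne
  have hre : (x.re : ZMod P.p) = 0 := by rw [red_apply, him, zero_mul, add_zero] at h; exact h
  exact (P.dvd_p x).2 ⟨(ZMod.intCast_zmod_eq_zero_iff_dvd _ _).1 hre,
    (ZMod.intCast_zmod_eq_zero_iff_dvd _ _).1 him⟩

theorem coprime_red (a : ℕ) : P.red (a : EO) = (a : ZMod P.p) := map_natCast _ _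

/-- The representatives. -/
def rep : Option (Fin P.p) → Matrix (Fin 2) (Fin 2) EO
  | some b => !![1, ((b : ℕ) : EO); 0, P.π]
  | none => !![P.π, 0; 0, 1]

theorem det_rep (i : Option (Fin P.p)) : (P.rep i).det = P.π := by
  cases i <;> simp [rep, det_fin_two]

/-- The set of integral matrices of determinant `π` up to units. -/
def Delta : Type := {M : Matrix (Fin 2) (Fin 2) EO // Associated M.det P.π}

/-- `M α_i⁻¹` is integral. -/
def Line (x y : ZMod P.p) : Option (Fin P.p) → Prop
  | some b => y = ((b : ℕ) : ZMod P.p) * x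
  | none => x = 0

theorem exists_unique_line {u v : ZMod P.p × ZMod P.p} (hdet : u.1 * v.2 - v.1 * u.2 = 0)
    (hne : u ≠ 0 ∨ v ≠ 0) :
    ∃! i, P.Line u.1 v.1 i ∧ P.Line u.2 v.2 i := by
  by_cases hu : u = 0
  · refine ⟨none, ⟨by simp [Line, hu], by simp [Line, hu]⟩, fun i hi ↦ ?_⟩
    cases i with
    | none => rfl
    | some b =>
      exfalso
      simp only [Line, hu, Prod.fst_zero, Prod.snd_zero, mul_zero] at hi
      exact (hne.resolve_left (not_not.2 hu)) (Prod.ext hi.1 hi.2)
  · obtain ⟨c, hc1, hc2⟩ : ∃ c, v.1 = c * u.1 ∧ v.2 = c * u.2 := by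
      by_cases h1 : u.1 = 0
      · have h2 : u.2 ≠ 0 := fun h2 ↦ hu (Prod.ext h1 h2)
        refine ⟨v.2 / u.2, ?_, by field_simp⟩
        rw [h1, mul_zero]
        rw [h1, zero_mul, zero_sub, neg_eq_zero, mul_eq_zero] at hdet
        exact hdet.resolve_right h2
      · refine ⟨v.1 / u.1, by field_simp, ?_⟩
        field_simp
        linear_combination hdet
    refine ⟨some ⟨c.val, ZMod.val_lt c⟩, ⟨by simp [Line, hc1], by simp [Line, hc2]⟩, fun i hi ↦ ?_⟩
    cases i with
    | none => exact absurd (Prod.ext (show u.1 = 0 from hi.1) (show u.2 = 0 from hi.2)) hu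
    | some b =>
      simp only [Line] at hi
      have hb : ((b : ℕ) : ZMod P.p) = c := by
        by_cases h1 : u.1 = 0
        · have h2 : u.2 ≠ 0 := fun h2 ↦ hu (Prod.ext h1 h2)
          exact (mul_right_cancel₀ h2 (hc2.symm.trans hi.2)).symm
        · exact (mul_right_cancel₀ h1 (hc1.symm.trans hi.1)).symm
      congr 1
      apply Fin.ext
      show (b : ℕ) = c.val
      rw [← hb, ZMod.val_natCast, Nat.mod_eq_of_lt b.isLt]

theorem exists_mul_rep (M : Matrix (Fin 2) (Fin 2) EO) (i : Option (Fin P.p)) :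
    (∃ X : Matrix (Fin 2) (Fin 2) EO, M = X * P.rep i) ↔
      P.Line (P.red (M 0 0)) (P.red (M 0 1)) i ∧ P.Line (P.red (M 1 0)) (P.red (M 1 1)) i := by
  cases i with
  | some b =>
    constructor
    · rintro ⟨X, rfl⟩
      constructor <;> simp [Line, rep, Matrix.mul_apply, Fin.sum_univ_two, P.red_pi, mul_comm]
    · rintro ⟨h0, h1⟩
      simp only [Line] at h0 h1
      obtain ⟨a, ha⟩ := (P.red_eq_zero_iff (M 0 1 - ((b : ℕ) : EO) * M 0 0)).1
        (by rw [map_sub, map_mul, P.coprime_red, h0, sub_self])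
      obtain ⟨c, hc⟩ := (P.red_eq_zero_iff (M 1 1 - ((b : ℕ) : EO) * M 1 0)).1
        (by rw [map_sub, map_mul, P.coprime_red, h1, sub_self])
      refine ⟨!![M 0 0, a; M 1 0, c], ?_⟩
      ext i j : 1
      fin_cases i <;> fin_cases j <;> simp [rep, Matrix.mul_apply, Fin.sum_univ_two]
      · linear_combination ha
      · linear_combination hc
  | none =>
    constructor
    · rintro ⟨X, rfl⟩
      constructor <;> simp [Line, rep, Matrix.mul_apply, Fin.sum_univ_two, P.red_pi]
    · rintro ⟨h0, h1⟩
      obtain ⟨a, ha⟩ := (P.red_eq_zero_iff (M 0 0)).1 h0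
      obtain ⟨c, hc⟩ := (P.red_eq_zero_iff (M 1 0)).1 h1
      refine ⟨!![a, M 0 1; c, M 1 1], ?_⟩
      ext i j : 1
      fin_cases i <;> fin_cases j <;> simp [rep, Matrix.mul_apply, Fin.sum_univ_two]
      · linear_combination ha
      · linear_combination hc

theorem existsUnique_rep (M : P.Delta) :
    ∃! i, ∃ X : Matrix (Fin 2) (Fin 2) EO, M.1 = X * P.rep i := by
  have hd : P.red M.1.det = 0 := by
    obtain ⟨u, hu⟩ := M.2.symm
    rw [← hu, map_mul, P.red_pi, zero_mul]
  rw [det_fin_two, map_sub, map_mul, map_mul] at hd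
  have h := P.exists_unique_line (u := (P.red (M.1 0 0), P.red (M.1 1 0)))
    (v := (P.red (M.1 0 1), P.red (M.1 1 1))) hd ?_
  · simp only [P.exists_mul_rep]
    exact h
  · by_contra h0
    rw [not_or, not_not, not_not, Prod.ext_iff, Prod.ext_iff] at h0
    obtain ⟨a, ha⟩ := (P.red_eq_zero_iff _).1 h0.1.1
    obtain ⟨b, hb⟩ := (P.red_eq_zero_iff _).1 h0.1.2
    obtain ⟨c, hc⟩ := (P.red_eq_zero_iff _).1 h0.2.1
    obtain ⟨e, he⟩ := (P.red_eq_zero_iff _).1 h0.2.2
    obtain ⟨u, hu⟩ := M.2
    have h1 : (P.π * ((a * e - c * b) * (u : EO))) = 1 := mul_left_cancel₀ P.π_ne_zero (by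
      rw [det_fin_two, ha, hb, hc, he] at hu
      linear_combination hu)
    have := congrArg P.red h1
    rw [map_mul, P.red_pi, zero_mul, map_one] at this
    exact zero_ne_one this

/-- Right translates of the representatives. -/
def right (x : GO × Option (Fin P.p)) : P.Delta :=
  ⟨x.1.val * P.rep x.2, by
    rw [det_mul, P.det_rep]
    exact associated_unit_mul_left _ _ ((Matrix.isUnit_iff_isUnit_det _).1 x.1.isUnit)⟩

theorem right_bijective : Function.Bijective P.right := by
  constructor
  · intro x y h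
    have h' : x.1.val * P.rep x.2 = y.1.val * P.rep y.2 := congrArg Subtype.val h
    have hi : x.2 = y.2 := (P.existsUnique_rep (P.right x)).unique
      ⟨x.1.val, rfl⟩ ⟨y.1.val, h'⟩
    refine Prod.ext (Units.ext ?_) hi
    rw [← hi] at h'
    have := congrArg (fun X ↦ X * (P.rep x.2).adjugate) h'
    simp only [Matrix.mul_assoc, Matrix.mul_adjugate, P.det_rep, Matrix.mul_smul, Matrix.mul_one]
      at this
    ext i j : 1
    have e := congrFun (congrFun this i) j
    simp only [Matrix.smul_apply, smul_eq_mul] at e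
    exact mul_left_cancel₀ P.π_ne_zero e
  · intro M
    obtain ⟨i, ⟨X, hX⟩, -⟩ := P.existsUnique_rep M
    have hu : IsUnit X := by
      rw [Matrix.isUnit_iff_isUnit_det]
      have h := M.2
      rw [hX, det_mul, P.det_rep] at h
      obtain ⟨u, hu⟩ := h
      exact IsUnit.of_mul_eq_one (u : EO) (mul_left_cancel₀ P.π_ne_zero (by linear_combination hu))
    obtain ⟨γ, hγ⟩ := hu
    exact ⟨(γ, i), Subtype.ext (by rw [hX, ← hγ]; rfl)⟩

/-- Transposition in `GO`. -/
def transGO (γ : GO) : GO :=
  ⟨γ.valᵀ, (γ⁻¹ : GO).valᵀ, by rw [← transpose_mul, ← Units.val_mul, inv_mul_cancel]; simp,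
    by rw [← transpose_mul, ← Units.val_mul, mul_inv_cancel]; simp⟩

/-- Transposed representatives. -/
def rep' (i : Option (Fin P.p)) : Matrix (Fin 2) (Fin 2) EO := (P.rep i)ᵀ

/-- Left translates of the transposed representatives. -/
def left (x : Option (Fin P.p) × GO) : P.Delta :=
  ⟨P.rep' x.1 * x.2.val, by
    rw [det_mul, rep', det_transpose, P.det_rep]
    exact associated_mul_unit_left _ _ ((Matrix.isUnit_iff_isUnit_det _).1 x.2.isUnit)⟩

theorem left_bijective : Function.Bijective P.left := by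
  let tr : P.Delta → P.Delta := fun M ↦ ⟨M.1ᵀ, by rw [det_transpose]; exact M.2⟩
  have htr : Function.Bijective tr :=
    Function.Involutive.bijective fun M ↦ Subtype.ext (transpose_transpose _)
  have e : P.left = fun x ↦ tr (P.right (transGO x.2, x.1)) := funext fun x ↦ Subtype.ext (by
    simp [left, tr, right, rep', transGO, transpose_mul])
  rw [e]
  have hs : Function.Bijective fun x : Option (Fin P.p) × GO ↦ (transGO x.2, x.1) := by
    refine Function.bijective_iff_has_inverse.2 ⟨fun y ↦ (y.2, transGO y.1), fun x ↦ ?_, fun y ↦ ?_⟩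
    · exact Prod.ext rfl (Units.ext (transpose_transpose _))
    · exact Prod.ext (Units.ext (transpose_transpose _)) rfl
  exact htr.comp (P.right_bijective.comp hs)

theorem isUnit_red_pi : IsUnit (redO N P.π) := by
  have h : IsUnit ((P.p : ZMod N)) := (ZMod.isUnit_iff_coprime P.p N).2 P.coprime
  have h' : IsUnit (redO N (P.p : EO)) := by
    rw [map_natCast]
    have := h.map (algebraMap (ZMod N) (EMod N))
    simpa using this
  rw [← P.π_mul_star, map_mul, IsUnit.mul_iff] at h'
  exact h'.1

theorem isUnit_red_det (M : P.Delta) : IsUnit (M.1.map (redO N)).det := by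
  rw [show (M.1.map (redO N)).det = redO N M.1.det from (RingHom.map_det (redO N) M.1).symm]
  obtain ⟨u, hu⟩ := M.2.symm
  rw [← hu, map_mul]
  exact P.isUnit_red_pi.mul (u.isUnit.map _)

/-- The complex matrix of an element of `Delta`. -/
def dC (M : P.Delta) : GL (Fin 2) ℂ :=
  GeneralLinearGroup.mkOfDetNeZero (M.1.map embC) (by
    rw [show (M.1.map embC).det = embC M.1.det from (RingHom.map_det embC M.1).symm]
    obtain ⟨u, hu⟩ := M.2.symm
    rw [← hu, map_mul]
    exact mul_ne_zero P.embC_π_ne_zero (u.isUnit.map embC).ne_zero)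

/-- The residue matrix of an element of `Delta`. -/
def dN (M : P.Delta) : GN N :=
  GeneralLinearGroup.mk'' (M.1.map (redO N)) (P.isUnit_red_det M)

theorem norm_det_dC (M : P.Delta) : ‖(P.dC M).val.det‖ = √(P.p : ℝ) := by
  show ‖(M.1.map embC).det‖ = _
  rw [show (M.1.map embC).det = embC M.1.det from (RingHom.map_det embC M.1).symm]
  obtain ⟨u, hu⟩ := M.2.symm
  rw [← hu, map_mul, norm_mul, ← Real.sqrt_sq (norm_nonneg (embC P.π)),
    ← Complex.normSq_eq_norm_sq, normSq_embC, P.norm_eq]
  have h1 : (u : EO).norm = 1 := by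
    rcases Int.isUnit_iff.1 (QuadraticAlgebra.isUnit_iff_norm_isUnit.1 u.isUnit) with h | h
    · exact h
    · have := norm_nonneg' (u : EO); omega
  rw [← Real.sqrt_sq (norm_nonneg (embC (u : EO))), ← Complex.normSq_eq_norm_sq, normSq_embC, h1]
  simp

theorem dC_right (γ : GO) (i : Option (Fin P.p)) :
    P.dC (P.right (γ, i)) = toC γ * P.dC (P.right (1, i)) := by
  apply Units.ext
  show (γ.val * P.rep i).map embC = γ.val.map embC * ((1 : GO).val * P.rep i).map embC
  rw [Units.val_one, Matrix.one_mul, Matrix.map_mul]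

theorem dN_right (γ : GO) (i : Option (Fin P.p)) :
    P.dN (P.right (γ, i)) = toN N γ * P.dN (P.right (1, i)) := by
  apply Units.ext
  show (γ.val * P.rep i).map (redO N) = γ.val.map (redO N) * ((1 : GO).val * P.rep i).map (redO N)
  rw [Units.val_one, Matrix.one_mul, Matrix.map_mul]

theorem dC_left (i : Option (Fin P.p)) (γ : GO) :
    P.dC (P.left (i, γ)) = P.dC (P.left (i, 1)) * toC γ := by
  apply Units.ext
  show (P.rep' i * γ.val).map embC = (P.rep' i * (1 : GO).val).map embC * γ.val.map embC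
  rw [Units.val_one, Matrix.mul_one, Matrix.map_mul]

theorem dN_left (i : Option (Fin P.p)) (γ : GO) :
    P.dN (P.left (i, γ)) = P.dN (P.left (i, 1)) * toN N γ := by
  apply Units.ext
  show (P.rep' i * γ.val).map (redO N) = (P.rep' i * (1 : GO).val).map (redO N) * γ.val.map (redO N)
  rw [Units.val_one, Matrix.mul_one, Matrix.map_mul]

/-- The action of an integral matrix on vectors. -/
def actM (M : Matrix (Fin 2) (Fin 2) EO) (m : Fin 4 → ℤ) : Fin 4 → ℤ :=
  unhermR (M * hermR m * Mᴴ)

theorem hermR_actM (M : Matrix (Fin 2) (Fin 2) EO) (m : Fin 4 → ℤ) :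
    hermR (actM M m) = M * hermR m * Mᴴ := by
  ext i j <;> fin_cases i <;> fin_cases j <;>
    simp [hermR, unhermR, actM, Matrix.mul_apply, Fin.sum_univ_two, Matrix.conjTranspose_apply]
      <;> ring

theorem quadR_actM (M : P.Delta) (m : Fin 4 → ℤ) : quadR (actM M.1 m) = P.p * quadR m := by
  have h := det_hermR (actM M.1 m)
  rw [hermR_actM, det_mul, det_mul, det_conjTranspose, det_hermR] at h
  rw [mul_right_comm, ← QuadraticAlgebra.algebraMap_norm_eq_mul_star] at h
  have hn : M.1.det.norm = P.p := by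
    obtain ⟨u, hu⟩ := M.2.symm
    rw [← hu, map_mul, P.norm_eq]
    rcases Int.isUnit_iff.1 (QuadraticAlgebra.isUnit_iff_norm_isUnit.1 u.isUnit) with h | h
    · rw [h, mul_one]
    · have := norm_nonneg' (u : EO); omega
  rw [hn] at h
  have := congrArg QuadraticAlgebra.re h
  simp at this
  linarith

theorem redV_actM (M : P.Delta) (m : Fin 4 → ℤ) :
    redV N (actM M.1 m) = actR (P.dN M) (redV N m) := by
  funext i
  show ((actM M.1 m i : ℤ) : ZMod N) = _
  have hv : (P.dN M).val = M.1.map (redO N) := rfl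
  fin_cases i <;>
    simp [actM, actR, unhermR, hermR, redV, hv, redO, Matrix.mul_apply,
      Fin.sum_univ_two, Matrix.conjTranspose_apply]

theorem actV_dC (M : P.Delta) (m : Fin 4 → ℤ) :
    actV (P.dC M) (realV m) = (√(P.p : ℝ))⁻¹ • realV (actM M.1 m) := by
  have e : hermV (realV (actM M.1 m)) = (P.dC M).val * hermV (realV m) * (P.dC M).valᴴ := by
    rw [hermV_realV, hermV_realV, hermR_actM, Matrix.map_mul, Matrix.map_mul]
    congr 1
    ext i j
    simp [dC, Matrix.conjTranspose_apply, embC_star]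
  rw [← unherm_hermV ((√(P.p : ℝ))⁻¹ • realV (actM M.1 m)), hermV_smul, e, actV, conjAct,
    P.norm_det_dC]

open Classical in
/-- The number of transposed representatives `β` with `m'` in the image of `β`. -/
theorem sum_rep_count {n : ℤ} (m' : Fin 4 → ℤ) (hm' : quadR m' = P.p * n) :
    ∑ i : Option (Fin P.p), (if ∃ m, quadR m = n ∧ actM (P.rep' i) m = m' then (1 : ℂ) else 0) =
      1 + (P.p : ℂ) * (if ∀ j, (P.p : ℤ) ∣ m' j then 1 else 0) := by
  set b01 : EO := ⟨m' 2, m' 3⟩
  set M00 : ZMod P.p := (m' 0 : ZMod P.p)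
  set M11 : ZMod P.p := (m' 1 : ZMod P.p)
  set M01 := P.red b01
  set M10 := P.red (star b01)
  have hdet : M00 * M11 - M10 * M01 = 0 := by
    have h := congrArg P.red (QuadraticAlgebra.algebraMap_norm_eq_mul_star b01)
    have hn : b01.norm = m' 0 * m' 1 + P.p * n := by
      rw [← hm', QuadraticAlgebra.norm_def]; simp [b01, quadR]; ring
    rw [map_mul, hn] at h
    simp [red_apply, M01, M10, M00, M11] at h ⊢
    linear_combination h
  have key : ∀ i, (∃ m, quadR m = n ∧ actM (P.rep' i) m = m') ↔
      P.Line M00 M10 i ∧ P.Line M01 M11 i := by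
    intro i
    constructor
    · rintro ⟨m, -, rfl⟩
      cases i with
      | some b =>
        have e1 : b01 = (⟨m 0, 0⟩ : EO) * ((b : ℕ) : EO) + (⟨m 2, m 3⟩ : EO) * star P.π := by
          ext <;> simp [b01, actM, rep', rep, unhermR, hermR, Matrix.mul_apply, Fin.sum_univ_two,
            Matrix.conjTranspose_apply]
        have e0 : (m 0) = actM (P.rep' (some b)) m 0 := by
          simp [actM, rep', rep, unhermR, hermR, Matrix.mul_apply, Fin.sum_univ_two,
            Matrix.conjTranspose_apply]
        constructor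
        · show M10 = _
          simp only [M10, M00, e1, star_add, star_mul', star_star, ← e0, map_add, map_mul,
            P.red_pi, mul_zero, add_zero, star_natCast, P.coprime_red]
          simp [red_apply, mul_comm]
        · show M11 = _
          have e2 : (⟨actM (P.rep' (some b)) m 1, 0⟩ : EO) =
              ((b : ℕ) : EO) * b01 + P.π * (star (⟨m 2, m 3⟩ : EO) * ((b : ℕ) : EO) +
                (⟨m 1, 0⟩ : EO) * star P.π) := by
            rw [e1]
            ext <;> simp [actM, rep', rep, unhermR, hermR, Matrix.mul_apply, Fin.sum_univ_two,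
              Matrix.conjTranspose_apply] <;> ring
          have := congrArg P.red e2
          simp only [map_add, map_mul, P.red_pi, zero_mul, add_zero, P.coprime_red] at this
          simpa [red_apply, M11, M01] using this
      | none =>
        constructor
        · show M00 = 0
          have e : (⟨actM (P.rep' none) m 0, 0⟩ : EO) = P.π * ((⟨m 0, 0⟩ : EO) * star P.π) := by
            ext <;> simp [actM, rep', rep, unhermR, hermR, Matrix.mul_apply, Fin.sum_univ_two,
              Matrix.conjTranspose_apply] <;> ring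
          have := congrArg P.red e
          simp only [map_mul, P.red_pi, zero_mul] at this
          simpa [red_apply, M00] using this
        · show M01 = 0
          have e : b01 = P.π * (⟨m 2, m 3⟩ : EO) := by
            ext <;> simp [b01, actM, rep', rep, unhermR, hermR, Matrix.mul_apply, Fin.sum_univ_two,
              Matrix.conjTranspose_apply]
          simp [M01, e, P.red_pi]
    · intro hi
      suffices ∃ m, actM (P.rep' i) m = m' by
        obtain ⟨m, hm⟩ := this
        refine ⟨m, ?_, hm⟩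
        have h := P.quadR_actM (P.left (i, 1)) m
        rw [show (P.left (i, 1)).1 = P.rep' i from Matrix.mul_one _, hm, hm'] at h
        exact (mul_left_cancel₀ (by exact_mod_cast P.prime.ne_zero) h).symm
      cases i with
      | some b =>
        obtain ⟨h0, h1⟩ := hi
        simp only [Line] at h0 h1
        obtain ⟨c, hc⟩ := (P.red_eq_zero_iff (star b01 - ((b : ℕ) : EO) * (⟨m' 0, 0⟩ : EO))).1 (by
          rw [map_sub, map_mul, P.coprime_red, show P.red (⟨m' 0, 0⟩ : EO) = M00 by
            simp [red_apply, M00]]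
          rw [show P.red (star b01) = M10 from rfl, h0, sub_self])
        set x : ℤ := m' 1 - (b : ℕ) * (2 * m' 2 - m' 3) + (b : ℕ) ^ 2 * m' 0
        obtain ⟨e, he⟩ : (P.p : ℤ) ∣ x := by
          rw [← ZMod.intCast_zmod_eq_zero_iff_dvd]
          have hs : M01 + M10 = 2 * (m' 2 : ZMod P.p) - (m' 3 : ZMod P.p) := by
            simp [M01, M10, red_apply, b01]; ring
          simp only [x]
          push_cast
          linear_combination h1 - ((b : ℕ) : ZMod P.p) * h0 + ((b : ℕ) : ZMod P.p) * hs
        refine ⟨![m' 0, e, (star c).re, (star c).im], ?_⟩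
        have hc0 := congrArg QuadraticAlgebra.re hc
        have hc1 := congrArg QuadraticAlgebra.im hc
        simp [b01] at hc0 hc1
        have hp : (P.p : ℤ) = P.π.re * P.π.re - P.π.re * P.π.im + P.π.im * P.π.im := by
          rw [← P.norm_eq, QuadraticAlgebra.norm_def]; ring
        funext j
        fin_cases j <;> simp [actM, rep', rep, unhermR, hermR, Matrix.mul_apply, Fin.sum_univ_two,
          Matrix.conjTranspose_apply]
        · simp only [x] at he
          linear_combination -he + (-2 * ((b : ℕ) : ℤ)) * hc0 + ((b : ℕ) : ℤ) * hc1 - e * hp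
        · linear_combination -hc0 + hc1
        · linear_combination hc1
      | none =>
        obtain ⟨h0, h1⟩ := hi
        obtain ⟨e, he⟩ := (ZMod.intCast_zmod_eq_zero_iff_dvd (m' 0) P.p).1 h0
        obtain ⟨c, hc⟩ := (P.red_eq_zero_iff b01).1 h1
        refine ⟨![e, m' 1, c.re, c.im], ?_⟩
        have hc0 := congrArg QuadraticAlgebra.re hc
        have hc1 := congrArg QuadraticAlgebra.im hc
        simp [b01] at hc0 hc1
        have hp : (P.p : ℤ) = P.π.re * P.π.re - P.π.re * P.π.im + P.π.im * P.π.im := by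
          rw [← P.norm_eq, QuadraticAlgebra.norm_def]; ring
        funext j
        fin_cases j <;> simp [actM, rep', rep, unhermR, hermR, Matrix.mul_apply, Fin.sum_univ_two,
          Matrix.conjTranspose_apply]
        · linear_combination -he - e * hp
        · linear_combination -hc0
        · linear_combination -hc1
  have hall : (∀ j, (P.p : ℤ) ∣ m' j) ↔ M00 = 0 ∧ M10 = 0 ∧ M01 = 0 ∧ M11 = 0 := by
    constructor
    · intro h
      have h' : ∀ j, (m' j : ZMod P.p) = 0 := fun j ↦
        (ZMod.intCast_zmod_eq_zero_iff_dvd _ _).2 (h j)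
      simp [M00, M11, M01, M10, red_apply, b01, h']
    · rintro ⟨a0, a10, a01, a1⟩
      obtain ⟨hr, hi⟩ := (P.dvd_p b01).1 (P.red_both b01 a01 a10)
      intro j
      fin_cases j
      · exact (ZMod.intCast_zmod_eq_zero_iff_dvd _ _).1 a0
      · exact (ZMod.intCast_zmod_eq_zero_iff_dvd _ _).1 a1
      · exact hr
      · exact hi
  simp only [key]
  by_cases hz : ∀ j, (P.p : ℤ) ∣ m' j
  · obtain ⟨a0, a10, a01, a1⟩ := hall.1 hz
    rw [if_pos hz, Finset.sum_congr rfl fun i _ ↦ if_pos (show P.Line M00 M10 i ∧ P.Line M01 M11 i by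
      cases i <;> simp [Line, a0, a10, a01, a1])]
    simp [add_comm]
  · rw [if_neg hz, mul_zero, add_zero]
    obtain ⟨i, hi, hu⟩ := P.exists_unique_line (u := (M00, M01)) (v := (M10, M11)) hdet (by
      by_contra h0
      rw [not_or, not_not, not_not, Prod.ext_iff, Prod.ext_iff] at h0
      exact hz (hall.2 ⟨h0.1.1, h0.2.1, h0.1.2, h0.2.2⟩))
    rw [Finset.sum_eq_single i (fun j _ hj ↦ if_neg fun h ↦ hj (hu j h)) (by simp), if_pos hi]

end SplitPrime

end FermatAgent.LT.Lift
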