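import Mathlib
import Fermat.Agent.LT.Lift.HeckeCosets

/-!
# The Hecke relation of the coefficient functions
-/

set_option autoImplicit false

noncomputable section

open MeasureTheory
open scoped ENNReal NNReal

namespace FermatAgent.LT.Lift

theorem kern_scale (k s : ℝ) (V : Fin 4 → ℝ) (p : H3) : kern k (s • V) p = kern (s ^ 2 * k) V p := by
  have : maj (s • V) p = s ^ 2 * maj V p := by
    simp only [maj_eq, Pi.smul_apply, smul_eq_mul]; ring
  rw [kern, kern, this]
  congr 1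
  ring

theorem realV_smul (a : ℤ) (m : Fin 4 → ℤ) : realV (a • m) = (a : ℝ) • realV m := by
  funext i; simp [realV]

theorem summable_prod_fintype {ι κ : Type*} [Fintype ι] {f : ι × κ → ℂ}
    (h : ∀ i, Summable fun k ↦ f (i, k)) : Summable f :=
  Summable.of_norm ((summable_prod_of_nonneg fun _ ↦ norm_nonneg _).2
    ⟨fun i ↦ (h i).norm, Summable.of_finite⟩)

namespace Form

variable {N : ℕ} [NeZero N] (F : Form N) (P : SplitPrime N)

/-- An eigenform for the Hecke operator of `π`. -/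
def IsEigen (ev : ℂ) : Prop :=
  ∀ (Q : H3) (h : GN N), ∑ i : Option (Fin P.p),
    F.φ (P.dC (P.right (1, i)) • Q) (P.dN (P.right (1, i)) * h) = ev * F.φ Q h

/-- The sum over a level. -/
def serL (d : Datum N) (n : ℤ) (k : ℝ) (h : GN N) (p : H3) : ℂ :=
  ∑' m, (lev n).indicator (d.W h) m * (kern k (d.vec m) p : ℂ)

theorem summable_serL (d : Datum N) (n : ℤ) {k : ℝ} (hk : 0 < k) (h : GN N) (p : H3) :
    Summable fun m ↦ (lev n).indicator (d.W h) m * (kern k (d.vec m) p : ℂ) := by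
  obtain ⟨B, hB0, hB⟩ := d.exists_bound
  have him : (0 : ℝ) < (Complex.I * (k / (2 * Real.pi) : ℝ)).im := by
    rw [Complex.mul_im, Complex.ofReal_im, Complex.ofReal_re]
    simp only [Complex.I_re, zero_mul, Complex.I_im, one_mul, zero_add]
    positivity
  refine Summable.of_norm_bounded ((summable_gterm him p d.r_pos).mul_left B) fun m ↦ ?_
  rw [← kern_eq_norm_gterm, norm_mul, Complex.norm_real, Real.norm_of_nonneg (kern_pos _ _ _).le,
    ← d.vec_eq]
  exact mul_le_mul_of_nonneg_right ((norm_indicator_le_norm_self _ m).trans (hB h m))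
    (kern_pos _ _ _).le

omit [NeZero N] in
theorem serL_smul (d : Datum N) (n : ℤ) (k : ℝ) (γ : GO) (h : GN N) (p : H3) :
    serL d n k (toN N γ * h) (γ • p) = serL d n k h p := by
  rw [serL, serL, ← (actEquiv γ).tsum_eq]
  refine tsum_congr fun m ↦ ?_
  show (lev n).indicator (d.W _) (actR γ m) * ((kern k (d.vec (actR γ m)) _ : ℝ) : ℂ) = _
  rw [← d.actV_vec, smul_def', kern_smul]
  congr 1
  by_cases hm : m ∈ lev n
  · rw [Set.indicator_of_mem hm, Set.indicator_of_mem (stable_lev n γ m hm), d.equivariant]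
  · rw [Set.indicator_of_notMem hm,
      Set.indicator_of_notMem (mt ((stable_lev n).mem_iff γ m).1 hm)]

theorem measurable_serL (d : Datum N) (n : ℤ) {k : ℝ} (hk : 0 < k) (h : GN N) :
    Measurable (serL d n k h) :=
  measurable_of_tendsto_metrizable' (ι := Finset (Fin 4 → ℤ)) Filter.atTop
    (fun s ↦ Finset.measurable_fun_sum s fun _ _ ↦
      measurable_const.mul (Complex.measurable_ofReal.comp (continuous_kern k _).measurable))
    (tendsto_pi_nhds.2 fun z ↦ (summable_serL d n hk h z).hasSum)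

omit [NeZero N] in
theorem norm_serL_le (d : Datum N) (n : ℤ) {k : ℝ} (_hk : 0 < k) {B : ℝ}
    (hB : ∀ h m, ‖d.W h m‖ ≤ B) (h : GN N) (p : H3) :
    ‖serL d n k h p‖ₑ ≤ ∑' m, ENNReal.ofReal B *
      ENNReal.ofReal (kern k ((1 / (d.r : ℝ)) • realV m) p) := by
  refine enorm_tsum_le_tsum_enorm.trans (ENNReal.tsum_le_tsum fun m ↦ ?_)
  rw [← ofReal_norm, norm_mul, Complex.norm_real, Real.norm_of_nonneg (kern_pos _ _ _).le,
    ← ENNReal.ofReal_mul' (kern_pos _ _ _).le, ← d.vec_eq]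
  exact ENNReal.ofReal_le_ofReal
    (mul_le_mul_of_nonneg_right ((norm_indicator_le_norm_self _ m).trans (hB h m))
      (kern_pos _ _ _).le)

theorem coef_eq_integral (d : Datum N) (n : ℤ) {k : ℝ} (hk : 0 < k) :
    F.coef d (lev n) 0 k = ∑ h, ∫ p, (wR p : ℂ) * (F.φ p h * serL d n k h p) := by
  obtain ⟨C, hC0, hC⟩ := F.exists_bound
  obtain ⟨B, hB0, hB⟩ := d.exists_bound
  have e : ∀ h m p, (wR p : ℂ) * (F.φ p h * ((lev n).indicator (d.W h) m *
      (kern k (d.vec m) p : ℂ))) = (lev n).indicator (d.W h) m * F.momI d 0 k h m p := fun h m p ↦ by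
    simp only [momI, pow_zero, one_mul]
    push_cast
    ring
  have hn : ∀ h m, ∫⁻ p, ‖(wR p : ℂ) * (F.φ p h * ((lev n).indicator (d.W h) m *
      (kern k (d.vec m) p : ℂ)))‖ₑ ≤ ENNReal.ofReal (B * C) * mass d.r k m := fun h m ↦ by
    rw [mass, ← lintegral_const_mul' _ _ ENNReal.ofReal_ne_top]
    refine lintegral_mono fun p ↦ ?_
    rw [← ofReal_norm, norm_mul, norm_mul, norm_mul, Complex.norm_real,
      Real.norm_of_nonneg (wR_nonneg p), Complex.norm_real,
      Real.norm_of_nonneg (kern_pos _ _ _).le, ← ofReal_wR, ← ENNReal.ofReal_mul (wR_nonneg p),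
      ← ENNReal.ofReal_mul (mul_nonneg hB0 hC0), d.vec_eq]
    refine ENNReal.ofReal_le_ofReal ?_
    calc wR p * (‖F.φ p h‖ * (‖(lev n).indicator (d.W h) m‖ *
          kern k ((1 / (d.r : ℝ)) • realV m) p))
        ≤ wR p * (C * (B * kern k ((1 / (d.r : ℝ)) • realV m) p)) :=
          mul_le_mul_of_nonneg_left (mul_le_mul (hC p h)
            (mul_le_mul_of_nonneg_right ((norm_indicator_le_norm_self _ m).trans (hB h m))
              (kern_pos _ _ _).le)
            (mul_nonneg (norm_nonneg _) (kern_pos _ _ _).le) hC0) (wR_nonneg p)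
      _ = _ := by ring
  have hne : ∀ h, ∑' m, ∫⁻ p, ‖(wR p : ℂ) * (F.φ p h * ((lev n).indicator (d.W h) m *
      (kern k (d.vec m) p : ℂ)))‖ₑ ≠ ⊤ :=
    fun h ↦ ne_top_of_le_ne_top (ENNReal.mul_ne_top ENNReal.ofReal_ne_top
      (tsum_mass_ne_top d.r_pos hk)) ((ENNReal.tsum_le_tsum (hn h)).trans ENNReal.tsum_mul_left.le)
  have hh : ∀ h, ∫ p, (wR p : ℂ) * (F.φ p h * serL d n k h p) =
      ∑' m, (lev n).indicator (d.W h) m * F.mom d 0 k h m := fun h ↦ by
    simp only [serL, ← tsum_mul_left]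
    rw [integral_tsum (fun m ↦ by
      simp only [e]
      exact ((F.integrable_momI d 0 hk h m).const_mul _).aestronglyMeasurable) (hne h)]
    refine tsum_congr fun m ↦ ?_
    simp only [e, integral_const_mul, mom]
  have hsm : ∀ h, Summable fun m ↦ (lev n).indicator (d.W h) m * F.mom d 0 k h m := fun h ↦ by
    refine Summable.of_norm_bounded (ENNReal.summable_toReal (hne h)) fun m ↦ ?_
    have : (lev n).indicator (d.W h) m * F.mom d 0 k h m = ∫ p, (wR p : ℂ) * (F.φ p h *
        ((lev n).indicator (d.W h) m * (kern k (d.vec m) p : ℂ))) := by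
      simp only [e, integral_const_mul, mom]
    rw [this, ← toReal_enorm]
    exact ENNReal.toReal_mono (ne_top_of_le_ne_top (hne h) (ENNReal.le_tsum m))
      (enorm_integral_le_lintegral_enorm _)
  rw [coef, Finset.sum_congr rfl fun h _ ↦ hh h, ← Summable.tsum_finsetSum fun h _ ↦ hsm h]
  refine tsum_congr fun m ↦ ?_
  by_cases hm : m ∈ lev n
  · simp only [Set.indicator_of_mem hm, term]
  · simp [Set.indicator_of_notMem hm]

omit [NeZero N] in
theorem integral_fold {c : GN N → H3 → ℝ≥0∞} (f : GN N → H3 → ℂ) (hf : ∀ h, Measurable (f h))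
    (hfin : ∀ h, ∫⁻ x, c h x * ‖f h x‖ₑ ≠ ⊤) (w : GO → GN N → H3 → ℝ≥0∞)
    (hw : ∀ γ h, Measurable (w γ h)) (hc : ∀ h x, c h x ≠ ⊤)
    (hsum : ∀ h x, ∑' γ, w γ h x = c h x) (h : GN N) :
    Summable (fun γ : GO ↦ ∫ x, ((w γ h x).toReal : ℂ) * f h x) ∧
    ∫ x, ((c h x).toReal : ℂ) * f h x = ∑' γ : GO, ∫ x, ((w γ h x).toReal : ℂ) * f h x := by
  have hwt : ∀ γ x, w γ h x ≠ ⊤ := fun γ x ↦
    ne_top_of_le_ne_top (hsum h x ▸ hc h x) (ENNReal.le_tsum γ)
  have hne : ∑' γ : GO, ∫⁻ x, ‖((w γ h x).toReal : ℂ) * f h x‖ₑ ≠ ⊤ := by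
    have e : ∀ γ x, ‖((w γ h x).toReal : ℂ) * f h x‖ₑ = w γ h x * ‖f h x‖ₑ := fun γ x ↦ by
      rw [enorm_mul, ← ofReal_norm, Complex.norm_real, Real.norm_of_nonneg ENNReal.toReal_nonneg,
        ENNReal.ofReal_toReal (hwt γ x)]
    simp only [e]
    rw [← lintegral_tsum (f := fun γ x ↦ w γ h x * ‖f h x‖ₑ)
      fun γ ↦ ((hw γ h).mul (hf h).enorm).aemeasurable]
    simp only [ENNReal.tsum_mul_right, hsum]
    exact hfin h
  refine ⟨Summable.of_norm_bounded (ENNReal.summable_toReal hne) fun γ ↦ ?_, ?_⟩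
  · rw [← toReal_enorm]
    exact ENNReal.toReal_mono (ne_top_of_le_ne_top hne (ENNReal.le_tsum γ))
      (enorm_integral_le_lintegral_enorm _)
  · have hs : ∀ γ : GO, AEStronglyMeasurable (fun x ↦ ((w γ h x).toReal : ℂ) * f h x) :=
      fun γ ↦ ((Complex.measurable_ofReal.comp (hw γ h).ennreal_toReal).mul
        (hf h)).aestronglyMeasurable
    rw [← integral_tsum hs hne]
    refine integral_congr_ae (.of_forall fun x ↦ ?_)
    simp only
    rw [tsum_mul_right, ← Complex.ofReal_tsum, ← ENNReal.tsum_toReal_eq fun γ ↦ hwt γ x, hsum]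

omit [NeZero N] in
theorem kern_dC (β : P.Delta) (d : Datum N) (hr : d.r = 1) (k : ℝ) (m : Fin 4 → ℤ) (R : H3) :
    kern k (d.vec m) ((P.dC β)⁻¹ • R) =
      kern (k / P.p) (d.vec (SplitPrime.actM β.1 m)) R := by
  have hv : ∀ v : Fin 4 → ℤ, d.vec v = realV v := fun v ↦ by rw [Datum.vec, hr]; simp
  rw [← kern_smul (P.dC β) k (d.vec m), smul_inv_smul, hv, hv, P.actV_dC, kern_scale, inv_pow,
    Real.sq_sqrt (Nat.cast_nonneg _), ← div_eq_inv_mul]

set_option maxHeartbeats 1000000 in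
/-- The Hecke relation. -/
theorem hecke_coef {ev : ℂ} (hev : F.IsEigen P ev) {w : (Fin 4 → ZMod N) → ℂ} (hw : ScalarInv w)
    (n : ℤ) {k : ℝ} (hk : 0 < k) :
    ev * F.coef (Datum.ofFun w) (lev n) 0 k =
      F.coef (Datum.ofFun w) (lev (P.p * n)) 0 (k / P.p) +
        (P.p : ℂ) * (if (P.p : ℤ) ∣ n then
          F.coef (Datum.ofFun w) (lev (n / P.p)) 0 (P.p * k) else 0) := by
  classical
  set d := Datum.ofFun w with hd
  obtain ⟨C, hC0, hC⟩ := F.exists_bound
  obtain ⟨B, hB0, hB⟩ := d.exists_bound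
  set G := serL d n k with hG
  have hk' : 0 < k / P.p := div_pos hk (by exact_mod_cast P.prime.pos)
  -- the bound
  have hfin : ∀ (g : H3 → H3) (G' : GN N → H3 → ℂ) (l : ℝ), 0 < l →
      (∀ h p, ‖G' h p‖ₑ ≤ ∑' m, ENNReal.ofReal B * ENNReal.ofReal (kern l ((1 / (d.r : ℝ)) • realV m) p)) →
      ∀ (f : GN N → H3 → ℂ), (∀ h p, ‖f h p‖ ≤ C) → ∀ h h',
        ∫⁻ p, wgt p * ‖f h' p * G' h p‖ₑ ≠ ⊤ := by
    intro _ G' l hl hG' f hf h h'
    have hm : ∀ m, Measurable fun p ↦
        wgt p * (ENNReal.ofReal B * ENNReal.ofReal (kern l ((1 / (d.r : ℝ)) • realV m) p)) :=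
      fun m ↦ measurable_wgt.mul ((continuous_kern l _).measurable.ennreal_ofReal.const_mul _)
    refine ne_top_of_le_ne_top (b := ENNReal.ofReal C * (ENNReal.ofReal B * ∑' m, mass d.r l m))
      (ENNReal.mul_ne_top ENNReal.ofReal_ne_top
        (ENNReal.mul_ne_top ENNReal.ofReal_ne_top (tsum_mass_ne_top d.r_pos hl))) ?_
    calc ∫⁻ p, wgt p * ‖f h' p * G' h p‖ₑ
        ≤ ∫⁻ p, ENNReal.ofReal C * ∑' m, wgt p *
            (ENNReal.ofReal B * ENNReal.ofReal (kern l ((1 / (d.r : ℝ)) • realV m) p)) := by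
          refine lintegral_mono fun p ↦ ?_
          rw [enorm_mul, ENNReal.tsum_mul_left, mul_left_comm (wgt p)]
          refine mul_le_mul' ?_ (mul_le_mul' le_rfl (hG' h p))
          rw [← ofReal_norm]
          exact ENNReal.ofReal_le_ofReal (hf h' p)
      _ = _ := by
          rw [lintegral_const_mul' _ _ ENNReal.ofReal_ne_top,
            lintegral_tsum fun m ↦ (hm m).aemeasurable, ← ENNReal.tsum_mul_left,
            ← ENNReal.tsum_mul_left, ← ENNReal.tsum_mul_left]
          refine tsum_congr fun m ↦ ?_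
          rw [mass, ← lintegral_const_mul' _ _ ENNReal.ofReal_ne_top,
            ← lintegral_const_mul' _ _ ENNReal.ofReal_ne_top,
            ← lintegral_const_mul' _ _ ENNReal.ofReal_ne_top]
          refine lintegral_congr fun p ↦ ?_
          ring
  set A : P.Delta → GN N → H3 → ℂ := fun β h p ↦
    F.φ (P.dC β • p) (P.dN β * h) * G h p with hA
  have hAm : ∀ β h, Measurable (A β h) := fun β h ↦
    ((F.continuous _).comp (continuous_smul_h3 _)).measurable.mul (measurable_serL d n hk h)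
  set Tm : P.Delta → GN N → ℂ := fun β h ↦
    ∫ p, ((wgt p * wgt (P.dC β • p)).toReal : ℂ) * A β h p with hTm
  -- left hand side
  have hwgt1 : ∀ g : GL (Fin 2) ℂ, Measurable fun p : H3 ↦ wgt (g • p) := fun g ↦
    measurable_wgt.comp (continuous_smul_h3 g).measurable
  have hL : ∀ (i : Option (Fin P.p)) h, Summable (fun γ : GO ↦ Tm (P.right (γ, i)) h) ∧
      ∫ p, (wR p : ℂ) * A (P.right (1, i)) h p = ∑' γ : GO, Tm (P.right (γ, i)) h := by
    intro i h
    have key := integral_fold (c := fun _ p ↦ wgt p) (fun h p ↦ A (P.right (1, i)) h p)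
      (fun h ↦ hAm _ h)
      (fun h ↦ hfin id G k hk (fun h p ↦ norm_serL_le d n hk hB h p)
        (fun h p ↦ F.φ (P.dC (P.right (1, i)) • p) (P.dN (P.right (1, i)) * h))
        (fun h p ↦ hC _ _) h h)
      (fun γ _ p ↦ wgt p * wgt (γ • P.dC (P.right (1, i)) • p))
      (fun γ _ ↦ measurable_wgt.mul
        ((measurable_wgt.comp (measurable_smul_go γ)).comp (continuous_smul_h3 _).measurable))
      (fun _ p ↦ isPartition_wgt.ne_top p)
      (fun _ p ↦ by rw [ENNReal.tsum_mul_left, tsum_wgt, mul_one]) h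
    have e : ∀ γ : GO, Tm (P.right (γ, i)) h =
        ∫ p, ((wgt p * wgt (γ • P.dC (P.right (1, i)) • p)).toReal : ℂ) *
          A (P.right (1, i)) h p := fun γ ↦ by
      simp only [hTm, hA, P.dC_right γ i, P.dN_right γ i, mul_smul, mul_assoc]
      simp only [← smul_def', F.invariant]
    simp only [e]
    exact key
  -- right hand side
  have hR : ∀ (i : Option (Fin P.p)) h',
      Summable (fun γ : GO ↦ Tm (P.left (i, γ)) ((P.dN (P.left (i, γ)))⁻¹ * h')) ∧
      ∫ R, (wR R : ℂ) * (F.φ R h' * G ((P.dN (P.left (i, 1)))⁻¹ * h')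
          ((P.dC (P.left (i, 1)))⁻¹ • R)) =
        ∑' γ : GO, Tm (P.left (i, γ)) ((P.dN (P.left (i, γ)))⁻¹ * h') := by
    intro i h'
    set β₀ := P.left (i, 1)
    have hG' : ∀ h p, ‖G ((P.dN β₀)⁻¹ * h) ((P.dC β₀)⁻¹ • p)‖ₑ ≤ ∑' m, ENNReal.ofReal B *
        ENNReal.ofReal (kern (k / P.p) ((1 / (d.r : ℝ)) • realV m) p) := by
      intro h p
      refine (norm_serL_le d n hk hB _ _).trans ?_
      rw [ENNReal.tsum_mul_left, ENNReal.tsum_mul_left]
      refine mul_le_mul' le_rfl ?_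
      simp only [← d.vec_eq, kern_dC P β₀ d rfl]
      exact ENNReal.tsum_comp_le_tsum_of_injective (f := SplitPrime.actM β₀.1) (fun m m' hmm ↦ by
        have h1 := P.actV_dC β₀ m
        rw [hmm, ← P.actV_dC β₀ m'] at h1
        have h2 := congrArg (actV (P.dC β₀)⁻¹) h1
        rw [← actV_mul, ← actV_mul, inv_mul_cancel, actV_one, actV_one] at h2
        exact funext fun j ↦ by exact_mod_cast (show (m j : ℝ) = m' j from congrFun h2 j))
        (fun m ↦ ENNReal.ofReal (kern (k / P.p) (d.vec m) p))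
    have key := integral_fold (c := fun _ p ↦ wgt p)
      (fun h p ↦ F.φ p h * G ((P.dN β₀)⁻¹ * h) ((P.dC β₀)⁻¹ • p))
      (fun h ↦ (F.continuous h).measurable.mul
        ((measurable_serL d n hk _).comp (continuous_smul_h3 _).measurable))
      (fun h ↦ hfin id (fun h p ↦ G ((P.dN β₀)⁻¹ * h) ((P.dC β₀)⁻¹ • p)) _ hk' hG'
        (fun h p ↦ F.φ p h) (fun h p ↦ hC p h) h h)
      (fun γ _ p ↦ wgt (γ⁻¹ • (P.dC β₀)⁻¹ • p) * wgt p)
      (fun γ _ ↦ ((measurable_wgt.comp (measurable_smul_go _)).comp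
        (continuous_smul_h3 _).measurable).mul measurable_wgt)
      (fun _ p ↦ isPartition_wgt.ne_top p)
      (fun _ p ↦ by
        rw [ENNReal.tsum_mul_right, isPartition_wgt.tsum_inv, one_mul]) h'
    have e : ∀ γ : GO, Tm (P.left (i, γ)) ((P.dN (P.left (i, γ)))⁻¹ * h') =
        ∫ R, ((wgt (γ⁻¹ • (P.dC β₀)⁻¹ • R) * wgt R).toReal : ℂ) *
          (F.φ R h' * G ((P.dN β₀)⁻¹ * h') ((P.dC β₀)⁻¹ • R)) := fun γ ↦ by
      simp only [hTm, hA]
      rw [← integral_smul_h3 (P.dC (P.left (i, γ)))⁻¹]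
      refine integral_congr_ae (.of_forall fun R ↦ ?_)
      simp only [smul_inv_smul, mul_inv_cancel_left]
      rw [P.dC_left i γ, P.dN_left i γ, mul_inv_rev, mul_inv_rev, mul_smul, mul_assoc (toN N γ)⁻¹,
        ← map_inv, ← map_inv, ← smul_def', hG, serL_smul d n k γ⁻¹]
    simp only [e]
    exact key
  -- the exchange
  have hsumT : Summable fun β : P.Delta ↦ ∑ h, Tm β h := by
    rw [← (Equiv.ofBijective _ P.right_bijective).summable_iff,
      ← (Equiv.prodComm (Option (Fin P.p)) GO).summable_iff]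
    exact summable_prod_fintype fun i ↦ summable_sum fun h _ ↦ (hL i h).1
  have h1 : ev * F.coef d (lev n) 0 k = ∑' β : P.Delta, ∑ h, Tm β h := by
    rw [F.coef_eq_integral d n hk, ← (Equiv.ofBijective _ P.right_bijective).tsum_eq,
      ← (Equiv.prodComm (Option (Fin P.p)) GO).tsum_eq]
    have hsr : Summable fun x : Option (Fin P.p) × GO ↦ ∑ h, Tm (P.right x.swap) h :=
      (Equiv.prodComm (Option (Fin P.p)) GO).summable_iff.2
        ((Equiv.ofBijective _ P.right_bijective).summable_iff.2 hsumT)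
    simp only [Equiv.ofBijective_apply, Equiv.prodComm_apply]
    rw [hsr.tsum_prod, tsum_fintype]
    simp only [Prod.swap_prod_mk]
    rw [Finset.sum_congr rfl fun i _ ↦ Summable.tsum_finsetSum fun h _ ↦ (hL i h).1,
      Finset.sum_comm, Finset.mul_sum]
    refine Finset.sum_congr rfl fun h _ ↦ ?_
    simp only [← (hL _ h).2]
    rw [← integral_finsetSum _ fun i _ ↦ ?_, ← integral_const_mul]
    · refine integral_congr_ae (.of_forall fun p ↦ ?_)
      simp only [hA]
      rw [← Finset.mul_sum, ← Finset.sum_mul, hev p h]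
      ring
    · refine ⟨((Complex.measurable_ofReal.comp measurable_wR).mul (hAm _ h)).aestronglyMeasurable, ?_⟩
      rw [hasFiniteIntegral_iff_enorm]
      refine lt_top_iff_ne_top.2 (ne_top_of_le_ne_top (hfin id G k hk
        (fun h p ↦ norm_serL_le d n hk hB h p)
        (fun h p ↦ F.φ (P.dC (P.right (1, i)) • p) (P.dN (P.right (1, i)) * h))
        (fun h p ↦ hC _ _) h h) (lintegral_mono fun p ↦ le_of_eq ?_))
      rw [enorm_mul, ← ofReal_norm, Complex.norm_real, Real.norm_of_nonneg (wR_nonneg p), ofReal_wR]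
  have h2 : ∑' β : P.Delta, ∑ h, Tm β h = ∑ h', ∑ i : Option (Fin P.p),
      ∫ R, (wR R : ℂ) * (F.φ R h' * G ((P.dN (P.left (i, 1)))⁻¹ * h')
          ((P.dC (P.left (i, 1)))⁻¹ • R)) := by
    have hsl : Summable fun x : Option (Fin P.p) × GO ↦ ∑ h, Tm (P.left x) h :=
      (Equiv.ofBijective _ P.left_bijective).summable_iff.2 hsumT
    rw [← (Equiv.ofBijective _ P.left_bijective).tsum_eq]
    simp only [Equiv.ofBijective_apply]
    rw [hsl.tsum_prod, tsum_fintype, Finset.sum_comm (s := Finset.univ (α := GN N))]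
    refine Finset.sum_congr rfl fun i _ ↦ ?_
    simp only [(hR i _).2]
    rw [← Summable.tsum_finsetSum fun h _ ↦ (hR i h).1]
    refine tsum_congr fun γ ↦ ?_
    exact (Equiv.sum_comp (Equiv.mulLeft ((P.dN (P.left (i, γ)))⁻¹))
      (fun h ↦ Tm (P.left (i, γ)) h)).symm
  -- the count
  have hsm : ∀ l : ℤ, ∀ t : ℝ, 0 < t → ∀ h R, Summable fun m ↦
      (lev l).indicator (d.W h) m * (kern t (d.vec m) R : ℂ) := fun l t ht h R ↦
    summable_serL d l ht h R
  have hcount : ∀ h' R, ∑ i : Option (Fin P.p), G ((P.dN (P.left (i, 1)))⁻¹ * h')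
      ((P.dC (P.left (i, 1)))⁻¹ • R) = serL d (P.p * n) (k / P.p) h' R +
        (P.p : ℂ) * (if (P.p : ℤ) ∣ n then serL d (n / P.p) (P.p * k) h' R else 0) := by
    intro h' R
    set Φ : (Fin 4 → ℤ) → ℂ := fun m' ↦
      (lev (P.p * n)).indicator (d.W h') m' * (kern (k / P.p) (d.vec m') R : ℂ)
    set Im : Option (Fin P.p) → (Fin 4 → ℤ) → Prop :=
      fun i m' ↦ ∃ m, quadR m = n ∧ SplitPrime.actM (P.rep' i) m = m'
    have hstep : ∀ i, G ((P.dN (P.left (i, 1)))⁻¹ * h') ((P.dC (P.left (i, 1)))⁻¹ • R) =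
        ∑' m', (if Im i m' then 1 else 0) * Φ m' := by
      intro i
      set β := P.left (i, 1)
      have hβ : β.1 = P.rep' i := Matrix.mul_one _
      have hinj : Function.Injective (SplitPrime.actM β.1) := fun m m' hmm ↦ by
        have h1 := P.actV_dC β m
        rw [hmm, ← P.actV_dC β m'] at h1
        have h2 := congrArg (actV (P.dC β)⁻¹) h1
        rw [← actV_mul, ← actV_mul, inv_mul_cancel, actV_one, actV_one] at h2
        exact funext fun j ↦ by exact_mod_cast (show (m j : ℝ) = m' j from congrFun h2 j)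
      rw [← hinj.tsum_eq (f := fun m' ↦ (if Im i m' then 1 else 0) * Φ m')]
      · refine tsum_congr fun m ↦ ?_
        rw [kern_dC P β d rfl]
        have hiff : Im i (SplitPrime.actM β.1 m) ↔ m ∈ lev n := by
          refine ⟨fun ⟨m₀, h0, h1⟩ ↦ ?_, fun h ↦ ⟨m, h, by rw [hβ]⟩⟩
          rw [← hβ] at h1
          exact hinj h1 ▸ h0
        by_cases hm : m ∈ lev n
        · rw [Set.indicator_of_mem hm, if_pos (hiff.2 hm), one_mul]
          simp only [Φ]
          rw [Set.indicator_of_mem (show SplitPrime.actM β.1 m ∈ lev (P.p * n) by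
            show quadR _ = _; rw [P.quadR_actM, show quadR m = n from hm])]
          congr 1
          show w _ = w _
          rw [P.redV_actM, mul_inv_rev, inv_inv, actR_mul]
        · rw [Set.indicator_of_notMem hm, if_neg (mt hiff.1 hm), zero_mul, zero_mul]
      · intro m' hm'
        simp only [Function.mem_support, ne_eq, mul_eq_zero, ite_eq_right_iff, one_ne_zero,
          imp_false, not_or, not_not] at hm'
        obtain ⟨m, -, hm⟩ := hm'.1
        exact ⟨m, by rw [hβ, hm]⟩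
    have hΦ : Summable Φ := hsm _ _ hk' h' R
    have hI : ∀ i, Summable fun m' ↦ (if Im i m' then (1 : ℂ) else 0) * Φ m' := fun i ↦
      Summable.of_norm_bounded hΦ.norm fun m' ↦ by
        rw [norm_mul]; split_ifs <;> simp
    have hdiv : Summable fun m' ↦ (if ∀ j, (P.p : ℤ) ∣ m' j then (1 : ℂ) else 0) * Φ m' :=
      Summable.of_norm_bounded hΦ.norm fun m' ↦ by
        rw [norm_mul]; split_ifs <;> simp
    rw [Finset.sum_congr rfl fun i _ ↦ hstep i, ← Summable.tsum_finsetSum fun i _ ↦ hI i]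
    have e : ∀ m', ∑ i, (if Im i m' then (1 : ℂ) else 0) * Φ m' =
        Φ m' + (P.p : ℂ) * ((if ∀ j, (P.p : ℤ) ∣ m' j then (1 : ℂ) else 0) * Φ m') := by
      intro m'
      rw [← Finset.sum_mul]
      by_cases hm : m' ∈ lev (P.p * n)
      · rw [P.sum_rep_count m' hm]; ring
      · simp [Φ, Set.indicator_of_notMem hm]
    rw [tsum_congr e, hΦ.tsum_add (hdiv.mul_left _), tsum_mul_left]
    congr 2
    have hp0 : (P.p : ℤ) ≠ 0 := by exact_mod_cast P.prime.ne_zero
    have hsc : Function.Injective fun v : Fin 4 → ℤ ↦ (P.p : ℤ) • v := fun v v' h ↦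
      funext fun j ↦ mul_left_cancel₀ hp0 (congrFun h j)
    rw [← hsc.tsum_eq (f := fun m' ↦ (if ∀ j, (P.p : ℤ) ∣ m' j then (1 : ℂ) else 0) * Φ m')]
    · have hq : ∀ v, ((P.p : ℤ) • v ∈ lev (P.p * n)) ↔ (P.p : ℤ) * quadR v = n := fun v ↦ by
        show quadR _ = _ ↔ _
        rw [quadR_smul, sq, mul_assoc]
        exact mul_right_inj' hp0
      split_ifs with hn
      · refine tsum_congr fun v ↦ ?_
        rw [if_pos fun j ↦ ⟨v j, rfl⟩, one_mul]
        simp only [Φ]
        have hkern : kern (k / P.p) (d.vec ((P.p : ℤ) • v)) R = kern (P.p * k) (d.vec v) R := by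
          have hp : (P.p : ℝ) ≠ 0 := by exact_mod_cast P.prime.ne_zero
          rw [Datum.vec, Datum.vec, realV_smul, smul_comm, kern_scale]
          congr 1
          push_cast
          field_simp
        have hiff : (P.p : ℤ) • v ∈ lev (P.p * n) ↔ v ∈ lev (n / P.p) := by
          rw [hq]
          obtain ⟨c, rfl⟩ := hn
          rw [mul_right_inj' hp0]
          show _ ↔ quadR v = _
          rw [Int.mul_ediv_cancel_left _ hp0]
        by_cases hv : v ∈ lev (n / P.p)
        · rw [Set.indicator_of_mem hv, Set.indicator_of_mem (hiff.2 hv), hkern]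
          congr 1
          exact Datum.ofFun_smul hw _ h' v (Nat.isCoprime_iff_coprime.2 P.coprime)
        · rw [Set.indicator_of_notMem hv, Set.indicator_of_notMem (mt hiff.1 hv)]
          simp
      · rw [← tsum_zero (α := ℂ) (β := Fin 4 → ℤ)]
        refine tsum_congr fun v ↦ ?_
        simp only [Φ]
        rw [Set.indicator_of_notMem fun hv ↦ hn ⟨_, ((hq v).1 hv).symm⟩]
        simp
    · intro m' hm'
      simp only [Function.mem_support, ne_eq, mul_eq_zero, ite_eq_right_iff, one_ne_zero,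
        imp_false, not_or, not_not] at hm'
      exact ⟨fun j ↦ m' j / P.p, funext fun j ↦ Int.mul_ediv_cancel' (hm'.1 j)⟩
  rw [h1, h2, F.coef_eq_integral d (P.p * n) hk']
  have hint : ∀ l : ℤ, ∀ t : ℝ, 0 < t → ∀ h,
      Integrable fun R ↦ (wR R : ℂ) * (F.φ R h * serL d l t h R) := fun l t ht h ↦ by
    refine ⟨((Complex.measurable_ofReal.comp measurable_wR).mul
      ((F.continuous h).measurable.mul (measurable_serL d l ht h))).aestronglyMeasurable, ?_⟩
    rw [hasFiniteIntegral_iff_enorm]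
    refine lt_top_iff_ne_top.2 (ne_top_of_le_ne_top (hfin id (serL d l t) t ht
      (fun h p ↦ norm_serL_le d l ht hB h p) (fun h p ↦ F.φ p h) (fun h p ↦ hC p h) h h)
      (lintegral_mono fun p ↦ le_of_eq ?_))
    rw [enorm_mul, ← ofReal_norm, Complex.norm_real, Real.norm_of_nonneg (wR_nonneg p), ofReal_wR]
  have hintG : ∀ (i : Option (Fin P.p)) h', Integrable fun R ↦ (wR R : ℂ) * (F.φ R h' *
      G ((P.dN (P.left (i, 1)))⁻¹ * h') ((P.dC (P.left (i, 1)))⁻¹ • R)) := fun i h' ↦ by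
    refine ⟨((Complex.measurable_ofReal.comp measurable_wR).mul ((F.continuous h').measurable.mul
      ((measurable_serL d n hk _).comp (continuous_smul_h3 _).measurable))).aestronglyMeasurable, ?_⟩
    rw [hasFiniteIntegral_iff_enorm]
    refine lt_top_iff_ne_top.2 (ne_top_of_le_ne_top (hfin id
      (fun h p ↦ G ((P.dN (P.left (i, 1)))⁻¹ * h) ((P.dC (P.left (i, 1)))⁻¹ • p)) _ hk' (fun h p ↦ ?_)
      (fun h p ↦ F.φ p h) (fun h p ↦ hC p h) h' h') (lintegral_mono fun p ↦ le_of_eq ?_))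
    · refine (norm_serL_le d n hk hB _ _).trans ?_
      rw [ENNReal.tsum_mul_left, ENNReal.tsum_mul_left]
      refine mul_le_mul' le_rfl ?_
      simp only [← d.vec_eq, kern_dC P (P.left (i, 1)) d rfl]
      refine ENNReal.tsum_comp_le_tsum_of_injective (f := SplitPrime.actM (P.left (i, 1)).1)
        (fun m m' hmm ↦ ?_) (fun m ↦ ENNReal.ofReal (kern (k / P.p) (d.vec m) p))
      have h1 := P.actV_dC (P.left (i, 1)) m
      rw [hmm, ← P.actV_dC (P.left (i, 1)) m'] at h1
      have h2 := congrArg (actV (P.dC (P.left (i, 1)))⁻¹) h1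
      rw [← actV_mul, ← actV_mul, inv_mul_cancel, actV_one, actV_one] at h2
      exact funext fun j ↦ by exact_mod_cast (show (m j : ℝ) = m' j from congrFun h2 j)
    · rw [enorm_mul, ← ofReal_norm, Complex.norm_real, Real.norm_of_nonneg (wR_nonneg p), ofReal_wR]
  simp only [← integral_finsetSum _ fun i _ ↦ hintG i _]
  have hsplit : ∀ h', ∫ R, ∑ i : Option (Fin P.p), (wR R : ℂ) * (F.φ R h' *
      G ((P.dN (P.left (i, 1)))⁻¹ * h') ((P.dC (P.left (i, 1)))⁻¹ • R)) =
      (∫ R, (wR R : ℂ) * (F.φ R h' * serL d (P.p * n) (k / P.p) h' R)) +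
        (P.p : ℂ) * (if (P.p : ℤ) ∣ n then
          ∫ R, (wR R : ℂ) * (F.φ R h' * serL d (n / P.p) (P.p * k) h' R) else 0) := by
    intro h'
    simp only [← Finset.mul_sum, hcount]
    split_ifs with hn
    · rw [← integral_const_mul, ← integral_add (hint _ _ hk' h')
        ((hint _ _ (mul_pos (by exact_mod_cast P.prime.pos) hk) h').const_mul _)]
      exact integral_congr_ae (.of_forall fun R ↦ by ring)
    · simp
  simp only [hsplit]
  rw [Finset.sum_add_distrib, ← Finset.mul_sum]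
  congr 2
  split_ifs with hn
  · rw [F.coef_eq_integral d _ (mul_pos (by exact_mod_cast P.prime.pos) hk)]
  · simp

/-- The relation between Fourier coefficients. -/
theorem hecke_qCoeff {ev : ℂ} (hev : F.IsEigen P ((√(P.p : ℝ) : ℂ) * ev))
    {w : (Fin 4 → ZMod N) → ℂ} (hw : ScalarInv w) {M : ℕ} [NeZero M] (hM : 3 * N ^ 2 ∣ M) (n : ℕ) :
    ModularFormClass.qCoeff (F.cuspForm hw hM) (P.p * n) +
      (if P.p ∣ n then ModularFormClass.qCoeff (F.cuspForm hw hM) (n / P.p) else 0) =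
      ev * ModularFormClass.qCoeff (F.cuspForm hw hM) n := by
  have hp : (0 : ℝ) < P.p := by exact_mod_cast P.prime.pos
  have hrel := F.hecke_coef P hev hw (n : ℤ) (k := 2 * Real.pi * 1) (by positivity)
  rw [F.qCoeff_cuspForm hw hM (P.p * n) (t := 1 / P.p) (by positivity),
    F.qCoeff_cuspForm hw hM n (t := 1) one_pos]
  have hs : (√(P.p : ℝ) : ℂ) ≠ 0 := by exact_mod_cast (Real.sqrt_pos.2 hp).ne'
  have hss : (√(P.p : ℝ) : ℂ) * √(P.p : ℝ) = (P.p : ℂ) := by
    exact_mod_cast Real.mul_self_sqrt hp.le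
  have e1 : Real.exp (2 * Real.pi * ((P.p * n : ℕ) : ℝ) * (1 / P.p)) * √(1 / P.p) =
      Real.exp (2 * Real.pi * n * 1) * (√(P.p : ℝ))⁻¹ := by
    rw [Real.sqrt_div zero_le_one, Real.sqrt_one, one_div (√(P.p : ℝ))]
    congr 2
    push_cast
    field_simp
  rw [e1, show 2 * Real.pi * (1 / (P.p : ℝ)) = 2 * Real.pi * 1 / P.p by ring, Real.sqrt_one, mul_one]
  by_cases hn : P.p ∣ n
  · obtain ⟨c, rfl⟩ := hn
    have hc : ((P.p * c : ℕ) : ℤ) / (P.p : ℤ) = (c : ℤ) := by
      push_cast; rw [Int.mul_ediv_cancel_left _ (by exact_mod_cast P.prime.ne_zero)]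
    rw [if_pos (by push_cast; exact dvd_mul_right _ _ : (P.p : ℤ) ∣ ((P.p * c : ℕ) : ℤ)), hc] at hrel
    rw [if_pos (dvd_mul_right _ _), Nat.mul_div_cancel_left _ P.prime.pos,
      F.qCoeff_cuspForm hw hM c (t := P.p) hp,
      show 2 * Real.pi * (P.p : ℝ) = P.p * (2 * Real.pi * 1) by ring,
      show Real.exp (2 * Real.pi * c * P.p) = Real.exp (2 * Real.pi * ((P.p * c : ℕ) : ℝ) * 1) by
        push_cast; congr 1; ring]
    push_cast at hrel ⊢
    generalize F.coef (Datum.ofFun w) (lev ((P.p : ℤ) * ((P.p : ℤ) * (c : ℤ)))) 0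
      (2 * Real.pi * 1 / P.p) = X at *
    generalize F.coef (Datum.ofFun w) (lev ((P.p : ℤ) * (c : ℤ))) 0 (2 * Real.pi * 1) = Y at *
    generalize F.coef (Datum.ofFun w) (lev (c : ℤ)) 0 ((P.p : ℝ) * (2 * Real.pi * 1)) = Z at *
    field_simp
    linear_combination (-1 : ℂ) * hrel + Z * hss
  · rw [if_neg (fun h ↦ hn (Int.natCast_dvd_natCast.1 h))] at hrel
    rw [if_neg hn, add_zero]
    push_cast at hrel ⊢
    generalize F.coef (Datum.ofFun w) (lev ((P.p : ℤ) * (n : ℤ))) 0 (2 * Real.pi * 1 / P.p) = X at *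
    generalize F.coef (Datum.ofFun w) (lev (n : ℤ)) 0 (2 * Real.pi * 1) = Y at *
    field_simp
    linear_combination (-1 : ℂ) * hrel

end Form

end FermatAgent.LT.Lift
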