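import Mathlib
import Fermat.Agent.LT.Lift.CuspLift

/-!
# The vector of level three, its orbit and its stabiliser
-/

set_option autoImplicit false

noncomputable section

open Matrix
open scoped MatrixGroups QuadraticAlgebra

namespace FermatAgent.LT.Lift

/-- The vector of `√-3 • !![0, 1; -1, 0]`. -/
def vJ (R : Type*) [CommRing R] : Fin 4 → R := ![0, 0, 1, 2]

theorem quadR_vJ : quadR (vJ ℤ) = 3 := by
  show (1 : ℤ) ^ 2 - 1 * 2 + 2 ^ 2 - 0 * 0 = 3
  norm_num

theorem redV_vJ (n : ℕ) : redV n (vJ ℤ) = vJ (ZMod n) := by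
  funext i; fin_cases i <;> simp [redV, vJ]

/-- The condition "in three" on vectors modulo `3`. -/
def InThreeMod (v : Fin 4 → ZMod 3) : Prop := v 0 = 0 ∧ v 1 = 0 ∧ v 2 + v 3 = 0

theorem inThreeMod_vJ : InThreeMod (vJ (ZMod 3)) := by
  refine ⟨rfl, rfl, ?_⟩
  show (1 + 2 : ZMod 3) = 0
  decide

theorem InThreeMod.actR (g : GN 3) {v : Fin 4 → ZMod 3} (hv : InThreeMod v) :
    InThreeMod (Lift.actR g v) := by
  obtain ⟨h0, h1, h2⟩ := hv
  have h3 : (3 : ZMod 3) = 0 := rfl
  have e3 : v 3 = -v 2 := eq_neg_of_add_eq_zero_right h2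
  refine ⟨?_, ?_, ?_⟩ <;>
    simp [Lift.actR, unhermR, hermR, Matrix.mul_apply, Fin.sum_univ_two,
      Matrix.conjTranspose_apply, h0, h1, e3] <;>
    ring_nf <;> simp [h3]

theorem InThreeMod.smul (a : ZMod 3) {v : Fin 4 → ZMod 3} (hv : InThreeMod v) : InThreeMod (a • v) := by
  obtain ⟨h0, h1, h2⟩ := hv
  refine ⟨by simp [h0], by simp [h1], ?_⟩
  simp only [Pi.smul_apply, smul_eq_mul]
  rw [← mul_add, h2, mul_zero]

theorem inThreeMod_of_support {N : ℕ} (h3 : 3 ∣ N) (h : GN N) (a : ZMod N) (m : Fin 4 → ℤ)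
    (e : Lift.actR h⁻¹ (redV N m) = a • vJ (ZMod N)) : InThreeMod (redV 3 m) := by
  set f : ZMod N →+* ZMod 3 := ZMod.castHom h3 (ZMod 3)
  have e1 : redV N m = a • Lift.actR h (vJ (ZMod N)) := by
    rw [← actR_smul, ← e, ← actR_mul, mul_inv_cancel, actR_one]
  have e2 : redV 3 m = f ∘ redV N m := funext fun i ↦ (map_intCast f (m i)).symm
  have e3 : f ∘ vJ (ZMod N) = vJ (ZMod 3) := by
    funext i
    fin_cases i
    exacts [map_zero f, map_zero f, map_one f, map_ofNat f 2]
  have e4 : ∀ x : Fin 4 → ZMod N, f ∘ (a • x) = f a • (f ∘ x) := fun x ↦ by funext i; simp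
  rw [e2, e1, e4, actR_map, e3]
  exact (inThreeMod_vJ.actR _).smul _

theorem inThreeMod_actR_go (γ : GO) {m : Fin 4 → ℤ} (hm : InThreeMod (redV 3 m)) :
    InThreeMod (redV 3 (Lift.actR γ m)) := by
  rw [redV_actR]; exact hm.actR _

theorem mk''_val (M : Matrix (Fin 2) (Fin 2) EO) (h : IsUnit M.det) :
    (GeneralLinearGroup.mk'' M h).val = M := rfl

/-- A vector of norm three has a translate with vanishing second diagonal entry. -/
theorem exists_actR_one_eq_zero {m : Fin 4 → ℤ} (hq : quadR m = 3) :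
    ∃ γ : GO, Lift.actR γ m 1 = 0 := by
  by_cases h0 : m 0 = 0
  · exact ⟨flipO, by simp [Lift.actR, unhermR, hermR, flipO, Matrix.mul_apply, h0]⟩
  set b : EO := ⟨m 2, m 3⟩
  set X : EO := ⟨1, 2⟩ - star b
  set Y : EO := ⟨m 0, 0⟩
  obtain ⟨γ', g, hX, hY⟩ := exists_sl_column X Y
  have hg : g ≠ 0 := fun hg ↦ h0 (by
    rw [hg, zero_mul] at hY
    exact congrArg QuadraticAlgebra.re hY)
  set x := γ'.1 0 0
  set y := γ'.1 1 0
  have hdet : γ'.1 0 0 * γ'.1 1 1 - γ'.1 0 1 * γ'.1 1 0 = 1 := by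
    rw [← Matrix.det_fin_two]; exact γ'.2
  set M : Matrix (Fin 2) (Fin 2) EO := !![-γ'.1 0 1, -γ'.1 1 1; x, y]
  have hM : IsUnit M.det := by
    have : M.det = 1 := by
      simp only [M, Matrix.det_fin_two_of, x, y]; linear_combination hdet
    rw [this]; exact isUnit_one
  refine ⟨GeneralLinearGroup.mk'' M hM, ?_⟩
  have hQ : (⟨m 0, 0⟩ : EO) * (X * star X) + X * b * star Y + Y * star b * star X +
      ⟨m 1, 0⟩ * (Y * star Y) = 0 := by
    have hq' : (m 2 ^ 2 - m 2 * m 3 + m 3 ^ 2 - m 0 * m 1) = 3 := hq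
    ext <;> simp [X, Y, b] <;> first | ring1 | linear_combination (-(m 0)) * hq'
  rw [hX, hY] at hQ
  have hQ' : (⟨m 0, 0⟩ : EO) * (x * star x) + x * b * star y + y * star b * star x +
      ⟨m 1, 0⟩ * (y * star y) = 0 := by
    refine (mul_eq_zero.1 ?_).resolve_left
      (mul_ne_zero hg (star_ne_zero.2 hg) : g * star g ≠ 0)
    rw [← hQ, star_mul', star_mul']
    ring
  have e : hermR (Lift.actR (GeneralLinearGroup.mk'' M hM) m) 1 1 = 0 := by
    rw [hermR_actR, mk''_val, ← hQ']
    simp [Matrix.mul_apply, Fin.sum_univ_two, Matrix.conjTranspose_apply, hermR, M, b]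
    ring
  simpa [hermR] using congrArg QuadraticAlgebra.re e

theorem actR_upper_vJ {e q : EO} (h : IsUnit (!![e, q; 0, 1] : Matrix (Fin 2) (Fin 2) EO).det) :
    Lift.actR (GeneralLinearGroup.mk'' _ h) (vJ ℤ) =
      ![(e * ⟨1, 2⟩ * star q - q * ⟨1, 2⟩ * star e).re, 0, (e * ⟨1, 2⟩).re, (e * ⟨1, 2⟩).im] := by
  have hv : hermR (vJ ℤ) = !![0, ⟨1, 2⟩; -⟨1, 2⟩, 0] := by
    ext i j <;> fin_cases i <;> fin_cases j <;> simp [hermR, vJ]
  rw [Lift.actR, mk''_val, hv]
  funext i
  fin_cases i <;>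
    simp [unhermR, Matrix.mul_apply, Fin.sum_univ_two, Matrix.conjTranspose_apply]
  ring

/-- The orbit of `vJ`. -/
theorem exists_actR_vJ {m : Fin 4 → ℤ} (h3 : InThreeMod (redV 3 m)) (hq : quadR m = 3) :
    ∃ γ : GO, Lift.actR γ (vJ ℤ) = m := by
  obtain ⟨γ₁, h1⟩ := exists_actR_one_eq_zero hq
  obtain ⟨n, hndef⟩ : ∃ n, Lift.actR γ₁ m = n := ⟨_, rfl⟩
  rw [hndef] at h1
  have hn : quadR n = 3 := by rw [← hndef, quadR_actR, hq]
  obtain ⟨c0, -, c23⟩ := inThreeMod_actR_go γ₁ h3
  rw [hndef] at c0 c23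
  simp only [redV] at c0 c23
  obtain ⟨k, hk⟩ := (ZMod.intCast_zmod_eq_zero_iff_dvd _ 3).1 c0
  rw [← Int.cast_add] at c23
  obtain ⟨j, hj⟩ := (ZMod.intCast_zmod_eq_zero_iff_dvd _ 3).1 c23
  push_cast at hk hj
  have hn' : n 2 ^ 2 - n 2 * n 3 + n 3 ^ 2 = 3 := by
    have := hn; rw [quadR, h1, mul_zero, sub_zero] at this; exact this
  set e : EO := ⟨n 3 - j, n 3 - 2 * j⟩
  have h2 : n 2 = 3 * j - n 3 := by linarith
  have hN : (n 3) ^ 2 - 3 * j * n 3 + 3 * j ^ 2 = 1 := by
    rw [h2] at hn'; linarith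
  have he : e * star e = 1 := by
    ext <;> simp [e] <;> first | ring1 | linear_combination hN
  set q : EO := ⟨0, k⟩ * e
  have hu : IsUnit (!![e, q; 0, 1] : Matrix (Fin 2) (Fin 2) EO).det := by
    rw [Matrix.det_fin_two_of, mul_one, mul_zero, sub_zero]
    exact .of_mul_eq_one _ he
  refine ⟨γ₁⁻¹ * GeneralLinearGroup.mk'' _ hu, ?_⟩
  rw [actR_mul, actR_upper_vJ hu, ← actR_inv_cancel γ₁ m, hndef]
  congr 1
  funext i
  fin_cases i <;> simp [q, e, h1, h2] <;>
    first
      | ring1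
      | linear_combination (3 * k) * hN - hk

/-- The equations of a similitude of `J`. -/
theorem star_entries {R : Type*} [CommRing R]
    {p q r t : QuadraticAlgebra R (-1) (-1)} {a : QuadraticAlgebra R (-1) (-1)}
    (e0 : q * star p = p * star q) (e1 : t * star r = r * star t)
    (e2 : p * star t - q * star r = a) (ha : star a = a) :
    (p * t - q * r) * star p = a * p ∧ (p * t - q * r) * star q = a * q ∧
    (p * t - q * r) * star r = a * r ∧ (p * t - q * r) * star t = a * t := by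
  have e3 : star p * t - star q * r = a := by
    have := congrArg star e2
    rwa [star_sub, star_mul', star_mul', star_star, star_star, ha] at this
  refine ⟨?_, ?_, ?_, ?_⟩
  · linear_combination (-r) * e0 + p * e3
  · linear_combination (-t) * e0 + q * e3
  · linear_combination p * e1 + r * e2
  · linear_combination q * e1 + t * e2

theorem unit_cube {x : EO} (hx : x * star x = 1) : x ^ 3 = 1 ∨ x ^ 3 = -1 := by
  have h := congrArg QuadraticAlgebra.re hx
  simp at h
  have h' : x.re ^ 2 - x.re * x.im + x.im ^ 2 = 1 := by linarith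
  have a1 : x.re ^ 2 ≤ 1 := by nlinarith [sq_nonneg (x.re - 2 * x.im)]
  have a2 : x.im ^ 2 ≤ 1 := by nlinarith [sq_nonneg (2 * x.re - x.im)]
  rw [sq_le_one_iff_abs_le_one, abs_le] at a1 a2
  obtain ⟨u, v⟩ := x
  obtain ⟨a1, a1'⟩ := a1
  obtain ⟨a2, a2'⟩ := a2
  interval_cases u <;> interval_cases v <;> revert h' <;> decide

/-- The stabiliser of `vJ`. -/
theorem exists_sl_of_actR_vJ {s : GO} (hs : Lift.actR s (vJ ℤ) = vJ ℤ) :
    ∃ (u : ℂ) (g : SL(2, ℤ)), u ≠ 0 ∧
      (toC s).val = u • (g.1.map fun i : ℤ ↦ (i : ℂ)) := by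
  set p := s.val 0 0
  set q := s.val 0 1
  set r := s.val 1 0
  set t := s.val 1 1
  set d : EO := ⟨1, 2⟩
  have hd : d ≠ 0 := fun h ↦ by simpa [d] using congrArg QuadraticAlgebra.re h
  have hm : s.val * hermR (vJ ℤ) * s.valᴴ = hermR (vJ ℤ) := by rw [← hermR_actR, hs]
  have hv : hermR (vJ ℤ) = !![0, d; -d, 0] := by
    ext i j <;> fin_cases i <;> fin_cases j <;> simp [hermR, vJ, d]
  rw [hv] at hm
  have m00 := congrFun (congrFun hm 0) 0
  have m11 := congrFun (congrFun hm 1) 1
  have m01 := congrFun (congrFun hm 0) 1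
  simp [Matrix.mul_apply, Fin.sum_univ_two, Matrix.conjTranspose_apply] at m00 m11 m01
  have e0 : q * star p = p * star q := mul_left_cancel₀ hd (by linear_combination -m00)
  have e1 : t * star r = r * star t := mul_left_cancel₀ hd (by linear_combination -m11)
  have e2 : p * star t - q * star r = 1 := mul_left_cancel₀ hd (by linear_combination m01)
  obtain ⟨hp, hq, hr, ht⟩ := star_entries e0 e1 e2 (star_one EO)
  simp only [one_mul] at hp hq hr ht
  set D := p * t - q * r with hD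
  have hDD : D * star D = 1 := by
    have h1 : star D * D = (star p * t - star q * r) * (p * star t - q * star r) +
        (r * star t - t * star r) * (p * star q - q * star p) := by
      simp only [D, star_sub, star_mul']; ring
    have e3 := congrArg star e2
    rw [star_sub, star_mul', star_mul', star_star, star_star, star_one] at e3
    rw [mul_comm, h1, e0, e1, e2, e3]; ring
  have key : ∀ x, D * star x = x → star (D * x) = star D * star D * x := fun x hx ↦ by
    rw [star_mul']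
    linear_combination (star D * star D) * hx - (star x * star D) * hDD
  rcases unit_cube hDD with hD3 | hD3
  · have hs2 : star D * star D = D := by
      have hs3 : D ^ 3 * star D * star D = _ := congrArg (fun y ↦ y * star D * star D) hD3
      linear_combination -hs3 + (D * D * star D + D) * hDD
    have hreal : ∀ x, D * star x = x → (D * x).im = 0 := fun x hx ↦ by
      have h := congrArg QuadraticAlgebra.im (key x hx)
      rw [hs2, QuadraticAlgebra.im_star] at h
      linarith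
    set g : Matrix (Fin 2) (Fin 2) ℤ := fun i j ↦ (D * s.val i j).re
    have hg : ∀ i j, D * s.val i j = ⟨g i j, 0⟩ := fun i j ↦ by
      refine QuadraticAlgebra.ext rfl ?_
      fin_cases i <;> fin_cases j
      exacts [hreal _ hp, hreal _ hq, hreal _ hr, hreal _ ht]
    have hgdet : g.det = 1 := by
      have : (⟨g.det, 0⟩ : EO) = 1 := by
        calc (⟨g.det, 0⟩ : EO) = (⟨g 0 0, 0⟩ : EO) * ⟨g 1 1, 0⟩ - ⟨g 0 1, 0⟩ * ⟨g 1 0, 0⟩ := by
              ext <;> simp [Matrix.det_fin_two]
          _ = D ^ 3 := by rw [← hg, ← hg, ← hg, ← hg, hD]; ring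
          _ = 1 := hD3
      exact congrArg QuadraticAlgebra.re this
    have hne : embC D ≠ 0 := fun h ↦ by
      have := congrArg embC hD3
      simp [map_pow, h] at this
    refine ⟨(embC D)⁻¹, ⟨g, hgdet⟩, inv_ne_zero hne, ?_⟩
    ext i j
    rw [Matrix.smul_apply, Matrix.map_apply, toC_val, Matrix.map_apply, smul_eq_mul,
      eq_inv_mul_iff_mul_eq₀ hne, ← map_mul, hg, embC_apply]
    simp
  · exfalso
    have hs2 : star D * star D = -D := by
      have hs3 : D ^ 3 * star D * star D = _ := congrArg (fun y ↦ y * star D * star D) hD3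
      linear_combination hs3 - (D * D * star D + D) * hDD
    have himag : ∀ x, D * star x = x → ∃ c : ℤ, D * x = (c : EO) * d := fun x hx ↦ by
      have h : star (D * x) = -(D * x) := by rw [key x hx, hs2]; ring
      have h' := congrArg QuadraticAlgebra.re h
      refine ⟨(D * x).re, QuadraticAlgebra.ext (by simp [d]) ?_⟩
      simp [d] at h' ⊢
      linarith
    obtain ⟨a, ha⟩ := himag p hp
    obtain ⟨b, hb⟩ := himag q hq
    obtain ⟨c, hc⟩ := himag r hr
    obtain ⟨f, hf⟩ := himag t ht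
    have h : (-1 : EO) = d ^ 2 * ((a * f - b * c : ℤ) : EO) := by
      rw [← hD3]
      push_cast
      linear_combination D * t * ha +
        (a : EO) * d * hf - D * r * hb - (b : EO) * d * hc + D ^ 2 * hD
    have h' := congrArg QuadraticAlgebra.re h
    simp [d, pow_two] at h'
    omega

/-- Descent of similitudes of `J` modulo `n`. -/
theorem exists_scalar_rational {n : ℕ} [NeZero n] (h : GN n) (a : (ZMod n)ˣ)
    (e0 : h.val 0 1 * star (h.val 0 0) = h.val 0 0 * star (h.val 0 1))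
    (e1 : h.val 1 1 * star (h.val 1 0) = h.val 1 0 * star (h.val 1 1))
    (e2 : h.val 0 0 * star (h.val 1 1) - h.val 0 1 * star (h.val 1 0) = ⟨(a : ZMod n), 0⟩) :
    ∃ (l : (EMod n)ˣ) (r : GL (Fin 2) (ZMod n)),
      h = GeneralLinearGroup.map (algebraMap (ZMod n) (EMod n)) r *
        GeneralLinearGroup.scalar (Fin 2) l := by
  set x : Fin 2 × Fin 2 → EMod n := fun i ↦ h.val i.1 i.2
  set A : EMod n := ⟨(a : ZMod n), 0⟩
  have hA : star A = A := by ext <;> simp [A]
  obtain ⟨hp, hq, hr, ht⟩ := star_entries e0 e1 e2 hA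
  have hDu : IsUnit h.val.det := (Matrix.isUnit_iff_isUnit_det _).1 h.isUnit
  rw [Matrix.det_fin_two] at hDu
  obtain ⟨D, hD⟩ := hDu
  rw [← hD] at hp hq hr ht
  set u : EMod n := (↑D⁻¹ : EMod n) * A
  have hu : ∀ i, star (x i) = u * x i := fun i ↦ by
    have hh : (D : EMod n) * star (x i) = A * x i := by
      obtain ⟨i, j⟩ := i
      fin_cases i <;> fin_cases j
      exacts [hp, hq, hr, ht]
    rw [mul_assoc, ← hh, ← mul_assoc, Units.inv_mul, one_mul]
  -- choose a coordinate for each prime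
  have hprime : ∀ p ∈ n.primeFactors, ∃ i, ¬ (p ∣ (x i).norm.val) := by
    intro p hp
    obtain ⟨hpp, hpn, -⟩ := Nat.mem_primeFactors.1 hp
    by_contra hcon
    push Not at hcon
    have : Fact p.Prime := ⟨hpp⟩
    set f := mapQ (ZMod.castHom hpn (ZMod p))
    have hsq : ∀ i, f (x i) ^ 2 * f u = 0 := fun i ↦ by
      have e : x i ^ 2 * u = ⟨(x i).norm, 0⟩ := by
        rw [← QuadraticAlgebra.algebraMap_eq, QuadraticAlgebra.algebraMap_norm_eq_mul_star, hu]
        ring
      rw [← map_pow, ← map_mul, e]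
      have : ZMod.castHom hpn (ZMod p) (x i).norm = 0 := by
        rw [← ZMod.natCast_zmod_val (x i).norm, map_natCast,
          ZMod.natCast_eq_zero_iff]
        exact hcon i
      refine QuadraticAlgebra.ext this ?_
      simp [f, mapQ]
    have hA' : IsUnit A := .of_mul_eq_one (⟨((a⁻¹ : (ZMod n)ˣ) : ZMod n), 0⟩ : EMod n) (by
      ext <;> simp [A])
    have huu : IsUnit (f u) := ((Units.isUnit _).mul hA').map f
    have hsq' : ∀ i, f (x i) ^ 2 = 0 := fun i ↦ huu.mul_left_eq_zero.1 (hsq i)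
    have hD3 : f (D : EMod n) ^ 3 = 0 := by
      rw [hD, map_sub, map_mul, map_mul]
      have h1 := hsq' (0, 0)
      have h2 := hsq' (0, 1)
      simp only [x] at h1 h2
      linear_combination (f (h.val 0 0) * f (h.val 1 1) ^ 3 -
          3 * f (h.val 1 1) ^ 2 * (f (h.val 0 1) * f (h.val 1 0))) * h1 +
        (3 * f (h.val 0 0) * f (h.val 1 1) * f (h.val 1 0) ^ 2 -
          f (h.val 0 1) * f (h.val 1 0) ^ 3) * h2
    have := ((D.isUnit.map f).pow 3)
    rw [hD3] at this
    exact not_isUnit_zero this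
  choose i hi using hprime
  classical
  set c : Fin 2 × Fin 2 → ZMod n := fun j ↦
    ((∏ p : n.primeFactors, if i p.1 p.2 = j then 1 else p.1 : ℕ) : ZMod n)
  set l : EMod n := ∑ j, algebraMap (ZMod n) (EMod n) (c j) * x j
  have hl : star l = u * l := by
    have hc : ∀ z : ZMod n, star (algebraMap (ZMod n) (EMod n) z) = algebraMap _ _ z := fun z ↦ by
      ext <;> simp [QuadraticAlgebra.algebraMap_eq]
    simp only [l, star_sum, star_mul', hc, hu, Finset.mul_sum]
    exact Finset.sum_congr rfl fun j _ ↦ by ring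
  have hlu : IsUnit l := by
    rw [QuadraticAlgebra.isUnit_iff_norm_isUnit, ← ZMod.natCast_zmod_val l.norm,
      ZMod.isUnit_iff_coprime]
    refine Nat.coprime_of_dvd fun p hpp hp hpn ↦ ?_
    have : Fact p.Prime := ⟨hpp⟩
    have hpf : p ∈ n.primeFactors := Nat.mem_primeFactors.2 ⟨hpp, hpn, NeZero.ne n⟩
    set f := mapQ (ZMod.castHom hpn (ZMod p))
    have hnorm : ∀ y : EMod n, (f y).norm = ZMod.castHom hpn (ZMod p) y.norm := fun y ↦ by
      rw [QuadraticAlgebra.norm_def, QuadraticAlgebra.norm_def]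
      simp only [f, mapQ, RingHom.coe_mk, MonoidHom.coe_mk, OneHom.coe_mk, map_sub, map_add,
        map_mul, map_neg, map_one]
    have hc0 : ∀ j, j ≠ i p hpf → ZMod.castHom hpn (ZMod p) (c j) = 0 := fun j hj ↦ by
      simp only [c, map_natCast]
      rw [ZMod.natCast_eq_zero_iff]
      refine dvd_trans ?_ (Finset.dvd_prod_of_mem _ (Finset.mem_univ (⟨p, hpf⟩ : n.primeFactors)))
      simp [Ne.symm hj]
    have hc1 : ZMod.castHom hpn (ZMod p) (c (i p hpf)) ≠ 0 := by
      simp only [c, map_natCast]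
      rw [Nat.cast_prod]
      refine Finset.prod_ne_zero_iff.2 fun q _ ↦ ?_
      split_ifs with hq
      · simp
      · rw [Ne, ZMod.natCast_eq_zero_iff]
        intro hpq
        have hqp : p = q.1 := (Nat.prime_dvd_prime_iff_eq hpp
          (Nat.prime_of_mem_primeFactors q.2)).1 hpq
        subst hqp
        exact hq rfl
    have hfl : f l = algebraMap (ZMod p) (EMod p) (ZMod.castHom hpn (ZMod p) (c (i p hpf))) *
        f (x (i p hpf)) := by
      simp only [l, map_sum, map_mul]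
      rw [Finset.sum_eq_single (i p hpf) (fun j _ hj ↦ ?_) (by simp)]
      · congr 1
        ext <;> simp [f, mapQ, QuadraticAlgebra.algebraMap_eq]
      · have : f (algebraMap (ZMod n) (EMod n) (c j)) = 0 := by
          ext
          · simpa [f, mapQ, QuadraticAlgebra.algebraMap_eq] using hc0 j hj
          · simp [f, mapQ, QuadraticAlgebra.algebraMap_eq]
        rw [this, zero_mul]
    have h0 : ZMod.castHom hpn (ZMod p) l.norm = 0 := by
      rw [← ZMod.natCast_zmod_val l.norm, map_natCast,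
        ZMod.natCast_eq_zero_iff]
      exact hp
    rw [← hnorm, hfl, map_mul, QuadraticAlgebra.norm_algebraMap, mul_eq_zero, sq_eq_zero_iff,
      hnorm] at h0
    refine h0.elim hc1 fun h0 ↦ hi p hpf ?_
    rwa [← ZMod.natCast_zmod_val (x (i p hpf)).norm, map_natCast,
      ZMod.natCast_eq_zero_iff] at h0
  obtain ⟨L, hL⟩ := hlu
  have hfix : ∀ j, (x j * (↑L⁻¹ : EMod n)).im = 0 := fun j ↦ by
    have e : star (x j * (↑L⁻¹ : EMod n)) = x j * ↑L⁻¹ := by
      have h1 : star (↑L⁻¹ : EMod n) * (u * ↑L) = 1 := by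
        rw [hL, ← hl, ← hL, ← star_mul', Units.inv_mul, star_one]
      rw [star_mul', hu]
      linear_combination (x j * (↑L⁻¹ : EMod n)) * h1 -
        (x j * star (↑L⁻¹ : EMod n) * u) * L.mul_inv
    have h2 := congrArg QuadraticAlgebra.re e
    simp only [QuadraticAlgebra.re_star, neg_one_mul] at h2
    linear_combination -h2
  set R : Matrix (Fin 2) (Fin 2) (ZMod n) := fun a b ↦ (x (a, b) * (↑L⁻¹ : EMod n)).re
  have hR : ∀ a b, algebraMap (ZMod n) (EMod n) (R a b) = x (a, b) * ↑L⁻¹ := fun a b ↦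
    QuadraticAlgebra.ext rfl (hfix (a, b)).symm
  have hRu : IsUnit R.det := by
    have h2 : IsUnit (algebraMap (ZMod n) (EMod n) R.det) := by
      rw [Matrix.det_fin_two, map_sub, map_mul, map_mul, hR, hR, hR, hR,
        show x (0, 0) * (↑L⁻¹ : EMod n) * (x (1, 1) * ↑L⁻¹) -
          x (0, 1) * ↑L⁻¹ * (x (1, 0) * ↑L⁻¹) = (D : EMod n) * ↑(L⁻¹ * L⁻¹) by
            rw [hD, Units.val_mul]; ring]
      exact D.isUnit.mul (Units.isUnit _)
    have h3 := QuadraticAlgebra.isUnit_iff_norm_isUnit.1 h2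
    rw [QuadraticAlgebra.norm_algebraMap] at h3
    exact (isUnit_pow_iff two_ne_zero).1 h3
  refine ⟨L, GeneralLinearGroup.mk'' R hRu, Units.ext ?_⟩
  ext a b : 1
  show h.val a b = ((R.map (algebraMap (ZMod n) (EMod n))) *
    Matrix.scalar (Fin 2) (L : EMod n)) a b
  rw [Matrix.scalar_apply, Matrix.mul_diagonal, Matrix.map_apply, hR, mul_assoc, Units.inv_mul,
    mul_one]

end FermatAgent.LT.Lift
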