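import Mathlib
import Fermat.Agent.LT.Lift.Orbit

/-!
# Coordinates around the real plane of `H3`
-/

set_option autoImplicit false

noncomputable section

open MeasureTheory
open scoped ENNReal MatrixGroups ComplexConjugate Modular

namespace FermatAgent.LT.Lift

/-- The projection on the plane. -/
def projH (p : H3) : UpperHalfPlane :=
  ⟨⟨p.z.re, √(p.z.im ^ 2 + p.t ^ 2)⟩,
    Real.sqrt_pos.2 (by have := p.t_pos; positivity)⟩

theorem projH_re (p : H3) : (projH p).re = p.z.re := rfl

theorem projH_im (p : H3) : (projH p).im = √(p.z.im ^ 2 + p.t ^ 2) := rfl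

theorem sq_projH_im (p : H3) : (projH p).im ^ 2 = p.z.im ^ 2 + p.t ^ 2 := by
  rw [projH_im, Real.sq_sqrt (by positivity)]

theorem measurable_projH : Measurable projH := by
  refine Continuous.measurable ?_
  rw [UpperHalfPlane.isEmbedding_coe.continuous_iff]
  have := continuous_z
  have := continuous_t
  have e : UpperHalfPlane.coe ∘ projH =
      fun p : H3 ↦ (p.z.re : ℂ) + (√(p.z.im ^ 2 + p.t ^ 2) : ℝ) * Complex.I := by
    funext p
    apply Complex.ext <;> simp [projH]
  rw [e]
  fun_prop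

/-- A point over `τ` of slope `u`. -/
def planePt (x : UpperHalfPlane × ℝ) : H3 where
  z := ⟨x.1.re, x.2 * (x.1.im / √(1 + x.2 ^ 2))⟩
  t := x.1.im / √(1 + x.2 ^ 2)
  t_pos := div_pos x.1.im_pos (Real.sqrt_pos.2 (by positivity))

theorem projH_planePt (x : UpperHalfPlane × ℝ) : projH (planePt x) = x.1 := by
  refine UpperHalfPlane.ext (Complex.ext rfl ?_)
  show √((x.2 * (x.1.im / √(1 + x.2 ^ 2))) ^ 2 + (x.1.im / √(1 + x.2 ^ 2)) ^ 2) = x.1.im
  have h1 : (0 : ℝ) < 1 + x.2 ^ 2 := by positivity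
  rw [mul_pow, div_pow, Real.sq_sqrt h1.le,
    show x.2 ^ 2 * (x.1.im ^ 2 / (1 + x.2 ^ 2)) + x.1.im ^ 2 / (1 + x.2 ^ 2) = x.1.im ^ 2 by
      field_simp; ring,
    Real.sqrt_sq x.1.im_pos.le]

theorem slope_planePt (x : UpperHalfPlane × ℝ) : (planePt x).z.im / (planePt x).t = x.2 := by
  show x.2 * (x.1.im / √(1 + x.2 ^ 2)) / (x.1.im / √(1 + x.2 ^ 2)) = x.2
  rw [mul_div_assoc, div_self (show x.1.im / √(1 + x.2 ^ 2) ≠ 0 from (planePt x).t_pos.ne'),
    mul_one]

theorem continuous_planePt : Continuous planePt := by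
  have h : ∀ u : ℝ, √(1 + u ^ 2) ≠ 0 := fun u ↦ (Real.sqrt_pos.2 (by positivity)).ne'
  refine continuous_mk' ?_ ?_
  · have e : (fun x : UpperHalfPlane × ℝ ↦ (planePt x).z) = fun x ↦
        (x.1.re : ℂ) + (x.2 * (x.1.im / √(1 + x.2 ^ 2)) : ℝ) * Complex.I := by
      funext x; apply Complex.ext <;> simp [planePt]
    rw [e]
    have := UpperHalfPlane.continuous_re
    have := UpperHalfPlane.continuous_im
    fun_prop (disch := exact fun x ↦ h x.2)
  · show Continuous fun x : UpperHalfPlane × ℝ ↦ x.1.im / √(1 + x.2 ^ 2)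
    have := UpperHalfPlane.continuous_im
    fun_prop (disch := exact fun x ↦ h x.2)

/-- Scaling in a lintegral over the line. -/
theorem lintegral_scale {a : ℝ} (ha : 0 < a) (g : ℝ → ℝ≥0∞) :
    ∫⁻ y, g y = ENNReal.ofReal a * ∫⁻ u, g (a * u) := by
  have e : Measure.map (fun u : ℝ ↦ a * u) volume = ENNReal.ofReal (|a⁻¹|) • volume :=
    Real.map_volume_mul_left ha.ne'
  have h1 : ∫⁻ u, g (a * u) = ∫⁻ y, g y ∂(Measure.map (fun u : ℝ ↦ a * u) volume) :=
    ((measurableEmbedding_mulLeft₀ ha.ne').lintegral_map g).symm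
  rw [h1, e, lintegral_smul_measure, smul_eq_mul, ← mul_assoc, ← ENNReal.ofReal_mul ha.le,
    abs_of_pos (inv_pos.2 ha), mul_inv_cancel₀ ha.ne', ENNReal.ofReal_one, one_mul]

theorem lintegral_complex (G : ℂ → ℝ≥0∞) (hG : Measurable G) :
    ∫⁻ z, G z = ∫⁻ x : ℝ, ∫⁻ y : ℝ, G ⟨x, y⟩ := by
  rw [← (Complex.volume_preserving_equiv_real_prod.symm _).lintegral_comp hG,
    Measure.volume_eq_prod, lintegral_prod (fun z ↦ G (Complex.measurableEquivRealProd.symm z))
      (hG.comp Complex.measurableEquivRealProd.symm.measurable).aemeasurable]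
  refine lintegral_congr fun x ↦ lintegral_congr fun y ↦ ?_
  congr 1

theorem lintegral_uhp (G : UpperHalfPlane → ℝ≥0∞) (hG : Measurable G) :
    ∫⁻ τ, G τ = ∫⁻ x : ℝ, ∫⁻ r in Set.Ioi (0 : ℝ),
      ENNReal.ofReal (1 / r ^ 2) * G (UpperHalfPlane.ofComplex ⟨x, r⟩) := by
  have hd : Measurable fun z : UpperHalfPlane ↦
      (((1 : NNReal) / NNReal.mk z.im z.im_pos.le) ^ 2 : NNReal) :=
    ((Continuous.div₀ (α := UpperHalfPlane) (G₀ := NNReal) continuous_const
      (UpperHalfPlane.continuous_im.subtype_mk _)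
      fun z ↦ NNReal.ne_iff.mp z.im_ne_zero).pow 2).measurable
  set S : Set ℂ := {z | 0 < z.im}
  have hS : MeasurableSet S := measurableSet_lt measurable_const Complex.measurable_im
  have hof : Measurable fun z : ℂ ↦ ENNReal.ofReal (1 / z.im ^ 2) * G (UpperHalfPlane.ofComplex z) := by
    refine (measurable_const.div (Complex.measurable_im.pow_const 2)).ennreal_ofReal.mul
      (hG.comp ?_)
    rw [measurable_comap_iff]
    have e : UpperHalfPlane.coe ∘ UpperHalfPlane.ofComplex =
        S.piecewise id (fun _ ↦ ((UpperHalfPlane.ofComplex (0 : ℂ) : UpperHalfPlane) : ℂ)) := by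
      funext z
      by_cases hz : z ∈ S
      · simp [Set.piecewise_eq_of_mem _ _ _ hz, UpperHalfPlane.ofComplex_apply_of_im_pos
          (show 0 < z.im from hz)]
      · simp only [Function.comp_apply, Set.piecewise_eq_of_notMem _ _ _ hz]
        rw [UpperHalfPlane.ofComplex_apply_of_im_nonpos (not_lt.1 hz),
          UpperHalfPlane.ofComplex_apply_of_im_nonpos (le_of_eq Complex.zero_im)]
    rw [e]
    exact Measurable.piecewise hS measurable_id measurable_const
  calc ∫⁻ τ, G τ = ∫⁻ τ : UpperHalfPlane, ENNReal.ofReal (1 / τ.im ^ 2) * G τ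
        ∂(volume.comap UpperHalfPlane.coe) := by
        rw [UpperHalfPlane.volume_def,
          lintegral_withDensity_eq_lintegral_mul _ hd.coe_nnreal_ennreal hG]
        refine lintegral_congr fun τ ↦ ?_
        simp only [Pi.mul_apply]
        congr 1
        rw [← ENNReal.ofReal_coe_nnreal]
        congr 1
        push_cast
        rw [one_div, inv_pow, one_div]
    _ = ∫⁻ z in S, ENNReal.ofReal (1 / z.im ^ 2) * G (UpperHalfPlane.ofComplex z) := by
        rw [show S = Set.range UpperHalfPlane.coe from UpperHalfPlane.range_coe.symm,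
          ← UpperHalfPlane.measurableEmbedding_coe.map_comap,
          UpperHalfPlane.measurableEmbedding_coe.lintegral_map]
        refine lintegral_congr fun τ ↦ ?_
        rw [UpperHalfPlane.ofComplex_apply]
        rfl
    _ = _ := by
        rw [← lintegral_indicator hS, lintegral_complex _ (hof.indicator hS)]
        refine lintegral_congr fun x ↦ ?_
        rw [← lintegral_indicator measurableSet_Ioi]
        refine lintegral_congr fun r ↦ ?_
        rfl

theorem measurable_comp_coord {F : H3 → ℝ≥0∞} (hF : Measurable F) :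
    ∃ G : ℂ × ℝ → ℝ≥0∞, Measurable G ∧ ∀ p : H3, G p.coord = F p :=
  ⟨Function.extend H3.coord F 0, measurableEmbedding_coord.measurable_extend hF measurable_const,
    fun p ↦ coord_injective.extend_apply _ _ p⟩

/-- The measure in plane coordinates. -/
theorem lintegral_planePt (F : H3 → ℝ≥0∞) (hF : Measurable F) :
    ∫⁻ p, F p = ∫⁻ u : ℝ, ENNReal.ofReal (√(1 + u ^ 2)) *
      ∫⁻ τ : UpperHalfPlane, F (planePt (τ, u)) := by
  obtain ⟨G, hG, hGF⟩ := measurable_comp_coord hF
  have hI : MeasurableSet {x : ℂ × ℝ | 0 < x.2} :=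
    measurableSet_lt measurable_const measurable_snd
  -- the density on triples
  set f : ℝ → ℝ → ℝ → ℝ≥0∞ := fun x y t ↦
    (Set.Ioi (0 : ℝ)).indicator (fun t ↦ ENNReal.ofReal (1 / t ^ 3) * G (⟨x, y⟩, t)) t with hf
  have hpair : Measurable fun q : (ℝ × ℝ) × ℝ ↦ ((⟨q.1.1, q.1.2⟩ : ℂ), q.2) :=
    (Complex.measurableEquivRealProd.symm.measurable.comp measurable_fst).prodMk measurable_snd
  have hfm : Measurable fun q : (ℝ × ℝ) × ℝ ↦ f q.1.1 q.1.2 q.2 := by
    have e : (fun q : (ℝ × ℝ) × ℝ ↦ f q.1.1 q.1.2 q.2) = ({q : (ℝ × ℝ) × ℝ | 0 < q.2}).indicator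
        (fun q ↦ ENNReal.ofReal (1 / q.2 ^ 3) * G (⟨q.1.1, q.1.2⟩, q.2)) := by
      funext q; rfl
    rw [e]
    exact ((measurable_const.div (measurable_snd.pow_const 3)).ennreal_ofReal.mul
      (hG.comp hpair)).indicator (measurableSet_lt measurable_const measurable_snd)
  have hfm' : ∀ {α : Type} [MeasurableSpace α] {a b c : α → ℝ}, Measurable a → Measurable b →
      Measurable c → Measurable fun z ↦ f (a z) (b z) (c z) := fun ha hb hc ↦
    hfm.comp ((ha.prodMk hb).prodMk hc)
  -- left hand side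
  have hL : ∫⁻ p, F p = ∫⁻ x : ℝ, ∫⁻ y : ℝ, ∫⁻ t : ℝ, f x y t := by
    simp only [← hGF]
    rw [lintegral_eq, ← lintegral_indicator hI, Measure.volume_eq_prod,
      lintegral_prod ({x : ℂ × ℝ | 0 < x.2}.indicator fun x ↦ (dens x : ℝ≥0∞) * G x)
        ((measurable_dens.coe_nnreal_ennreal.mul hG).indicator hI).aemeasurable]
    rw [lintegral_complex _ ?_]
    · refine lintegral_congr fun x ↦ lintegral_congr fun y ↦ lintegral_congr fun t ↦ ?_
      rfl
    · exact ((measurable_dens.coe_nnreal_ennreal.mul hG).indicator hI).lintegral_prod_right'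
  -- scale the vertical coordinate
  have h1 : ∀ x t : ℝ, ∫⁻ y, f x y t = ∫⁻ u, ENNReal.ofReal t * f x (t * u) t := by
    intro x t
    by_cases ht : 0 < t
    · rw [lintegral_const_mul' _ _ ENNReal.ofReal_ne_top, ← lintegral_scale ht fun y ↦ f x y t]
    · simp [hf, ht]
  have h2 : ∀ x u : ℝ, ∫⁻ t, ENNReal.ofReal t * f x (t * u) t =
      ENNReal.ofReal (√(1 + u ^ 2)) * ∫⁻ r in Set.Ioi (0 : ℝ), ENNReal.ofReal (1 / r ^ 2) *
        F (planePt (UpperHalfPlane.ofComplex ⟨x, r⟩, u)) := by
    intro x u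
    set s := √(1 + u ^ 2)
    have hs : 0 < s := Real.sqrt_pos.2 (by positivity)
    rw [lintegral_scale (inv_pos.2 hs), ← lintegral_indicator measurableSet_Ioi,
      ← lintegral_const_mul' _ _ ENNReal.ofReal_ne_top,
      ← lintegral_const_mul' _ _ ENNReal.ofReal_ne_top]
    refine lintegral_congr fun r ↦ ?_
    by_cases hr : 0 < r
    · have hsr : 0 < s⁻¹ * r := mul_pos (inv_pos.2 hs) hr
      rw [hf]
      simp only [Set.indicator_of_mem (Set.mem_Ioi.2 hsr), Set.indicator_of_mem (Set.mem_Ioi.2 hr)]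
      rw [← hGF]
      have e : (planePt (UpperHalfPlane.ofComplex ⟨x, r⟩, u)).coord =
          (⟨x, s⁻¹ * r * u⟩, s⁻¹ * r) := by
        rw [UpperHalfPlane.ofComplex_apply_of_im_pos (show 0 < (⟨x, r⟩ : ℂ).im from hr)]
        refine Prod.ext (Complex.ext rfl ?_) ?_
        · show u * (r / s) = s⁻¹ * r * u
          ring
        · show r / s = s⁻¹ * r
          ring
      rw [e, ← mul_assoc, ← mul_assoc, ← mul_assoc, ← ENNReal.ofReal_mul (inv_pos.2 hs).le,
        ← ENNReal.ofReal_mul (by positivity), ← ENNReal.ofReal_mul hs.le]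
      congr 2
      field_simp
    · have hsr : ¬ 0 < s⁻¹ * r := fun h ↦ hr ((pos_iff_pos_of_mul_pos h).1 (inv_pos.2 hs))
      rw [hf]
      simp [hr, hsr]
  have hr : Measurable fun q : ℝ × UpperHalfPlane ↦ F (planePt (q.2, q.1)) :=
    hF.comp (continuous_planePt.comp continuous_swap).measurable
  rw [hL]
  calc ∫⁻ x : ℝ, ∫⁻ y : ℝ, ∫⁻ t : ℝ, f x y t
      = ∫⁻ x : ℝ, ∫⁻ t : ℝ, ∫⁻ u : ℝ, ENNReal.ofReal t * f x (t * u) t := by
        refine lintegral_congr fun x ↦ ?_
        rw [lintegral_lintegral_swap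
          (hfm' measurable_const measurable_fst measurable_snd).aemeasurable]
        simp only [h1]
    _ = ∫⁻ x : ℝ, ∫⁻ u : ℝ, ∫⁻ t : ℝ, ENNReal.ofReal t * f x (t * u) t := by
        refine lintegral_congr fun x ↦ ?_
        exact lintegral_lintegral_swap (measurable_fst.ennreal_ofReal.mul
          (hfm' measurable_const (measurable_fst.mul measurable_snd) measurable_fst)).aemeasurable
    _ = ∫⁻ u : ℝ, ∫⁻ x : ℝ, ∫⁻ t : ℝ, ENNReal.ofReal t * f x (t * u) t := by
        refine lintegral_lintegral_swap (Measurable.aemeasurable ?_)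
        have hm : Measurable fun q : (ℝ × ℝ) × ℝ ↦ ENNReal.ofReal q.2 * f q.1.1 (q.2 * q.1.2) q.2 :=
          measurable_snd.ennreal_ofReal.mul (hfm' (measurable_fst.comp measurable_fst)
            (measurable_snd.mul (measurable_snd.comp measurable_fst)) measurable_snd)
        exact hm.lintegral_prod_right'
    _ = _ := by
        refine lintegral_congr fun u ↦ ?_
        simp only [h2]
        rw [lintegral_const_mul' _ _ ENNReal.ofReal_ne_top,
          lintegral_uhp (fun τ ↦ F (planePt (τ, u)))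
            (hr.comp (measurable_const.prodMk measurable_id : Measurable fun τ : UpperHalfPlane ↦
              (u, τ)))]

/-- The weight `√(1 + u²) du`. -/
def slopeMeasure : Measure ℝ :=
  (volume : Measure ℝ).withDensity fun u ↦ ENNReal.ofReal (√(1 + u ^ 2))

instance : SFinite slopeMeasure := inferInstanceAs (SFinite (Measure.withDensity _ _))

theorem map_planePt :
    ((volume : Measure UpperHalfPlane).prod slopeMeasure).map planePt =
      (volume : Measure H3) := by
  refine Measure.ext fun s hs ↦ ?_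
  rw [Measure.map_apply continuous_planePt.measurable hs,
    Measure.prod_apply_symm (continuous_planePt.measurable hs)]
  rw [slopeMeasure, lintegral_withDensity_eq_lintegral_mul _
    (show Measurable fun u : ℝ ↦ ENNReal.ofReal √(1 + u ^ 2) by fun_prop)
    (measurable_measure_prodMk_right (continuous_planePt.measurable hs))]
  rw [← lintegral_indicator_one hs, lintegral_planePt _ (measurable_one.indicator hs)]
  refine lintegral_congr fun u ↦ ?_
  rw [Pi.mul_apply, ← lintegral_indicator_one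
    (measurable_prodMk_right (continuous_planePt.measurable hs))]
  rfl

/-- The action of integral matrices in plane coordinates. -/
theorem projH_smul (g : SL(2, ℤ)) (G : GL (Fin 2) ℂ) {c : ℂ} (hc : c ≠ 0)
    (hG : G.val = c • (g.1.map fun i : ℤ ↦ (i : ℂ))) (p : H3) :
    projH (G • p) = g • projH p := by
  set a : ℝ := ((g 0 0 : ℤ) : ℝ)
  set b : ℝ := ((g 0 1 : ℤ) : ℝ)
  set c' : ℝ := ((g 1 0 : ℤ) : ℝ)
  set d : ℝ := ((g 1 1 : ℤ) : ℝ)
  have hdet : a * d - b * c' = 1 := by
    have := g.2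
    rw [Matrix.det_fin_two] at this
    simp only [a, b, c', d]
    exact_mod_cast this
  set D : ℝ := (c' * p.z.re + d) ^ 2 + c' ^ 2 * (p.z.im ^ 2 + p.t ^ 2)
  have hnn : Complex.normSq c ≠ 0 := (Complex.normSq_pos.2 hc).ne'
  have hden : den G p = Complex.normSq c * D := by
    simp only [den, hG, Matrix.smul_apply, Matrix.map_apply, smul_eq_mul, D, c', d]
    rw [mul_assoc, ← mul_add, Complex.normSq_mul, Complex.normSq_mul]
    simp only [Complex.normSq_apply, Complex.add_re, Complex.add_im, Complex.mul_re,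
      Complex.mul_im, Complex.intCast_re, Complex.intCast_im]
    ring
  have hD : D ≠ 0 := fun h ↦ (den_pos G p).ne' (by rw [hden, h, mul_zero])
  have hdetn : ‖G.val.det‖ = Complex.normSq c := by
    rw [hG, Matrix.det_smul, Fintype.card_fin, norm_mul, norm_pow, ← Complex.normSq_eq_norm_sq,
      Matrix.det_fin_two]
    simp only [Matrix.map_apply]
    have h1 : ((g 0 0 : ℤ) : ℂ) * (g 1 1 : ℤ) - (g 0 1 : ℤ) * (g 1 0 : ℤ) = 1 := by
      have := g.2
      rw [Matrix.det_fin_two] at this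
      exact_mod_cast this
    rw [h1, norm_one, mul_one]
  have hz : (G • p).z = ((((a * p.z.re + b) * (c' * p.z.re + d) +
      a * c' * (p.z.im ^ 2 + p.t ^ 2)) / D : ℝ) : ℂ) + ((p.z.im / D : ℝ) : ℂ) * Complex.I := by
    rw [z_smul, hden]
    have hDC : (D : ℂ) ≠ 0 := by exact_mod_cast hD
    have hnC : (Complex.normSq c : ℂ) ≠ 0 := by exact_mod_cast hnn
    have hz0 : p.z = (p.z.re : ℂ) + (p.z.im : ℂ) * Complex.I := (Complex.re_add_im _).symm
    simp only [hG, Matrix.smul_apply, Matrix.map_apply, smul_eq_mul, map_add, map_mul,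
      Complex.ofReal_mul, Complex.ofReal_div, Complex.ofReal_add, Complex.ofReal_pow, a, b, c', d,
      map_intCast, Complex.ofReal_intCast] at hdet ⊢
    rw [hz0]
    simp only [map_add, map_mul, Complex.conj_ofReal, Complex.conj_I, Complex.add_re,
      Complex.add_im, Complex.mul_re, Complex.mul_im, Complex.ofReal_re, Complex.ofReal_im,
      Complex.I_re, Complex.I_im]
    have hdetC : ((g 0 0 : ℤ) : ℂ) * (g 1 1 : ℤ) - (g 0 1 : ℤ) * (g 1 0 : ℤ) = 1 := by
      exact_mod_cast hdet
    rw [Complex.normSq_eq_conj_mul_self] at hnC ⊢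
    have hcC : (starRingEnd ℂ) c ≠ 0 := by simpa using hc
    field_simp
    push_cast
    linear_combination (p.z.im : ℂ) * Complex.I * hdetC +
      (-((g 0 0 : ℤ) : ℂ) * (g 1 0 : ℤ) * (p.z.im : ℂ) ^ 2) * Complex.I_sq
  have ht : (G • p).t = p.t / D := by
    rw [t_smul, hdetn, hden, mul_div_mul_left _ _ hnn]
  have hns : Complex.normSq ((c' : ℂ) * (projH p : ℂ) + d) = D := by
    simp only [Complex.normSq_apply, Complex.add_re, Complex.add_im, Complex.mul_re,
      Complex.mul_im, Complex.ofReal_re, Complex.ofReal_im, UpperHalfPlane.coe_re,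
      UpperHalfPlane.coe_im, projH_re]
    linear_combination c' ^ 2 * sq_projH_im p
  have hcoe : ((g • projH p : UpperHalfPlane) : ℂ) =
      ((a : ℂ) * (projH p : ℂ) + b) / ((c' : ℂ) * (projH p : ℂ) + d) := by
    rw [UpperHalfPlane.coe_specialLinearGroup_apply]
    simp [a, b, c', d]
  refine UpperHalfPlane.ext (Complex.ext ?_ ?_)
  · rw [UpperHalfPlane.coe_re, projH_re, hz, hcoe, Complex.div_re, hns]
    simp [projH_re, -Complex.ofReal_pow]
    field_simp
    linear_combination (-(a * c')) * sq_projH_im p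
  · rw [UpperHalfPlane.coe_im, projH_im, hz, ht, hcoe, Complex.div_im, hns]
    simp [projH_re, -Complex.ofReal_pow]
    rw [div_pow, div_pow, ← add_div, Real.sqrt_div' _ (sq_nonneg D), Real.sqrt_sq
      (le_of_lt (lt_of_le_of_ne (by simp only [D]; positivity) (Ne.symm hD))), ← projH_im,
      ← sub_div]
    congr 1
    linear_combination (-(projH p).im) * hdet

theorem maj_vJ (p : H3) : maj (realV (vJ ℤ)) p = 6 * (p.z.im / p.t) ^ 2 + 3 := by
  have h3 : √(3 : ℝ) * √3 = 3 := Real.mul_self_sqrt (by norm_num)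
  have := p.t_pos.ne'
  rw [maj_eq]
  simp [realV, vJ, Complex.normSq_apply]
  field_simp
  nlinarith [h3]

/-- Null sets upstairs. -/
theorem ae_projH {Q : UpperHalfPlane → Prop}
    (h : ∀ᵐ τ : UpperHalfPlane, Q τ) : ∀ᵐ p : H3, Q (projH p) := by
  obtain ⟨s, hs, hsm, hs0⟩ := exists_measurable_superset_of_null (ae_iff.1 h)
  rw [ae_iff]
  refine measure_mono_null (t := projH ⁻¹' s) (fun p hp ↦ hs hp) ?_
  rw [← map_planePt, Measure.map_apply continuous_planePt.measurable (measurable_projH hsm),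
    show planePt ⁻¹' (projH ⁻¹' s) = s ×ˢ Set.univ by
      ext x; simp [projH_planePt],
    Measure.prod_prod, hs0, zero_mul]

theorem volume_re_eq (c : ℝ) : volume {z : ℂ | z.re = c} = 0 := by
  rw [← lintegral_indicator_one (measurableSet_eq_fun Complex.measurable_re measurable_const),
    lintegral_complex _ (measurable_one.indicator
      (measurableSet_eq_fun Complex.measurable_re measurable_const))]
  have e : ∀ x : ℝ, (∫⁻ y : ℝ, ({z : ℂ | z.re = c}).indicator (1 : ℂ → ℝ≥0∞) ⟨x, y⟩) =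
      ({c} : Set ℝ).indicator (fun _ ↦ (∫⁻ _ : ℝ, 1)) x := by
    intro x
    by_cases hx : x = c <;> simp [hx]
  simp only [e]
  rw [lintegral_indicator (measurableSet_singleton c)]
  simp

theorem ae_mem_fdo_of_mem_fd :
    ∀ᵐ τ : UpperHalfPlane, ∀ g : SL(2, ℤ), g • τ ∈ 𝒟 → g • τ ∈ 𝒟ᵒ := by
  set B : Set ℂ := {z | z.re = 1 / 2} ∪ {z | z.re = -(1 / 2)} ∪ Metric.sphere 0 1
  have hB : volume B = 0 := measure_union_null
    (measure_union_null (volume_re_eq _) (volume_re_eq _)) (Measure.addHaar_sphere _ _ _)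
  have hbad : volume (UpperHalfPlane.coe ⁻¹' B) = 0 := by
    rw [UpperHalfPlane.volume_eq_lintegral, setLIntegral_measure_zero _ _
      (measure_mono_null (Set.image_preimage_subset _ _) hB)]
  have : Countable (Matrix (Fin 2) (Fin 2) ℤ) := inferInstanceAs (Countable (Fin 2 → Fin 2 → ℤ))
  have : Countable SL(2, ℤ) := inferInstanceAs
    (Countable {A : Matrix (Fin 2) (Fin 2) ℤ // A.det = 1})
  rw [ae_all_iff]
  intro g
  have hq : MeasureTheory.Measure.QuasiMeasurePreserving (fun τ : UpperHalfPlane ↦ g • τ)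
      volume volume :=
    (measurePreserving_smul (μ := (volume : Measure UpperHalfPlane))
      ((Matrix.SpecialLinearGroup.mapGL ℝ) g)).quasiMeasurePreserving
  have := hq.ae (show ∀ᵐ τ : UpperHalfPlane, τ ∈ 𝒟 → τ ∈ 𝒟ᵒ by
    rw [ae_iff]
    refine measure_mono_null (fun τ hτ ↦ ?_) hbad
    simp only [Set.mem_ofPred_eq, Classical.not_imp] at hτ
    obtain ⟨⟨h1, h2⟩, h3⟩ := hτ
    rcases h1.lt_or_eq with h1' | h1'
    · rcases h2.lt_or_eq with h2' | h2'
      · exact absurd ⟨h1', h2'⟩ h3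
      · rcases abs_choice τ.re with e | e <;> rw [e] at h2'
        · exact Or.inl (Or.inl h2')
        · exact Or.inl (Or.inr (by simp only [Set.mem_ofPred_eq, UpperHalfPlane.coe_re]; linarith))
    · refine Or.inr ?_
      rw [mem_sphere_zero_iff_norm, ← Real.sqrt_sq (norm_nonneg _), ← Complex.normSq_eq_norm_sq,
        ← h1', Real.sqrt_one])
  exact this

theorem volume_fd_ne_top : volume (𝒟 : Set UpperHalfPlane) ≠ ⊤ := by
  rw [UpperHalfPlane.volume_eq_lintegral]
  set T : Set ℂ := Set.Icc (-1 : ℝ) 1 ×ℂ Set.Ici (1 / 2 : ℝ)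
  have hT : MeasurableSet T :=
    (Complex.measurable_re measurableSet_Icc).inter (Complex.measurable_im measurableSet_Ici)
  refine ne_top_of_le_ne_top ?_ (lintegral_mono_set (t := T) fun z hz ↦ ?_)
  · rw [← lintegral_indicator hT, lintegral_complex _ ((by fun_prop : Measurable fun z : ℂ ↦
      (((1 : NNReal) / ‖z.im‖₊) ^ 2 : NNReal)).coe_nnreal_ennreal.indicator hT)]
    have e : ∀ x y : ℝ, T.indicator (fun z : ℂ ↦ (((1 / ‖z.im‖₊) ^ 2 : NNReal) : ℝ≥0∞)) ⟨x, y⟩ ≤
        (Set.Icc (-1 : ℝ) 1).indicator 1 x *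
          (Set.Ioi (1 / 4 : ℝ)).indicator (fun y ↦ ENNReal.ofReal (y ^ (-2 : ℝ))) y := by
      intro x y
      by_cases h : (⟨x, y⟩ : ℂ) ∈ T
      · obtain ⟨hx, hy⟩ := Complex.mem_reProdIm.1 h
        have hy0 : (0 : ℝ) < y := lt_of_lt_of_le (by norm_num) (Set.mem_Ici.1 hy)
        rw [Set.indicator_of_mem h, Set.indicator_of_mem (show x ∈ Set.Icc (-1 : ℝ) 1 from hx),
          Set.indicator_of_mem (show y ∈ Set.Ioi (1 / 4 : ℝ) from
            lt_of_lt_of_le (by norm_num) (Set.mem_Ici.1 hy)), Pi.one_apply, one_mul,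
          ← ENNReal.ofReal_coe_nnreal]
        refine ENNReal.ofReal_le_ofReal (le_of_eq ?_)
        push_cast
        rw [Real.norm_of_nonneg hy0.le, Real.rpow_neg hy0.le, Real.rpow_two, one_div, inv_pow]
      · rw [Set.indicator_of_notMem h]; exact zero_le
    refine ne_top_of_le_ne_top ?_ (lintegral_mono fun x ↦ lintegral_mono fun y ↦ e x y)
    have hm : Measurable ((Set.Ioi (1 / 4 : ℝ)).indicator fun y : ℝ ↦
        ENNReal.ofReal (y ^ (-2 : ℝ))) :=
      (by fun_prop : Measurable fun y : ℝ ↦ ENNReal.ofReal (y ^ (-2 : ℝ))).indicator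
        measurableSet_Ioi
    simp only [lintegral_const_mul _ hm]
    rw [lintegral_mul_const _ (measurable_one.indicator measurableSet_Icc)]
    refine ENNReal.mul_ne_top ?_ ?_
    · rw [lintegral_indicator_one measurableSet_Icc]
      simp
    · rw [lintegral_indicator measurableSet_Ioi]
      exact ne_top_of_le_ne_top (integrableOn_Ioi_rpow_of_lt (show (-2 : ℝ) < -1 by norm_num)
        (show (0 : ℝ) < 1 / 4 by norm_num)).2.ne
        (setLIntegral_mono' measurableSet_Ioi fun y hy ↦ le_of_eq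
          (Real.enorm_eq_ofReal (Real.rpow_nonneg
            ((show (0 : ℝ) < 1 / 4 by norm_num).le.trans (le_of_lt hy)) _)).symm)
  · obtain ⟨τ, hτ, rfl⟩ := hz
    refine Complex.mem_reProdIm.2 ⟨?_, ?_⟩
    · have := abs_le.1 hτ.2
      simp only [Set.mem_Icc, UpperHalfPlane.coe_re]
      constructor <;> linarith [this.1, this.2]
    · have := ModularGroup.three_le_four_mul_im_sq_of_mem_fd hτ
      simp only [Set.mem_Ici, UpperHalfPlane.coe_im]
      nlinarith [τ.im_pos]

end FermatAgent.LT.Lift
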