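import Mathlib
import Fermat.Agent.LT.Lift.Plane
import Fermat.Agent.LT.Lift.Hecke

/-!
# The coefficient of level three and the period
-/

set_option autoImplicit false

noncomputable section

open MeasureTheory Filter Topology
open scoped ENNReal NNReal MatrixGroups Modular

namespace FermatAgent.LT.Lift

/-- The test function of the period. -/
def w3 (N : ℕ) (v : Fin 4 → ZMod N) : ℂ :=
  open scoped Classical in if ∃ a : (ZMod N)ˣ, v = (a : ZMod N) • vJ (ZMod N) then 1 else 0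

theorem scalarInv_w3 (N : ℕ) : ScalarInv (w3 N) := by
  intro a v
  classical
  simp only [w3]
  have hiff : (∃ b : (ZMod N)ˣ, (a : ZMod N) • v = (b : ZMod N) • vJ (ZMod N)) ↔
      ∃ b : (ZMod N)ˣ, v = (b : ZMod N) • vJ (ZMod N) := by
    constructor
    · rintro ⟨b, hb⟩
      refine ⟨a⁻¹ * b, ?_⟩
      rw [Units.val_mul, ← smul_smul, ← hb, smul_smul, Units.inv_mul, one_smul]
    · rintro ⟨b, rfl⟩
      exact ⟨a * b, by rw [Units.val_mul, smul_smul]⟩
  exact if_congr hiff rfl rfl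

/-- An integral special matrix inside `GO`. -/
def ofSL : SL(2, ℤ) →* GO :=
  Matrix.SpecialLinearGroup.toGL.comp (Matrix.SpecialLinearGroup.map (Int.castRingHom EO))

theorem ofSL_val (g : SL(2, ℤ)) (i j : Fin 2) :
    (ofSL g).val i j = ((g i j : ℤ) : EO) := rfl

theorem toC_ofSL (g : SL(2, ℤ)) :
    (toC (ofSL g)).val = (1 : ℂ) • (g.1.map fun i : ℤ ↦ (i : ℂ)) := by
  rw [one_smul]
  ext i j
  rw [toC_val, Matrix.map_apply, ofSL_val, map_intCast]
  rfl

theorem actR_ofSL (g : SL(2, ℤ)) : actR (ofSL g) (vJ ℤ) = vJ ℤ := by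
  have h := g.2
  rw [Matrix.det_fin_two] at h
  funext i
  fin_cases i <;>
    simp [actR, unhermR, hermR, vJ, Matrix.mul_apply, Fin.sum_univ_two,
      Matrix.conjTranspose_apply, ofSL_val] <;> first | ring1 | linear_combination h |
        linear_combination (2 : ℤ) * h

/-- Scalars in the stabiliser. -/
def scalSet : Set GO := {s | actR s (vJ ℤ) = vJ ℤ ∧ ∀ p : H3, s • p = p}

theorem finite_scalSet : scalSet.Finite := by
  refine (finite_smul_mem_siegel (⟨0, 1, one_pos⟩ : H3)).subset fun s hs ↦ ?_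
  show s • _ ∈ siegel
  rw [hs.2]
  exact ⟨by simp; norm_num, by norm_num⟩

/-- The number of scalars. -/
def nScal : ℕ := finite_scalSet.toFinset.card

theorem nScal_pos : 0 < nScal :=
  Finset.card_pos.2 ⟨1, finite_scalSet.mem_toFinset.2 ⟨actR_one _, one_smul _⟩⟩

/-- The partition for the stabiliser. -/
def wH (p : H3) : ℝ≥0∞ := (nScal : ℝ≥0∞)⁻¹ * (projH ⁻¹' 𝒟ᵒ).indicator 1 p

theorem measurable_wH : Measurable wH :=
  measurable_const.mul (measurable_one.indicator (measurable_projH ModularGroup.isOpen_fdo.measurableSet))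

theorem wH_ne_top (p : H3) : wH p ≠ ⊤ := by
  refine ENNReal.mul_ne_top (by simp [nScal_pos.ne']) ?_
  by_cases hp : p ∈ projH ⁻¹' 𝒟ᵒ <;> simp [hp]

theorem smul_eq_self_of_scalar {G : GL (Fin 2) ℂ} {c : ℂ} (hc : c ≠ 0)
    (hG : G.val = c • (1 : Matrix (Fin 2) (Fin 2) ℂ)) (p : H3) : G • p = p := by
  apply herm_injective
  rw [herm_smul, conjAct, hG, Matrix.det_smul, Matrix.det_one, mul_one, Fintype.card_fin,
    norm_pow, Matrix.conjTranspose_smul, Matrix.conjTranspose_one, Matrix.smul_mul,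
    Matrix.one_mul, Matrix.mul_smul, Matrix.mul_one, smul_smul, smul_smul]
  have h2 : (((‖c‖ ^ 2)⁻¹ : ℝ) : ℂ) * star c * c = 1 := by
    rw [mul_assoc, Complex.star_def, ← Complex.normSq_eq_conj_mul_self, Complex.normSq_eq_norm_sq]
    push_cast
    exact inv_mul_cancel₀ (pow_ne_zero 2 (by exact_mod_cast norm_ne_zero_iff.2 hc))
  rw [h2, one_smul]

theorem ae_tsum_wH : ∀ᵐ p : H3, ∑' s : GO,
    (if actR s (vJ ℤ) = vJ ℤ then wH (s • p) else 0) = 1 := by
  filter_upwards [ae_projH ae_mem_fdo_of_mem_fd] with p hp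
  classical
  obtain ⟨g₀, hg₀⟩ := ModularGroup.exists_smul_mem_fd (projH p)
  have hg₁ := hp g₀ hg₀
  set s₀ := ofSL g₀
  have hq : projH (s₀ • p) = g₀ • projH p := projH_smul g₀ _ one_ne_zero (toC_ofSL g₀) p
  set A := finite_scalSet.toFinset.image (· * s₀)
  have hA : ∀ s : GO, s ∈ A ↔ actR s (vJ ℤ) = vJ ℤ ∧ projH (s • p) ∈ 𝒟ᵒ := by
    intro s
    simp only [A, Finset.mem_image, Set.Finite.mem_toFinset]
    constructor
    · rintro ⟨t, ⟨ht1, ht2⟩, rfl⟩
      refine ⟨by rw [actR_mul, actR_ofSL, ht1], ?_⟩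
      rw [mul_smul, ht2, hq]
      exact hg₁
    · rintro ⟨h1, h2⟩
      refine ⟨s * s₀⁻¹, ⟨?_, ?_⟩, inv_mul_cancel_right _ _⟩
      · rw [actR_mul]
        have := congrArg (actR s₀⁻¹) (actR_ofSL g₀)
        rw [actR_inv_cancel] at this
        rw [← this, h1]
      have ht : actR (s * s₀⁻¹) (vJ ℤ) = vJ ℤ := by
        rw [actR_mul]
        have := congrArg (actR s₀⁻¹) (actR_ofSL g₀)
        rw [actR_inv_cancel] at this
        rw [← this, h1]
      obtain ⟨u, g, hu, hg⟩ := exists_sl_of_actR_vJ ht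
      have hg' : g • (g₀ • projH p) ∈ 𝒟ᵒ := by
        rw [← hq, ← projH_smul g _ hu hg, ← smul_def', ← mul_smul, inv_mul_cancel_right]
        exact h2
      rcases ModularGroup.eq_one_or_neg_one_of_mem_fdo_mem_fdo hg₁ hg' with rfl | rfl
      · intro q
        refine smul_eq_self_of_scalar hu ?_ q
        rw [hg]
        congr 1
        simp
      · intro q
        refine smul_eq_self_of_scalar (neg_ne_zero.2 hu) ?_ q
        rw [hg]
        ext i j
        fin_cases i <;> fin_cases j <;> simp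
  have hsum : ∀ s : GO, (if actR s (vJ ℤ) = vJ ℤ then wH (s • p) else 0) =
      if s ∈ A then (nScal : ℝ≥0∞)⁻¹ else 0 := by
    intro s
    simp only [hA, wH]
    by_cases h1 : actR s (vJ ℤ) = vJ ℤ <;> by_cases h2 : projH (s • p) ∈ 𝒟ᵒ <;>
      simp [h1, h2]
  rw [tsum_congr hsum, tsum_eq_sum (s := A) fun s hs ↦ if_neg hs,
    Finset.sum_congr rfl fun s hs ↦ if_pos hs, Finset.sum_const,
    Finset.card_image_of_injective _ (mul_left_injective s₀), nsmul_eq_mul]
  exact ENNReal.mul_inv_cancel (Nat.cast_ne_zero.2 nScal_pos.ne') (ENNReal.natCast_ne_top _)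

/-- The orbit map. -/
def orb (γ : GO) : Fin 4 → ℤ := actR γ (vJ ℤ)

theorem orb_def (γ : GO) : orb γ = actR γ (vJ ℤ) := rfl

attribute [irreducible] orb

theorem orb_fibre (γ₀ s : GO) : orb (γ₀ * s⁻¹) = orb γ₀ ↔ actR s (vJ ℤ) = vJ ℤ := by
  rw [orb_def, orb_def, actR_mul]
  refine ⟨fun h ↦ ?_, fun h ↦ ?_⟩
  · have := congrArg (fun x ↦ actR s (actR γ₀⁻¹ x)) h
    simp only [actR_inv_cancel] at this
    rw [← actR_mul, mul_inv_cancel, actR_one] at this
    exact this.symm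
  · conv_lhs => rw [← h]
    rw [actR_inv_cancel]

/-- The translates over the fibres of the orbit map. -/
theorem ae_tsum_fibre : ∀ᵐ p : H3, ∀ m : Fin 4 → ℤ,
    ∑' γ : {γ : GO // orb γ = m}, wH ((γ : GO)⁻¹ • p) =
      open scoped Classical in if ∃ γ : GO, orb γ = m then 1 else 0 := by
  have key : ∀ᵐ p : H3, ∀ γ₀ : GO, ∑' s : GO,
      (if actR s (vJ ℤ) = vJ ℤ then wH (s • γ₀⁻¹ • p) else 0) = 1 := by
    rw [ae_all_iff]
    intro γ₀
    have h := (measurePreserving_go γ₀⁻¹).quasiMeasurePreserving.tendsto_ae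
    have h2 := h.eventually ae_tsum_wH
    exact h2
  filter_upwards [key] with p hp m
  classical
  by_cases hm : ∃ γ : GO, orb γ = m
  · rw [if_pos hm]
    obtain ⟨γ₀, rfl⟩ := hm
    refine ((tsum_subtype {γ : GO | orb γ = orb γ₀} fun γ ↦ wH (γ⁻¹ • p)).trans ?_)
    rw [← ((Equiv.inv GO).trans (Equiv.mulLeft γ₀)).tsum_eq, ← hp γ₀]
    refine tsum_congr fun s ↦ ?_
    simp only [Equiv.trans_apply, Equiv.inv_apply, Equiv.coe_mulLeft, Set.indicator_apply,
      Set.mem_ofPred_eq, mul_inv_rev, inv_inv, mul_smul, orb_fibre]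
  · rw [if_neg hm]
    have : IsEmpty {γ : GO // orb γ = m} := ⟨fun γ ↦ hm ⟨γ.1, γ.2⟩⟩
    exact tsum_empty

theorem tsum_wH_kern_le {p : H3} (hp : ∀ m : Fin 4 → ℤ,
    ∑' γ : {γ : GO // orb γ = m}, wH ((γ : GO)⁻¹ • p) =
      open scoped Classical in if ∃ γ : GO, orb γ = m then 1 else 0) (k : ℝ) :
    ∑' γ : GO, wH (γ⁻¹ • p) * ENNReal.ofReal (kern k (realV (orb γ)) p) ≤
      ∑' m, ENNReal.ofReal (kern k (realV m) p) := by
  rw [← (Equiv.sigmaFiberEquiv orb).tsum_eq, ENNReal.tsum_sigma']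
  refine ENNReal.tsum_le_tsum fun m ↦ ?_
  have e : ∀ γ : {γ : GO // orb γ = m}, wH ((Equiv.sigmaFiberEquiv orb ⟨m, γ⟩)⁻¹ • p) *
      ENNReal.ofReal (kern k (realV (orb (Equiv.sigmaFiberEquiv orb ⟨m, γ⟩))) p) =
      wH ((γ : GO)⁻¹ • p) * ENNReal.ofReal (kern k (realV m) p) := fun γ ↦ by
    show wH ((γ : GO)⁻¹ • p) * ENNReal.ofReal (kern k (realV (orb γ.1)) p) = _
    rw [γ.2]
  rw [tsum_congr e, ENNReal.tsum_mul_right, hp m]
  exact mul_le_of_le_one_left zero_le (by split_ifs <;> simp)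

theorem tsum_fibre_wH_mul {N : ℕ} [NeZero N] (h3 : 3 ∣ N) {p : H3} (hp : ∀ m : Fin 4 → ℤ,
    ∑' γ : {γ : GO // orb γ = m}, wH ((γ : GO)⁻¹ • p) =
      open scoped Classical in if ∃ γ : GO, orb γ = m then 1 else 0) (k : ℝ) (h : GN N)
    (m : Fin 4 → ℤ) :
    ∑' γ : {γ : GO // orb γ = m}, ((wH ((γ : GO)⁻¹ • p)).toReal : ℂ) *
        ((Datum.ofFun (w3 N)).W h m * (kern k (realV m) p : ℂ)) =
      (Form.lev 3).indicator ((Datum.ofFun (w3 N)).W h) m * (kern k (realV m) p : ℂ) := by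
  rw [tsum_mul_right, ← Complex.ofReal_tsum, ← ENNReal.tsum_toReal_eq fun γ ↦ wH_ne_top _, hp m]
  by_cases hm : ∃ γ : GO, orb γ = m
  · have hl : m ∈ Form.lev 3 := by
      obtain ⟨γ, rfl⟩ := hm
      show quadR _ = _
      rw [orb_def, quadR_actR, quadR_vJ]
    rw [if_pos hm, Set.indicator_of_mem hl]
    simp
  · rw [if_neg hm]
    by_cases hl : m ∈ Form.lev 3
    · have hW : (Datum.ofFun (w3 N)).W h m = 0 := by
        show w3 N _ = 0
        rw [w3, if_neg]
        rintro ⟨a, ha⟩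
        obtain ⟨γ, hγ⟩ := exists_actR_vJ (inThreeMod_of_support h3 h _ m ha) hl
        exact hm ⟨γ, by rw [orb_def, hγ]⟩
      rw [Set.indicator_of_mem hl, hW]
      simp
    · simp [Set.indicator_of_notMem hl]

theorem summable_sigma_wH {p : H3} (hp : ∀ m : Fin 4 → ℤ,
    ∑' γ : {γ : GO // orb γ = m}, wH ((γ : GO)⁻¹ • p) =
      open scoped Classical in if ∃ γ : GO, orb γ = m then 1 else 0) {k : ℝ} (hk : 0 < k) :
    Summable fun γ : GO ↦ (wH (γ⁻¹ • p)).toReal * kern k (realV (orb γ)) p := by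
  have hne : ∑' γ : GO, wH (γ⁻¹ • p) * ENNReal.ofReal (kern k (realV (orb γ)) p) ≠ ⊤ := by
    refine ne_top_of_le_ne_top ?_ (tsum_wH_kern_le hp k)
    have hs := summable_gterm (τ := Complex.I * (k / (2 * Real.pi) : ℝ))
      (by
        rw [Complex.mul_im, Complex.ofReal_re, Complex.ofReal_im]
        simp only [Complex.I_re, zero_mul, Complex.I_im, one_mul, zero_add]
        positivity) p one_pos
    have hs' : Summable fun m : Fin 4 → ℤ ↦ kern k (realV m) p := by
      refine hs.congr fun m ↦ ?_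
      rw [← kern_eq_norm_gterm]
      simp
    rw [← ENNReal.ofReal_tsum_of_nonneg (fun m ↦ (kern_pos _ _ _).le) hs']
    exact ENNReal.ofReal_ne_top
  refine (ENNReal.summable_toReal hne).congr fun γ ↦ ?_
  rw [ENNReal.toReal_mul, ENNReal.toReal_ofReal (kern_pos _ _ _).le]

theorem kern_vJ (k : ℝ) (τ : UpperHalfPlane) (u : ℝ) :
    kern k (realV (vJ ℤ)) (planePt (τ, u)) = Real.exp (-(3 * k)) * Real.exp (-(6 * k) * u ^ 2) := by
  rw [kern, maj_vJ, slope_planePt, ← Real.exp_add]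
  congr 1
  ring

theorem wH_planePt (τ : UpperHalfPlane) (u : ℝ) :
    wH (planePt (τ, u)) = (nScal : ℝ≥0∞)⁻¹ * 𝒟ᵒ.indicator 1 τ := by
  rw [wH]
  congr 1
  classical
  rw [Set.indicator_apply, Set.indicator_apply]
  simp only [Set.mem_preimage, projH_planePt, Pi.one_apply]

theorem sqrt_one_add_sq_le (u : ℝ) : √(1 + u ^ 2) ≤ 1 + u ^ 2 :=
  (Real.sqrt_le_sqrt (by nlinarith)).trans_eq (Real.sqrt_sq (by positivity))

theorem integrable_gauss_sqrt {b : ℝ} (hb : 0 < b) :
    Integrable fun u : ℝ ↦ √(1 + u ^ 2) * Real.exp (-b * u ^ 2) := by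
  have h2 : Integrable fun u : ℝ ↦ u ^ 2 * Real.exp (-b * u ^ 2) := by
    simpa [Real.rpow_two] using integrable_rpow_mul_exp_neg_mul_sq hb (s := 2) (by norm_num)
  refine ((integrable_exp_neg_mul_sq hb).add h2).mono' (Continuous.aestronglyMeasurable (by fun_prop))
    (.of_forall fun u ↦ ?_)
  rw [Real.norm_of_nonneg (by positivity), Pi.add_apply, ← one_add_mul]
  exact mul_le_mul_of_nonneg_right (sqrt_one_add_sq_le u) (Real.exp_pos _).le

theorem lintegral_wH_kern_ne_top {k : ℝ} (hk : 0 < k) :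
    ∫⁻ p, wH p * ENNReal.ofReal (kern k (realV (vJ ℤ)) p) ≠ ⊤ := by
  rw [lintegral_planePt (fun p ↦ wH p * ENNReal.ofReal (kern k (realV (vJ ℤ)) p))
    (measurable_wH.mul (continuous_kern _ _).measurable.ennreal_ofReal)]
  simp only [kern_vJ, wH_planePt]
  have hi : ∀ u : ℝ, ∫⁻ τ : UpperHalfPlane, (nScal : ℝ≥0∞)⁻¹ * 𝒟ᵒ.indicator 1 τ *
      ENNReal.ofReal (Real.exp (-(3 * k)) * Real.exp (-(6 * k) * u ^ 2)) =
      (nScal : ℝ≥0∞)⁻¹ * volume (𝒟ᵒ : Set UpperHalfPlane) *
        ENNReal.ofReal (Real.exp (-(3 * k)) * Real.exp (-(6 * k) * u ^ 2)) := fun u ↦ by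
    rw [lintegral_mul_const' _ _ ENNReal.ofReal_ne_top, lintegral_const_mul' _ _
      (by simp [nScal_pos.ne']), lintegral_indicator_one ModularGroup.isOpen_fdo.measurableSet]
  simp only [hi]
  have hv : volume (𝒟ᵒ : Set UpperHalfPlane) ≠ ⊤ :=
    ne_top_of_le_ne_top volume_fd_ne_top (measure_mono ModularGroup.fdo_subset_fd)
  refine ne_top_of_le_ne_top (b := ((nScal : ℝ≥0∞)⁻¹ * volume (𝒟ᵒ : Set UpperHalfPlane)) *
    ∫⁻ u : ℝ, ENNReal.ofReal (Real.exp (-(3 * k)) * (√(1 + u ^ 2) * Real.exp (-(6 * k) * u ^ 2))))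
    (ENNReal.mul_ne_top (ENNReal.mul_ne_top (by simp [nScal_pos.ne']) hv) ?_) (le_of_eq ?_)
  · exact ((integrable_gauss_sqrt (by positivity : (0 : ℝ) < 6 * k)).const_mul
      _).lintegral_lt_top.ne
  · rw [← lintegral_const_mul' _ _ (ENNReal.mul_ne_top (by simp [nScal_pos.ne']) hv)]
    refine lintegral_congr fun u ↦ ?_
    rw [mul_left_comm, ← ENNReal.ofReal_mul (Real.sqrt_nonneg _)]
    congr 2
    ring

namespace Form

variable {N : ℕ} [NeZero N] (F : Form N)

/-- The weight of a class in the period. -/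
def wc (N : ℕ) (h : GN N) : ℂ := w3 N (actR h⁻¹ (vJ (ZMod N)))

theorem coef_lev_three (h3 : 3 ∣ N) {k : ℝ} (hk : 0 < k) :
    F.coef (Datum.ofFun (w3 N)) (lev 3) 0 k =
      ∑ h, ∫ q, ((wH q).toReal : ℂ) *
        (wc N h * (kern k (realV (vJ ℤ)) q : ℂ) * F.φ q h) := by
  classical
  set d := Datum.ofFun (w3 N) with hd
  obtain ⟨C, hC0, hC⟩ := F.exists_bound
  obtain ⟨B, hB0, hB⟩ := d.exists_bound
  have hvec : ∀ m, d.vec m = realV m := fun m ↦ by
    rw [Datum.vec, show d.r = 1 from rfl]; simp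
  set A : GO → GN N → H3 → ℂ := fun γ h p ↦
    ((wgt p * wH (γ⁻¹ • p)).toReal : ℂ) *
      (d.W h (orb γ) * (kern k (realV (orb γ)) p : ℂ) * F.φ p h) with hA
  have hAm : ∀ γ h, Measurable (A γ h) := fun γ h ↦
    (Complex.measurable_ofReal.comp (measurable_wgt.mul
      (measurable_wH.comp (measurable_smul_go γ⁻¹))).ennreal_toReal).mul
      ((measurable_const.mul (Complex.measurable_ofReal.comp (continuous_kern _ _).measurable)).mul
        (F.continuous h).measurable)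
  have hAe : ∀ γ h p, ‖A γ h p‖ₑ ≤ ENNReal.ofReal (B * C) *
      (wgt p * wH (γ⁻¹ • p) * ENNReal.ofReal (kern k (realV (orb γ)) p)) := by
    intro γ h p
    have hK := (kern_pos k (realV (orb γ)) p).le
    have ht : wgt p * wH (γ⁻¹ • p) ≠ ⊤ :=
      ENNReal.mul_ne_top (isPartition_wgt.ne_top p) (wH_ne_top _)
    simp only [hA]
    rw [← ofReal_norm, norm_mul, norm_mul, norm_mul, Complex.norm_real, Complex.norm_real,
      Real.norm_of_nonneg ENNReal.toReal_nonneg, Real.norm_of_nonneg hK]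
    calc ENNReal.ofReal ((wgt p * wH (γ⁻¹ • p)).toReal *
          (‖d.W h (orb γ)‖ * kern k (realV (orb γ)) p * ‖F.φ p h‖))
        ≤ ENNReal.ofReal ((wgt p * wH (γ⁻¹ • p)).toReal * (B * kern k (realV (orb γ)) p * C)) :=
          ENNReal.ofReal_le_ofReal (mul_le_mul_of_nonneg_left
            (mul_le_mul (mul_le_mul_of_nonneg_right (hB _ _) hK) (hC p h) (norm_nonneg _)
              (mul_nonneg hB0 hK)) ENNReal.toReal_nonneg)
      _ = _ := by
          rw [show (wgt p * wH (γ⁻¹ • p)).toReal * (B * kern k (realV (orb γ)) p * C) =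
              B * C * ((wgt p * wH (γ⁻¹ • p)).toReal * kern k (realV (orb γ)) p) by ring,
            ENNReal.ofReal_mul (mul_nonneg hB0 hC0), ENNReal.ofReal_mul ENNReal.toReal_nonneg,
            ENNReal.ofReal_toReal ht]
  have hfinA : ∀ h, ∑' γ, ∫⁻ p, ‖A γ h p‖ₑ ≠ ⊤ := by
    intro h
    rw [← lintegral_tsum fun γ ↦ (hAm γ h).enorm.aemeasurable]
    refine ne_top_of_le_ne_top (b := ENNReal.ofReal (B * C) * ∑' m, mass 1 k m)
      (ENNReal.mul_ne_top ENNReal.ofReal_ne_top (tsum_mass_ne_top one_pos hk)) ?_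
    have hm : ∀ m : Fin 4 → ℤ, Measurable fun p ↦ wgt p *
        ENNReal.ofReal (kern k ((1 / ((1 : ℕ) : ℝ)) • realV m) p) := fun m ↦
      measurable_wgt.mul (continuous_kern _ _).measurable.ennreal_ofReal
    simp only [mass]
    rw [← lintegral_tsum fun m ↦ (hm m).aemeasurable, ← lintegral_const_mul' _ _
      ENNReal.ofReal_ne_top]
    refine lintegral_mono_ae ?_
    filter_upwards [ae_tsum_fibre] with p hp
    refine (ENNReal.tsum_le_tsum fun γ ↦ hAe γ h p).trans ?_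
    rw [ENNReal.tsum_mul_left]
    refine mul_le_mul' le_rfl ?_
    simp only [Nat.cast_one, one_div, inv_one, one_smul]
    simp only [mul_assoc, ENNReal.tsum_mul_left]
    exact mul_le_mul' le_rfl (tsum_wH_kern_le hp k)
  have hsumA : ∀ h, Summable fun γ ↦ ∫ p, A γ h p := fun h ↦ by
    refine Summable.of_norm_bounded (ENNReal.summable_toReal (hfinA h)) fun γ ↦ ?_
    rw [← toReal_enorm]
    exact ENNReal.toReal_mono (ne_top_of_le_ne_top (hfinA h) (ENNReal.le_tsum γ))
      (enorm_integral_le_lintegral_enorm _)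
  -- the left side
  have hL : ∀ h, ∫ p, (wR p : ℂ) * (F.φ p h * serL d 3 k h p) = ∑' γ, ∫ p, A γ h p := by
    intro h
    rw [← integral_tsum (fun γ ↦ (hAm γ h).aestronglyMeasurable) (hfinA h)]
    refine integral_congr_ae ?_
    filter_upwards [ae_tsum_fibre] with p hp
    set g : GO → ℂ := fun γ ↦ ((wH (γ⁻¹ • p)).toReal : ℂ) *
      (d.W h (orb γ) * (kern k (realV (orb γ)) p : ℂ))
    have hgs : Summable g := by
      refine Summable.of_norm_bounded ((summable_sigma_wH hp hk).mul_left B) fun γ ↦ ?_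
      simp only [g, norm_mul, Complex.norm_real, Real.norm_of_nonneg ENNReal.toReal_nonneg,
        Real.norm_of_nonneg (kern_pos _ _ _).le]
      nlinarith [mul_le_mul_of_nonneg_right (hB h (orb γ))
        (mul_nonneg (ENNReal.toReal_nonneg (a := wH (γ⁻¹ • p))) (kern_pos k (realV (orb γ)) p).le)]
    have hfv : ∀ m, ∑' γ : {γ : GO // orb γ = m}, g γ =
        (lev 3).indicator (d.W h) m * (kern k (d.vec m) p : ℂ) := fun m ↦ by
      rw [hvec, ← tsum_fibre_wH_mul h3 hp k h m]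
      refine tsum_congr fun γ ↦ ?_
      simp only [g]
      rw [γ.2]
    calc (wR p : ℂ) * (F.φ p h * serL d 3 k h p)
        = (wR p : ℂ) * (F.φ p h * ∑' γ, g γ) := by
          congr 2
          have hsig : Summable fun x : Σ m, {γ : GO // orb γ = m} ↦
              g ((Equiv.sigmaFiberEquiv orb) x) := (Equiv.sigmaFiberEquiv orb).summable_iff.2 hgs
          rw [← (Equiv.sigmaFiberEquiv orb).tsum_eq, hsig.tsum_sigma, serL]
          exact tsum_congr fun m ↦ (hfv m).symm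
      _ = ∑' γ, A γ h p := by
          rw [← tsum_mul_left, ← tsum_mul_left]
          refine tsum_congr fun γ ↦ ?_
          simp only [g, hA, ENNReal.toReal_mul, wR]
          push_cast
          ring
  -- the translates
  set K : GN N → H3 → ℂ := fun h q ↦ wc N h * (kern k (realV (vJ ℤ)) q : ℂ) * F.φ q h
  have hKm : ∀ h, Measurable (K h) := fun h ↦
    (measurable_const.mul (Complex.measurable_ofReal.comp (continuous_kern _ _).measurable)).mul
      (F.continuous h).measurable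
  set A' : GO → GN N → H3 → ℂ := fun γ h q ↦ ((wgt (γ • q) * wH q).toReal : ℂ) * K h q with hA'
  have hA'm : ∀ γ h, Measurable (A' γ h) := fun γ h ↦
    (Complex.measurable_ofReal.comp ((measurable_wgt.comp (measurable_smul_go γ)).mul
      measurable_wH).ennreal_toReal).mul (hKm h)
  have hWo : ∀ γ h, d.W (toN N γ * h) (orb γ) = wc N h := fun γ h ↦ by
    rw [orb_def, d.equivariant]
    show w3 N _ = _
    rw [redV_vJ]; rfl
  have htr : ∀ γ h, ∫ p, A γ (toN N γ * h) p = ∫ q, A' γ h q := fun γ h ↦ by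
    rw [← integral_smul_go γ]
    refine integral_congr_ae (.of_forall fun q ↦ ?_)
    simp only [hA, hA', K, inv_smul_smul, F.invariant, hWo]
    have hk' : kern k (realV (orb γ)) (γ • q) = kern k (realV (vJ ℤ)) q := by
      rw [orb_def, ← actV_toC, smul_def', kern_smul]
    rw [hk']
  have hfinA' : ∀ h, ∑' γ, ∫⁻ q, ‖A' γ h q‖ₑ ≠ ⊤ := by
    intro h
    rw [← lintegral_tsum fun γ ↦ (hA'm γ h).enorm.aemeasurable]
    refine ne_top_of_le_ne_top (b := ENNReal.ofReal (‖wc N h‖ * C) *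
      ∫⁻ q, wH q * ENNReal.ofReal (kern k (realV (vJ ℤ)) q))
      (ENNReal.mul_ne_top ENNReal.ofReal_ne_top (lintegral_wH_kern_ne_top hk)) ?_
    rw [← lintegral_const_mul' _ _ ENNReal.ofReal_ne_top]
    refine lintegral_mono fun q ↦ ?_
    have hb : ‖K h q‖ₑ ≤ ENNReal.ofReal (‖wc N h‖ * C) *
        ENNReal.ofReal (kern k (realV (vJ ℤ)) q) := by
      rw [← ENNReal.ofReal_mul (by positivity), ← ofReal_norm]
      refine ENNReal.ofReal_le_ofReal ?_
      simp only [K, norm_mul, Complex.norm_real, Real.norm_of_nonneg (kern_pos _ _ _).le]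
      nlinarith [mul_le_mul_of_nonneg_left (hC q h)
        (mul_nonneg (norm_nonneg (wc N h)) (kern_pos k (realV (vJ ℤ)) q).le)]
    have e : ∀ γ, ‖A' γ h q‖ₑ = wgt (γ • q) * (wH q * ‖K h q‖ₑ) := fun γ ↦ by
      simp only [hA', enorm_mul]
      rw [← mul_assoc, ← ofReal_norm, Complex.norm_real,
        Real.norm_of_nonneg ENNReal.toReal_nonneg,
        ENNReal.ofReal_toReal (ENNReal.mul_ne_top (isPartition_wgt.ne_top _) (wH_ne_top _))]
    rw [tsum_congr e, ENNReal.tsum_mul_right, tsum_wgt, one_mul, mul_left_comm]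
    exact mul_le_mul' le_rfl hb
  have hsumA' : ∀ h, Summable fun γ ↦ ∫ q, A' γ h q := fun h ↦ by
    refine Summable.of_norm_bounded (ENNReal.summable_toReal (hfinA' h)) fun γ ↦ ?_
    rw [← toReal_enorm]
    exact ENNReal.toReal_mono (ne_top_of_le_ne_top (hfinA' h) (ENNReal.le_tsum γ))
      (enorm_integral_le_lintegral_enorm _)
  have hR : ∀ h, ∑' γ, ∫ q, A' γ h q = ∫ q, ((wH q).toReal : ℂ) * K h q := by
    intro h
    rw [← integral_tsum (fun γ ↦ (hA'm γ h).aestronglyMeasurable) (hfinA' h)]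
    refine integral_congr_ae (.of_forall fun q ↦ ?_)
    simp only [hA']
    rw [tsum_mul_right, ← Complex.ofReal_tsum, ← ENNReal.tsum_toReal_eq fun γ ↦
      ENNReal.mul_ne_top (isPartition_wgt.ne_top _) (wH_ne_top _), ENNReal.tsum_mul_right,
      tsum_wgt, one_mul]
  rw [F.coef_eq_integral d 3 hk, Finset.sum_congr rfl fun h _ ↦ hL h,
    ← Summable.tsum_finsetSum fun h _ ↦ hsumA h]
  have hγ : ∀ γ, ∑ h, ∫ p, A γ h p = ∑ h, ∫ q, A' γ h q := fun γ ↦ by
    rw [← Equiv.sum_comp (Equiv.mulLeft (toN N γ)) (fun h ↦ ∫ p, A γ h p)]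
    exact Finset.sum_congr rfl fun h _ ↦ htr γ h
  rw [tsum_congr hγ, Summable.tsum_finsetSum fun h _ ↦ hsumA' h]
  exact Finset.sum_congr rfl fun h _ ↦ hR h

/-- The integral over a translate of the plane. -/
def slab (h : GN N) (u : ℝ) : ℂ :=
  ∫ τ in (𝒟 : Set UpperHalfPlane), F.φ (planePt (τ, u)) h

omit [NeZero N] in
theorem norm_slab_le {C : ℝ} (hC : ∀ p h, ‖F.φ p h‖ ≤ C) (h : GN N) (u : ℝ) :
    ‖F.slab h u‖ ≤ C * (volume : Measure UpperHalfPlane).real 𝒟 :=
  norm_setIntegral_le_of_norm_le_const volume_fd_ne_top.lt_top fun _ _ ↦ hC _ h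

omit [NeZero N] in
theorem continuous_slab (h : GN N) : Continuous (F.slab h) := by
  obtain ⟨C, -, hC⟩ := F.exists_bound
  have : IsFiniteMeasure ((volume : Measure UpperHalfPlane).restrict 𝒟) :=
    isFiniteMeasure_restrict.2 volume_fd_ne_top
  refine continuous_of_dominated (bound := fun _ ↦ C) (fun u ↦ ?_) (fun u ↦ ?_) ?_ ?_
  · exact ((F.continuous h).comp (continuous_planePt.comp
      (continuous_id.prodMk continuous_const))).aestronglyMeasurable
  · exact .of_forall fun τ ↦ hC _ h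
  · exact integrable_const C
  · exact .of_forall fun τ ↦ (F.continuous h).comp (continuous_planePt.comp
      (continuous_const.prodMk continuous_id))

theorem setIntegral_fdo (f : UpperHalfPlane → ℂ) :
    ∫ τ in (𝒟ᵒ : Set UpperHalfPlane), f τ = ∫ τ in (𝒟 : Set UpperHalfPlane), f τ := by
  refine setIntegral_congr_set (ae_eq_set.2 ⟨?_, ?_⟩)
  · rw [Set.sdiff_eq_empty.2 ModularGroup.fdo_subset_fd, measure_empty]
  · refine measure_mono_null (fun τ hτ ↦ ?_) (ae_iff.1 ae_mem_fdo_of_mem_fd)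
    simp only [Set.mem_ofPred_eq, not_forall]
    exact ⟨1, by simpa using hτ.1, by simpa using hτ.2⟩

omit [NeZero N] in
theorem integral_wH_kern (h : GN N) {k : ℝ} (hk : 0 < k) :
    ∫ q, ((wH q).toReal : ℂ) * (wc N h * (kern k (realV (vJ ℤ)) q : ℂ) * F.φ q h) =
      ((nScal : ℝ)⁻¹ * Real.exp (-(3 * k)) : ℝ) * wc N h *
        ∫ u : ℝ, ((√(1 + u ^ 2) * Real.exp (-(6 * k) * u ^ 2) : ℝ) : ℂ) * F.slab h u := by
  obtain ⟨C, hC0, hC⟩ := F.exists_bound
  set G : H3 → ℂ := fun q ↦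
    ((wH q).toReal : ℂ) * (wc N h * (kern k (realV (vJ ℤ)) q : ℂ) * F.φ q h)
  have hGm : Measurable G := (Complex.measurable_ofReal.comp measurable_wH.ennreal_toReal).mul
    ((measurable_const.mul (Complex.measurable_ofReal.comp (continuous_kern _ _).measurable)).mul
      (F.continuous h).measurable)
  have hGi : Integrable G := by
    refine ⟨hGm.aestronglyMeasurable, ?_⟩
    rw [hasFiniteIntegral_iff_enorm]
    refine lt_top_iff_ne_top.2 (ne_top_of_le_ne_top (b := ENNReal.ofReal (‖wc N h‖ * C) *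
      ∫⁻ q, wH q * ENNReal.ofReal (kern k (realV (vJ ℤ)) q))
      (ENNReal.mul_ne_top ENNReal.ofReal_ne_top (lintegral_wH_kern_ne_top hk)) ?_)
    rw [← lintegral_const_mul' _ _ ENNReal.ofReal_ne_top]
    refine lintegral_mono fun q ↦ ?_
    rw [← ENNReal.ofReal_toReal (wH_ne_top q), ← ENNReal.ofReal_mul ENNReal.toReal_nonneg,
      ← ENNReal.ofReal_mul (by positivity), ← ofReal_norm]
    refine ENNReal.ofReal_le_ofReal ?_
    simp only [G, norm_mul, Complex.norm_real, Real.norm_of_nonneg (kern_pos _ _ _).le,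
      Real.norm_of_nonneg ENNReal.toReal_nonneg]
    nlinarith [mul_le_mul_of_nonneg_left (hC q h) (mul_nonneg (mul_nonneg
      (ENNReal.toReal_nonneg (a := wH q)) (norm_nonneg (wc N h)))
      (kern_pos k (realV (vJ ℤ)) q).le)]
  have hGi' : Integrable (fun x ↦ G (planePt x))
      ((volume : Measure UpperHalfPlane).prod slopeMeasure) := by
    rw [← map_planePt] at hGi
    exact hGi.comp_measurable continuous_planePt.measurable
  calc ∫ q, G q = ∫ x, G (planePt x) ∂((volume : Measure UpperHalfPlane).prod slopeMeasure) := by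
        conv_lhs => rw [← map_planePt]
        exact integral_map continuous_planePt.measurable.aemeasurable hGm.aestronglyMeasurable
    _ = ∫ u, ∫ τ, G (planePt (τ, u)) ∂(volume : Measure UpperHalfPlane) ∂slopeMeasure :=
        integral_prod_symm _ hGi'
    _ = ∫ u : ℝ, √(1 + u ^ 2) • (((nScal : ℝ)⁻¹ * Real.exp (-(3 * k)) : ℝ) * wc N h *
          ((Real.exp (-(6 * k) * u ^ 2) : ℂ) * F.slab h u)) := by
        rw [slopeMeasure, integral_withDensity_eq_integral_toReal_smul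
          (by fun_prop) (.of_forall fun u ↦ ENNReal.ofReal_lt_top)]
        refine integral_congr_ae (.of_forall fun u ↦ ?_)
        simp only [ENNReal.toReal_ofReal (Real.sqrt_nonneg _)]
        congr 1
        rw [slab, ← setIntegral_fdo, ← integral_indicator ModularGroup.isOpen_fdo.measurableSet,
          ← integral_const_mul, ← integral_const_mul]
        refine integral_congr_ae (.of_forall fun τ ↦ ?_)
        simp only [G, wH_planePt, kern_vJ]
        by_cases hτ : τ ∈ (𝒟ᵒ : Set UpperHalfPlane)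
        · simp [Set.indicator_of_mem hτ]
          ring
        · simp [Set.indicator_of_notMem hτ]
    _ = _ := by
        rw [← integral_const_mul]
        refine integral_congr_ae (.of_forall fun u ↦ ?_)
        simp only [Complex.real_smul]
        push_cast
        ring

omit [NeZero N] in
theorem tendsto_slab (h : GN N) :
    Tendsto (fun k : ℝ ↦ ((√k : ℝ) : ℂ) *
      ∫ u : ℝ, ((√(1 + u ^ 2) * Real.exp (-(6 * k) * u ^ 2) : ℝ) : ℂ) * F.slab h u) atTop
      (𝓝 ((√(Real.pi / 6) : ℝ) * F.slab h 0)) := by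
  obtain ⟨C, hC0, hC⟩ := F.exists_bound
  set M := C * (volume : Measure UpperHalfPlane).real 𝒟
  have hcs := F.continuous_slab h
  have hlim : Tendsto (fun k : ℝ ↦ ∫ v : ℝ,
      ((√(1 + v ^ 2 / k) * Real.exp (-6 * v ^ 2) : ℝ) : ℂ) * F.slab h (v / √k)) atTop
      (𝓝 (∫ v : ℝ, ((Real.exp (-6 * v ^ 2) : ℝ) : ℂ) * F.slab h 0)) := by
    refine tendsto_integral_filter_of_dominated_convergence
      (fun v ↦ √(1 + v ^ 2) * Real.exp (-6 * v ^ 2) * M)
      (.of_forall fun k ↦ Continuous.aestronglyMeasurable (by fun_prop))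
      ((eventually_ge_atTop 1).mono fun k hk ↦ .of_forall fun v ↦ ?_)
      ((integrable_gauss_sqrt (by norm_num : (0 : ℝ) < 6)).mul_const _)
      (.of_forall fun v ↦ ?_)
    · rw [norm_mul, Complex.norm_real, Real.norm_of_nonneg (by positivity)]
      refine mul_le_mul (mul_le_mul_of_nonneg_right (Real.sqrt_le_sqrt ?_) (Real.exp_pos _).le)
        (F.norm_slab_le hC h _) (norm_nonneg _) (by positivity)
      have : v ^ 2 / k ≤ v ^ 2 := div_le_self (sq_nonneg v) hk
      linarith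
    · refine Tendsto.mul ?_ ((hcs.tendsto 0).comp ?_)
      · refine (Complex.continuous_ofReal.tendsto _).comp ?_
        have h1 : Tendsto (fun k : ℝ ↦ √(1 + v ^ 2 / k)) atTop (𝓝 (√(1 + 0))) :=
          ((tendsto_const_nhds.div_atTop tendsto_id).const_add 1).sqrt
        have h2 := h1.mul_const (Real.exp (-6 * v ^ 2))
        rw [add_zero, Real.sqrt_one, one_mul] at h2
        exact h2
      · exact tendsto_const_nhds.div_atTop Real.tendsto_sqrt_atTop
  rw [integral_mul_const, integral_complex_ofReal, integral_gaussian] at hlim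
  refine hlim.congr' ((eventually_gt_atTop 0).mono fun k hk ↦ ?_)
  have hs : 0 < √k := Real.sqrt_pos.2 hk
  have hcomp := Measure.integral_comp_mul_left
    (fun u : ℝ ↦ ((√(1 + u ^ 2) * Real.exp (-(6 * k) * u ^ 2) : ℝ) : ℂ) * F.slab h u) (√k)⁻¹
  rw [inv_inv, abs_of_pos hs, Complex.real_smul] at hcomp
  simp only
  rw [← hcomp]
  refine integral_congr_ae (.of_forall fun v ↦ ?_)
  simp only
  rw [inv_mul_eq_div, div_pow, Real.sq_sqrt hk.le]
  congr 4
  field_simp

/-- A non-zero period gives a non-zero coefficient. -/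
theorem exists_coef_ne_zero (h3 : 3 ∣ N) (hP : ∑ h, wc N h * F.slab h 0 ≠ 0) :
    ∃ k : ℝ, 0 < k ∧ F.coef (Datum.ofFun (w3 N)) (lev 3) 0 k ≠ 0 := by
  have hlim : Tendsto (fun k : ℝ ↦ ((√k * Real.exp (3 * k) : ℝ) : ℂ) *
      F.coef (Datum.ofFun (w3 N)) (lev 3) 0 k) atTop
      (𝓝 (∑ h, (((nScal : ℝ)⁻¹ : ℝ) : ℂ) * wc N h * ((√(Real.pi / 6) : ℝ) * F.slab h 0))) := by
    refine Tendsto.congr' ?_ (tendsto_finsetSum Finset.univ fun h _ ↦
      (F.tendsto_slab h).const_mul ((((nScal : ℝ)⁻¹ : ℝ) : ℂ) * wc N h))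
    refine (eventually_gt_atTop 0).mono fun k hk ↦ ?_
    simp only
    rw [F.coef_lev_three h3 hk, Finset.mul_sum]
    refine Finset.sum_congr rfl fun h _ ↦ ?_
    rw [F.integral_wH_kern h hk]
    have he : (Real.exp (3 * k) : ℂ) * Real.exp (-(3 * k)) = 1 := by
      rw [← Complex.ofReal_mul, ← Real.exp_add, add_neg_cancel, Real.exp_zero, Complex.ofReal_one]
    push_cast at he ⊢
    linear_combination (-(((nScal : ℂ))⁻¹ * wc N h * (√k : ℝ) *
      ∫ u : ℝ, ((√(1 + u ^ 2) : ℝ) : ℂ) * Complex.exp (-(6 * (k : ℂ)) * (u : ℂ) ^ 2) *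
        F.slab h u)) * he
  have hne : ∑ h, (((nScal : ℝ)⁻¹ : ℝ) : ℂ) * wc N h * ((√(Real.pi / 6) : ℝ) * F.slab h 0) ≠ 0 := by
    have e : ∑ h, (((nScal : ℝ)⁻¹ : ℝ) : ℂ) * wc N h * ((√(Real.pi / 6) : ℝ) * F.slab h 0) =
        ((((nScal : ℝ)⁻¹ : ℝ) : ℂ) * (√(Real.pi / 6) : ℝ)) * ∑ h, wc N h * F.slab h 0 := by
      rw [Finset.mul_sum]; exact Finset.sum_congr rfl fun h _ ↦ by ring
    rw [e]
    refine mul_ne_zero (mul_ne_zero ?_ ?_) hP
    · exact_mod_cast inv_ne_zero (Nat.cast_ne_zero.2 nScal_pos.ne' : (nScal : ℝ) ≠ 0)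
    · exact_mod_cast (Real.sqrt_pos.2 (by positivity : (0 : ℝ) < Real.pi / 6)).ne'
  obtain ⟨k, hk, hk0⟩ := ((hlim.eventually_ne hne).and (eventually_gt_atTop 0)).exists
  exact ⟨k, hk0, fun h ↦ hk (by rw [h, mul_zero])⟩

end Form

end FermatAgent.LT.Lift
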