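import Mathlib
import Fermat.Agent.LT.Bianchi
import Fermat.Agent.LT.Lift.Period
import Fermat.Agent.LT.Period.Eis
import Fermat.Agent.LT.Period.Frobenius

/-!
# A Bianchi form as the input of the lift
-/

set_option autoImplicit false

noncomputable section

open MeasureTheory
open scoped ENNReal MatrixGroups Modular QuadraticAlgebra

namespace FermatAgent.LT.Lift

theorem omega_eq : FermatAgent.LT.omega = omegaC :=
  Complex.ext (by simp [FermatAgent.LT.omega, omegaC]; norm_num) rfl

theorem embC_mem (x : EO) : embC x ∈ EisInt := by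
  rw [embC_apply, ← omega_eq]
  exact add_mem (intCast_mem _ _) (mul_mem (intCast_mem _ _) Period.omega_mem)

/-- The two models of the Eisenstein integers. -/
def eisE : EO →+* EisInt := embC.codRestrict EisInt embC_mem

theorem coe_eisE (x : EO) : (eisE x : ℂ) = embC x := rfl

theorem eisE_surjective : Function.Surjective eisE := by
  intro x
  obtain ⟨a, b, rfl⟩ := Period.exists_eq_eis x
  exact ⟨⟨a, b⟩, Subtype.ext (by rw [coe_eisE, Period.coe_eis, embC_apply, omega_eq])⟩

/-- The image of `ω` in the residue ring. -/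
def omegaQ (n : ℕ) : EisInt ⧸ eisIdeal n := Ideal.Quotient.mk _ (eisE ⟨0, 1⟩)

theorem omegaQ_sq (n : ℕ) : omegaQ n * omegaQ n = -1 - omegaQ n := by
  have h : (⟨0, 1⟩ : EO) * ⟨0, 1⟩ = -1 - ⟨0, 1⟩ := by ext <;> simp
  rw [omegaQ, ← map_mul, ← map_mul, h]
  simp

/-- The comparison of residue rings. -/
def toQ (n : ℕ) : EMod n →+* EisInt ⧸ eisIdeal n where
  toFun x := zmodToEis n x.re + zmodToEis n x.im * omegaQ n
  map_one' := by simp
  map_mul' x y := by
    simp only [QuadraticAlgebra.re_mul, QuadraticAlgebra.im_mul, map_add, map_mul, map_neg,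
      map_one]
    linear_combination (-(zmodToEis n x.im) * zmodToEis n y.im) * omegaQ_sq n
  map_zero' := by simp
  map_add' x y := by simp; ring

theorem toQ_algebraMap (n : ℕ) (a : ZMod n) :
    toQ n (algebraMap (ZMod n) (EMod n) a) = zmodToEis n a := by
  simp [toQ, QuadraticAlgebra.algebraMap_eq]

theorem toQ_redO (n : ℕ) (x : EO) : toQ n (redO n x) = Ideal.Quotient.mk _ (eisE x) := by
  have h : x = (x.re : EO) + (x.im : EO) * ⟨0, 1⟩ := by ext <;> simp
  conv_rhs => rw [h]
  show zmodToEis n (x.re : ZMod n) + zmodToEis n (x.im : ZMod n) * omegaQ n = _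
  simp only [map_intCast, map_add, map_mul, omegaQ]

/-- From level `N` to the residue ring modulo `n`. -/
def toQQ {N n : ℕ} (h : n ∣ N) : EMod N →+* EisInt ⧸ eisIdeal n :=
  (toQ n).comp (mapQ (ZMod.castHom h (ZMod n)))

theorem toQQ_redO {N n : ℕ} (h : n ∣ N) (x : EO) :
    toQQ h (redO N x) = Ideal.Quotient.mk _ (eisE x) := by
  rw [← toQ_redO]
  show toQ n (mapQ (ZMod.castHom h (ZMod n)) (redO N x)) = _
  congr 1
  exact QuadraticAlgebra.ext (map_intCast (ZMod.castHom h (ZMod n)) _)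
    (map_intCast (ZMod.castHom h (ZMod n)) _)

/-- The two models of `H3`. -/
def toL (p : H3) : FermatAgent.LT.H3 := ⟨p.z, p.t, p.t_pos⟩

/-- The inverse comparison. -/
def ofL (p : FermatAgent.LT.H3) : H3 := ⟨p.z, p.t, p.t_pos⟩

theorem continuous_toL : Continuous toL :=
  continuous_induced_rng.2 (show Continuous fun p : H3 ↦ (p.z, p.t) from
    continuous_z.prodMk continuous_t)

theorem toL_smul (g : GL (Fin 2) ℂ) (p : H3) : toL (g • p) = g • toL p := by
  refine FermatAgent.LT.H3.ext ?_ ?_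
  · show (g • p).z = _
    rw [z_smul]
    rfl
  · show (g • p).t = _
    rw [t_smul]
    rfl

theorem measurable_toL : Measurable toL :=
  measurable_comap_iff.2 (show Measurable fun p : H3 ↦ (p.z, p.t) from
    continuous_z.measurable.prodMk continuous_t.measurable)

theorem measurable_ofL : Measurable ofL :=
  measurable_comap_iff.2 (show Measurable fun p : FermatAgent.LT.H3 ↦ (p.z, p.t) from
    FermatAgent.LT.H3.measurable_coords)

/-- The comparison as a measurable equivalence. -/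
def equivL : H3 ≃ᵐ FermatAgent.LT.H3 where
  toFun := toL
  invFun := ofL
  left_inv _ := rfl
  right_inv _ := rfl
  measurable_toFun := measurable_toL
  measurable_invFun := measurable_ofL

theorem map_toL : (volume : Measure H3).map toL = FermatAgent.LT.H3.vol := by
  refine Measure.ext fun s hs ↦ ?_
  rw [Measure.map_apply measurable_toL hs, measure_eq (measurable_toL hs), FermatAgent.LT.H3.vol]
  have himg : H3.coord '' (toL ⁻¹' s) = FermatAgent.LT.H3.coords '' s := by
    ext x
    constructor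
    · rintro ⟨p, hp, rfl⟩
      exact ⟨toL p, hp, rfl⟩
    · rintro ⟨p, hp, rfl⟩
      exact ⟨ofL p, hp, rfl⟩
  have hmeas : ∀ t : Set FermatAgent.LT.H3, MeasurableSet t →
      MeasurableSet (FermatAgent.LT.H3.coords '' t) := by
    intro t ht
    have : FermatAgent.LT.H3.coords '' t = H3.coord '' (toL ⁻¹' t) := by
      ext x
      constructor
      · rintro ⟨p, hp, rfl⟩
        exact ⟨ofL p, hp, rfl⟩
      · rintro ⟨p, hp, rfl⟩
        exact ⟨toL p, hp, rfl⟩
    rw [this]
    exact measurableEmbedding_coord.measurableSet_image.2 (measurable_toL ht)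
  rw [Measure.comap_apply _ FermatAgent.LT.H3.coords_injective hmeas _ hs,
    withDensity_apply _ (hmeas s hs), himg]
  refine setLIntegral_congr_fun (hmeas s hs) fun x _ ↦ ?_
  rw [dens, ← ENNReal.ofReal, one_div]

theorem image_ball (p : H3) (ε : ℝ) : toL ⁻¹' FermatAgent.LT.H3.ball (toL p) ε = hball p ε := by
  ext q
  show FermatAgent.LT.H3.coshDist (toL p) (toL q) ≤ Real.cosh ε ↔ coshDist p q ≤ Real.cosh ε
  rw [coshDist_eq]
  rfl

theorem setIntegral_hball (f : FermatAgent.LT.H3 → ℂ) (p : H3) (ε : ℝ) :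
    ∫ q in hball p ε, f (toL q) = ∫ Q in FermatAgent.LT.H3.ball (toL p) ε, f Q ∂FermatAgent.LT.H3.vol := by
  have h := equivL.measurableEmbedding.setIntegral_map (μ := (volume : Measure H3)) f
    (FermatAgent.LT.H3.ball (toL p) ε)
  rw [show (⇑equivL : H3 → FermatAgent.LT.H3) = toL from rfl, map_toL, image_ball] at h
  exact h.symm

theorem dvd_nine (m : ℕ) : 3 * m ∣ 9 * m := Nat.mul_dvd_mul_right (by norm_num) m

theorem three_dvd_nine (m : ℕ) : 3 ∣ 9 * m := (by norm_num : 3 ∣ 9).mul_right m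

instance (m : ℕ) [NeZero m] : NeZero (9 * m) := ⟨mul_ne_zero (by norm_num) (NeZero.ne m)⟩

/-- The comparison of level groups. -/
def levelHom (m : ℕ) : GN (9 * m) →* GL (Fin 2) (EisInt ⧸ eisIdeal (3 * m)) :=
  Matrix.GeneralLinearGroup.map (toQQ (dvd_nine m))

theorem cplxMat_eisE (γ : GO) :
    cplxMat (Matrix.GeneralLinearGroup.map eisE γ) = toC γ := Units.ext rfl

theorem redMat_eisE (m : ℕ) (γ : GO) :
    redMat (3 * m) (Matrix.GeneralLinearGroup.map eisE γ) = levelHom m (toN (9 * m) γ) := by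
  apply Units.ext
  ext i j : 1
  show Ideal.Quotient.mk (eisIdeal (3 * m)) (eisE (γ.val i j)) =
    toQQ (dvd_nine m) (redO (9 * m) (γ.val i j))
  rw [toQQ_redO]

variable {S : Setup} [NeZero S.m] (B : BianchiForm S)

/-- The input of the lift. -/
def formOf : Form (9 * S.m) where
  φ p h := B.φ (toL p) (levelHom S.m h)
  invariant γ p h := by
    show B.φ (toL (γ • p)) (levelHom S.m (toN (9 * S.m) γ * h)) = _
    rw [map_mul, ← redMat_eisE, smul_def', toL_smul, ← cplxMat_eisE, B.invariant]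
  continuous h := (B.continuous _).comp continuous_toL
  bounded := B.bounded.imp fun C hC p h ↦ hC _ _
  sph h p ε hε := by
    rw [setIntegral_hball (fun Q ↦ B.φ Q (levelHom S.m h)) p ε]
    exact B.sph0 _ (toL p) ε hε

/-- Split primes. -/
def splitPrimeOf {m : ℕ} (p : ℕ) (π : EO) (hp : p.Prime) (hpm : ¬ p ∣ 3 * m)
    (hπ : π.norm = (p : ℤ)) : SplitPrime (9 * m) where
  p := p
  π := π
  prime := hp
  ne_three h := hpm (h ▸ dvd_mul_right 3 m)
  norm_eq := hπ
  coprime := by
    rw [hp.coprime_iff_not_dvd]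
    intro h
    rw [show 9 * m = 3 * (3 * m) by ring] at h
    rcases hp.dvd_mul.1 h with h | h
    · exact hpm (h.mul_right m)
    · exact hpm h

theorem isUnit_redO_pi {N : ℕ} (P : SplitPrime N) : IsUnit (redO N P.π) := by
  refine isUnit_of_mul_isUnit_left (y := redO N (star P.π)) ?_
  rw [← map_mul, P.π_mul_star, map_natCast]
  obtain ⟨u, hu⟩ := (ZMod.isUnit_iff_coprime P.p N).2 P.coprime
  refine .of_mul_eq_one (algebraMap (ZMod N) (EMod N) ((u⁻¹ : (ZMod N)ˣ) : ZMod N)) ?_
  rw [← map_natCast (algebraMap (ZMod N) (EMod N)), ← hu, ← map_mul, Units.mul_inv, map_one]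

omit [NeZero S.m] in
theorem isEigen_formOf (p : ℕ) (π : EO) (hp : p.Prime) (hpm : ¬ p ∣ 3 * S.m)
    (hπ : π.norm = (p : ℤ)) :
    (formOf B).IsEigen (splitPrimeOf p π hp hpm hπ) ((√(p : ℝ) : ℂ) * B.c (eisE π)) := by
  classical
  set P := splitPrimeOf p π hp hpm hπ
  intro Q h
  have hnorm : Complex.normSq (eisE π : ℂ) = p := by
    rw [coe_eisE, normSq_embC, hπ, Int.cast_natCast]
  have hπ0 : (eisE π : ℂ) ≠ 0 := P.embC_π_ne_zero
  obtain ⟨u, hu⟩ := (isUnit_redO_pi P).map (toQQ (dvd_nine S.m))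
  have hu' : (u : EisInt ⧸ eisIdeal (3 * S.m)) = Ideal.Quotient.mk _ (eisE π) := by
    rw [hu]; exact toQQ_redO _ π
  have key := B.hecke (eisE π) hπ0 p u (Period.prime_of_normSq hp hnorm) hp hnorm hu'
    (toL Q) (levelHom S.m h)
  set e : Option (Fin p) → Option EisInt := Option.map fun k : Fin p ↦ ((k : ℕ) : EisInt)
  have hinj : Function.Injective e := Option.map_injective fun a b hab ↦ by
    apply Fin.ext
    have h' : ((a : ℕ) : ℂ) = ((b : ℕ) : ℂ) := by exact_mod_cast congrArg Subtype.val hab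
    exact_mod_cast h'
  have himg : (Finset.range p).image (fun k : ℕ => some (k : EisInt)) ∪ {none} =
      Finset.univ.image e := by
    ext x
    simp only [Finset.mem_union, Finset.mem_image, Finset.mem_range, Finset.mem_singleton,
      Finset.mem_univ, true_and]
    constructor
    · rintro (⟨k, hk, rfl⟩ | rfl)
      · exact ⟨some ⟨k, hk⟩, rfl⟩
      · exact ⟨none, rfl⟩
    · rintro ⟨i | k, rfl⟩
      · exact Or.inr rfl
      · exact Or.inl ⟨k, k.2, rfl⟩
  rw [himg, Finset.sum_image fun a _ b _ h ↦ hinj h] at key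
  refine (Finset.sum_congr rfl fun i _ ↦ ?_).trans key
  have hval : (P.right (1, i)).1 = P.rep i := Matrix.one_mul _
  show B.φ (toL (P.dC (P.right (1, i)) • Q)) (levelHom S.m (P.dN (P.right (1, i)) * h)) = _
  rw [map_mul, toL_smul]
  have hC : P.dC (P.right (1, i)) = heckeRep (eisE π) hπ0 (e i) := by
    apply Units.ext
    show (P.right (1, i)).1.map embC = _
    rw [hval]
    rcases i with _ | b
    · show _ = (heckeRep (eisE π) hπ0 none).val
      ext a b
      fin_cases a <;> fin_cases b <;> simp [SplitPrime.rep, heckeRep, coe_eisE, P, splitPrimeOf]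
    · show _ = (heckeRep (eisE π) hπ0 (some ((b : ℕ) : EisInt))).val
      ext a c
      fin_cases a <;> fin_cases c <;> simp [SplitPrime.rep, heckeRep, coe_eisE, P, splitPrimeOf]
  have hN : levelHom S.m (P.dN (P.right (1, i))) = heckeRepMod (3 * S.m) u (e i) := by
    apply Units.ext
    show ((P.right (1, i)).1.map (redO (9 * S.m))).map (toQQ (dvd_nine S.m)) = _
    rw [hval]
    rcases i with _ | b
    · show _ = (heckeRepMod (3 * S.m) u none).val
      ext a b
      fin_cases a <;> fin_cases b <;>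
        simp [SplitPrime.rep, heckeRepMod, diagMat, P, splitPrimeOf, hu', toQQ_redO]
    · show _ = (heckeRepMod (3 * S.m) u (some ((b : ℕ) : EisInt))).val
      ext a c
      fin_cases a <;> fin_cases c <;>
        simp [SplitPrime.rep, heckeRepMod, P, splitPrimeOf, hu', toQQ_redO]
  rw [hC, hN]

/-- Reduction of a similitude. -/
theorem exists_toQQ_eq {N n : ℕ} [NeZero N] [NeZero n] (hdvd : n ∣ N) (hNn : N = 3 * n)
    {h : GN N} (hh : Form.wc N h ≠ 0) :
    ∃ (u : (EisInt ⧸ eisIdeal n)ˣ) (r : GL (Fin 2) (ZMod n)),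
      Matrix.GeneralLinearGroup.map (toQQ hdvd) h =
        zmodMat n r * Matrix.GeneralLinearGroup.scalar (Fin 2) u := by
  obtain ⟨a, ha⟩ : ∃ a : (ZMod N)ˣ, actR h⁻¹ (vJ (ZMod N)) = (a : ZMod N) • vJ (ZMod N) := by
    by_contra hne
    exact hh (by rw [Form.wc, w3, if_neg hne])
  have ha' : actR h (vJ (ZMod N)) = ((a⁻¹ : (ZMod N)ˣ) : ZMod N) • vJ (ZMod N) := by
    have h1 := congrArg (fun x ↦ ((a⁻¹ : (ZMod N)ˣ) : ZMod N) • actR h x) ha
    rw [← actR_mul, mul_inv_cancel, actR_one, actR_smul, smul_smul, Units.inv_mul, one_smul] at h1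
    exact h1.symm
  set b : ZMod N := ((a⁻¹ : (ZMod N)ˣ) : ZMod N)
  set f := mapQ (ZMod.castHom hdvd (ZMod n))
  have hkill : ∀ X : EMod N, (3 : EMod N) * X = 0 → f X = 0 := by
    intro X hX
    have hc : ∀ x : ZMod N, (3 : ZMod N) * x = 0 → ZMod.castHom hdvd (ZMod n) x = 0 := by
      intro x hx
      rw [← ZMod.natCast_zmod_val x, map_natCast, ZMod.natCast_eq_zero_iff]
      rw [← ZMod.natCast_zmod_val x, show (3 : ZMod N) = ((3 : ℕ) : ZMod N) by norm_num,
        ← Nat.cast_mul, ZMod.natCast_eq_zero_iff] at hx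
      exact (Nat.mul_dvd_mul_iff_left (by norm_num : 0 < 3)).1 (hNn ▸ hx)
    have h1 := congrArg QuadraticAlgebra.re hX
    have h2 := congrArg QuadraticAlgebra.im hX
    simp at h1 h2
    exact QuadraticAlgebra.ext (hc _ h1) (hc _ h2)
  set d : EMod N := ⟨1, 2⟩
  have hd : d * d = -3 := by ext <;> simp [d] <;> ring
  have hv : hermR (vJ (ZMod N)) = !![0, d; -d, 0] := by
    ext i j <;> fin_cases i <;> fin_cases j <;> simp [hermR, vJ, d]; ring
  have hm := hermR_actR h (vJ (ZMod N))
  rw [ha', hermR_smul, hv] at hm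
  have m00 := congrFun (congrFun hm 0) 0
  have m11 := congrFun (congrFun hm 1) 1
  have m01 := congrFun (congrFun hm 0) 1
  simp [Matrix.mul_apply, Fin.sum_univ_two, Matrix.conjTranspose_apply] at m00 m11 m01
  have hs : ∀ x : EMod N, f (star x) = star (f x) := fun x ↦ by
    show (⟨ZMod.castHom hdvd (ZMod n) (star x).re, ZMod.castHom hdvd (ZMod n) (star x).im⟩ :
      EMod n) = star ⟨ZMod.castHom hdvd (ZMod n) x.re, ZMod.castHom hdvd (ZMod n) x.im⟩
    simp only [QuadraticAlgebra.re_star, QuadraticAlgebra.im_star, map_add, map_mul, map_neg,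
      map_one, QuadraticAlgebra.star_mk]
  have hA : (⟨b, 0⟩ : EMod N) * d = b • d := by
    ext <;> simp [d]
  obtain ⟨l, r, hr⟩ := exists_scalar_rational (Matrix.GeneralLinearGroup.map f h)
    (Units.map (ZMod.castHom hdvd (ZMod n)).toMonoidHom a⁻¹)
    (by
      show f (h.val 0 1) * star (f (h.val 0 0)) = f (h.val 0 0) * star (f (h.val 0 1))
      rw [← hs, ← hs, ← map_mul, ← map_mul, ← sub_eq_zero, ← map_sub]
      refine hkill _ ?_
      linear_combination ((h.val 0 1 * star (h.val 0 0) - h.val 0 0 * star (h.val 0 1))) * hd - d * m00)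
    (by
      show f (h.val 1 1) * star (f (h.val 1 0)) = f (h.val 1 0) * star (f (h.val 1 1))
      rw [← hs, ← hs, ← map_mul, ← map_mul, ← sub_eq_zero, ← map_sub]
      refine hkill _ ?_
      linear_combination ((h.val 1 1 * star (h.val 1 0) - h.val 1 0 * star (h.val 1 1))) * hd - d * m11)
    (by
      show f (h.val 0 0) * star (f (h.val 1 1)) - f (h.val 0 1) * star (f (h.val 1 0)) =
        ⟨ZMod.castHom hdvd (ZMod n) b, 0⟩
      rw [← hs, ← hs, ← map_mul, ← map_mul, ← map_sub,
        show (⟨ZMod.castHom hdvd (ZMod n) b, 0⟩ : EMod n) = f ⟨b, 0⟩ by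
          ext <;> simp [f, mapQ],
        ← sub_eq_zero, ← map_sub]
      refine hkill _ ?_
      linear_combination ((h.val 0 0 * star (h.val 1 1) - h.val 0 1 * star (h.val 1 0) - ⟨b, 0⟩)) * hd +
        d * m01 + d * hA)
  refine ⟨Units.map (toQ n).toMonoidHom l, r, Units.ext ?_⟩
  have hr' := congrArg (fun X : GN n ↦ X.val.map (toQ n)) hr
  show (h.val.map (toQQ hdvd)) = _
  refine Eq.trans ?_ (hr'.trans ?_)
  · ext i j; rfl
  · ext i j
    simp [zmodMat, Matrix.mul_apply, Fin.sum_univ_two, toQ_algebraMap,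
      Matrix.GeneralLinearGroup.map, Matrix.GeneralLinearGroup.scalar, Matrix.scalar_apply]
    fin_cases j <;> simp

theorem exists_levelHom_eq {m : ℕ} [NeZero m] {h : GN (9 * m)} (hh : Form.wc (9 * m) h ≠ 0) :
    ∃ (u : (EisInt ⧸ eisIdeal (3 * m))ˣ) (r : GL (Fin 2) (ZMod (3 * m))),
      levelHom m h = zmodMat (3 * m) r * Matrix.GeneralLinearGroup.scalar (Fin 2) u :=
  have : NeZero (3 * m) := ⟨mul_ne_zero three_ne_zero (NeZero.ne m)⟩
  exists_toQQ_eq (dvd_nine m) (by ring) hh

theorem isUnit_of_castHom {N n : ℕ} [NeZero N] (h : n ∣ N) (hpow : N ∣ n ^ 2) {x : ZMod N}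
    (hx : IsUnit (ZMod.castHom h (ZMod n) x)) : IsUnit x := by
  rw [← ZMod.natCast_zmod_val x, map_natCast, ZMod.isUnit_iff_coprime] at hx
  rw [← ZMod.natCast_zmod_val x, ZMod.isUnit_iff_coprime]
  exact Nat.Coprime.coprime_dvd_right hpow (hx.pow_right 2)

theorem wc_mul_rational {N : ℕ} [NeZero N] (h : GN N) (x : GL (Fin 2) (ZMod N)) :
    Form.wc N (h * Matrix.GeneralLinearGroup.map (algebraMap (ZMod N) (EMod N)) x) =
      Form.wc N h := by
  classical
  set X := Matrix.GeneralLinearGroup.map (algebraMap (ZMod N) (EMod N)) x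
  obtain ⟨u, hu⟩ := (Matrix.isUnit_iff_isUnit_det _).1 x.isUnit
  have hX : actR X (vJ (ZMod N)) = (u : ZMod N) • vJ (ZMod N) := by
    rw [hu, Matrix.det_fin_two]
    funext i
    fin_cases i <;>
      simp [actR, unhermR, hermR, vJ, X, Matrix.GeneralLinearGroup.map, Matrix.mul_apply,
        Fin.sum_univ_two, Matrix.conjTranspose_apply, QuadraticAlgebra.algebraMap_eq] <;> ring
  have hX' : actR X⁻¹ (vJ (ZMod N)) = ((u⁻¹ : (ZMod N)ˣ) : ZMod N) • vJ (ZMod N) := by
    have h1 := congrArg (fun y ↦ ((u⁻¹ : (ZMod N)ˣ) : ZMod N) • actR X⁻¹ y) hX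
    rw [actR_inv_cancel, actR_smul, smul_smul, Units.inv_mul, one_smul] at h1
    exact h1.symm
  simp only [Form.wc, w3]
  rw [mul_inv_rev, actR_mul]
  have hiff : (∃ a : (ZMod N)ˣ, actR X⁻¹ (actR h⁻¹ (vJ (ZMod N))) = (a : ZMod N) • vJ (ZMod N)) ↔
      ∃ a : (ZMod N)ˣ, actR h⁻¹ (vJ (ZMod N)) = (a : ZMod N) • vJ (ZMod N) := by
    refine ⟨?_, ?_⟩
    rotate_left
    · rintro ⟨a, ha⟩
      exact ⟨a * u⁻¹, by rw [ha, actR_smul, hX', smul_smul, Units.val_mul]⟩
    rintro ⟨a, ha⟩
    refine ⟨a * u, ?_⟩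
    have h1 := congrArg (actR X) ha
    rw [← actR_mul, mul_inv_cancel, actR_one, actR_smul, hX, smul_smul] at h1
    rw [h1, Units.val_mul]
  split_ifs with c1 c2 c2
  · rfl
  · exact absurd (hiff.1 c1) c2
  · exact absurd (hiff.2 c2) c1
  · rfl

/-- The period of the input of the lift. -/
theorem sum_wc_slab_ne_zero (hB : B.period ≠ 0) :
    ∑ h, Form.wc (9 * S.m) h * (formOf B).slab h 0 ≠ 0 := by
  classical
  have : NeZero (3 * S.m) := ⟨mul_ne_zero three_ne_zero (NeZero.ne S.m)⟩
  obtain ⟨C, hC⟩ := B.bounded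
  set N := 9 * S.m
  set n := 3 * S.m
  set f : GL (Fin 2) (EisInt ⧸ eisIdeal n) → ℂ := fun g ↦
    ∫ τ in (𝒟 : Set UpperHalfPlane), B.φ (FermatAgent.LT.H3.ofUHP τ) g with hf
  have hfin : IsFiniteMeasure ((volume : Measure UpperHalfPlane).restrict 𝒟) :=
    isFiniteMeasure_restrict.2 volume_fd_ne_top
  have hof : Continuous FermatAgent.LT.H3.ofUHP :=
    continuous_induced_rng.2 (show Continuous fun τ : UpperHalfPlane ↦ ((τ.re : ℂ), τ.im) from
      (Complex.continuous_ofReal.comp UpperHalfPlane.continuous_re).prodMk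
        UpperHalfPlane.continuous_im)
  have hP : B.period = ∑ r : GL (Fin 2) (ZMod n), f (zmodMat n r) := by
    rw [BianchiForm.period]
    exact integral_finsetSum _ fun r _ ↦ Integrable.of_bound
      ((B.continuous _).comp hof).aestronglyMeasurable C (.of_forall fun τ ↦ hC _ _)
  have hslab : ∀ h, (formOf B).slab h 0 = f (levelHom S.m h) := fun h ↦ by
    refine integral_congr_ae (.of_forall fun τ ↦ ?_)
    show B.φ (toL (planePt (τ, 0))) _ = _
    congr 1
    refine FermatAgent.LT.H3.ext (Complex.ext ?_ ?_) ?_ <;>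
      simp [toL, planePt, FermatAgent.LT.H3.ofUHP]
  have hscal : ∀ (r : GL (Fin 2) (ZMod n)) (u : (EisInt ⧸ eisIdeal n)ˣ),
      f (zmodMat n r * Matrix.GeneralLinearGroup.scalar (Fin 2) u) = f (zmodMat n r) :=
    fun r u ↦ integral_congr_ae (.of_forall fun τ ↦ B.scalar u _ _)
  -- lifts of rational classes
  have hlift : ∀ r : GL (Fin 2) (ZMod n), ∃ x : GL (Fin 2) (ZMod N),
      levelHom S.m (Matrix.GeneralLinearGroup.map (algebraMap (ZMod N) (EMod N)) x) =
        zmodMat n r := by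
    intro r
    set M : Matrix (Fin 2) (Fin 2) (ZMod N) := fun i j ↦ ((r.val i j).val : ZMod N)
    have hM : M.map (ZMod.castHom (dvd_nine S.m) (ZMod n)) = r.val := by
      ext i j
      show ZMod.castHom (dvd_nine S.m) (ZMod n) (((r.val i j).val : ℕ) : ZMod N) = r.val i j
      rw [map_natCast, ZMod.natCast_zmod_val]
    have hMu : IsUnit M.det := isUnit_of_castHom (dvd_nine S.m)
      ⟨S.m, by show (3 * S.m) ^ 2 = 9 * S.m * S.m; ring⟩ (by
        rw [RingHom.map_det, RingHom.mapMatrix_apply, hM]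
        exact (Matrix.isUnit_iff_isUnit_det _).1 r.isUnit)
    refine ⟨Matrix.GeneralLinearGroup.mk'' M hMu, Units.ext ?_⟩
    ext i j : 1
    show toQQ (dvd_nine S.m) (algebraMap (ZMod N) (EMod N) (M i j)) = zmodToEis n (r.val i j)
    rw [← toQ_algebraMap]
    show toQ n (mapQ (ZMod.castHom (dvd_nine S.m) (ZMod n)) _) = _
    congr 1
    refine QuadraticAlgebra.ext ?_ ?_
    · show ZMod.castHom (dvd_nine S.m) (ZMod n) (M i j) = r.val i j
      exact congrFun (congrFun hM i) j
    · exact map_zero (ZMod.castHom (dvd_nine S.m) (ZMod n))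
  choose x hx using hlift
  have hshift : ∀ r, ∑ h, Form.wc N h * f (levelHom S.m h) =
      ∑ h, Form.wc N h * f (levelHom S.m h * zmodMat n r) := fun r ↦ by
    rw [← Equiv.sum_comp (Equiv.mulRight
      (Matrix.GeneralLinearGroup.map (algebraMap (ZMod N) (EMod N)) (x r)))]
    refine Finset.sum_congr rfl fun h _ ↦ ?_
    simp only [Equiv.coe_mulRight]
    rw [wc_mul_rational, map_mul, hx]
  have havg : (Fintype.card (GL (Fin 2) (ZMod n)) : ℂ) *
      ∑ h, Form.wc N h * f (levelHom S.m h) = (∑ h, Form.wc N h) * B.period := by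
    calc (Fintype.card (GL (Fin 2) (ZMod n)) : ℂ) * ∑ h, Form.wc N h * f (levelHom S.m h)
        = ∑ r : GL (Fin 2) (ZMod n), ∑ h, Form.wc N h * f (levelHom S.m h * zmodMat n r) := by
          rw [← Finset.sum_congr rfl fun r _ ↦ hshift r]
          simp [Finset.sum_const, Finset.card_univ]
      _ = _ := by
          rw [Finset.sum_comm, Finset.sum_mul]
          refine Finset.sum_congr rfl fun h _ ↦ ?_
          by_cases hh : Form.wc N h = 0
          · simp [hh]
          obtain ⟨u, r₀, hr₀⟩ := exists_levelHom_eq hh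
          have e : ∀ r, levelHom S.m h * zmodMat n r =
              zmodMat n (r₀ * r) * Matrix.GeneralLinearGroup.scalar (Fin 2) u := fun r ↦ by
            rw [hr₀, map_mul, mul_assoc, mul_assoc]
            congr 1
            apply Units.ext
            show (Matrix.scalar (Fin 2) (u : EisInt ⧸ eisIdeal n)) * _ = _ * Matrix.scalar (Fin 2) _
            exact Matrix.scalar_comm _ (fun _ ↦ Commute.all _ _) _
          simp only [e, hscal]
          rw [← Finset.mul_sum, hP]
          congr 1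
          exact Equiv.sum_comp (Equiv.mulLeft r₀) (fun r ↦ f (zmodMat n r))
  have hcard : ∑ h, Form.wc N h ≠ 0 := by
    have e : ∑ h, Form.wc N h = ((Finset.univ.filter fun h ↦
        ∃ a : (ZMod N)ˣ, actR h⁻¹ (vJ (ZMod N)) = (a : ZMod N) • vJ (ZMod N)).card : ℂ) := by
      rw [Finset.natCast_card_filter]
      exact Finset.sum_congr rfl fun h _ ↦ by simp [Form.wc, w3]
    rw [e, Nat.cast_ne_zero]
    refine Finset.card_ne_zero.2 ⟨1, Finset.mem_filter.2 ⟨Finset.mem_univ _, 1, ?_⟩⟩
    rw [inv_one, actR_one, Units.val_one, one_smul]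
  simp only [hslab]
  intro h0
  rw [h0, mul_zero] at havg
  exact mul_ne_zero hcard hB havg.symm

omit [NeZero S.m] in
theorem mod_three_eq_one {p : ℕ} (hp : p.Prime) (hpm : ¬ p ∣ 3 * S.m) (hs : S.SplitsInF p) :
    p % 3 = 1 := by
  have hne : p ≠ 3 := fun h ↦ hpm (h ▸ dvd_mul_right 3 S.m)
  have h1 := (Period.splitsInF_iff S (p := ⟨p, hp⟩) hpm).1 hs
  have h2 := Period.det_frobImage S.det_eq (p := ⟨p, hp⟩) hne
  have h3 : ((p : ℕ) : ZMod 3) = ((1 : ℕ) : ZMod 3) := by
    rw [← h2, Nat.cast_one]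
    exact h1.1
  rw [ZMod.natCast_eq_natCast_iff'] at h3
  simpa using h3

end FermatAgent.LT.Lift
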