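import Fermat.Agent.LT.Bianchi
import Fermat.Agent.LT.Lift.Adapter
import Fermat.Prelude.Def_FLTPrelim_Modularity
import Fermat.Prelude.Def_ModularForm_EisensteinChiNegThree

set_option autoImplicit false

/-!
# The theta lift from `H3` to weight one
-/

noncomputable section

open ModularFormClass CongruenceSubgroup UpperHalfPlane
open scoped MatrixGroups ModularForm

namespace FermatAgent.LT

/-- A weight one form with character `χ₋₃` having the eigenvalues prescribed by `S` at almost all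
primes split completely in `F`. -/
structure WeightOneSource (S : Setup) where
  /-- the level -/
  M : ℕ
  M_pos : 0 < M
  three_dvd : 3 ∣ M
  m_dvd : S.m ∣ M
  cube_free : ∀ q : ℕ, q.Prime → q ≠ 3 → ¬ q ^ 3 ∣ M
  /-- the form -/
  f : CuspForm (Gamma1 M) 1
  f_ne_zero : f ≠ 0
  character : ∀ γ : SL(2, ℤ), γ ∈ Gamma0 M → (⇑f : ℍ → ℂ) ∣[(1 : ℤ)] γ =
    (EisensteinWeightOne.chiNegThree (((γ 1 1 : ℤ)) % M).toNat : ℂ) • (⇑f : ℍ → ℂ)
  /-- the exceptional primes -/
  exc : Finset ℕ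
  hecke : ∀ p : ℕ, p.Prime → p ∉ exc → ¬ p ∣ M → S.SplitsInF p →
    ∀ A : ValuationSubring (AlgebraicClosure ℚ), A.LiesOverPrime p → ∀ σ, A.IsFrobeniusAt σ p →
      ∀ n : ℕ, qCoeff f (p * n) + (if p ∣ n then qCoeff f (n / p) else 0) =
        (q8Trace (S.ρ σ) : ℂ) * qCoeff f n

theorem cube_free_level {m : ℕ} (hm : Squarefree m) {q : ℕ} (hq : q.Prime) (hq3 : q ≠ 3) :
    ¬ q ^ 3 ∣ 243 * m ^ 2 := by
  intro h
  have hco : Nat.Coprime (q ^ 3) 243 := by
    rw [show (243 : ℕ) = 3 ^ 5 by norm_num]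
    exact Nat.Coprime.pow _ _ ((Nat.coprime_primes hq Nat.prime_three).2 hq3)
  have h' : q ^ 3 ∣ m ^ 2 := hco.dvd_of_dvd_mul_left h
  obtain ⟨m', rfl⟩ := hq.dvd_of_dvd_pow ((dvd_pow_self q (by norm_num : 3 ≠ 0)).trans h')
  have h'' : q ∣ m' ^ 2 := by
    rw [mul_pow, pow_succ] at h'
    exact (Nat.mul_dvd_mul_iff_left (pow_pos hq.pos 2)).1 h'
  obtain ⟨m'', rfl⟩ := hq.dvd_of_dvd_pow h''
  exact hq.ne_one (Nat.isUnit_iff.1 (hm q ⟨m'', (mul_assoc q q m'').symm⟩))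

theorem exists_weightOne {S : Setup} [NeZero S.m] (B : BianchiForm S) (hB : B.period ≠ 0) :
    Nonempty (WeightOneSource S) := by
  have hm0 : S.m ≠ 0 := NeZero.ne S.m
  set M := 243 * S.m ^ 2 with hMdef
  have hMpos : 0 < M := Nat.mul_pos (by norm_num) (pow_pos (Nat.pos_of_ne_zero hm0) 2)
  have : NeZero M := ⟨hMpos.ne'⟩
  have hdvd : 3 * (9 * S.m) ^ 2 ∣ M := ⟨1, by rw [hMdef]; ring⟩
  set F := Lift.formOf B
  set g := F.cuspForm (Lift.scalarInv_w3 (9 * S.m)) hdvd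
  refine ⟨{
    M := M
    M_pos := hMpos
    three_dvd := ⟨81 * S.m ^ 2, by rw [hMdef]; ring⟩
    m_dvd := ⟨243 * S.m, by rw [hMdef]; ring⟩
    cube_free := fun q hq hq3 ↦ cube_free_level S.m_squarefree hq hq3
    f := g
    f_ne_zero := ?_
    character := ?_
    exc := B.exc
    hecke := ?_ }⟩
  · intro h0
    obtain ⟨k, hk, hne⟩ := F.exists_coef_ne_zero (Lift.three_dvd_nine S.m)
      (Lift.sum_wc_slab_ne_zero B hB)
    have hq := F.qCoeff_cuspForm (Lift.scalarInv_w3 (9 * S.m)) hdvd 3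
      (t := k / (2 * Real.pi)) (by positivity)
    rw [show 2 * Real.pi * (k / (2 * Real.pi)) = k by field_simp, Nat.cast_ofNat] at hq
    have hz : qCoeff g 3 = 0 := by
      rw [h0, qCoeff, FunLike.coe_zero, UpperHalfPlane.qExpansion_zero, map_zero]
    rw [hz] at hq
    exact hne ((mul_eq_zero.1 hq.symm).resolve_left (Complex.ofReal_ne_zero.2 (by positivity)))
  · intro γ hγ
    exact F.lift_slash_gamma0_ofFun (Lift.scalarInv_w3 (9 * S.m)) hMpos hdvd γ hγ
  · intro p hp hexc hpM hs A hA σ hσ n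
    have hpm : ¬ p ∣ 3 * S.m := fun h ↦ hpM (h.trans ⟨81 * S.m, by rw [hMdef]; ring⟩)
    obtain ⟨π, hπ⟩ := Period.exists_normSq_eq hp (Lift.mod_three_eq_one hp hpm hs)
    obtain ⟨x, rfl⟩ := Lift.eisE_surjective π
    have hn : x.norm = (p : ℤ) := by
      rw [Lift.coe_eisE, Lift.normSq_embC] at hπ
      exact_mod_cast hπ
    have hev := Lift.isEigen_formOf B p x hp hpm hn
    have key := Lift.Form.hecke_qCoeff F (Lift.splitPrimeOf p x hp hpm hn) hev
      (Lift.scalarInv_w3 (9 * S.m)) hdvd n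
    have hc := B.c_split _ p (Period.prime_of_normSq hp hπ) hp hexc hpm
      (Period.dvd_of_normSq hπ) hπ hs A hA σ hσ
    rw [hc] at key
    exact key

end FermatAgent.LT
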